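import Mathlib
import Fermat.Agent.S26.C.Defs
import Fermat.Agent.S26.C.PCore

/-!
# S26 (C), cube side: the VALUATIVE language and the skeleton `PRIG → … → PCORE`

Sub-planner: helper49.  Plan: `NOTES/plan/S26_C.md`.  Deliverable: `C.Stmt_PCORE` (helper27,
`S26/C/PCore.lean`).

## Language (no scheme but `A`)

* `Pt f E` : the `E`-valued points of `A` (`E` a field over `K`), a group by `L.pointGroup`.
* `img σ : A` : the image of the point of `Spec E`;  `germ σ : 𝒪_{A, img σ} →+* E`.
* `pullAt σ h` : the value `σ^♯ h ∈ E` of a function `h ∈ K(A)` regular at `img σ` (`0` else).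
* `IsCentre σ V c` : `σ` extends to `Spec V ⟶ A` (`V` a valuation ring of `E`) and the closed
  point goes to `c` (`A` proper: the centre exists and is unique for `V ⊇ K`); `centre σ V`.
* `pb σ D : ValuationSubring E → E`, `pb σ D V = σ^♯ (D c / D (img σ))`, `c = centre σ V`: the
  local equation at `V` of the pull-back along `σ` of the class of the Cartier divisor `D`
  (same normalisation as `C.pull`: at the image of the generic point).  "Valuative divisors"
  `ValuationSubring E → E` are multiplied pointwise (`Pi` instances).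
* `IsVP K Λ` : the valuative divisor `Λ` is principal: there is `Ψ ≠ 0` in `E` with
  `Ψ / Λ V ∈ Vˣ` for EVERY valuation ring `V ⊇ K` of `E`.

The statements of this file are TRUE for every field `E` and all points (theorem of the cube on
`A`); they are PROVED for function fields of products of curves.  No model of `E` occurs in a
statement; proofs may use local rings `(𝒪_{v₁} ⊗ … ⊗ 𝒪_{v_r})_𝔪` of products of curves.

## Products of curves = free families of subfields of ONE ambient field

The function field of `C_1 × … × C_r` is a field `E` with subfields `F i` (`IsFF1`: function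
fields of one variable), generating `E`, each linearly disjoint from the compositum of the
others (`IsCurveFam`).  Sub-products are the composita `blk F S` of sub-families: no tensor
products and no re-bracketing in statements.
-/

set_option autoImplicit false

open CategoryTheory CategoryTheory.Limits AlgebraicGeometry NeronModelInfra GoodReductionJacobian
open scoped IntermediateField

universe u

namespace Fermat.Agent.S26.C.X

section Lang

variable {K : Type u} [Field K] {A : Scheme.{u}} (f : A ⟶ Spec (CommRingCat.of K))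

/-- The structure morphism of `Spec E`, `E` a `K`-algebra. -/
noncomputable abbrev str (K : Type u) [Field K] (E : Type u) [CommRing E] [Algebra K E] :
    Spec (CommRingCat.of E) ⟶ Spec (CommRingCat.of K) :=
  Spec.map (CommRingCat.ofHom (algebraMap K E))

/-- The `E`-valued points of `A` over `K`. -/
abbrev Pt (E : Type u) [CommRing E] [Algebra K E] : Type u :=
  SchemeHomOver (str K E) f

variable {f}
variable {E : Type u} [Field E] [Algebra K E]

/-- The image in `A` of the point of `Spec E`. -/
noncomputable def img (σ : Pt f E) : A :=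
  σ.1 (IsLocalRing.closedPoint (CommRingCat.of E))

/-- The local homomorphism `𝒪_{A, img σ} →+* E` of the point `σ`. -/
noncomputable def germ (σ : Pt f E) : A.presheaf.stalk (img σ) →+* E :=
  (Scheme.stalkClosedPointTo σ.1).hom

open Classical in
/-- `σ^♯ h` for `h ∈ K(A)` regular at `img σ` (and `0` for the others). -/
noncomputable def pullAt [IsIntegral A] (σ : Pt f E) (h : A.functionField) : E :=
  if hr : IsRegAt (img σ) h then germ σ hr.choose else 0

/-- `V` contains the constants. -/
def OverK (K : Type u) [Field K] {E : Type u} [Field E] [Algebra K E]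
    (V : ValuationSubring E) : Prop :=
  ∀ a : K, algebraMap K E a ∈ V

/-- `V` is a `K`-place of `E`: a valuation ring containing `K` with residue field `K`
(`V = K + 𝔪_V`). -/
def IsKPlace (K : Type u) [Field K] {E : Type u} [Field E] [Algebra K E]
    (V : ValuationSubring E) : Prop :=
  OverK K V ∧ ∀ x : E, x ∈ V → ∃ a : K, x - algebraMap K E a ∈ V.nonunits

/-- `c` is the centre on `A` of the point `σ` at the valuation ring `V` of `E`. -/
def IsCentre (σ : Pt f E) (V : ValuationSubring E) (c : A) : Prop :=
  ∃ τ : Spec (CommRingCat.of V) ⟶ A,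
    Spec.map (CommRingCat.ofHom (algebraMap V E)) ≫ τ = σ.1 ∧
      τ (IsLocalRing.closedPoint (CommRingCat.of V)) = c

open Classical in
/-- The centre of `σ` at `V` (`img σ` if there is none). -/
noncomputable def centre (σ : Pt f E) (V : ValuationSubring E) : A :=
  if h : ∃ c, IsCentre σ V c then h.choose else img σ

/-- The local equation at the centre `c` of the pull-back along `σ` of the class of `D`. -/
noncomputable def pullV [IsIntegral A] (σ : Pt f E) (D : A → A.functionField) (c : A) : E :=
  pullAt σ (D c / D (img σ))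

/-- The valuative divisor `σ^* D`. -/
noncomputable def pb [IsIntegral A] (σ : Pt f E) (D : A → A.functionField) :
    ValuationSubring E → E :=
  fun V => pullV σ D (centre σ V)

/-- The valuative divisor `Λ` is principal. -/
def IsVP (K : Type u) [Field K] {E : Type u} [Field E] [Algebra K E]
    (Λ : ValuationSubring E → E) : Prop :=
  ∃ Ψ : E, Ψ ≠ 0 ∧ ∀ V : ValuationSubring E, OverK K V →
    Ψ * (Λ V)⁻¹ ∈ V ∧ Λ V * Ψ⁻¹ ∈ V

/-- The valuative divisor `Λ` is principal up to torsion. -/
def IsVPt (K : Type u) [Field K] {E : Type u} [Field E] [Algebra K E]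
    (Λ : ValuationSubring E → E) : Prop :=
  ∃ k : ℕ, 0 < k ∧ IsVP K (Λ ^ k)

/-- `σ` is dominant and `ψ : K(A) → E` is its map of function fields. -/
def IsDomPt [IsIntegral A] (σ : Pt f E) (ψ : A.functionField →+* E) : Prop :=
  ∀ a : A.presheaf.stalk (img σ),
    ψ (algebraMap (A.presheaf.stalk (img σ)) A.functionField a) = germ σ a

/-- The base change of a point along a homomorphism of fields over `K`. -/
noncomputable def mapPt {E' : Type u} [Field E'] [Algebra K E'] (j : E →ₐ[K] E')
    (σ : Pt f E) : Pt f E' :=
  ⟨Spec.map (CommRingCat.ofHom j.toRingHom) ≫ σ.1, by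
    rw [Category.assoc, σ.2, ← Spec.map_comp, ← CommRingCat.ofHom_comp]
    congr 2
    exact j.comp_algebraMap⟩

/-- The point of a subfield, as a point of `E`. -/
noncomputable def incPt {M : IntermediateField K E} (σ : Pt f M) : Pt f E :=
  mapPt M.val σ

/-- `σ₀` is the reduction of the point `σ` at the valuation ring `G` of `E`, the residue field
of `G` being given as `r : G →+* κ`. -/
def IsRed {κ : Type u} [Field κ] [Algebra K κ] (σ : Pt f E) (G : ValuationSubring E)
    (r : G →+* κ) (σ₀ : Pt f κ) : Prop :=
  ∃ τ : Spec (CommRingCat.of G) ⟶ A,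
    Spec.map (CommRingCat.ofHom (algebraMap G E)) ≫ τ = σ.1 ∧
      Spec.map (CommRingCat.ofHom r) ≫ τ = σ₀.1

/-- The origin of `A` (the image of the zero section). -/
noncomputable def orig (L : RelativeGroupLaw K f) : A :=
  (zeroHom L) (IsLocalRing.closedPoint (CommRingCat.of K))

/-- `σ` has centre `0` at `o` ("`σ` vanishes at the base point"). -/
def IsBased (L : RelativeGroupLaw K f) (σ : Pt f E) (o : ValuationSubring E) : Prop :=
  IsCentre σ o (orig L)

end Lang

/-! ## The theta combination -/

section Theta

variable {K : Type u} [Field K] {A : Scheme.{u}} {f : A ⟶ Spec (CommRingCat.of K)}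
variable {E : Type u} [Field E] [Algebra K E]

/-- The theta combination of the theorem of the cube, as a valuative divisor:
`(x₁x₂x₃)^*D + x₁^*D + x₂^*D + x₃^*D - (x₁x₂)^*D - (x₁x₃)^*D - (x₂x₃)^*D`. -/
noncomputable def thetaV [IsIntegral A] (L : RelativeGroupLaw K f) (x₁ x₂ x₃ : Pt f E)
    (D : A → A.functionField) : ValuationSubring E → E :=
  letI : Group (Pt f E) := L.pointGroup (str K E)
  pb (x₁ * x₂ * x₃) D * pb x₁ D * pb x₂ D * pb x₃ D /
    (pb (x₁ * x₂) D * pb (x₁ * x₃) D * pb (x₂ * x₃) D)

end Theta

/-! ## Function fields of curves and of products -/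

section Fields

variable (K : Type u) [Field K]

/-- `F / K` is a function field of one variable (= `S27.Char0.IsFFu`). -/
def IsFF1 (F : Type u) [Field F] [Algebra K F] : Prop :=
  ∃ x : F, Transcendental K x ∧ Module.Finite K⟮x⟯ F

variable {K} {E : Type u} [Field E] [Algebra K E]

/-- The compositum of the sub-family `S` (the function field of the sub-product). -/
def blk {ι : Type} (F : ι → IntermediateField K E) (S : Set ι) : IntermediateField K E :=
  ⨆ i ∈ S, F i

/-- `E` is the function field of the product of the curves with function fields `F i`. -/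
structure IsCurveFam {ι : Type} (F : ι → IntermediateField K E) : Prop where
  ff : ∀ i, IsFF1 K (F i)
  gen : blk F Set.univ = ⊤
  free : ∀ i, (F i).LinearDisjoint (blk F {i}ᶜ)

end Fields

/-! ## The leaves -/

/-- The hypotheses on `(K, A, f, L, g)` of the frozen statement, with the instances of the
interface (`C.Stmt_CORE`). -/
structure IsAVg (K : Type u) [Field K] {A : Scheme.{u}} (f : A ⟶ Spec (CommRingCat.of K))
    (L : RelativeGroupLaw K f) (g : ℕ) : Prop where
  algClosed : IsAlgClosed K
  comm : L.IsCommutative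
  bundle : AbelianSchemePropertyBundle K f
  smooth : SmoothOfRelativeDimension g f
  integral : IsIntegral A
  noeth : IsLocallyNoetherian A

section Leaves

/-- The product of the points `ξ i` of the curves `F i`, as a point of `E`. -/
noncomputable def prodPt {K : Type u} [Field K] {A : Scheme.{u}}
    {f : A ⟶ Spec (CommRingCat.of K)} (L : RelativeGroupLaw K f)
    {E : Type u} [Field E] [Algebra K E] {ι : Type} (F : ι → IntermediateField K E)
    (l : List ι) (ξ : ∀ i, Pt f (F i)) : Pt f E :=
  letI : Group (Pt f E) := L.pointGroup (str K E)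
  (l.map fun i => incPt (ξ i)).prod

/-- **CENTRE** (valuative criterion): every point has a unique centre at every valuation ring
containing `K`. -/
def Stmt_CENTRE : Prop :=
  ∀ (K : Type u) [Field K] {A : Scheme.{u}} (f : A ⟶ Spec (CommRingCat.of K)) [IsProper f]
    (E : Type u) [Field E] [Algebra K E] (σ : Pt f E) (V : ValuationSubring E), OverK K V →
    ∃! c : A, IsCentre σ V c

/-- **PRIG** (rigidity along a curve + seesaw = the theorem of the cube for
`curve × Y × Z` with a parameter; Mumford §10 for a curve).
`E` the function field of a product of curves `F i`, `o` a base point, `i₀` one of the curves,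
`S₂`, `S₃` two disjoint blocks not containing `i₀`; `x` a point of the curve `i₀`, `β` a point
of the block `S₂`, `γ` a point of the block `S₃`, all three with centre `0` at the base point;
`a` ANY point of the product of the curves `≠ i₀`.  Then, up to torsion,
`Θ(x a, β, γ) ∼ Θ(a, β, γ)`. -/
def Stmt_PRIG : Prop :=
  ∀ (K : Type u) [Field K] {A : Scheme.{u}} (f : A ⟶ Spec (CommRingCat.of K))
    (L : RelativeGroupLaw K f) (g : ℕ), IsAVg K f L g → ∀ [IsIntegral A]
    (E : Type u) [Field E] [Algebra K E] (ι : Type) [Finite ι]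
    (F : ι → IntermediateField K E), IsCurveFam F →
    ∀ o : ValuationSubring E, IsKPlace K o →
    ∀ (i₀ : ι) (S₂ S₃ : Set ι), i₀ ∉ S₂ → i₀ ∉ S₃ → Disjoint S₂ S₃ →
    ∀ (x : Pt f (F i₀)) (β : Pt f (blk F S₂)) (γ : Pt f (blk F S₃)) (a : Pt f (blk F {i₀}ᶜ)),
      IsBased L (incPt x) o → IsBased L (incPt β) o → IsBased L (incPt γ) o →
    ∀ D : A → A.functionField, IsCartier D →
      (letI : Group (Pt f E) := L.pointGroup (str K E)
       IsVPt K (thetaV L (incPt x * incPt a) (incPt β) (incPt γ) D /
         thetaV L (incPt a) (incPt β) (incPt γ) D))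

/-- **CUBE3** (the theorem of the cube on `X × Y × Z`, three disjoint blocks of curves, for a
product of points of the curves of the first block and arbitrary based points of the other two
blocks).  From `PRIG` by induction on the list `l`. -/
def Stmt_CUBE3 : Prop :=
  ∀ (K : Type u) [Field K] {A : Scheme.{u}} (f : A ⟶ Spec (CommRingCat.of K))
    (L : RelativeGroupLaw K f) (g : ℕ), IsAVg K f L g → ∀ [IsIntegral A]
    (E : Type u) [Field E] [Algebra K E] (ι : Type) [Finite ι]
    (F : ι → IntermediateField K E), IsCurveFam F →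
    ∀ o : ValuationSubring E, IsKPlace K o →
    ∀ (l : List ι) (S₂ S₃ : Set ι), l.Nodup → (∀ i ∈ l, i ∉ S₂ ∧ i ∉ S₃) → Disjoint S₂ S₃ →
    ∀ (ξ : ∀ i, Pt f (F i)) (β : Pt f (blk F S₂)) (γ : Pt f (blk F S₃)),
      (∀ i ∈ l, IsBased L (incPt (ξ i)) o) → IsBased L (incPt β) o → IsBased L (incPt γ) o →
    ∀ D : A → A.functionField, IsCartier D →
      IsVPt K (thetaV L (prodPt L F l ξ) (incPt β) (incPt γ) D)

/-- **SPEC** (specialisation): `G` a valuation ring of `E'` containing `K`, with residue field
`r : G →+* E`; `σ j` points of `A(E')` with reductions `σ₀ j`.  If `∑ ε_j (σ j)^* D` is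
principal on `E'`, then `∑ ε_j (σ₀ j)^* D` is principal on `E`. -/
def Stmt_SPEC : Prop :=
  ∀ (K : Type u) [Field K] {A : Scheme.{u}} (f : A ⟶ Spec (CommRingCat.of K)) [IsProper f]
    [IsIntegral A] (E' E : Type u) [Field E'] [Algebra K E'] [Field E] [Algebra K E]
    (G : ValuationSubring E') (r : G →+* E) (hG : OverK K G), Function.Surjective r →
    (∀ a : K, r ⟨algebraMap K E' a, hG a⟩ = algebraMap K E a) →
    ∀ (ι : Type) [Fintype ι] (σ : ι → Pt f E') (σ₀ : ι → Pt f E) (ε : ι → ℤ),
      (∀ j, IsRed (σ j) G r (σ₀ j)) →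
    ∀ D : A → A.functionField, IsCartier D →
      IsVP K (∏ j, pb (σ j) D ^ ε j) → IsVP K (∏ j, pb (σ₀ j) D ^ ε j)

/-- **DESC** (descent by the norm): `E' / E` finite, `σ j` points of `A(E)`.  If
`∑ ε_j σ_j^* D` is principal on `E'`, it is principal up to torsion on `E`. -/
def Stmt_DESC : Prop :=
  ∀ (K : Type u) [Field K] {A : Scheme.{u}} (f : A ⟶ Spec (CommRingCat.of K)) [IsProper f]
    [IsIntegral A] (E E' : Type u) [Field E] [Algebra K E] [Field E'] [Algebra K E']
    (j : E →ₐ[K] E'), (letI : Algebra E E' := j.toRingHom.toAlgebra; FiniteDimensional E E') →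
    ∀ (ι : Type) [Fintype ι] (σ : ι → Pt f E) (ε : ι → ℤ)
    (D : A → A.functionField), IsCartier D →
      IsVP K (∏ i, pb (mapPt j (σ i)) D ^ ε i) → IsVPt K (∏ i, pb (σ i) D ^ ε i)

/-- **CUBEPC** (the theorem of the cube on a product of curves, up to torsion): `x₁` a product
of based points of the curves, `x₂`, `x₃` ANY based points of `A(E)`.
From `CUBE3` on the field of `X × X × X` by `SPEC` along a valuation ring centred at the
diagonal and `DESC`. -/
def Stmt_CUBEPC : Prop :=
  ∀ (K : Type u) [Field K] {A : Scheme.{u}} (f : A ⟶ Spec (CommRingCat.of K))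
    (L : RelativeGroupLaw K f) (g : ℕ), IsAVg K f L g → ∀ [IsIntegral A]
    (E : Type u) [Field E] [Algebra K E] (ι : Type) [Finite ι]
    (F : ι → IntermediateField K E), IsCurveFam F →
    ∀ o : ValuationSubring E, IsKPlace K o →
    ∀ (l : List ι) (ξ : ∀ i, Pt f (F i)) (x₂ x₃ : Pt f E), l.Nodup →
      (∀ i ∈ l, IsBased L (incPt (ξ i)) o) → IsBased L x₂ o → IsBased L x₃ o →
    ∀ D : A → A.functionField, IsCartier D →
      IsVPt K (thetaV L (prodPt L F l ξ) x₂ x₃ D)

/-- **CURVES**: for `g > 0` there are `g` curves through `0` such that the sum `s` of their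
points is dominant and generically finite. -/
def Stmt_CURVES : Prop :=
  ∀ (K : Type u) [Field K] {A : Scheme.{u}} (f : A ⟶ Spec (CommRingCat.of K))
    (L : RelativeGroupLaw K f) (g : ℕ), IsAVg K f L g → 0 < g → ∀ [IsIntegral A],
    ∃ (E : Type u) (_ : Field E) (_ : Algebra K E) (F : Fin g → IntermediateField K E)
      (o : ValuationSubring E) (ξ : ∀ i, Pt f (F i)) (ψ : A.functionField →+* E),
      IsCurveFam F ∧ IsKPlace K o ∧ (∀ i, IsBased L (incPt (ξ i)) o) ∧
      IsDomPt (prodPt L F (List.finRange g) ξ) ψ ∧
      (letI : Algebra A.functionField E := ψ.toAlgebra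
       FiniteDimensional A.functionField E)

/-- **XQUAD** (valuative form of `(n s)^* D ∼ n² s^* D`, up to torsion), `g > 0`. -/
def Stmt_XQUAD : Prop :=
  ∀ (K : Type u) [Field K] {A : Scheme.{u}} (f : A ⟶ Spec (CommRingCat.of K))
    (L : RelativeGroupLaw K f) (g : ℕ), IsAVg K f L g → 0 < g → ∀ [IsIntegral A],
    ∃ (E : Type u) (_ : Field E) (_ : Algebra K E) (s : Pt f E)
      (ψ : A.functionField →+* E), IsDomPt s ψ ∧
      (letI : Algebra A.functionField E := ψ.toAlgebra
       FiniteDimensional A.functionField E) ∧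
      ∀ D : A → A.functionField, IsCartier D → LinEquiv (pull (negHom L) D) D →
      ∀ n : ℕ, 0 < n →
        (letI : Group (Pt f E) := L.pointGroup (str K E)
         IsVPt K (pb (s ^ n) D / pb s D ^ (n ^ 2)))

/-- **XQUAD from CURVES + CUBEPC** (formal: the induction of `H28.stmt_QUAD_of` in the
valuative language; `Θ(s^m, s, s⁻¹)`, `s^m` is the product of the points `(ξ i)^m`). -/
def Stmt_XQUAD_of : Prop :=
  Stmt_CENTRE.{u} → Stmt_CURVES.{u} → Stmt_CUBEPC.{u} → Stmt_XQUAD.{u}

/-- **PCORE from XQUAD** (`g > 0`; for `g = 0` there is no point of coheight one):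
`F := E(Ψ^{1/k})`; a valuation ring `W` of `F` dominating `𝒪_{A,z}` restricts to a valuation
ring of `E` at which `s` has centre `z` and `s^n` has centre `[n] z`;
`pb (s^n) D = ψ (pull [n] D z)`, `pb s D = ψ (D z / D η)`. -/
def Stmt_PCORE_of_XQUAD : Prop :=
  Stmt_CENTRE.{u} → Stmt_XQUAD.{u} → Stmt_PCORE.{u}

/-- **CUBE3 from PRIG**. -/
def Stmt_CUBE3_of : Prop := Stmt_CENTRE.{u} → Stmt_PRIG.{u} → Stmt_CUBE3.{u}

/-- **CUBEPC from CUBE3** (diagonal). -/
def Stmt_CUBEPC_of : Prop :=
  Stmt_CENTRE.{u} → Stmt_SPEC.{u} → Stmt_DESC.{u} → Stmt_CUBE3.{u} → Stmt_CUBEPC.{u}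

end Leaves

end Fermat.Agent.S26.C.X
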