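import Mathlib
import Fermat.Agent.S26.C.X.Defs

/-!
# S26 (C), cube side: rules R-ALG, R-MAP, R-PROD (helper55)

* R-ALG : `IsVP`, `IsVPt` are closed under product, inverse, quotient, powers, and depend only on
  the values at the valuation rings containing `K`;
* R-MAP : `mapPt j` (hence `incPt`) is a homomorphism for the group law of the points;
* R-PROD : powers of `prodPt` (commutative group law).
-/

set_option autoImplicit false

open CategoryTheory CategoryTheory.Limits AlgebraicGeometry NeronModelInfra GoodReductionJacobian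
open scoped IntermediateField

universe u

namespace Fermat.Agent.S26.C.X.H55

section Alg

variable {K : Type u} [Field K] {E : Type u} [Field E] [Algebra K E]
  {Λ Λ' : ValuationSubring E → E}

theorem isVP_one : IsVP K (1 : ValuationSubring E → E) :=
  ⟨1, one_ne_zero, fun V _ => by simp [V.one_mem]⟩

theorem isVP_congr (hΛ : ∀ V, OverK K V → Λ V = Λ' V) (h : IsVP K Λ) : IsVP K Λ' := by
  obtain ⟨Ψ, hΨ, H⟩ := h
  exact ⟨Ψ, hΨ, fun V hV => by rw [← hΛ V hV]; exact H V hV⟩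

theorem isVP_mul (h : IsVP K Λ) (h' : IsVP K Λ') : IsVP K (Λ * Λ') := by
  obtain ⟨Ψ, hΨ, H⟩ := h
  obtain ⟨Ψ', hΨ', H'⟩ := h'
  refine ⟨Ψ * Ψ', mul_ne_zero hΨ hΨ', fun V hV => ⟨?_, ?_⟩⟩
  · have := V.mul_mem _ _ (H V hV).1 (H' V hV).1
    have e : Ψ * Ψ' * ((Λ * Λ') V)⁻¹ = Ψ * (Λ V)⁻¹ * (Ψ' * (Λ' V)⁻¹) := by
      rw [Pi.mul_apply, mul_inv]
      ring
    rw [e]
    exact this
  · have := V.mul_mem _ _ (H V hV).2 (H' V hV).2
    have e : (Λ * Λ') V * (Ψ * Ψ')⁻¹ = Λ V * Ψ⁻¹ * (Λ' V * Ψ'⁻¹) := by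
      rw [Pi.mul_apply, mul_inv]
      ring
    rw [e]
    exact this

theorem isVP_inv (h : IsVP K Λ) : IsVP K Λ⁻¹ := by
  obtain ⟨Ψ, hΨ, H⟩ := h
  refine ⟨Ψ⁻¹, inv_ne_zero hΨ, fun V hV => ⟨?_, ?_⟩⟩
  · have e : Ψ⁻¹ * ((Λ⁻¹) V)⁻¹ = Λ V * Ψ⁻¹ := by
      rw [Pi.inv_apply, inv_inv, mul_comm]
    rw [e]
    exact (H V hV).2
  · have e : (Λ⁻¹) V * (Ψ⁻¹)⁻¹ = Ψ * (Λ V)⁻¹ := by
      rw [Pi.inv_apply, inv_inv, mul_comm]
    rw [e]
    exact (H V hV).1

theorem isVP_div (h : IsVP K Λ) (h' : IsVP K Λ') : IsVP K (Λ / Λ') := by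
  rw [div_eq_mul_inv]
  exact isVP_mul h (isVP_inv h')

theorem isVP_pow (h : IsVP K Λ) (n : ℕ) : IsVP K (Λ ^ n) := by
  induction n with
  | zero => rw [pow_zero]; exact isVP_one
  | succ n ih => rw [pow_succ]; exact isVP_mul ih h

theorem isVPt_of_isVP (h : IsVP K Λ) : IsVPt K Λ :=
  ⟨1, one_pos, by rw [pow_one]; exact h⟩

theorem isVPt_one : IsVPt K (1 : ValuationSubring E → E) := isVPt_of_isVP isVP_one

theorem isVPt_congr (hΛ : ∀ V, OverK K V → Λ V = Λ' V) (h : IsVPt K Λ) : IsVPt K Λ' := by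
  obtain ⟨k, hk, H⟩ := h
  refine ⟨k, hk, isVP_congr (fun V hV => ?_) H⟩
  rw [Pi.pow_apply, Pi.pow_apply, hΛ V hV]

theorem isVPt_mul (h : IsVPt K Λ) (h' : IsVPt K Λ') : IsVPt K (Λ * Λ') := by
  obtain ⟨k, hk, H⟩ := h
  obtain ⟨k', hk', H'⟩ := h'
  refine ⟨k * k', Nat.mul_pos hk hk', ?_⟩
  have e : (Λ * Λ') ^ (k * k') = (Λ ^ k) ^ k' * (Λ' ^ k') ^ k := by
    rw [mul_pow, pow_mul, mul_comm k k', pow_mul]
  rw [e]
  exact isVP_mul (isVP_pow H k') (isVP_pow H' k)

theorem isVPt_inv (h : IsVPt K Λ) : IsVPt K Λ⁻¹ := by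
  obtain ⟨k, hk, H⟩ := h
  refine ⟨k, hk, ?_⟩
  rw [inv_pow]
  exact isVP_inv H

theorem isVPt_div (h : IsVPt K Λ) (h' : IsVPt K Λ') : IsVPt K (Λ / Λ') := by
  rw [div_eq_mul_inv]
  exact isVPt_mul h (isVPt_inv h')

theorem isVPt_pow (h : IsVPt K Λ) (n : ℕ) : IsVPt K (Λ ^ n) := by
  obtain ⟨k, hk, H⟩ := h
  refine ⟨k, hk, ?_⟩
  rw [← pow_mul, mul_comm, pow_mul]
  exact isVP_pow H n

end Alg

section Map

variable {K : Type u} [Field K] {A : Scheme.{u}} {f : A ⟶ Spec (CommRingCat.of K)}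
  (L : RelativeGroupLaw K f)
  {E : Type u} [Field E] [Algebra K E] {E' : Type u} [Field E'] [Algebra K E']

theorem str_comp (j : E →ₐ[K] E') :
    Spec.map (CommRingCat.ofHom j.toRingHom) ≫ str K E = str K E' := by
  unfold str
  rw [← Spec.map_comp, ← CommRingCat.ofHom_comp]
  congr 2
  exact j.comp_algebraMap

theorem mapPt_eq (j : E →ₐ[K] E') (σ : Pt f E) :
    mapPt j σ = schemeHomOverComp (Spec.map (CommRingCat.ofHom j.toRingHom)) (str_comp j) σ :=
  Subtype.ext rfl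

/-- **R-MAP**: `mapPt j` is multiplicative. -/
theorem mapPt_mul (j : E →ₐ[K] E') (σ σ' : Pt f E) :
    letI : Group (Pt f E) := L.pointGroup (str K E)
    letI : Group (Pt f E') := L.pointGroup (str K E')
    mapPt j (σ * σ') = mapPt j σ * mapPt j σ' := by
  rw [mapPt_eq, mapPt_eq, mapPt_eq]
  exact L.mul_natural (str K E) (str K E') _ (str_comp j) σ σ'

theorem mapPt_one (j : E →ₐ[K] E') :
    letI : Group (Pt f E) := L.pointGroup (str K E)
    letI : Group (Pt f E') := L.pointGroup (str K E')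
    mapPt j (1 : Pt f E) = 1 := by
  rw [mapPt_eq]
  exact L.one_natural (str K E) (str K E') _ (str_comp j)

/-- `mapPt j` as a homomorphism of groups. -/
noncomputable def mapPtHom (j : E →ₐ[K] E') :
    letI : Group (Pt f E) := L.pointGroup (str K E)
    letI : Group (Pt f E') := L.pointGroup (str K E')
    Pt f E →* Pt f E' :=
  letI : Group (Pt f E) := L.pointGroup (str K E)
  letI : Group (Pt f E') := L.pointGroup (str K E')
  { toFun := mapPt j
    map_one' := mapPt_one L j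
    map_mul' := mapPt_mul L j }

theorem mapPt_pow (j : E →ₐ[K] E') (σ : Pt f E) (m : ℕ) :
    letI : Group (Pt f E) := L.pointGroup (str K E)
    letI : Group (Pt f E') := L.pointGroup (str K E')
    mapPt j (σ ^ m) = mapPt j σ ^ m := by
  letI : Group (Pt f E) := L.pointGroup (str K E)
  letI : Group (Pt f E') := L.pointGroup (str K E')
  exact map_pow (mapPtHom L j) σ m

theorem mapPt_inv (j : E →ₐ[K] E') (σ : Pt f E) :
    letI : Group (Pt f E) := L.pointGroup (str K E)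
    letI : Group (Pt f E') := L.pointGroup (str K E')
    mapPt j σ⁻¹ = (mapPt j σ)⁻¹ := by
  letI : Group (Pt f E) := L.pointGroup (str K E)
  letI : Group (Pt f E') := L.pointGroup (str K E')
  exact map_inv (mapPtHom L j) σ

theorem incPt_pow {M : IntermediateField K E} (σ : Pt f M) (m : ℕ) :
    letI : Group (Pt f M) := L.pointGroup (str K M)
    letI : Group (Pt f E) := L.pointGroup (str K E)
    incPt (σ ^ m) = incPt σ ^ m :=
  mapPt_pow L M.val σ m

/-- **R-PROD**: powers of a product of points of the curves. -/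
theorem prodPt_pow (hc : L.IsCommutative) {ι : Type} (F : ι → IntermediateField K E)
    (l : List ι) (ξ : ∀ i, Pt f (F i)) (m : ℕ) :
    letI : Group (Pt f E) := L.pointGroup (str K E)
    prodPt L F l ξ ^ m =
      prodPt L F l (fun i => letI : Group (Pt f (F i)) := L.pointGroup (str K (F i)); ξ i ^ m) := by
  letI : Group (Pt f E) := L.pointGroup (str K E)
  unfold prodPt
  induction l with
  | nil => simp
  | cons i l ih =>
    rw [List.map_cons, List.prod_cons, List.map_cons, List.prod_cons]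
    have hcomm : Commute (incPt (ξ i)) (List.map (fun i => incPt (ξ i)) l).prod :=
      hc (str K E) _ _
    rw [hcomm.mul_pow, ih, incPt_pow]

end Map

end Fermat.Agent.S26.C.X.H55
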