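import Mathlib
import Fermat.Agent.S26.C.X.Defs
import Fermat.Agent.S26.C.H69_Centre

/-!
# S26 (C), cube side, X-leaf CENTRE (helper69): the valuative criterion for points

* `isCentre_exists` (`f` universally closed), `isCentre_unique` (`f` separated),
  `stmt_CENTRE : Stmt_CENTRE`;
* `centre_eq` : `centre σ V = c` for every centre `c`; `isCentre_centre`;
* `centre_specializes` : `V ≤ W` ⟹ `centre σ W ⤳ centre σ V`; `img_specializes_centre`.
-/

set_option autoImplicit false
set_option linter.style.haveILetI false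

open CategoryTheory CategoryTheory.Limits AlgebraicGeometry IsLocalRing NeronModelInfra
  GoodReductionJacobian

universe u

namespace Fermat.Agent.S26.C.X.H69

variable {K : Type u} [Field K] {A : Scheme.{u}} {f : A ⟶ Spec (CommRingCat.of K)}
variable {E : Type u} [Field E] [Algebra K E]

/-- The constants of `V`. -/
noncomputable def kap (V : ValuationSubring E) (hV : OverK K V) : K →+* V :=
  (algebraMap K E).codRestrict V.toSubring hV

/-- A centre datum is a morphism over `K`. -/
theorem centre_over (σ : Pt f E) (V : ValuationSubring E) (hV : OverK K V)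
    (τ : Spec (CommRingCat.of V) ⟶ A)
    (hτ : Spec.map (CommRingCat.ofHom (algebraMap V E)) ≫ τ = σ.1) :
    τ ≫ f = Spec.map (CommRingCat.ofHom (kap V hV)) := by
  apply C.H69.eq_of_generic_eq V
  rw [← Category.assoc, hτ, σ.2, ← Spec.map_comp]
  rfl

/-- The valuative square of a point and a valuation ring. -/
noncomputable def vSq (σ : Pt f E) (V : ValuationSubring E) (hV : OverK K V) :
    ValuativeCommSq f :=
  { R := V
    K := E
    i₁ := σ.1
    i₂ := Spec.map (CommRingCat.ofHom (kap V hV))
    commSq := ⟨by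
      rw [σ.2, ← Spec.map_comp]
      rfl⟩ }

/-- Uniqueness of the centre datum. -/
theorem centreHom_unique [IsSeparated f] (σ : Pt f E) (V : ValuationSubring E)
    (hV : OverK K V) (τ₁ τ₂ : Spec (CommRingCat.of V) ⟶ A)
    (h₁ : Spec.map (CommRingCat.ofHom (algebraMap V E)) ≫ τ₁ = σ.1)
    (h₂ : Spec.map (CommRingCat.ofHom (algebraMap V E)) ≫ τ₂ = σ.1) : τ₁ = τ₂ := by
  have hU : ValuativeCriterion.Uniqueness f := IsSeparated.valuativeCriterion f
  have hsub := hU (vSq σ V hV)
  let L₁ : (vSq σ V hV).commSq.LiftStruct := ⟨τ₁, h₁, centre_over σ V hV τ₁ h₁⟩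
  let L₂ : (vSq σ V hV).commSq.LiftStruct := ⟨τ₂, h₂, centre_over σ V hV τ₂ h₂⟩
  have e : L₁ = L₂ := Subsingleton.elim _ _
  exact congrArg CommSq.LiftStruct.l e

/-- Uniqueness of the centre. -/
theorem isCentre_unique [IsSeparated f] (σ : Pt f E) (V : ValuationSubring E)
    (hV : OverK K V) {c c' : A} (h : IsCentre σ V c) (h' : IsCentre σ V c') : c = c' := by
  obtain ⟨τ₁, h₁, rfl⟩ := h
  obtain ⟨τ₂, h₂, rfl⟩ := h'
  rw [centreHom_unique σ V hV τ₁ τ₂ h₁ h₂]

/-- Existence of the centre. -/
theorem isCentre_exists [UniversallyClosed f] (σ : Pt f E) (V : ValuationSubring E)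
    (hV : OverK K V) : ∃ c : A, IsCentre σ V c := by
  have hex : ValuativeCriterion.Existence f := by
    have h := ‹UniversallyClosed f›
    rw [UniversallyClosed.eq_valuativeCriterion] at h
    exact h.1
  obtain ⟨⟨l, hl1, -⟩⟩ := (hex (vSq σ V hV)).exists_lift
  exact ⟨_, l, hl1, rfl⟩

/-- **CENTRE**. -/
theorem stmt_CENTRE : Stmt_CENTRE.{u} := by
  intro K _ A f _ E _ _ σ V hV
  obtain ⟨c, hc⟩ := isCentre_exists σ V hV
  exact ⟨c, hc, fun c' hc' => isCentre_unique σ V hV hc' hc⟩

/-- `centre σ V` is the centre. -/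
theorem isCentre_centre [UniversallyClosed f] (σ : Pt f E) (V : ValuationSubring E)
    (hV : OverK K V) : IsCentre σ V (centre σ V) := by
  have h := isCentre_exists σ V hV
  unfold centre
  rw [dif_pos h]
  exact h.choose_spec

/-- Every centre is `centre σ V`. -/
theorem centre_eq [IsSeparated f] (σ : Pt f E) (V : ValuationSubring E)
    (hV : OverK K V) {c : A} (h : IsCentre σ V c) : centre σ V = c := by
  have h' : ∃ c, IsCentre σ V c := ⟨c, h⟩
  unfold centre
  rw [dif_pos h']
  exact isCentre_unique σ V hV h'.choose_spec h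

/-- The image of `σ` is a generisation of every centre. -/
theorem img_specializes_of_isCentre (σ : Pt f E) (V : ValuationSubring E) {c : A}
    (h : IsCentre σ V c) : img σ ⤳ c := by
  obtain ⟨τ, hτ, rfl⟩ := h
  have e : img σ = τ (Spec.map (CommRingCat.ofHom (algebraMap V E))
      (closedPoint (CommRingCat.of E))) := by
    unfold img
    rw [← hτ]
    rfl
  rw [e]
  apply Specializes.map _ τ.continuous
  have hg : Spec.map (CommRingCat.ofHom (algebraMap V E)) (closedPoint (CommRingCat.of E)) ⤳
      closedPoint (CommRingCat.of V) := IsLocalRing.specializes_closedPoint _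
  exact hg

/-- The inclusion of valuation rings `V ≤ W`. -/
noncomputable def incl {V W : ValuationSubring E} (h : V ≤ W) : V →+* W :=
  Subring.inclusion h

/-- `V ≤ W`: a centre at `W` is a generisation of a centre at `V`. -/
theorem specializes_of_le [IsSeparated f] (σ : Pt f E) {V W : ValuationSubring E}
    (hV : OverK K V) (hVW : V ≤ W) {c c' : A} (h : IsCentre σ V c) (h' : IsCentre σ W c') :
    c' ⤳ c := by
  have hW : OverK K W := fun a => hVW (hV a)
  obtain ⟨τ, hτ, rfl⟩ := h
  have hc : IsCentre σ W ((Spec.map (CommRingCat.ofHom (incl hVW)) ≫ τ)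
      (closedPoint (CommRingCat.of W))) := by
    refine ⟨Spec.map (CommRingCat.ofHom (incl hVW)) ≫ τ, ?_, rfl⟩
    rw [← Category.assoc, ← Spec.map_comp]
    exact hτ
  rw [isCentre_unique σ W hW h' hc]
  show τ (Spec.map (CommRingCat.ofHom (incl hVW)) (closedPoint (CommRingCat.of W))) ⤳ _
  apply Specializes.map _ τ.continuous
  exact IsLocalRing.specializes_closedPoint _

/-- `V ≤ W`: `centre σ W ⤳ centre σ V`. -/
theorem centre_specializes [IsProper f] (σ : Pt f E) {V W : ValuationSubring E}
    (hV : OverK K V) (hVW : V ≤ W) : centre σ W ⤳ centre σ V :=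
  specializes_of_le σ hV hVW (isCentre_centre σ V hV)
    (isCentre_centre σ W fun a => hVW (hV a))

/-- `img σ ⤳ centre σ V`. -/
theorem img_specializes_centre [IsProper f] (σ : Pt f E) (V : ValuationSubring E)
    (hV : OverK K V) : img σ ⤳ centre σ V :=
  img_specializes_of_isCentre σ V (isCentre_centre σ V hV)

end Fermat.Agent.S26.C.X.H69
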