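import Mathlib
import Fermat.Agent.S26.C.X.Defs
import Fermat.Agent.S26.C.X.H69_CentreX
import Fermat.Agent.S26.C.H14_Pull

/-!
# S26 (C), cube side (helper69): the calculus of `pullAt`, `pb` (valuative language)

* `pullAt_of_factor` : if `σ = Spec χ ≫ fromSpecStalk x` (`χ : 𝒪_{A,x} → E` ANY homomorphism),
  then `pullAt σ a = χ a` for `a ∈ 𝒪_{A,x}`;
* `pullAt_algebraMap`, `pullAt_mul`, `pullAt_inv`, `pullAt_div`, `pullAt_ne_zero` (units at
  `img σ`);
* `pullAt_mem_of_isCentre` : a unit at the centre of `V` has value in `Vˣ`;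
* `img_mapPt`, `pullAt_mapPt`, `isCentre_mapPt`, `centre_mapPt`, `pb_mapPt`:
  `pb (mapPt j σ) D V' = j (pb σ D (V'.comap j))`;
* `pb_div_pb_mem` : `V ≤ W` ⟹ `pb σ D V / pb σ D W ∈ Wˣ`.
-/

set_option autoImplicit false
set_option linter.style.haveILetI false
set_option linter.unusedSectionVars false

open CategoryTheory CategoryTheory.Limits AlgebraicGeometry IsLocalRing NeronModelInfra
  GoodReductionJacobian

universe u

namespace Fermat.Agent.S26.C.X.H69

variable {K : Type u} [Field K] {A : Scheme.{u}} {f : A ⟶ Spec (CommRingCat.of K)}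
variable {E : Type u} [Field E] [Algebra K E]

set_option backward.isDefEq.respectTransparency false in
/-- `germ_stalkClosedPointTo_Spec_fromSpecStalk` for a homomorphism which need not be local. -/
theorem germ_stalkClosedPointTo_factor {R : CommRingCat.{u}} [IsLocalRing R] {x : A}
    (χ : A.presheaf.stalk x ⟶ R) (U : A.Opens)
    (hU : (Spec.map χ ≫ A.fromSpecStalk x) (closedPoint R) ∈ U) (hxU : x ∈ U) :
    A.presheaf.germ U _ hU ≫ Scheme.stalkClosedPointTo (Spec.map χ ≫ A.fromSpecStalk x) =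
      A.presheaf.germ U x hxU ≫ χ := by
  simp only [Scheme.germ_stalkClosedPointTo, Scheme.Hom.comp_app,
    Scheme.fromSpecStalk_app (X := A) (x := x) hxU, Category.assoc, Iso.trans_hom,
    Functor.mapIso_hom, (Spec.map χ).app_eq_appLE, Scheme.Hom.appLE_map_assoc,
    Scheme.Hom.map_appLE_assoc]
  simp_rw [← TopologicalSpace.Opens.map_top (Spec.map χ).base]
  rw [← (Spec.map χ).app_eq_appLE, Scheme.ΓSpecIso_naturality, Iso.inv_hom_id_assoc]

/-- If `g = Spec χ ≫ fromSpecStalk x`, the image of `g` is a generisation of `x`. -/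
theorem specializes_of_factor {R : CommRingCat.{u}} [IsLocalRing R] {x : A}
    (χ : A.presheaf.stalk x ⟶ R) :
    (Spec.map χ ≫ A.fromSpecStalk x) (closedPoint R) ⤳ x := by
  have h : (Spec.map χ ≫ A.fromSpecStalk x) (closedPoint R) ∈ Set.range (A.fromSpecStalk x) :=
    ⟨_, rfl⟩
  rw [Scheme.range_fromSpecStalk] at h
  exact h

/-- If `g = Spec χ ≫ fromSpecStalk x`, then `χ` is the local homomorphism of `g` composed with
the generisation map. -/
theorem stalkSpecializes_stalkClosedPointTo_factor {R : CommRingCat.{u}} [IsLocalRing R] {x : A}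
    (χ : A.presheaf.stalk x ⟶ R) :
    A.presheaf.stalkSpecializes (specializes_of_factor χ) ≫
      Scheme.stalkClosedPointTo (Spec.map χ ≫ A.fromSpecStalk x) = χ := by
  refine TopCat.Presheaf.stalk_hom_ext _ fun U hxU => ?_
  rw [TopCat.Presheaf.germ_stalkSpecializes_assoc]
  exact germ_stalkClosedPointTo_factor χ U _ hxU

/-- The general form: `g = Spec χ ≫ fromSpecStalk x`. -/
theorem stalkClosedPointTo_of_factor {R : CommRingCat.{u}} [IsLocalRing R] {x : A}
    (χ : A.presheaf.stalk x ⟶ R) (g : Spec R ⟶ A) (hg : g = Spec.map χ ≫ A.fromSpecStalk x)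
    (a : A.presheaf.stalk x) :
    ∃ hs : g (closedPoint R) ⤳ x,
      (Scheme.stalkClosedPointTo g).hom ((A.presheaf.stalkSpecializes hs).hom a) = χ.hom a := by
  subst hg
  refine ⟨specializes_of_factor χ, ?_⟩
  have h := stalkSpecializes_stalkClosedPointTo_factor χ
  exact congrArg (fun ψ => ψ.hom a) h

variable [IsIntegral A]

/-- `pullAt` of a function regular at `img σ`. -/
theorem pullAt_algebraMap (σ : Pt f E) (a : A.presheaf.stalk (img σ)) :
    pullAt σ (algebraMap (A.presheaf.stalk (img σ)) A.functionField a) = germ σ a := by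
  have hr : IsRegAt (img σ) (algebraMap (A.presheaf.stalk (img σ)) A.functionField a) :=
    ⟨a, rfl⟩
  unfold pullAt
  rw [dif_pos hr]
  congr 1
  exact H14.algebraMap_stalk_injective (img σ) hr.choose_spec

/-- **The factor rule**: if `σ = Spec χ ≫ fromSpecStalk x`, then `pullAt σ a = χ a`. -/
theorem pullAt_of_factor (σ : Pt f E) {x : A} (χ : A.presheaf.stalk x →+* E)
    (h : σ.1 = Spec.map (CommRingCat.ofHom χ) ≫ A.fromSpecStalk x) (a : A.presheaf.stalk x) :
    pullAt σ (algebraMap (A.presheaf.stalk x) A.functionField a) = χ a := by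
  obtain ⟨hs, e⟩ := stalkClosedPointTo_of_factor (CommRingCat.ofHom χ) σ.1 h a
  have e2 : algebraMap (A.presheaf.stalk x) A.functionField a =
      algebraMap (A.presheaf.stalk (img σ)) A.functionField
        ((A.presheaf.stalkSpecializes hs).hom a) :=
    (H14.algebraMap_stalkSpecializes hs a).symm
  rw [e2]
  exact (pullAt_algebraMap σ ((A.presheaf.stalkSpecializes hs).hom a)).trans e

/-- `pullAt` is multiplicative on functions regular at `img σ`. -/
theorem pullAt_mul (σ : Pt f E) {h₁ h₂ : A.functionField} (r₁ : IsRegAt (img σ) h₁)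
    (r₂ : IsRegAt (img σ) h₂) : pullAt σ (h₁ * h₂) = pullAt σ h₁ * pullAt σ h₂ := by
  obtain ⟨a, rfl⟩ := r₁
  obtain ⟨b, rfl⟩ := r₂
  rw [← map_mul, pullAt_algebraMap, pullAt_algebraMap, pullAt_algebraMap, map_mul]

theorem pullAt_one (σ : Pt f E) : pullAt σ (1 : A.functionField) = 1 := by
  have h := pullAt_algebraMap σ (1 : A.presheaf.stalk (img σ))
  rwa [map_one, map_one] at h

/-- `pullAt` of a unit at `img σ` is not zero. -/
theorem pullAt_ne_zero (σ : Pt f E) {h : A.functionField} (hu : IsUnitAt (img σ) h) :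
    pullAt σ h ≠ 0 := by
  obtain ⟨a, ha, rfl⟩ := hu
  rw [pullAt_algebraMap]
  exact (ha.map (germ σ)).ne_zero

theorem pullAt_inv (σ : Pt f E) {h : A.functionField} (hu : IsUnitAt (img σ) h) :
    pullAt σ h⁻¹ = (pullAt σ h)⁻¹ := by
  have h1 : pullAt σ h * pullAt σ h⁻¹ = 1 := by
    rw [← pullAt_mul σ (H14.isRegAt_of_isUnitAt hu)
      (H14.isRegAt_of_isUnitAt (H14.isUnitAt_inv hu)),
      mul_inv_cancel₀ (H14.ne_zero_of_isUnitAt hu), pullAt_one]
  exact eq_inv_of_mul_eq_one_right h1

theorem pullAt_div (σ : Pt f E) {h₁ h₂ : A.functionField} (r₁ : IsRegAt (img σ) h₁)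
    (u₂ : IsUnitAt (img σ) h₂) : pullAt σ (h₁ / h₂) = pullAt σ h₁ / pullAt σ h₂ := by
  rw [div_eq_mul_inv, div_eq_mul_inv,
    pullAt_mul σ r₁ (H14.isRegAt_of_isUnitAt (H14.isUnitAt_inv u₂)), pullAt_inv σ u₂]

omit [IsIntegral A] in
/-- `σ = Spec (germ σ) ≫ fromSpecStalk (img σ)`. -/
theorem factor_germ (σ : Pt f E) :
    σ.1 = Spec.map (CommRingCat.ofHom (germ σ)) ≫ A.fromSpecStalk (img σ) :=
  (Scheme.Spec_stalkClosedPointTo_fromSpecStalk σ.1).symm

omit [IsIntegral A] in
/-- A centre datum `τ` gives the factorisation of `σ` through `𝒪_{A,c} → V → E`. -/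
theorem factor_of_centreHom (σ : Pt f E) (V : ValuationSubring E)
    (τ : Spec (CommRingCat.of V) ⟶ A)
    (hτ : Spec.map (CommRingCat.ofHom (algebraMap V E)) ≫ τ = σ.1) :
    σ.1 = Spec.map (CommRingCat.ofHom
        ((algebraMap V E).comp (Scheme.stalkClosedPointTo τ).hom)) ≫
      A.fromSpecStalk (τ (closedPoint (CommRingCat.of V))) := by
  have h1 := Scheme.Spec_stalkClosedPointTo_fromSpecStalk τ
  rw [← hτ]
  conv_lhs => rw [← h1]
  rw [← Category.assoc, ← Spec.map_comp]
  rfl

/-- **Values at the centre**: a function regular at the centre of `V` has value in `V`. -/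
theorem pullAt_mem_of_isRegAt (σ : Pt f E) (V : ValuationSubring E) {c : A}
    (hc : IsCentre σ V c) {h : A.functionField} (hh : IsRegAt c h) : pullAt σ h ∈ V := by
  obtain ⟨τ, hτ, rfl⟩ := hc
  obtain ⟨a, rfl⟩ := hh
  rw [pullAt_of_factor σ _ (factor_of_centreHom σ V τ hτ) a]
  exact ((Scheme.stalkClosedPointTo τ).hom a).2

/-- **Values at the centre**: a unit at the centre of `V` has value in `Vˣ`. -/
theorem pullAt_mem_of_isUnitAt (σ : Pt f E) (V : ValuationSubring E) {c : A}
    (hc : IsCentre σ V c) {h : A.functionField} (hh : IsUnitAt c h) :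
    pullAt σ h ∈ V ∧ (pullAt σ h)⁻¹ ∈ V := by
  refine ⟨pullAt_mem_of_isRegAt σ V hc (H14.isRegAt_of_isUnitAt hh), ?_⟩
  have hη : img σ ⤳ c := img_specializes_of_isCentre σ V hc
  have hu : IsUnitAt (img σ) h := H14.isUnitAt_of_specializes hη hh
  rw [← pullAt_inv σ hu]
  exact pullAt_mem_of_isRegAt σ V hc (H14.isRegAt_of_isUnitAt (H14.isUnitAt_inv hh))

/-! ## Base change of points along `j : E → E'` -/

section MapPt

variable {E' : Type u} [Field E'] [Algebra K E'] (j : E →ₐ[K] E')

omit [IsIntegral A] in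
theorem mapPt_val (σ : Pt f E) :
    (mapPt j σ).1 = Spec.map (CommRingCat.ofHom j.toRingHom) ≫ σ.1 := rfl

omit [IsIntegral A] in
/-- The image does not change. -/
theorem img_mapPt (σ : Pt f E) : img (mapPt j σ) = img σ := by
  show σ.1 (Spec.map (CommRingCat.ofHom j.toRingHom) (closedPoint (CommRingCat.of E'))) =
    σ.1 (closedPoint (CommRingCat.of E))
  congr 1
  exact Subsingleton.elim (α := PrimeSpectrum E) _ _

omit [IsIntegral A] in
/-- The factorisation of the base change. -/
theorem factor_mapPt (σ : Pt f E) :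
    (mapPt j σ).1 = Spec.map (CommRingCat.ofHom (j.toRingHom.comp (germ σ))) ≫
      A.fromSpecStalk (img σ) := by
  rw [mapPt_val]
  conv_lhs => rw [factor_germ σ]
  rw [← Category.assoc, ← Spec.map_comp]
  rfl

/-- `pullAt (mapPt j σ) h = j (pullAt σ h)`. -/
theorem pullAt_mapPt (σ : Pt f E) (h : A.functionField) :
    pullAt (mapPt j σ) h = j (pullAt σ h) := by
  by_cases hr : IsRegAt (img σ) h
  · obtain ⟨a, rfl⟩ := hr
    rw [pullAt_of_factor (mapPt j σ) _ (factor_mapPt j σ) a, pullAt_algebraMap]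
    rfl
  · have hr' : ¬ IsRegAt (img (mapPt j σ)) h := by
      rw [img_mapPt]
      exact hr
    unfold pullAt
    rw [dif_neg hr, dif_neg hr', map_zero]

omit [IsIntegral A] in
/-- A centre at `V'.comap j` is a centre of the base change at `V'`. -/
theorem isCentre_mapPt (σ : Pt f E) (V' : ValuationSubring E') {c : A}
    (hc : IsCentre σ (V'.comap j.toRingHom) c) : IsCentre (mapPt j σ) V' c := by
  obtain ⟨τ, hτ, rfl⟩ := hc
  let ι : (V'.comap j.toRingHom) →+* V' :=
    (j.toRingHom.comp (algebraMap (V'.comap j.toRingHom) E)).codRestrict V'.toSubring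
      (fun x => x.2)
  haveI : IsLocalHom ι := by
    refine ⟨fun a ha => ?_⟩
    have h1 : (a : E) ≠ 0 := by
      intro h0
      have : ι a = 0 := by
        apply Subtype.ext
        show j.toRingHom (a : E) = 0
        rw [h0, map_zero]
      rw [this] at ha
      exact not_isUnit_zero ha
    obtain ⟨b, hb⟩ := ha.exists_right_inv
    have hb' : j.toRingHom (a : E) * (b : E') = 1 := congrArg Subtype.val hb
    have hinv : (b : E') = j.toRingHom ((a : E)⁻¹) := by
      rw [map_inv₀]
      exact eq_inv_of_mul_eq_one_right hb'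
    have hmem : (a : E)⁻¹ ∈ V'.comap j.toRingHom := by
      rw [ValuationSubring.mem_comap, ← hinv]
      exact b.2
    refine isUnit_iff_exists_inv.2 ⟨⟨(a : E)⁻¹, hmem⟩, ?_⟩
    apply Subtype.ext
    show (a : E) * (a : E)⁻¹ = 1
    exact mul_inv_cancel₀ h1
  refine ⟨Spec.map (CommRingCat.ofHom ι) ≫ τ, ?_, ?_⟩
  · rw [mapPt_val, ← hτ, ← Category.assoc, ← Category.assoc, ← Spec.map_comp, ← Spec.map_comp]
    rfl
  · show τ (Spec.map (CommRingCat.ofHom ι) (closedPoint (CommRingCat.of V'))) = _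
    congr 1
    exact comap_closedPoint ι

omit [IsIntegral A] in
theorem overK_comap (V' : ValuationSubring E') (hV' : OverK K V') :
    OverK K (V'.comap j.toRingHom) := by
  intro a
  rw [ValuationSubring.mem_comap]
  have := hV' a
  rwa [← j.commutes a] at this

omit [IsIntegral A] in
/-- The centre of the base change. -/
theorem centre_mapPt [IsProper f] (σ : Pt f E) (V' : ValuationSubring E') (hV' : OverK K V') :
    centre (mapPt j σ) V' = centre σ (V'.comap j.toRingHom) :=
  centre_eq (mapPt j σ) V' hV'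
    (isCentre_mapPt j σ V' (isCentre_centre σ _ (overK_comap j V' hV')))

/-- **Base change of `pb`**: `pb (mapPt j σ) D V' = j (pb σ D (V' ∩ E))`. -/
theorem pb_mapPt [IsProper f] (σ : Pt f E) (D : A → A.functionField)
    (V' : ValuationSubring E') (hV' : OverK K V') :
    pb (mapPt j σ) D V' = j (pb σ D (V'.comap j.toRingHom)) := by
  unfold pb pullV
  rw [centre_mapPt j σ V' hV', img_mapPt, pullAt_mapPt]

end MapPt

/-! ## Comparison of two valuation rings `V ≤ W` -/

/-- `pb σ D V ≠ 0`. -/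
theorem pb_ne_zero [IsProper f] (σ : Pt f E) {D : A → A.functionField} (hD : IsCartier D)
    (V : ValuationSubring E) (hV : OverK K V) : pb σ D V ≠ 0 :=
  pullAt_ne_zero σ (H14.isUnitAt_div_of_isCartier hD (img_specializes_centre σ V hV))

/-- `V ≤ W` ⟹ `pb σ D V / pb σ D W ∈ Wˣ`. -/
theorem pb_div_pb_mem [IsProper f] (σ : Pt f E) {D : A → A.functionField} (hD : IsCartier D)
    {V W : ValuationSubring E} (hV : OverK K V) (hVW : V ≤ W) :
    pb σ D V / pb σ D W ∈ W ∧ (pb σ D V / pb σ D W)⁻¹ ∈ W := by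
  have hW : OverK K W := fun a => hVW (hV a)
  have h1 : IsUnitAt (img σ) (D (centre σ V) / D (img σ)) :=
    H14.isUnitAt_div_of_isCartier hD (img_specializes_centre σ V hV)
  have h2 : IsUnitAt (img σ) (D (centre σ W) / D (img σ)) :=
    H14.isUnitAt_div_of_isCartier hD (img_specializes_centre σ W hW)
  have h3 : IsUnitAt (centre σ W) (D (centre σ V) / D (centre σ W)) :=
    H14.isUnitAt_div_of_isCartier hD (centre_specializes σ hV hVW)
  have e : pb σ D V / pb σ D W = pullAt σ (D (centre σ V) / D (centre σ W)) := by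
    unfold pb pullV
    rw [← pullAt_div σ (H14.isRegAt_of_isUnitAt h1) h2]
    congr 1
    have hη : D (img σ) ≠ 0 := hD.1 _
    have hc : D (centre σ W) ≠ 0 := hD.1 _
    field_simp
  rw [e]
  exact pullAt_mem_of_isUnitAt σ W (isCentre_centre σ W hW) h3

end Fermat.Agent.S26.C.X.H69
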