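import Fermat.Agent.S26.C.H6_CCCAbs
import Fermat.Agent.S26.C.X.H69_PullAt
import Fermat.Agent.S26.C.X.H55_Rules

/-!
# S26, crux (C), PRIG: the INSTANCE of the abstract core (interface + wiring)

helper6.  `x ∈ A(F)` a point of the curve, `a β γ ∈ A(Ω)` points of the parameter space,
`xΩ := ptF x`, `bΩ := ptΩ b` their images in `A(FΩ)`, and

  `lamΩ L x a β γ D = thetaV L (xΩ * aΩ) βΩ γΩ D / thetaV L aΩ βΩ γΩ D`

the valuative divisor on `FΩ`.  The three scheme facts `Stmt_LOC`, `Stmt_MOV`, `Stmt_BASE` are the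
fields `loc`, `mov`, `base` of `H6.CCCData` for `Λ = lamΩ`; `cccData` builds the structure.
-/

set_option autoImplicit false

universe u

noncomputable section

open CategoryTheory CategoryTheory.Limits AlgebraicGeometry NeronModelInfra GoodReductionJacobian
open AlgebraicCurve

namespace Fermat.Agent.S26.C.X.H6

open Fermat.Agent.S27.REDu Fermat.Agent.S27.REDu.H34 Fermat.Agent.S27.REDu.H34.RedSetting
  Fermat.Agent.S27.REDu.H51 Fermat.Agent.S27.REDu.H10
open Fermat.Agent.S26.C.X.H69 (UIn FinSuppP)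
open Fermat.Agent.S26.C.X.H95 (IsGenDiv)
open Fermat.Agent.S26.C.H6 (ConstRed ConstDeg compSub CCCData)

section Defs

variable {K : Type u} [Field K] {A : Scheme.{u}} {f : A ⟶ Spec (CommRingCat.of K)}
variable {F Ω : Type u} (FΩ : Type u) [Field F] [Algebra K F] [Field Ω] [Field FΩ]
  [Algebra Ω FΩ] [Algebra K Ω] [Algebra F FΩ] [Algebra K FΩ] [IsScalarTower K F FΩ]
  [IsScalarTower K Ω FΩ]

/-- the point of the curve, as a point of `FΩ` -/
def ptF (x : Pt f F) : Pt f FΩ := mapPt (IsScalarTower.toAlgHom K F FΩ) x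

/-- a point of the parameter space, as a point of `FΩ` -/
def ptΩ (b : Pt f Ω) : Pt f FΩ := mapPt (IsScalarTower.toAlgHom K Ω FΩ) b

/-- **the valuative divisor of PRIG on `FΩ`** -/
def lamΩ [IsIntegral A] (L : RelativeGroupLaw K f) (x : Pt f F) (a β γ : Pt f Ω)
    (D : A → A.functionField) : ValuationSubring FΩ → FΩ :=
  letI : Group (Pt f FΩ) := L.pointGroup (str K FΩ)
  thetaV L (ptF FΩ x * ptΩ FΩ a) (ptΩ FΩ β) (ptΩ FΩ γ) D /
    thetaV L (ptΩ FΩ a) (ptΩ FΩ β) (ptΩ FΩ γ) D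

end Defs

/-- **LOC** (field `loc` for `lamΩ`): at a `K`-place `W` of `FΩ` the divisor depends only on
`W ∩ F` and `W ∩ Ω` (`H69.centre_mul_kplace`, `H69.redK_mapPt`). -/
def Stmt_LOC : Prop :=
  ∀ (K : Type u) [Field K] [IsAlgClosed K] {A : Scheme.{u}} (f : A ⟶ Spec (CommRingCat.of K))
    (L : RelativeGroupLaw K f) (g : ℕ), IsAVg K f L g → ∀ [IsIntegral A]
    (F Ω FΩ : Type u) [Field F] [Algebra K F] [Field Ω] [Field FΩ]
    [Algebra Ω FΩ] [Algebra K Ω] [Algebra F FΩ] [Algebra K FΩ] [IsScalarTower K F FΩ]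
    [IsScalarTower K Ω FΩ] (x : Pt f F) (a β γ : Pt f Ω) (D : A → A.functionField),
    IsCartier D →
    ∀ W W' : ValuationSubring FΩ, C.H29.IsKPlace K W → C.H29.IsKPlace K W' →
      W.comap (algebraMap F FΩ) = W'.comap (algebraMap F FΩ) →
      W.comap (algebraMap Ω FΩ) = W'.comap (algebraMap Ω FΩ) →
      lamΩ FΩ L x a β γ D W = lamΩ FΩ L x a β γ D W'

/-- **MOV** (field `mov` for `lamΩ`): `O` a `K`-place of `Ω` at which `β` or `γ` has centre `0`,
`R` a Gauss datum over `O` (`H86.moving_prod`). -/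
def Stmt_MOV : Prop :=
  ∀ (K : Type u) [Field K] [IsAlgClosed K] {A : Scheme.{u}} (f : A ⟶ Spec (CommRingCat.of K))
    (L : RelativeGroupLaw K f) (g : ℕ), IsAVg K f L g → ∀ [IsIntegral A]
    (F Ω FΩ : Type u) [Field F] [Algebra K F] [Field Ω] [Field FΩ]
    [Algebra Ω FΩ] [Algebra K Ω] [Algebra F FΩ] [Algebra K FΩ] [IsScalarTower K F FΩ]
    [IsScalarTower K Ω FΩ] [IsAlgClosed Ω] (hFF : IsFF K F) (hFFΩ : IsFF Ω FΩ)
    (x : Pt f F) (a β γ : Pt f Ω) (D : A → A.functionField), IsCartier D →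
    ∀ (R : ConstRed K F Ω FΩ), C.H29.IsKPlace K R.S.O →
      (IsBased L β R.S.O ∨ IsBased L γ R.S.O) →
    ∃ M : FΩ, M ≠ 0 ∧
      ∀ Q : Place K F, ∃ T : ↥R.S.V, IsUnit T ∧ R.S.red T = 1 ∧
        ∀ P : Place Ω FΩ, R.rp hFF hFFΩ P = Q →
          UIn (compSub P (stmt_FFB_deg Ω FΩ hFFΩ P) R.S.O)
            (lamΩ FΩ L x a β γ D (compSub P (stmt_FFB_deg Ω FΩ hFFΩ P) R.S.O) /
              ((T : FΩ) * M))

/-- **BASE** (field `base` for `lamΩ`): `x` has centre `0` at `Qo`, `Po` a place of `FΩ / Ω` at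
which every `ι z`, `z ∈ O_{Qo}`, has the value `z(Qo) ∈ K` (the constant place over `Qo`); then
`lamΩ O_{Po} / lamΩ (compSub Po O)` has the value `1` at `Po`
(`IsRed (xΩ * bΩ) O_{Po} valHom b`, `H86.pullAt_unit_of_isRed`). -/
def Stmt_BASE : Prop :=
  ∀ (K : Type u) [Field K] [IsAlgClosed K] {A : Scheme.{u}} (f : A ⟶ Spec (CommRingCat.of K))
    (L : RelativeGroupLaw K f) (g : ℕ), IsAVg K f L g → ∀ [IsIntegral A]
    (F Ω FΩ : Type u) [Field F] [Algebra K F] [Field Ω] [Field FΩ]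
    [Algebra Ω FΩ] [Algebra K Ω] [Algebra F FΩ] [Algebra K FΩ] [IsScalarTower K F FΩ]
    [IsScalarTower K Ω FΩ]
    (x : Pt f F) (a β γ : Pt f Ω) (D : A → A.functionField), IsCartier D →
    ∀ (Qo : Place K F) (hQo : Qo.deg = 1), IsBased L x Qo.toValuationSubring →
    ∀ (Po : Place Ω FΩ) (hPo : Po.deg = 1),
      (∀ z : ↥Qo.toValuationSubring, ∃ h : algebraMap F FΩ (z : F) ∈ Po.toValuationSubring,
        valHom Po hPo ⟨algebraMap F FΩ (z : F), h⟩ = algebraMap K Ω (valHom Qo hQo z)) →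
    ∀ O : ValuationSubring Ω, C.H29.IsKPlace K O →
      ∃ hm : lamΩ FΩ L x a β γ D Po.toValuationSubring /
          lamΩ FΩ L x a β γ D (compSub Po hPo O) ∈ Po.toValuationSubring,
        valHom Po hPo ⟨_, hm⟩ = 1

end Fermat.Agent.S26.C.X.H6
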