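import Mathlib
import Fermat.Agent.S26.C.X.Defs
import Fermat.Agent.S26.C.X.H69_CentreX
import Fermat.Agent.S26.C.H14_Pull
import Fermat.Agent.S26.C.H28_Quad

/-!
# S26 (C), cube side, RULES (helper63): `R-NE`, `R-ONE`, `R-BASED`

* `img_specializes_centre'` : `img σ ⤳ centre σ V` with NO hypothesis (if there is no centre,
  `centre σ V = img σ`);
* `pullAt_algebraMap`, `pullAt_ne_zero_of_isUnitAt`, `pullAt_one`, `pullAt_mul`, `pullAt_inv`,
  `pullAt_div` : the calculus of `pullAt` on functions which are units at `img σ`;
* **R-NE** `pb_ne_zero` : `IsCartier D → pb σ D V ≠ 0` (every `σ`, every `V`, no properness);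
* `img_one`, `isCentre_one` : the neutral point has image and centre `orig L`;
* **R-ONE** `pb_one` : `D (orig L) ≠ 0 → OverK K V → pb 1 D V = 1` (`f` separated);
  CAUTION: false without `D (orig L) ≠ 0` (then `pb 1 D V = 0`);
* **R-BASED** `isBased_one`, `isBased_mul`, `isBased_inv`, `isBased_pow`, `isBased_zpow`
  (`K` algebraically closed, `f` locally of finite type, `o` a `K`-place).
-/

set_option autoImplicit false
set_option linter.style.haveILetI false

open CategoryTheory CategoryTheory.Limits AlgebraicGeometry IsLocalRing NeronModelInfra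
  GoodReductionJacobian

universe u

namespace Fermat.Agent.S26.C.X.H63

variable {K : Type u} [Field K] {A : Scheme.{u}} {f : A ⟶ Spec (CommRingCat.of K)}
variable {E : Type u} [Field E] [Algebra K E]

/-! ## The centre is a specialisation of the image -/

/-- `centre σ V` is a centre or `img σ`. -/
theorem centre_cases (σ : Pt f E) (V : ValuationSubring E) :
    IsCentre σ V (centre σ V) ∨ centre σ V = img σ := by
  by_cases h : ∃ c, IsCentre σ V c
  · left
    unfold centre
    rw [dif_pos h]
    exact h.choose_spec
  · right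
    unfold centre
    rw [dif_neg h]

/-- `img σ ⤳ centre σ V`, without any hypothesis. -/
theorem img_specializes_centre' (σ : Pt f E) (V : ValuationSubring E) :
    img σ ⤳ centre σ V := by
  rcases centre_cases σ V with h | h
  · exact H69.img_specializes_of_isCentre σ V h
  · rw [h]

/-! ## Calculus of `pullAt` -/

section PullAt

variable [IsIntegral A]

/-- `pullAt` on a germ at `img σ` is `germ σ`. -/
theorem pullAt_algebraMap (σ : Pt f E) (a : A.presheaf.stalk (img σ)) :
    pullAt σ (algebraMap (A.presheaf.stalk (img σ)) A.functionField a) = germ σ a := by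
  have hr : IsRegAt (img σ) (algebraMap (A.presheaf.stalk (img σ)) A.functionField a) :=
    ⟨a, rfl⟩
  unfold pullAt
  rw [dif_pos hr]
  congr 1
  exact C.H14.algebraMap_stalk_injective (img σ) hr.choose_spec

theorem pullAt_one (σ : Pt f E) : pullAt σ (1 : A.functionField) = 1 := by
  have h := pullAt_algebraMap σ (1 : A.presheaf.stalk (img σ))
  rw [map_one, map_one] at h
  exact h

/-- `pullAt` of a unit at `img σ` is not zero. -/
theorem pullAt_ne_zero_of_isUnitAt (σ : Pt f E) {h : A.functionField}
    (hu : IsUnitAt (img σ) h) : pullAt σ h ≠ 0 := by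
  obtain ⟨a, ha, rfl⟩ := hu
  rw [pullAt_algebraMap]
  exact (ha.map (germ σ)).ne_zero

theorem pullAt_mul (σ : Pt f E) {h h' : A.functionField} (hr : IsRegAt (img σ) h)
    (hr' : IsRegAt (img σ) h') : pullAt σ (h * h') = pullAt σ h * pullAt σ h' := by
  obtain ⟨a, rfl⟩ := hr
  obtain ⟨a', rfl⟩ := hr'
  rw [← map_mul, pullAt_algebraMap, pullAt_algebraMap, pullAt_algebraMap, map_mul]

theorem pullAt_inv (σ : Pt f E) {h : A.functionField} (hu : IsUnitAt (img σ) h) :
    pullAt σ h⁻¹ = (pullAt σ h)⁻¹ := by
  have hne := pullAt_ne_zero_of_isUnitAt σ hu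
  have hm := pullAt_mul σ (C.H14.isRegAt_of_isUnitAt hu)
    (C.H14.isRegAt_of_isUnitAt (C.H14.isUnitAt_inv hu))
  rw [mul_inv_cancel₀ (C.H14.ne_zero_of_isUnitAt hu), pullAt_one] at hm
  exact eq_inv_of_mul_eq_one_right hm.symm

theorem pullAt_div (σ : Pt f E) {h h' : A.functionField} (hu : IsUnitAt (img σ) h)
    (hu' : IsUnitAt (img σ) h') : pullAt σ (h / h') = pullAt σ h / pullAt σ h' := by
  rw [div_eq_mul_inv, div_eq_mul_inv,
    pullAt_mul σ (C.H14.isRegAt_of_isUnitAt hu)
      (C.H14.isRegAt_of_isUnitAt (C.H14.isUnitAt_inv hu')), pullAt_inv σ hu']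

/-- For a Cartier divisor the quotient `D c / D (img σ)` is a unit at `img σ` for every
specialisation `c` of `img σ`. -/
theorem isUnitAt_img (σ : Pt f E) {D : A → A.functionField} (hD : IsCartier D) {c : A}
    (hc : img σ ⤳ c) : IsUnitAt (img σ) (D c / D (img σ)) :=
  C.H14.isUnitAt_div_of_isCartier hD hc

/-- **R-NE**: the local equations of `σ^* D` are not zero. -/
theorem pullV_ne_zero (σ : Pt f E) {D : A → A.functionField} (hD : IsCartier D) {c : A}
    (hc : img σ ⤳ c) : pullV σ D c ≠ 0 :=
  pullAt_ne_zero_of_isUnitAt σ (isUnitAt_img σ hD hc)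

/-- **R-NE**: the local equations of `σ^* D` are not zero (no hypothesis on `f` or on `V`). -/
theorem pb_ne_zero (σ : Pt f E) {D : A → A.functionField} (hD : IsCartier D)
    (V : ValuationSubring E) : pb σ D V ≠ 0 :=
  pullV_ne_zero σ hD (img_specializes_centre' σ V)

/-- `pb` at a valuation ring with a known centre. -/
theorem pb_eq_of_isCentre [IsSeparated f] (σ : Pt f E) (D : A → A.functionField)
    {V : ValuationSubring E} (hV : OverK K V) {c : A} (hc : IsCentre σ V c) :
    pb σ D V = pullAt σ (D c / D (img σ)) := by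
  unfold pb pullV
  rw [H69.centre_eq σ V hV hc]

end PullAt

/-! ## The neutral point -/

section One

variable (L : RelativeGroupLaw K f)

/-- The neutral point of `A(E)`. -/
theorem one_val_pt : (L.one (str K E)).1 = str K E ≫ zeroHom L :=
  C.H28.one_val L (str K E)

/-- The image of the neutral point is the origin. -/
theorem img_one : img (L.one (str K E)) = orig L := by
  unfold img orig
  rw [one_val_pt]
  show (zeroHom L) ((str K E) (closedPoint (CommRingCat.of E))) = _
  congr 1
  exact Subsingleton.elim _ _

/-- The origin is a centre of the neutral point at every valuation ring containing `K`. -/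
theorem isCentre_one (V : ValuationSubring E) (hV : OverK K V) :
    IsCentre (L.one (str K E)) V (orig L) := by
  refine ⟨Spec.map (CommRingCat.ofHom (H69.kap V hV)) ≫ zeroHom L, ?_, ?_⟩
  · rw [one_val_pt, ← Category.assoc, ← Spec.map_comp]
    rfl
  · unfold orig
    show (zeroHom L) ((Spec.map (CommRingCat.ofHom (H69.kap V hV)))
      (closedPoint (CommRingCat.of V))) = _
    congr 1
    exact Subsingleton.elim _ _

/-- **R-ONE**: `pb 1 D V = 1`.  (False if `D (orig L) = 0`: then `pb 1 D V = 0`.) -/
theorem pb_one' [IsSeparated f] [IsIntegral A] {D : A → A.functionField}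
    (hD0 : D (orig L) ≠ 0) (V : ValuationSubring E) (hV : OverK K V) :
    pb (L.one (str K E)) D V = 1 := by
  rw [pb_eq_of_isCentre _ D hV (isCentre_one L V hV), img_one, div_self hD0, pullAt_one]

/-- **R-ONE** in the group notation. -/
theorem pb_one [IsSeparated f] [IsIntegral A] {D : A → A.functionField}
    (hD : IsCartier D) (V : ValuationSubring E) (hV : OverK K V) :
    (letI : Group (Pt f E) := L.pointGroup (str K E)
     pb (1 : Pt f E) D V = 1) :=
  pb_one' L (hD.1 _) V hV

end One

end Fermat.Agent.S26.C.X.H63
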