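import Mathlib
import Fermat.Agent.S26.C.X.Defs
import Fermat.Agent.S26.C.X.H69_CentreX
import Fermat.Agent.S26.C.X.H69_PullAt
import Fermat.Agent.S26.C.H69_NormAlg

/-!
# S26 (C), cube side, X-leaf DESC (helper69): descent by the norm

`E' / E` finite, `σ i` points of `A(E)`, `Λ = ∏ (σ i)^* D ^ ε i`.  If `Λ' = ∏ (σ i)_{E'}^* D ^ ε i`
is principal on `E'`, `Λ' = div Ψ'`, then `Λ ^ k = div (N_{E'/E} Ψ')`, `k = [E' : E]`.

Proof: for a valuation ring `V ⊇ K` of `E`, `u = Ψ' / j (Λ V)` and `u⁻¹` lie in every valuation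
ring `V' ⊇ j V` of `E'`: with `W = V' ∩ E ⊇ V`, `Λ' V' = j (Λ W)` (`pb_mapPt`) and
`Λ W / Λ V ∈ Wˣ` (`pb_div_pb_mem`: the centre of `W` is a generisation of the centre of `V`, and
`D` is Cartier).  So `u` is a unit of the integral closure of `V` in `E'`, and
`N Ψ' = (unit of V) · (Λ V) ^ k` (`C.H69.norm_eq_unit_mul_pow`).
-/

set_option autoImplicit false
set_option linter.style.haveILetI false
set_option linter.unusedSectionVars false

open CategoryTheory CategoryTheory.Limits AlgebraicGeometry IsLocalRing NeronModelInfra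
  GoodReductionJacobian

universe u

namespace Fermat.Agent.S26.C.X.H69

/-- integrality from valuation subrings -/
theorem isIntegral_of_forall_vs {R E : Type*} [CommRing R] [Field E] [Algebra R E]
    {u : E} (h : ∀ V : ValuationSubring E, (∀ a : R, algebraMap R E a ∈ V) → u ∈ V) :
    IsIntegral R u := by
  by_contra hu
  have hu' : u ∉ (integralClosure R E).toSubring := hu
  obtain ⟨V, hV, huV⟩ := Subring.exists_le_valuationSubring_of_isIntegrallyClosedIn hu'
  exact huV (h V fun a => hV (isIntegral_algebraMap (R := R) (A := E) (x := a)))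

section UIn

variable {E : Type*} [Field E]

/-- `x` is a unit of the valuation ring `V`. -/
def UIn (V : ValuationSubring E) (x : E) : Prop := x ∈ V ∧ x⁻¹ ∈ V

theorem UIn.one (V : ValuationSubring E) : UIn V 1 := ⟨V.one_mem, by rw [inv_one]; exact V.one_mem⟩

theorem UIn.mul {V : ValuationSubring E} {x y : E} (hx : UIn V x) (hy : UIn V y) :
    UIn V (x * y) :=
  ⟨V.mul_mem _ _ hx.1 hy.1, by rw [mul_inv]; exact V.mul_mem _ _ hx.2 hy.2⟩

theorem UIn.inv {V : ValuationSubring E} {x : E} (hx : UIn V x) : UIn V x⁻¹ :=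
  ⟨hx.2, by rw [inv_inv]; exact hx.1⟩

theorem UIn.div {V : ValuationSubring E} {x y : E} (hx : UIn V x) (hy : UIn V y) :
    UIn V (x / y) := by
  rw [div_eq_mul_inv]
  exact hx.mul hy.inv

theorem UIn.pow {V : ValuationSubring E} {x : E} (hx : UIn V x) (n : ℕ) : UIn V (x ^ n) :=
  ⟨pow_mem hx.1 n, by rw [← inv_pow]; exact pow_mem hx.2 n⟩

theorem UIn.zpow {V : ValuationSubring E} {x : E} (hx : UIn V x) (n : ℤ) : UIn V (x ^ n) := by
  cases n with
  | ofNat m =>
    rw [Int.ofNat_eq_natCast, zpow_natCast]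
    exact hx.pow m
  | negSucc m =>
    rw [zpow_negSucc]
    exact (hx.pow (m + 1)).inv

theorem UIn.prod {V : ValuationSubring E} {ι : Type*} (s : Finset ι) (x : ι → E)
    (hx : ∀ i ∈ s, UIn V (x i)) : UIn V (∏ i ∈ s, x i) := by
  classical
  induction s using Finset.induction_on with
  | empty =>
    rw [Finset.prod_empty]
    exact UIn.one V
  | insert a s ha ih =>
    rw [Finset.prod_insert ha]
    exact (hx a (Finset.mem_insert_self a s)).mul
      (ih fun i hi => hx i (Finset.mem_insert_of_mem hi))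

theorem UIn.map {E' : Type*} [Field E'] (j : E →+* E') (V' : ValuationSubring E') {x : E}
    (hx : UIn (V'.comap j) x) : UIn V' (j x) :=
  ⟨ValuationSubring.mem_comap.1 hx.1, by
    rw [← map_inv₀]
    exact ValuationSubring.mem_comap.1 hx.2⟩

end UIn

/-- **DESC**: descent by the norm. -/
theorem stmt_DESC : Stmt_DESC.{u} := by
  intro K _ A f _ _ E E' _ _ _ _ j hfin ι _ σ ε D hD hP
  letI algEE' : Algebra E E' := j.toRingHom.toAlgebra
  haveI : FiniteDimensional E E' := hfin
  obtain ⟨Ψ', hΨ'0, hΨ'⟩ := hP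
  have hk : 0 < Module.finrank E E' := Module.finrank_pos
  have hN0 : Algebra.norm E Ψ' ≠ 0 := Algebra.norm_ne_zero_iff.2 hΨ'0
  refine ⟨Module.finrank E E', hk, Algebra.norm E Ψ', hN0, fun V hV => ?_⟩
  -- the value of `Λ` at a valuation ring
  set Λ : ValuationSubring E → E := fun W => ∏ i, pb (σ i) D W ^ ε i with hΛ
  have hΛeq : ∀ W : ValuationSubring E, (∏ i, pb (σ i) D ^ ε i) W = Λ W := by
    intro W
    rw [Finset.prod_apply]
    rfl
  have hΛ' : ∀ V' : ValuationSubring E', OverK K V' →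
      (∏ i, pb (mapPt j (σ i)) D ^ ε i) V' = j (Λ (V'.comap j.toRingHom)) := by
    intro V' hV'
    rw [Finset.prod_apply, hΛ, map_prod]
    refine Finset.prod_congr rfl fun i _ => ?_
    rw [Pi.pow_apply, pb_mapPt j (σ i) D V' hV', map_zpow₀]
  have hΛ0 : ∀ W : ValuationSubring E, OverK K W → Λ W ≠ 0 := by
    intro W hW
    rw [hΛ]
    exact Finset.prod_ne_zero_iff.2 fun i _ => zpow_ne_zero _ (pb_ne_zero (σ i) hD W hW)
  have hΛdiv : ∀ W : ValuationSubring E, V ≤ W → UIn W (Λ V / Λ W) := by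
    intro W hVW
    have e : Λ V / Λ W = ∏ i, (pb (σ i) D V / pb (σ i) D W) ^ ε i := by
      rw [hΛ]
      simp only [div_zpow, Finset.prod_div_distrib]
    rw [e]
    exact UIn.prod _ _ fun i _ => UIn.zpow (pb_div_pb_mem (σ i) hD hV hVW) _
  -- the algebra structures
  letI algVE' : Algebra V E' := ((algebraMap E E').comp (algebraMap V E)).toAlgebra
  haveI : IsScalarTower V E E' := IsScalarTower.of_algebraMap_eq (fun _ => rfl)
  have key : ∀ V' : ValuationSubring E', (∀ a : V, algebraMap V E' a ∈ V') →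
      UIn V' (Ψ' / algebraMap E E' (Λ V)) := by
    intro V' hVV'
    have hVW : V ≤ V'.comap j.toRingHom := fun a ha =>
      ValuationSubring.mem_comap.2 (hVV' ⟨a, ha⟩)
    have hV' : OverK K V' := by
      intro a
      have h := hVV' ⟨algebraMap K E a, hV a⟩
      have e : algebraMap V E' ⟨algebraMap K E a, hV a⟩ = algebraMap K E' a := j.commutes a
      rwa [e] at h
    have hW : OverK K (V'.comap j.toRingHom) := overK_comap j V' hV'
    have h1 := hΨ' V' hV'
    rw [hΛ' V' hV'] at h1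
    have h2 : UIn V' (Ψ' / j (Λ (V'.comap j.toRingHom))) := by
      refine ⟨by rw [div_eq_mul_inv]; exact h1.1, ?_⟩
      rw [inv_div, div_eq_mul_inv]
      exact h1.2
    have h3 : UIn V' (j (Λ V / Λ (V'.comap j.toRingHom))) :=
      UIn.map j.toRingHom V' (hΛdiv _ hVW)
    have h4 := h2.div h3
    have e : Ψ' / j (Λ (V'.comap j.toRingHom)) / j (Λ V / Λ (V'.comap j.toRingHom)) =
        Ψ' / algebraMap E E' (Λ V) := by
      have e1 : algebraMap E E' (Λ V) = j (Λ V) := rfl
      have n1 : j (Λ V) ≠ 0 := (map_ne_zero j).2 (hΛ0 V hV)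
      have n2 : j (Λ (V'.comap j.toRingHom)) ≠ 0 := (map_ne_zero j).2 (hΛ0 _ hW)
      rw [e1, map_div₀]
      field_simp
    rwa [e] at h4
  have hi1 : IsIntegral V (Ψ' / algebraMap E E' (Λ V)) :=
    isIntegral_of_forall_vs fun V' hVV' => (key V' hVV').1
  have hi2 : IsIntegral V (algebraMap E E' (Λ V) / Ψ') := by
    apply isIntegral_of_forall_vs
    intro V' hVV'
    have h := (key V' hVV').2
    rwa [inv_div] at h
  obtain ⟨r, hr⟩ := C.H69.norm_eq_unit_mul_pow (R := V) (hΛ0 V hV) hΨ'0 hi1 hi2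
  have hpow : ((∏ i, pb (σ i) D ^ ε i) ^ Module.finrank E E') V =
      Λ V ^ Module.finrank E E' := by
    rw [Pi.pow_apply, hΛeq]
  rw [hpow, hr]
  have hΛk : Λ V ^ Module.finrank E E' ≠ 0 := pow_ne_zero _ (hΛ0 V hV)
  have hr0 : algebraMap V E (r : V) ≠ 0 := ((r.isUnit).map (algebraMap V E)).ne_zero
  have hrinv : (algebraMap V E (r : V))⁻¹ = algebraMap V E ((r⁻¹ : Vˣ) : V) := by
    apply inv_eq_of_mul_eq_one_right
    rw [← map_mul, ← Units.val_mul, mul_inv_cancel, Units.val_one, map_one]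
  constructor
  · have e : algebraMap V E (r : V) * Λ V ^ Module.finrank E E' *
        (Λ V ^ Module.finrank E E')⁻¹ = algebraMap V E (r : V) := by
      field_simp
    rw [e]
    exact (r : V).2
  · have e : Λ V ^ Module.finrank E E' *
        (algebraMap V E (r : V) * Λ V ^ Module.finrank E E')⁻¹ =
        algebraMap V E ((r⁻¹ : Vˣ) : V) := by
      rw [← hrinv]
      field_simp
    rw [e]
    exact ((r⁻¹ : Vˣ) : V).2

end Fermat.Agent.S26.C.X.H69
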