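import Mathlib
import Fermat.Agent.S26.C.X.Defs
import Fermat.Agent.S26.C.H14_Pull
import Fermat.Agent.S26.C.H69_Centre

/-!
# S26 (C), cube side, leaf SPEC (helper90): specialisation of valuative principal divisors

`stmt_SPEC : X.Stmt_SPEC` (unconditional).  Also `stmt_CENTRE` (a second proof; helper69 has one).

* `stalkClosedPointTo_comp_apply` (Lemma A): for `Spec R' ⟶ Spec R ⟶ X` the local homomorphism
  on germs at the image of the closed point of `Spec R` is `φ ∘ stalkClosedPointTo τ`.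
* `pullAt_of_lift` (Lemma B): `pullAt σ a = φ (τ^♯ a)` for a lift `τ : Spec R ⟶ A` of `σ`.
* `exists_lift`, `lift_unique`, `centre_eq`: the valuative criterion for points.
* `compV G r hr V₀`: the composite valuation ring `{x ∈ G | r x ∈ V₀}`.

Proof of SPEC: `Ψ₀ := r (Ψ / Λ G)`; for `V₀` let `V` be the composite; the centres of `σ j` at
`V` and of `σ₀ j` at `V₀` agree (`= c'`), `D c' / D c` is a unit at the centre `c` at `G`, and
its values at `σ j`, `σ₀ j` are `g`, `r g` with `g ∈ Gˣ`.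
-/

set_option autoImplicit false
set_option linter.style.haveILetI false

open CategoryTheory CategoryTheory.Limits AlgebraicGeometry IsLocalRing

universe u

namespace Fermat.Agent.S26.C.X.H90

section General

variable {X : Scheme.{u}}

/-- The image of the closed point under `Spec R' ⟶ Spec R ⟶ X` is a generisation of the image
of the closed point of `Spec R`. -/
theorem comp_closedPoint_specializes {R R' : CommRingCat.{u}} [IsLocalRing R] [IsLocalRing R']
    (φ : R ⟶ R') (τ : Spec R ⟶ X) :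
    (Spec.map φ ≫ τ) (closedPoint R') ⤳ τ (closedPoint R) := by
  have h1 : (Spec.map φ) (closedPoint R') ⤳ closedPoint R :=
    IsLocalRing.specializes_closedPoint _
  exact τ.base.hom.map_specializes h1

/-- **Lemma A**: the local homomorphism of `Spec R' ⟶ Spec R ⟶ X` on germs at the image of the
closed point of `Spec R`. -/
theorem stalkClosedPointTo_comp_apply {R R' : CommRingCat.{u}} [IsLocalRing R] [IsLocalRing R']
    (φ : R ⟶ R') (τ : Spec R ⟶ X)
    (h : (Spec.map φ ≫ τ) (closedPoint R') ⤳ τ (closedPoint R))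
    (a : X.presheaf.stalk (τ (closedPoint R))) :
    (Scheme.stalkClosedPointTo (Spec.map φ ≫ τ)).hom ((X.presheaf.stalkSpecializes h).hom a) =
      φ.hom ((Scheme.stalkClosedPointTo τ).hom a) := by
  have h1 : (Spec.map φ) (closedPoint R') ⤳ closedPoint R :=
    IsLocalRing.specializes_closedPoint _
  rw [Scheme.stalkClosedPointTo_comp]
  set r₀ := (Scheme.stalkClosedPointTo τ).hom a with hr₀
  -- `τ.stalkMap m a = germ ⊤ m (ΓSpecIso.inv r₀)`
  have hb : (τ.stalkMap (closedPoint R)).hom a =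
      ((Spec R).presheaf.germ ⊤ (closedPoint R) trivial).hom ((Scheme.ΓSpecIso R).inv.hom r₀) := by
    have e1 := ΓSpecIso_hom_stalkClosedPointIso_inv R
    have e2 : ((Spec R).presheaf.germ ⊤ (closedPoint R) trivial).hom
        ((Scheme.ΓSpecIso R).inv.hom r₀) = (stalkClosedPointIso R).inv.hom r₀ := by
      rw [← e1]
      simp
    rw [e2, hr₀]
    simp [Scheme.stalkClosedPointTo]
  have hnat := Scheme.Hom.stalkSpecializes_stalkMap_apply τ _ _ h1 a
  have hg := TopCat.Presheaf.germ_stalkSpecializes_apply (Spec R).presheaf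
    (U := ⊤) (y := closedPoint R) trivial h1 ((Scheme.ΓSpecIso R).inv.hom r₀)
  have hS := Scheme.germ_stalkClosedPointTo_Spec φ
  have hS' := congrArg (fun ψ => ψ.hom ((Scheme.ΓSpecIso R).inv.hom r₀)) hS
  simp only [CommRingCat.hom_comp, RingHom.comp_apply] at hS'
  change (Scheme.stalkClosedPointTo (Spec.map φ)).hom
    ((τ.stalkMap ((Spec.map φ) (closedPoint R'))).hom ((X.presheaf.stalkSpecializes h).hom a)) = _
  have e3 : (τ.stalkMap ((Spec.map φ) (closedPoint R'))).hom
      ((X.presheaf.stalkSpecializes h).hom a) =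
      ((Spec R).presheaf.germ ⊤ ((Spec.map φ) (closedPoint R')) trivial).hom
        ((Scheme.ΓSpecIso R).inv.hom r₀) := by
    refine hnat.trans ?_
    refine Eq.trans ?_ hg
    exact congrArg _ hb
  rw [e3]
  refine hS'.trans ?_
  simp

end General

/-! ## The calculus of `pullAt` -/

section PullAt

variable {K : Type u} [Field K] {A : Scheme.{u}} {f : A ⟶ Spec (CommRingCat.of K)} [IsIntegral A]
variable {E : Type u} [Field E] [Algebra K E]

theorem pullAt_algebraMap (σ : Pt f E) (a : A.presheaf.stalk (img σ)) :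
    pullAt σ (algebraMap (A.presheaf.stalk (img σ)) A.functionField a) = germ σ a := by
  have hreg : IsRegAt (img σ) (algebraMap (A.presheaf.stalk (img σ)) A.functionField a) :=
    ⟨a, rfl⟩
  unfold pullAt
  rw [dif_pos hreg]
  congr 1
  exact H14.algebraMap_stalk_injective _ hreg.choose_spec

theorem pullAt_mul (σ : Pt f E) {u v : A.functionField} (hu : IsRegAt (img σ) u)
    (hv : IsRegAt (img σ) v) : pullAt σ (u * v) = pullAt σ u * pullAt σ v := by
  obtain ⟨a, rfl⟩ := hu
  obtain ⟨b, rfl⟩ := hv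
  rw [← map_mul, pullAt_algebraMap, pullAt_algebraMap, pullAt_algebraMap, map_mul]

theorem pullAt_ne_zero (σ : Pt f E) {u : A.functionField} (hu : IsUnitAt (img σ) u) :
    pullAt σ u ≠ 0 := by
  obtain ⟨a, ha, rfl⟩ := hu
  rw [pullAt_algebraMap]
  exact (ha.map (germ σ)).ne_zero

/-- **Lemma B**: the value of `pullAt` through a lift `τ : Spec R ⟶ A` of the point. -/
theorem pullAt_of_lift {R : Type u} [CommRing R] [IsLocalRing R] (φ : R →+* E)
    (τ : Spec (CommRingCat.of R) ⟶ A) (σ : Pt f E)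
    (hτ : Spec.map (CommRingCat.ofHom φ) ≫ τ = σ.1)
    (a : A.presheaf.stalk (τ (closedPoint R))) :
    pullAt σ (algebraMap (A.presheaf.stalk (τ (closedPoint R))) A.functionField a) =
      φ ((Scheme.stalkClosedPointTo τ).hom a) := by
  obtain ⟨s, hs⟩ := σ
  simp only at hτ
  subst hτ
  have h := comp_closedPoint_specializes (CommRingCat.ofHom φ) τ
  have e1 := H14.algebraMap_stalkSpecializes h a
  rw [← e1]
  refine (pullAt_algebraMap _ _).trans ?_
  exact stalkClosedPointTo_comp_apply (CommRingCat.ofHom φ) τ h a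

omit [IsIntegral A] in
/-- The image of a lifted point specialises to the image of the closed point. -/
theorem img_specializes_of_lift {R : Type u} [CommRing R] [IsLocalRing R] (φ : R →+* E)
    (τ : Spec (CommRingCat.of R) ⟶ A) (σ : Pt f E)
    (hτ : Spec.map (CommRingCat.ofHom φ) ≫ τ = σ.1) :
    img σ ⤳ τ (closedPoint R) := by
  obtain ⟨s, hs⟩ := σ
  simp only at hτ
  subst hτ
  exact comp_closedPoint_specializes (CommRingCat.ofHom φ) τ

omit [IsIntegral A] in
/-- If `φ` is local, the image of the lifted point is the image of the closed point. -/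
theorem img_eq_of_lift {R : Type u} [CommRing R] [IsLocalRing R] (φ : R →+* E) [IsLocalHom φ]
    (τ : Spec (CommRingCat.of R) ⟶ A) (σ : Pt f E)
    (hτ : Spec.map (CommRingCat.ofHom φ) ≫ τ = σ.1) :
    img σ = τ (closedPoint R) := by
  obtain ⟨s, hs⟩ := σ
  simp only at hτ
  subst hτ
  have e : Spec.map (CommRingCat.ofHom φ) (closedPoint E) = closedPoint R :=
    comap_closedPoint φ
  show τ (Spec.map (CommRingCat.ofHom φ) (closedPoint E)) = _
  rw [e]

end PullAt

/-! ## The valuative criterion for points -/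

section Val

variable {K : Type u} [Field K] {A : Scheme.{u}} {f : A ⟶ Spec (CommRingCat.of K)}
variable {E : Type u} [Field E] [Algebra K E]

/-- The structure homomorphism `K → V`. -/
def toV (V : ValuationSubring E) (hV : OverK K V) : K →+* V :=
  (algebraMap K E).codRestrict V.toSubring hV

theorem algebraMap_comp_toV (V : ValuationSubring E) (hV : OverK K V) :
    (algebraMap V E).comp (toV V hV) = algebraMap K E := rfl

/-- The valuative square of a point and a valuation ring over `K`. -/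
noncomputable def vsq (σ : Pt f E) (V : ValuationSubring E) (hV : OverK K V) :
    ValuativeCommSq f where
  R := V
  K := E
  i₁ := σ.1
  i₂ := Spec.map (CommRingCat.ofHom (toV V hV))
  commSq := ⟨by
    rw [σ.2, ← Spec.map_comp, ← CommRingCat.ofHom_comp, algebraMap_comp_toV]⟩

/-- A lift of the point is a lift of the valuative square. -/
theorem lift_comp_eq (σ : Pt f E) (V : ValuationSubring E) (hV : OverK K V)
    (τ : Spec (CommRingCat.of V) ⟶ A)
    (h : Spec.map (CommRingCat.ofHom (algebraMap V E)) ≫ τ = σ.1) :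
    τ ≫ f = Spec.map (CommRingCat.ofHom (toV V hV)) := by
  apply H69.eq_of_generic_eq V
  rw [← Category.assoc, h, σ.2, ← Spec.map_comp, ← CommRingCat.ofHom_comp, algebraMap_comp_toV]

/-- **Existence** of the lift (`f` universally closed). -/
theorem exists_lift [UniversallyClosed f] (σ : Pt f E) (V : ValuationSubring E)
    (hV : OverK K V) :
    ∃ τ : Spec (CommRingCat.of V) ⟶ A,
      Spec.map (CommRingCat.ofHom (algebraMap V E)) ≫ τ = σ.1 := by
  have hE : ValuativeCriterion.Existence f := by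
    have h : UniversallyClosed f := inferInstance
    rw [UniversallyClosed.eq_valuativeCriterion] at h
    exact h.1
  obtain ⟨⟨l⟩⟩ := hE (vsq σ V hV)
  exact ⟨l.l, l.fac_left⟩

/-- **Uniqueness** of the lift (`f` separated). -/
theorem lift_unique [IsSeparated f] (σ : Pt f E) (V : ValuationSubring E) (hV : OverK K V)
    (τ₁ τ₂ : Spec (CommRingCat.of V) ⟶ A)
    (h₁ : Spec.map (CommRingCat.ofHom (algebraMap V E)) ≫ τ₁ = σ.1)
    (h₂ : Spec.map (CommRingCat.ofHom (algebraMap V E)) ≫ τ₂ = σ.1) : τ₁ = τ₂ := by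
  have hU : ValuativeCriterion.Uniqueness f := IsSeparated.valuativeCriterion f
  have hsub := hU (vsq σ V hV)
  let L₁ : (vsq σ V hV).commSq.LiftStruct := ⟨τ₁, h₁, lift_comp_eq σ V hV τ₁ h₁⟩
  let L₂ : (vsq σ V hV).commSq.LiftStruct := ⟨τ₂, h₂, lift_comp_eq σ V hV τ₂ h₂⟩
  have e : L₁ = L₂ := Subsingleton.elim _ _
  exact congrArg CommSq.LiftStruct.l e

/-- The centre is unique. -/
theorem isCentre_unique [IsSeparated f] (σ : Pt f E) (V : ValuationSubring E) (hV : OverK K V)
    {c c' : A} (h : IsCentre σ V c) (h' : IsCentre σ V c') : c = c' := by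
  obtain ⟨τ, hτ, rfl⟩ := h
  obtain ⟨τ', hτ', rfl⟩ := h'
  rw [lift_unique σ V hV τ τ' hτ hτ']

/-- The centre is the centre. -/
theorem centre_eq [IsSeparated f] (σ : Pt f E) (V : ValuationSubring E) (hV : OverK K V)
    {c : A} (h : IsCentre σ V c) : centre σ V = c := by
  have hex : ∃ c, IsCentre σ V c := ⟨c, h⟩
  unfold centre
  rw [dif_pos hex]
  exact isCentre_unique σ V hV hex.choose_spec h

/-- **CENTRE**: every point has a unique centre at every valuation ring containing `K`. -/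
theorem stmt_CENTRE : Stmt_CENTRE.{u} := by
  intro K _ A f _ E _ _ σ V hV
  obtain ⟨τ, hτ⟩ := exists_lift σ V hV
  exact ⟨_, ⟨τ, hτ, rfl⟩, fun c hc => isCentre_unique σ V hV hc ⟨τ, hτ, rfl⟩⟩

end Val

/-! ## The composite of a valuation ring with a valuation ring of its residue field -/

section Comp

variable {E' E : Type u} [Field E'] [Field E]

theorem compV_aux (G : ValuationSubring E') (r : G →+* E) (hr : Function.Surjective r)
    (V₀ : ValuationSubring E) (x : E') (hx : x ∈ G) :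
    (∃ y : G, r y ∈ V₀ ∧ (y : E') = x) ∨ (∃ y : G, r y ∈ V₀ ∧ (y : E') = x⁻¹) := by
  haveI : IsLocalHom r := IsLocalHom.of_surjective r hr
  by_cases hu : IsUnit (⟨x, hx⟩ : G)
  · obtain ⟨y', hy'⟩ := hu.exists_right_inv
    have hxy : x * (y' : E') = 1 := congrArg Subtype.val hy'
    have hinv : (y' : E') = x⁻¹ := eq_inv_of_mul_eq_one_right hxy
    have hr1 : r ⟨x, hx⟩ * r y' = 1 := by rw [← map_mul, hy', map_one]
    rcases V₀.mem_or_inv_mem (r ⟨x, hx⟩) with h | h
    · exact Or.inl ⟨⟨x, hx⟩, h, rfl⟩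
    · refine Or.inr ⟨y', ?_, hinv⟩
      rw [eq_inv_of_mul_eq_one_right hr1]
      exact h
  · have h0 : r ⟨x, hx⟩ = 0 := by
      by_contra hne
      exact hu (isUnit_of_map_unit r _ (isUnit_iff_ne_zero.2 hne))
    exact Or.inl ⟨⟨x, hx⟩, by rw [h0]; exact V₀.zero_mem, rfl⟩

/-- The composite valuation ring `{x ∈ G | r x ∈ V₀}`. -/
def compV (G : ValuationSubring E') (r : G →+* E) (hr : Function.Surjective r)
    (V₀ : ValuationSubring E) : ValuationSubring E' where
  toSubring := (V₀.toSubring.comap r).map G.subtype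
  mem_or_inv_mem' := by
    intro x
    have key : ∀ z : E', (∃ y : G, r y ∈ V₀ ∧ (y : E') = z) →
        z ∈ ((V₀.toSubring.comap r).map G.subtype).carrier := by
      rintro z ⟨y, hy, rfl⟩
      exact ⟨y, hy, rfl⟩
    rcases G.mem_or_inv_mem x with hx | hx
    · rcases compV_aux G r hr V₀ x hx with h | h
      · exact Or.inl (key _ h)
      · exact Or.inr (key _ h)
    · rcases compV_aux G r hr V₀ x⁻¹ hx with h | h
      · exact Or.inr (key _ h)
      · rw [inv_inv] at h
        exact Or.inl (key _ h)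

theorem mem_compV {G : ValuationSubring E'} {r : G →+* E} {hr : Function.Surjective r}
    {V₀ : ValuationSubring E} {x : E'} :
    x ∈ compV G r hr V₀ ↔ ∃ y : G, r y ∈ V₀ ∧ (y : E') = x := by
  constructor
  · rintro ⟨y, hy, rfl⟩
    exact ⟨y, hy, rfl⟩
  · rintro ⟨y, hy, rfl⟩
    exact ⟨y, hy, rfl⟩

theorem compV_le (G : ValuationSubring E') (r : G →+* E) (hr : Function.Surjective r)
    (V₀ : ValuationSubring E) : compV G r hr V₀ ≤ G := by
  intro x hx
  obtain ⟨y, -, rfl⟩ := mem_compV.1 hx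
  exact y.2

/-- The residue map of the composite. -/
def rV (G : ValuationSubring E') (r : G →+* E) (hr : Function.Surjective r)
    (V₀ : ValuationSubring E) : compV G r hr V₀ →+* V₀ :=
  (r.comp (ValuationSubring.inclusion _ _ (compV_le G r hr V₀))).codRestrict V₀.toSubring (by
    intro x
    obtain ⟨y, hy, hyx⟩ := mem_compV.1 x.2
    have e : ValuationSubring.inclusion _ _ (compV_le G r hr V₀) x = y := Subtype.ext hyx.symm
    show r (ValuationSubring.inclusion _ _ (compV_le G r hr V₀) x) ∈ V₀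
    rw [e]
    exact hy)

theorem rV_surjective (G : ValuationSubring E') (r : G →+* E) (hr : Function.Surjective r)
    (V₀ : ValuationSubring E) : Function.Surjective (rV G r hr V₀) := by
  intro v
  obtain ⟨y, hy⟩ := hr v
  refine ⟨⟨y, mem_compV.2 ⟨y, by rw [hy]; exact v.2, rfl⟩⟩, ?_⟩
  apply Subtype.ext
  exact hy

theorem algebraMap_comp_rV (G : ValuationSubring E') (r : G →+* E) (hr : Function.Surjective r)
    (V₀ : ValuationSubring E) :
    (algebraMap V₀ E).comp (rV G r hr V₀) =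
      r.comp (ValuationSubring.inclusion _ _ (compV_le G r hr V₀)) := rfl

theorem algebraMap_comp_inclusion (G : ValuationSubring E') (r : G →+* E)
    (hr : Function.Surjective r) (V₀ : ValuationSubring E) :
    (algebraMap G E').comp (ValuationSubring.inclusion _ _ (compV_le G r hr V₀)) =
      algebraMap (compV G r hr V₀) E' := rfl

/-- Products of integral powers of units under a homomorphism to a field. -/
theorem map_prod_zpow_units {R F : Type*} [CommRing R] [Field F] (φ : R →+* F) {ι : Type*}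
    (s : Finset ι) (u : ι → Rˣ) (ε : ι → ℤ) :
    φ ((∏ j ∈ s, u j ^ ε j : Rˣ) : R) = ∏ j ∈ s, (φ (u j : R)) ^ ε j := by
  have h := map_prod (Units.map (φ : R →* F)) (fun j => u j ^ ε j) s
  have h2 := congrArg (fun x : Fˣ => (x : F)) h
  simp only [Units.coe_map, MonoidHom.coe_coe, Units.coe_prod, map_zpow,
    Units.val_zpow_eq_zpow_val] at h2
  rw [← h2, Units.coe_prod]

end Comp

/-! ## SPEC -/

section Main

/-- **SPEC** (specialisation of valuative principal divisors). -/
theorem stmt_SPEC : Stmt_SPEC.{u} := by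
  intro K _ A f _ _ E' E _ _ _ _ G r hG hr hrK ι _ σ σ₀ ε hred D hD hVP
  classical
  haveI : IsLocalHom r := IsLocalHom.of_surjective r hr
  choose τ hτ1 hτ2 using hred
  obtain ⟨Ψ, hΨ0, hΨ⟩ := hVP
  -- centres at `G`
  have hcG : ∀ j, centre (σ j) G = τ j (closedPoint G) :=
    fun j => centre_eq (σ j) G hG ⟨τ j, hτ1 j, rfl⟩
  have himg0 : ∀ j, img (σ₀ j) = τ j (closedPoint G) :=
    fun j => img_eq_of_lift r (τ j) (σ₀ j) (hτ2 j)
  have hspG : ∀ j, img (σ j) ⤳ τ j (closedPoint G) :=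
    fun j => img_specializes_of_lift (algebraMap G E') (τ j) (σ j) (hτ1 j)
  have hΛG_eq : (∏ j, pb (σ j) D ^ ε j) G =
      ∏ j, (pullAt (σ j) (D (τ j (closedPoint G)) / D (img (σ j)))) ^ ε j := by
    rw [Finset.prod_apply]
    refine Finset.prod_congr rfl fun j _ => ?_
    rw [Pi.pow_apply]
    unfold pb pullV
    rw [hcG j]
  have hp_ne : ∀ j, pullAt (σ j) (D (τ j (closedPoint G)) / D (img (σ j))) ≠ 0 :=
    fun j => pullAt_ne_zero _ (H14.isUnitAt_div_of_isCartier hD (hspG j))
  set ΛG : E' := ∏ j, (pullAt (σ j) (D (τ j (closedPoint G)) / D (img (σ j)))) ^ ε j with hΛG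
  have hΛG_ne : ΛG ≠ 0 := Finset.prod_ne_zero_iff.2 fun j _ => zpow_ne_zero _ (hp_ne j)
  obtain ⟨hU1, hU2⟩ := hΨ G hG
  rw [hΛG_eq] at hU1 hU2
  have hUU' : (⟨Ψ * ΛG⁻¹, hU1⟩ : G) * ⟨ΛG * Ψ⁻¹, hU2⟩ = 1 := by
    apply Subtype.ext
    show Ψ * ΛG⁻¹ * (ΛG * Ψ⁻¹) = 1
    field_simp
  have hrUU' : r ⟨Ψ * ΛG⁻¹, hU1⟩ * r ⟨ΛG * Ψ⁻¹, hU2⟩ = 1 := by
    rw [← map_mul, hUU', map_one]
  have hrU_ne : r ⟨Ψ * ΛG⁻¹, hU1⟩ ≠ 0 := left_ne_zero_of_mul_eq_one hrUU'
  have hrU' : r ⟨ΛG * Ψ⁻¹, hU2⟩ = (r ⟨Ψ * ΛG⁻¹, hU1⟩)⁻¹ := eq_inv_of_mul_eq_one_right hrUU'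
  refine ⟨r ⟨Ψ * ΛG⁻¹, hU1⟩, hrU_ne, ?_⟩
  intro V₀ hV₀
  -- the composite
  have hV : OverK K (compV G r hr V₀) := by
    intro a
    refine mem_compV.2 ⟨⟨algebraMap K E' a, hG a⟩, ?_, rfl⟩
    rw [hrK a]
    exact hV₀ a
  have hle := compV_le G r hr V₀
  choose τ' hτ' using fun j => exists_lift (σ j) (compV G r hr V₀) hV
  have hcV : ∀ j, centre (σ j) (compV G r hr V₀) = τ' j (closedPoint (compV G r hr V₀)) :=
    fun j => centre_eq (σ j) _ hV ⟨τ' j, hτ' j, rfl⟩
  -- restriction to `G`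
  have hres : ∀ j, Spec.map (CommRingCat.ofHom (ValuationSubring.inclusion _ _ hle)) ≫ τ' j =
      τ j := by
    intro j
    refine lift_unique (σ j) G hG _ _ ?_ (hτ1 j)
    rw [← Category.assoc, ← Spec.map_comp, ← CommRingCat.ofHom_comp,
      algebraMap_comp_inclusion]
    exact hτ' j
  have hsp : ∀ j, τ j (closedPoint G) ⤳ τ' j (closedPoint (compV G r hr V₀)) := by
    intro j
    have h := comp_closedPoint_specializes
      (CommRingCat.ofHom (ValuationSubring.inclusion _ _ hle)) (τ' j)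
    rw [hres j] at h
    exact h
  -- reduction to `V₀`
  haveI : IsLocalHom (rV G r hr V₀) := IsLocalHom.of_surjective _ (rV_surjective G r hr V₀)
  have hc0 : ∀ j, centre (σ₀ j) V₀ = τ' j (closedPoint (compV G r hr V₀)) := by
    intro j
    refine centre_eq (σ₀ j) V₀ hV₀ ⟨Spec.map (CommRingCat.ofHom (rV G r hr V₀)) ≫ τ' j, ?_, ?_⟩
    · rw [← Category.assoc, ← Spec.map_comp, ← CommRingCat.ofHom_comp, algebraMap_comp_rV,
        CommRingCat.ofHom_comp, Spec.map_comp, Category.assoc, hres j]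
      exact hτ2 j
    · have e : Spec.map (CommRingCat.ofHom (rV G r hr V₀)) (closedPoint V₀) =
          closedPoint (compV G r hr V₀) := comap_closedPoint (rV G r hr V₀)
      show τ' j (Spec.map (CommRingCat.ofHom (rV G r hr V₀)) (closedPoint V₀)) = _
      rw [e]
  -- the units
  have hu : ∀ j, IsUnitAt (τ j (closedPoint G))
      (D (τ' j (closedPoint (compV G r hr V₀))) / D (τ j (closedPoint G))) :=
    fun j => H14.isUnitAt_div_of_isCartier hD (hsp j)
  choose a ha_unit ha_eq using hu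
  have hg_unit : ∀ j, IsUnit ((Scheme.stalkClosedPointTo (τ j)).hom (a j)) :=
    fun j => (ha_unit j).map _
  have h1 : ∀ j, pullAt (σ j)
      (D (τ' j (closedPoint (compV G r hr V₀))) / D (τ j (closedPoint G))) =
      algebraMap G E' ((hg_unit j).unit : G) := by
    intro j
    rw [← ha_eq j]
    exact pullAt_of_lift (algebraMap G E') (τ j) (σ j) (hτ1 j) (a j)
  have h2 : ∀ j, pullAt (σ₀ j)
      (D (τ' j (closedPoint (compV G r hr V₀))) / D (τ j (closedPoint G))) =
      r ((hg_unit j).unit : G) := by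
    intro j
    rw [← ha_eq j]
    exact pullAt_of_lift r (τ j) (σ₀ j) (hτ2 j) (a j)
  -- the unit `Γ`
  set Γ : Gˣ := ∏ j, (hg_unit j).unit ^ ε j with hΓ
  have hΓ1 : algebraMap G E' (Γ : G) = ∏ j, (algebraMap G E' ((hg_unit j).unit : G)) ^ ε j :=
    map_prod_zpow_units (algebraMap G E') Finset.univ _ ε
  have hΓ2 : r (Γ : G) = ∏ j, (r ((hg_unit j).unit : G)) ^ ε j :=
    map_prod_zpow_units r Finset.univ _ ε
  -- the values at the composite and at `V₀`
  have hΛV_eq : (∏ j, pb (σ j) D ^ ε j) (compV G r hr V₀) = algebraMap G E' (Γ : G) * ΛG := by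
    rw [Finset.prod_apply, hΓ1, hΛG, ← Finset.prod_mul_distrib]
    refine Finset.prod_congr rfl fun j _ => ?_
    rw [Pi.pow_apply, ← mul_zpow, ← h1 j]
    congr 1
    unfold pb pullV
    rw [hcV j, ← pullAt_mul]
    · congr 1
      have := hD.1 (τ j (closedPoint G))
      field_simp
    · exact H14.isRegAt_of_isUnitAt
        (H14.isUnitAt_of_specializes (hspG j) (H14.isUnitAt_div_of_isCartier hD (hsp j)))
    · exact H14.isRegAt_of_isUnitAt (H14.isUnitAt_div_of_isCartier hD (hspG j))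
  have hΛ0_eq : (∏ j, pb (σ₀ j) D ^ ε j) V₀ = r (Γ : G) := by
    rw [Finset.prod_apply, hΓ2]
    refine Finset.prod_congr rfl fun j _ => ?_
    rw [Pi.pow_apply, ← h2 j]
    congr 1
    unfold pb pullV
    rw [hc0 j, himg0 j]
  have hrΓ : r (Γ : G) * r ((Γ⁻¹ : Gˣ) : G) = 1 := by
    rw [← map_mul, Units.mul_inv, map_one]
  have hrΓinv : r ((Γ⁻¹ : Gˣ) : G) = (r (Γ : G))⁻¹ := eq_inv_of_mul_eq_one_right hrΓ
  have hΓE : algebraMap G E' (Γ : G) * algebraMap G E' ((Γ⁻¹ : Gˣ) : G) = 1 := by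
    rw [← map_mul, Units.mul_inv, map_one]
  have hΓEinv : algebraMap G E' ((Γ⁻¹ : Gˣ) : G) = (algebraMap G E' (Γ : G))⁻¹ :=
    eq_inv_of_mul_eq_one_right hΓE
  obtain ⟨hW1, hW2⟩ := hΨ (compV G r hr V₀) hV
  rw [hΛV_eq] at hW1 hW2
  rw [hΛ0_eq]
  constructor
  · obtain ⟨y, hy, hyx⟩ := mem_compV.1 hW1
    have e : y = ⟨Ψ * ΛG⁻¹, hU1⟩ * ((Γ⁻¹ : Gˣ) : G) := by
      apply Subtype.ext
      rw [hyx]
      show _ = Ψ * ΛG⁻¹ * algebraMap G E' ((Γ⁻¹ : Gˣ) : G)
      rw [hΓEinv, mul_inv]
      ring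
    rw [e, map_mul, hrΓinv] at hy
    exact hy
  · obtain ⟨y, hy, hyx⟩ := mem_compV.1 hW2
    have e : y = (Γ : G) * ⟨ΛG * Ψ⁻¹, hU2⟩ := by
      apply Subtype.ext
      rw [hyx]
      show _ = algebraMap G E' (Γ : G) * (ΛG * Ψ⁻¹)
      ring
    rw [e, map_mul, hrU'] at hy
    exact hy

end Main

end Fermat.Agent.S26.C.X.H90
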