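import Mathlib
import Fermat.Agent.S26.C.X.Defs
import Fermat.Agent.S26.C.X.H69_CentreX
import Fermat.Agent.S26.C.X.H69_PullAt
import Fermat.Agent.S26.C.X.H69_Desc
import Fermat.Agent.S26.C.X.H90_Spec
import Fermat.Agent.S26.H55_Ex

/-!
# S26 (C), cube side, PRIG leaf BRIDGE (helper86): the rules of `IsRed` and the MOVING core

`σ ∈ A(E)`, `G` a valuation ring of `E` containing `K`, `r : G →+* κ` a homomorphism to a field
`κ` over `K` which is the identity on `K`, `σ₀ ∈ A(κ)`;  `IsRed σ G r σ₀`: `σ` extends to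
`τ : Spec G ⟶ A` and `τ ∘ Spec r = σ₀`.

* (B1) `isRed_mul`, `isRed_one`, `isRed_inv`, `isRed_div`, `isRed_list_prod`: the reduction is a
  homomorphism of groups;
* (B2) `isRed_map` (functoriality in `(E, G, r)`), `isRed_of_mem` (points of a subfield of `G`),
  `exists_isRed` (`f` universally closed), `isRed_unique` (`f` separated), `isRed_top`;
* (B3) `isCentre_of_isRed`, `centre_of_isRed`, `img_specializes_of_isRed`;
  `isRed_compV`, `isCentre_compV`, `centre_compV` (the centre at a composite valuation ring);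
* (B4) `pullAt_reg_of_isRed`, `pullAt_unit_of_isRed`: `r (σ^♯ h) = σ₀^♯ h`;
* (B5) `moving`, `moving_pb`: the MOVING core: `pb σ D V = T_c · M · unit of V` with
  `M = pb σ D G` (ONE function) and `T_c ∈ Gˣ`, `r T_c = pullV σ₀ D c`, whenever
  `img σ₀ ⤳ c` and `centre σ V ⤳ c`.
-/

set_option autoImplicit false
set_option linter.style.haveILetI false
set_option linter.unusedSectionVars false

open CategoryTheory CategoryTheory.Limits AlgebraicGeometry IsLocalRing NeronModelInfra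
  GoodReductionJacobian

universe u

namespace Fermat.Agent.S26.C.X.H86

variable {K : Type u} [Field K] {A : Scheme.{u}} {f : A ⟶ Spec (CommRingCat.of K)}
variable {E : Type u} [Field E] [Algebra K E] {κ : Type u} [Field κ] [Algebra K κ]

/-! ## (B1) the reduction is a homomorphism of groups -/

section B1

variable (G : ValuationSubring E) (hG : OverK K G) (r : G →+* κ)
  (hrK : ∀ a : K, r ⟨algebraMap K E a, hG a⟩ = algebraMap K κ a)

/-- The structure morphism of `Spec G`. -/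
noncomputable abbrev strG : Spec (CommRingCat.of G) ⟶ Spec (CommRingCat.of K) :=
  Spec.map (CommRingCat.ofHom (H69.kap G hG))

/-- The generic point of `Spec G`. -/
noncomputable abbrev genG : Spec (CommRingCat.of E) ⟶ Spec (CommRingCat.of G) :=
  Spec.map (CommRingCat.ofHom (algebraMap G E))

/-- The "closed point" `Spec κ ⟶ Spec G` of the residue map. -/
noncomputable abbrev clG : Spec (CommRingCat.of κ) ⟶ Spec (CommRingCat.of G) :=
  Spec.map (CommRingCat.ofHom r)

theorem genG_comp : genG G ≫ strG G hG = str K E := by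
  rw [← Spec.map_comp]
  rfl

include hrK in
theorem clG_comp : clG G r ≫ strG G hG = str K κ := by
  rw [← Spec.map_comp, ← CommRingCat.ofHom_comp]
  congr 2
  exact RingHom.ext hrK

/-- `IsRed` in terms of points over `K` of `Spec G`. -/
theorem isRed_iff (σ : Pt f E) (σ₀ : Pt f κ) :
    IsRed σ G r σ₀ ↔ ∃ τ : SchemeHomOver (strG G hG) f,
      schemeHomOverComp (genG G) (genG_comp G hG) τ = σ ∧
      schemeHomOverComp (clG G r) (clG_comp G hG r hrK) τ = σ₀ := by
  constructor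
  · rintro ⟨τ, h1, h2⟩
    exact ⟨⟨τ, H69.centre_over σ G hG τ h1⟩, Subtype.ext h1, Subtype.ext h2⟩
  · rintro ⟨τ, h1, h2⟩
    exact ⟨τ.1, congrArg Subtype.val h1, congrArg Subtype.val h2⟩

variable (L : RelativeGroupLaw K f)

include hG hrK

/-- **(B1)** the reduction of a product. -/
theorem isRed_mul {σ σ' : Pt f E} {σ₀ σ₀' : Pt f κ} (h : IsRed σ G r σ₀)
    (h' : IsRed σ' G r σ₀') :
    IsRed (L.mul (str K E) σ σ') G r (L.mul (str K κ) σ₀ σ₀') := by
  obtain ⟨τ, h1, h2⟩ := (isRed_iff G hG r hrK σ σ₀).1 h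
  obtain ⟨τ', h1', h2'⟩ := (isRed_iff G hG r hrK σ' σ₀').1 h'
  refine (isRed_iff G hG r hrK _ _).2 ⟨L.mul (strG G hG) τ τ', ?_, ?_⟩
  · rw [L.mul_natural, h1, h1']
  · rw [L.mul_natural, h2, h2']

/-- **(B1)** the reduction of the neutral point. -/
theorem isRed_one : IsRed (L.one (str K E)) G r (L.one (str K κ)) := by
  refine (isRed_iff G hG r hrK _ _).2 ⟨L.one (strG G hG), ?_, ?_⟩
  · exact L.one_natural _ _ _ _
  · exact L.one_natural _ _ _ _

/-- **(B1)** the reduction of the inverse. -/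
theorem isRed_inv {σ : Pt f E} {σ₀ : Pt f κ} (h : IsRed σ G r σ₀) :
    IsRed (L.inv (str K E) σ) G r (L.inv (str K κ) σ₀) := by
  obtain ⟨τ, h1, h2⟩ := (isRed_iff G hG r hrK σ σ₀).1 h
  refine (isRed_iff G hG r hrK _ _).2 ⟨L.inv (strG G hG) τ, ?_, ?_⟩
  · rw [Fermat.Agent.S26.H55.inv_natural, h1]
  · rw [Fermat.Agent.S26.H55.inv_natural, h2]

/-- **(B1)** in the group notation. -/
theorem isRed_mul' {σ σ' : Pt f E} {σ₀ σ₀' : Pt f κ} (h : IsRed σ G r σ₀)
    (h' : IsRed σ' G r σ₀') :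
    (letI : Group (Pt f E) := L.pointGroup (str K E)
     letI : Group (Pt f κ) := L.pointGroup (str K κ)
     IsRed (σ * σ') G r (σ₀ * σ₀')) :=
  isRed_mul G hG r hrK L h h'

theorem isRed_one' :
    (letI : Group (Pt f E) := L.pointGroup (str K E)
     letI : Group (Pt f κ) := L.pointGroup (str K κ)
     IsRed (1 : Pt f E) G r (1 : Pt f κ)) :=
  isRed_one G hG r hrK L

theorem isRed_inv' {σ : Pt f E} {σ₀ : Pt f κ} (h : IsRed σ G r σ₀) :
    (letI : Group (Pt f E) := L.pointGroup (str K E)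
     letI : Group (Pt f κ) := L.pointGroup (str K κ)
     IsRed σ⁻¹ G r σ₀⁻¹) :=
  isRed_inv G hG r hrK L h

theorem isRed_div' {σ σ' : Pt f E} {σ₀ σ₀' : Pt f κ} (h : IsRed σ G r σ₀)
    (h' : IsRed σ' G r σ₀') :
    (letI : Group (Pt f E) := L.pointGroup (str K E)
     letI : Group (Pt f κ) := L.pointGroup (str K κ)
     IsRed (σ / σ') G r (σ₀ / σ₀')) := by
  letI : Group (Pt f E) := L.pointGroup (str K E)
  letI : Group (Pt f κ) := L.pointGroup (str K κ)
  rw [div_eq_mul_inv, div_eq_mul_inv]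
  exact isRed_mul G hG r hrK L h (isRed_inv G hG r hrK L h')

/-- **(B1)** the reduction of a product of a list of points. -/
theorem isRed_list_prod {ι : Type*} (l : List ι) (σ : ι → Pt f E) (σ₀ : ι → Pt f κ)
    (h : ∀ i ∈ l, IsRed (σ i) G r (σ₀ i)) :
    (letI : Group (Pt f E) := L.pointGroup (str K E)
     letI : Group (Pt f κ) := L.pointGroup (str K κ)
     IsRed (l.map σ).prod G r (l.map σ₀).prod) := by
  letI : Group (Pt f E) := L.pointGroup (str K E)
  letI : Group (Pt f κ) := L.pointGroup (str K κ)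
  induction l with
  | nil => exact isRed_one G hG r hrK L
  | cons a l ih =>
    rw [List.map_cons, List.map_cons, List.prod_cons, List.prod_cons]
    exact isRed_mul G hG r hrK L (h a (List.mem_cons_self))
      (ih fun i hi => h i (List.mem_cons_of_mem _ hi))

end B1

/-! ## (B2) functoriality, existence and uniqueness of the reduction -/

section B2

variable {E₁ : Type u} [Field E₁] [Algebra K E₁] {κ₁ : Type u} [Field κ₁] [Algebra K κ₁]

/-- **(B2)** functoriality of the reduction: `j : E₁ → E` with `j G₁ ⊆ G` and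
`r ∘ j = j₀ ∘ r₁` on `G₁`. -/
theorem isRed_map (j : E₁ →ₐ[K] E) (j₀ : κ₁ →ₐ[K] κ) (G₁ : ValuationSubring E₁)
    (G : ValuationSubring E) (r₁ : G₁ →+* κ₁) (r : G →+* κ)
    (hle : ∀ x : E₁, x ∈ G₁ → j x ∈ G)
    (hcomp : ∀ x : G₁, r ⟨j (x : E₁), hle x x.2⟩ = j₀ (r₁ x))
    {σ : Pt f E₁} {σ₀ : Pt f κ₁} (h : IsRed σ G₁ r₁ σ₀) :
    IsRed (mapPt j σ) G r (mapPt j₀ σ₀) := by
  obtain ⟨τ, h1, h2⟩ := h
  let jG : G₁ →+* G :=
    (j.toRingHom.comp (algebraMap G₁ E₁)).codRestrict G.toSubring (fun x => hle x x.2)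
  refine ⟨Spec.map (CommRingCat.ofHom jG) ≫ τ, ?_, ?_⟩
  · rw [H69.mapPt_val, ← h1, ← Category.assoc, ← Category.assoc, ← Spec.map_comp,
      ← Spec.map_comp]
    rfl
  · rw [H69.mapPt_val, ← h2, ← Category.assoc, ← Category.assoc, ← Spec.map_comp,
      ← Spec.map_comp, ← CommRingCat.ofHom_comp, ← CommRingCat.ofHom_comp]
    congr 3
    exact RingHom.ext hcomp

/-- **(B2)** the points of a subfield contained in `G` reduce to themselves. -/
theorem isRed_of_mem (j : E₁ →ₐ[K] E) (j₀ : E₁ →ₐ[K] κ) (G : ValuationSubring E)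
    (r : G →+* κ) (hmem : ∀ x : E₁, j x ∈ G) (hcomp : ∀ x : E₁, r ⟨j x, hmem x⟩ = j₀ x)
    (σ : Pt f E₁) : IsRed (mapPt j σ) G r (mapPt j₀ σ) := by
  let jG : E₁ →+* G := j.toRingHom.codRestrict G.toSubring hmem
  refine ⟨Spec.map (CommRingCat.ofHom jG) ≫ σ.1, ?_, ?_⟩
  · rw [H69.mapPt_val, ← Category.assoc, ← Spec.map_comp]
    rfl
  · rw [H69.mapPt_val, ← Category.assoc, ← Spec.map_comp, ← CommRingCat.ofHom_comp]
    congr 3
    exact RingHom.ext hcomp

/-- **(B2)** existence of the reduction (`f` universally closed). -/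
theorem exists_isRed [UniversallyClosed f] (σ : Pt f E) (G : ValuationSubring E)
    (hG : OverK K G) (r : G →+* κ)
    (hrK : ∀ a : K, r ⟨algebraMap K E a, hG a⟩ = algebraMap K κ a) :
    ∃ σ₀ : Pt f κ, IsRed σ G r σ₀ := by
  obtain ⟨τ, hτ⟩ := H90.exists_lift σ G hG
  refine ⟨⟨Spec.map (CommRingCat.ofHom r) ≫ τ, ?_⟩, τ, hτ, rfl⟩
  rw [Category.assoc, H69.centre_over σ G hG τ hτ]
  exact clG_comp G hG r hrK

/-- **(B2)** uniqueness of the reduction (`f` separated). -/
theorem isRed_unique [IsSeparated f] {σ : Pt f E} {G : ValuationSubring E} (hG : OverK K G)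
    {r : G →+* κ} {σ₀ σ₀' : Pt f κ} (h : IsRed σ G r σ₀) (h' : IsRed σ G r σ₀') :
    σ₀ = σ₀' := by
  obtain ⟨τ, h1, h2⟩ := h
  obtain ⟨τ', h1', h2'⟩ := h'
  apply Subtype.ext
  rw [← h2, ← h2', H90.lift_unique σ G hG τ τ' h1 h1']

/-- The residue map of the trivial valuation ring. -/
noncomputable def rTop (E : Type u) [Field E] : (⊤ : ValuationSubring E) →+* E :=
  algebraMap (⊤ : ValuationSubring E) E

/-- **(B2)** every point is its own reduction at the trivial valuation ring. -/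
theorem isRed_top (σ : Pt f E) : IsRed σ (⊤ : ValuationSubring E) (rTop E) σ := by
  let e : E →+* (⊤ : ValuationSubring E) :=
    (RingHom.id E).codRestrict (⊤ : ValuationSubring E).toSubring
      (fun x => ValuationSubring.mem_top x)
  refine ⟨Spec.map (CommRingCat.ofHom e) ≫ σ.1, ?_, ?_⟩
  · rw [← Category.assoc, ← Spec.map_comp]
    have he : CommRingCat.ofHom e ≫ CommRingCat.ofHom (algebraMap (⊤ : ValuationSubring E) E) =
        𝟙 (CommRingCat.of E) := rfl
    rw [he, Spec.map_id, Category.id_comp]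
  · rw [← Category.assoc, ← Spec.map_comp]
    have he : CommRingCat.ofHom e ≫ CommRingCat.ofHom (rTop E) = 𝟙 (CommRingCat.of E) := rfl
    rw [he, Spec.map_id, Category.id_comp]

end B2

/-! ## (B3) reduction and centres -/

section B3

/-- **(B3)** the image of the reduction is a centre. -/
theorem isCentre_of_isRed {σ : Pt f E} {G : ValuationSubring E} {r : G →+* κ} [IsLocalHom r]
    {σ₀ : Pt f κ} (h : IsRed σ G r σ₀) : IsCentre σ G (img σ₀) := by
  obtain ⟨τ, h1, h2⟩ := h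
  exact ⟨τ, h1, (H90.img_eq_of_lift r τ σ₀ h2).symm⟩

/-- **(B3)** the image of the reduction is the centre. -/
theorem centre_of_isRed [IsSeparated f] {σ : Pt f E} {G : ValuationSubring E}
    (hG : OverK K G) {r : G →+* κ} [IsLocalHom r] {σ₀ : Pt f κ} (h : IsRed σ G r σ₀) :
    centre σ G = img σ₀ :=
  H69.centre_eq σ G hG (isCentre_of_isRed h)

/-- **(B3)** the image of `σ` is a generisation of the image of its reduction. -/
theorem img_specializes_of_isRed {σ : Pt f E} {G : ValuationSubring E} {r : G →+* κ}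
    [IsLocalHom r] {σ₀ : Pt f κ} (h : IsRed σ G r σ₀) : img σ ⤳ img σ₀ :=
  H69.img_specializes_of_isCentre σ G (isCentre_of_isRed h)

variable (G : ValuationSubring E) (hG : OverK K G) (r : G →+* κ) (hr : Function.Surjective r)
  (hrK : ∀ a : K, r ⟨algebraMap K E a, hG a⟩ = algebraMap K κ a)

include hG hrK in
/-- The composite of `G` with a valuation ring over `K` is over `K`. -/
theorem overK_compV {V₀ : ValuationSubring κ} (hV₀ : OverK K V₀) :
    OverK K (H90.compV G r hr V₀) := by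
  intro a
  refine H90.mem_compV.2 ⟨⟨algebraMap K E a, hG a⟩, ?_, rfl⟩
  rw [hrK a]
  exact hV₀ a

include hG in
/-- **(B3)** the lift at a composite valuation ring: it restricts to the lift at `G` and to
the lift of the reduction at `V₀`. -/
theorem exists_lift_compV [IsProper f] {V₀ : ValuationSubring κ}
    (hV : OverK K (H90.compV G r hr V₀)) {σ : Pt f E} {σ₀ : Pt f κ} (h : IsRed σ G r σ₀) :
    ∃ τ' : Spec (CommRingCat.of (H90.compV G r hr V₀)) ⟶ A,
      Spec.map (CommRingCat.ofHom (algebraMap (H90.compV G r hr V₀) E)) ≫ τ' = σ.1 ∧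
      Spec.map (CommRingCat.ofHom ((algebraMap V₀ κ).comp (H90.rV G r hr V₀))) ≫ τ' = σ₀.1 := by
  obtain ⟨τ, h1, h2⟩ := h
  obtain ⟨τ', hτ'⟩ := H90.exists_lift σ (H90.compV G r hr V₀) hV
  have hle := H90.compV_le G r hr V₀
  have hres : Spec.map (CommRingCat.ofHom (ValuationSubring.inclusion _ _ hle)) ≫ τ' = τ := by
    refine H90.lift_unique σ G hG _ _ ?_ h1
    rw [← Category.assoc, ← Spec.map_comp, ← CommRingCat.ofHom_comp,
      H90.algebraMap_comp_inclusion]
    exact hτ'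
  refine ⟨τ', hτ', ?_⟩
  rw [H90.algebraMap_comp_rV, CommRingCat.ofHom_comp, Spec.map_comp, Category.assoc, hres]
  exact h2

include hG in
/-- **(B3)** transitivity of the reduction along a composite valuation ring. -/
theorem isRed_compV [IsProper f] {V₀ : ValuationSubring κ}
    (hV : OverK K (H90.compV G r hr V₀)) {κ₀ : Type u} [Field κ₀] [Algebra K κ₀]
    (r₀ : V₀ →+* κ₀) {σ : Pt f E} {σ₀ : Pt f κ} {σ₀₀ : Pt f κ₀} (h : IsRed σ G r σ₀)
    (h₀ : IsRed σ₀ V₀ r₀ σ₀₀) (hV₀ : OverK K V₀) :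
    IsRed σ (H90.compV G r hr V₀) (r₀.comp (H90.rV G r hr V₀)) σ₀₀ := by
  obtain ⟨τ', h1, h2⟩ := exists_lift_compV G hG r hr hV h
  obtain ⟨τ₀, h01, h02⟩ := h₀
  refine ⟨τ', h1, ?_⟩
  have e : Spec.map (CommRingCat.ofHom (H90.rV G r hr V₀)) ≫ τ' = τ₀ := by
    refine H90.lift_unique σ₀ V₀ hV₀ _ _ ?_ h01
    rw [← Category.assoc, ← Spec.map_comp, ← CommRingCat.ofHom_comp]
    exact h2
  rw [CommRingCat.ofHom_comp, Spec.map_comp, Category.assoc, e]
  exact h02

include hG in
/-- **(B3)** the centre at a composite valuation ring is the centre of the reduction. -/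
theorem isCentre_compV [IsProper f] {V₀ : ValuationSubring κ}
    (hV : OverK K (H90.compV G r hr V₀)) (hV₀ : OverK K V₀) {σ : Pt f E} {σ₀ : Pt f κ}
    (h : IsRed σ G r σ₀) {c : A} (hc : IsCentre σ₀ V₀ c) :
    IsCentre σ (H90.compV G r hr V₀) c := by
  obtain ⟨τ', h1, h2⟩ := exists_lift_compV G hG r hr hV h
  obtain ⟨τ₀, h01, rfl⟩ := hc
  refine ⟨τ', h1, ?_⟩
  have e : Spec.map (CommRingCat.ofHom (H90.rV G r hr V₀)) ≫ τ' = τ₀ := by
    refine H90.lift_unique σ₀ V₀ hV₀ _ _ ?_ h01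
    rw [← Category.assoc, ← Spec.map_comp, ← CommRingCat.ofHom_comp]
    exact h2
  haveI : IsLocalHom (H90.rV G r hr V₀) :=
    IsLocalHom.of_surjective _ (H90.rV_surjective G r hr V₀)
  have e2 : Spec.map (CommRingCat.ofHom (H90.rV G r hr V₀)) (closedPoint V₀) =
      closedPoint (H90.compV G r hr V₀) := comap_closedPoint (H90.rV G r hr V₀)
  rw [← e]
  show _ = τ' (Spec.map (CommRingCat.ofHom (H90.rV G r hr V₀)) (closedPoint V₀))
  rw [e2]

include hG hrK in
/-- **(B3)** the centre at a composite valuation ring is the centre of the reduction. -/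
theorem centre_compV [IsProper f] {V₀ : ValuationSubring κ} (hV₀ : OverK K V₀)
    {σ : Pt f E} {σ₀ : Pt f κ} (h : IsRed σ G r σ₀) :
    centre σ (H90.compV G r hr V₀) = centre σ₀ V₀ :=
  H69.centre_eq σ _ (overK_compV G hG r hr hrK hV₀)
    (isCentre_compV G hG r hr (overK_compV G hG r hr hrK hV₀) hV₀ h
      (H69.isCentre_centre σ₀ V₀ hV₀))

end B3

/-! ## (B4) values of functions reduce -/

section B4

variable [IsIntegral A]

/-- **(B4)** `r (σ^♯ h) = σ₀^♯ h` for `h` regular at the image of the reduction. -/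
theorem pullAt_reg_of_isRed {σ : Pt f E} {G : ValuationSubring E} {r : G →+* κ}
    [IsLocalHom r] {σ₀ : Pt f κ} (h : IsRed σ G r σ₀) {u : A.functionField}
    (hu : IsRegAt (img σ₀) u) : ∃ y : G, (y : E) = pullAt σ u ∧ r y = pullAt σ₀ u := by
  obtain ⟨τ, h1, h2⟩ := h
  rw [H90.img_eq_of_lift r τ σ₀ h2] at hu
  obtain ⟨a, rfl⟩ := hu
  refine ⟨(Scheme.stalkClosedPointTo τ).hom a, ?_, ?_⟩
  · exact (H90.pullAt_of_lift (algebraMap G E) τ σ h1 a).symm
  · exact (H90.pullAt_of_lift r τ σ₀ h2 a).symm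

/-- **(B4)** the same for units: the value is a unit of `G`. -/
theorem pullAt_unit_of_isRed {σ : Pt f E} {G : ValuationSubring E} {r : G →+* κ}
    [IsLocalHom r] {σ₀ : Pt f κ} (h : IsRed σ G r σ₀) {u : A.functionField}
    (hu : IsUnitAt (img σ₀) u) :
    ∃ y : Gˣ, ((y : G) : E) = pullAt σ u ∧ r (y : G) = pullAt σ₀ u := by
  obtain ⟨τ, h1, h2⟩ := h
  rw [H90.img_eq_of_lift r τ σ₀ h2] at hu
  obtain ⟨a, ha, rfl⟩ := hu
  have hy : IsUnit ((Scheme.stalkClosedPointTo τ).hom a) := ha.map _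
  refine ⟨hy.unit, ?_, ?_⟩
  · exact (H90.pullAt_of_lift (algebraMap G E) τ σ h1 a).symm
  · exact (H90.pullAt_of_lift r τ σ₀ h2 a).symm

end B4

/-! ## (B5) the MOVING core -/

section B5

variable [IsIntegral A]

/-- Quotients of local equations at two specialisations of `x` are units at `x`. -/
theorem isUnitAt_div_div {D : A → A.functionField} (hD : IsCartier D) {x c c' : A}
    (hc : x ⤳ c) (hc' : x ⤳ c') : IsUnitAt x (D c / D c') := by
  have h1 := H14.isUnitAt_div_of_isCartier hD hc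
  have h2 := H14.isUnitAt_div_of_isCartier hD hc'
  have h3 := H14.isUnitAt_div h1 h2
  have e : D c / D x / (D c' / D x) = D c / D c' := by
    have hx : D x ≠ 0 := hD.1 x
    have hc'0 : D c' ≠ 0 := hD.1 c'
    field_simp
  rwa [e] at h3

/-- `pullV σ D c / pullV σ D c' = σ^♯ (D c / D c')` for two specialisations of `img σ`. -/
theorem pullV_div_pullV (σ : Pt f E) {D : A → A.functionField} (hD : IsCartier D) {c c' : A}
    (hc : img σ ⤳ c) (hc' : img σ ⤳ c') :
    pullV σ D c / pullV σ D c' = pullAt σ (D c / D c') := by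
  unfold pullV
  rw [← H69.pullAt_div σ (H14.isRegAt_of_isUnitAt (H14.isUnitAt_div_of_isCartier hD hc))
    (H14.isUnitAt_div_of_isCartier hD hc')]
  congr 1
  have hx : D (img σ) ≠ 0 := hD.1 _
  have hc'0 : D c' ≠ 0 := hD.1 c'
  field_simp

/-- `pullV σ D c ≠ 0` for a specialisation of `img σ`. -/
theorem pullV_ne_zero (σ : Pt f E) {D : A → A.functionField} (hD : IsCartier D) {c : A}
    (hc : img σ ⤳ c) : pullV σ D c ≠ 0 :=
  H69.pullAt_ne_zero σ (H14.isUnitAt_div_of_isCartier hD hc)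

/-- **Generisation at a centre**: `c' ⤳ c`, `c'` a centre of `σ` at `V`:
`pullV σ D c' / pullV σ D c ∈ Vˣ`. -/
theorem uIn_pullV_div (σ : Pt f E) {D : A → A.functionField} (hD : IsCartier D)
    {V : ValuationSubring E} {c c' : A} (hc' : IsCentre σ V c') (hsp : c' ⤳ c) :
    H69.UIn V (pullV σ D c' / pullV σ D c) := by
  have hη' : img σ ⤳ c' := H69.img_specializes_of_isCentre σ V hc'
  rw [pullV_div_pullV σ hD hη' (hη'.trans hsp)]
  have hu : IsUnitAt c' (D c' / D c) := by
    have h := H14.isUnitAt_inv (H14.isUnitAt_div_of_isCartier hD hsp)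
    rwa [inv_div] at h
  exact H69.pullAt_mem_of_isUnitAt σ V hc' hu

/-- **(B5), the MOVING core** (centres as data).  `σ₀` the reduction of `σ` at `G`, `c` a
specialisation of `img σ₀`.  Then `T := σ^♯ (D c / D (img σ₀))` is a unit of `G` with
reduction `pullV σ₀ D c`, and at every valuation ring `V` where `σ` has a centre `c' ⤳ c`:
`pullV σ D c' = T · M · unit of V`, `M := pullV σ D (img σ₀)` (independent of `c`, `V`). -/
theorem moving {σ : Pt f E} {G : ValuationSubring E} {r : G →+* κ} [IsLocalHom r]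
    {σ₀ : Pt f κ} (h : IsRed σ G r σ₀) {D : A → A.functionField} (hD : IsCartier D) {c : A}
    (hc : img σ₀ ⤳ c) :
    ∃ y : Gˣ, ((y : G) : E) = pullAt σ (D c / D (img σ₀)) ∧ r (y : G) = pullV σ₀ D c ∧
      ∀ (V : ValuationSubring E) (c' : A), IsCentre σ V c' → c' ⤳ c →
        H69.UIn V (pullV σ D c' / (((y : G) : E) * pullV σ D (img σ₀))) := by
  have hu : IsUnitAt (img σ₀) (D c / D (img σ₀)) := H14.isUnitAt_div_of_isCartier hD hc
  obtain ⟨y, hy1, hy2⟩ := pullAt_unit_of_isRed h hu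
  refine ⟨y, hy1, hy2, ?_⟩
  intro V c' hc' hsp
  have hη : img σ ⤳ img σ₀ := img_specializes_of_isRed h
  have e : ((y : G) : E) * pullV σ D (img σ₀) = pullV σ D c := by
    rw [hy1]
    have h1 := pullV_div_pullV σ hD (hη.trans hc) hη
    rw [← h1]
    exact div_mul_cancel₀ _ (pullV_ne_zero σ hD hη)
  rw [e]
  exact uIn_pullV_div σ hD hc' hsp

/-- **(B5), the MOVING core** for `pb`: `pb σ D V = T_c · pb σ D G · unit of V` for every
`V ⊇ K` with `centre σ V ⤳ c`. -/
theorem moving_pb [IsProper f] {σ : Pt f E} {G : ValuationSubring E} (hG : OverK K G)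
    {r : G →+* κ} [IsLocalHom r] {σ₀ : Pt f κ} (h : IsRed σ G r σ₀)
    {D : A → A.functionField} (hD : IsCartier D) {c : A} (hc : img σ₀ ⤳ c) :
    ∃ y : Gˣ, ((y : G) : E) = pullAt σ (D c / D (img σ₀)) ∧ r (y : G) = pullV σ₀ D c ∧
      ∀ V : ValuationSubring E, OverK K V → centre σ V ⤳ c →
        H69.UIn V (pb σ D V / (((y : G) : E) * pb σ D G)) := by
  obtain ⟨y, hy1, hy2, hy3⟩ := moving h hD hc
  refine ⟨y, hy1, hy2, fun V hV hsp => ?_⟩
  have hM : pb σ D G = pullV σ D (img σ₀) := by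
    unfold pb
    rw [centre_of_isRed hG h]
  rw [hM]
  exact hy3 V (centre σ V) (H69.isCentre_centre σ V hV) hsp

/-- **(B5)** with `c` the centre of the reduction at a valuation ring `V₀` of `κ`:
`r T = pb σ₀ D V₀`. -/
theorem moving_pb' [IsProper f] {σ : Pt f E} {G : ValuationSubring E} (hG : OverK K G)
    {r : G →+* κ} [IsLocalHom r] {σ₀ : Pt f κ} (h : IsRed σ G r σ₀)
    {D : A → A.functionField} (hD : IsCartier D) (V₀ : ValuationSubring κ)
    (hV₀ : OverK K V₀) :
    ∃ y : Gˣ, r (y : G) = pb σ₀ D V₀ ∧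
      ∀ V : ValuationSubring E, OverK K V → centre σ V ⤳ centre σ₀ V₀ →
        H69.UIn V (pb σ D V / (((y : G) : E) * pb σ D G)) := by
  obtain ⟨y, -, hy2, hy3⟩ := moving_pb hG h hD (H69.img_specializes_centre σ₀ V₀ hV₀)
  exact ⟨y, hy2, hy3⟩

/-- **(B5)** for a family: `Λ := ∏ pb (σ i) D ^ ε i`;  `Λ V = T · Λ G · unit of V` with
`T ∈ Gˣ`, `r T = ∏ pullV (σ₀ i) D (c i) ^ ε i`, for every `V ⊇ K` with
`centre (σ i) V ⤳ c i` for all `i`. -/
theorem moving_prod [IsProper f] {ι : Type*} [Fintype ι] (σ : ι → Pt f E) (σ₀ : ι → Pt f κ)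
    (ε : ι → ℤ) {G : ValuationSubring E} (hG : OverK K G) {r : G →+* κ} [IsLocalHom r]
    (h : ∀ i, IsRed (σ i) G r (σ₀ i)) {D : A → A.functionField} (hD : IsCartier D)
    (c : ι → A) (hc : ∀ i, img (σ₀ i) ⤳ c i) :
    ∃ y : Gˣ, r (y : G) = ∏ i, pullV (σ₀ i) D (c i) ^ ε i ∧
      ∀ V : ValuationSubring E, OverK K V → (∀ i, centre (σ i) V ⤳ c i) →
        H69.UIn V ((∏ i, pb (σ i) D ^ ε i) V /
          (((y : G) : E) * (∏ i, pb (σ i) D ^ ε i) G)) := by
  classical
  choose y hy1 hy2 hy3 using fun i => moving_pb hG (h i) hD (hc i)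
  refine ⟨∏ i, y i ^ ε i, ?_, ?_⟩
  · rw [H90.map_prod_zpow_units r Finset.univ y ε]
    exact Finset.prod_congr rfl fun i _ => by rw [hy2 i]
  · intro V hV hsp
    have e1 := H90.map_prod_zpow_units (algebraMap G E) Finset.univ y ε
    have e1' : (((∏ i, y i ^ ε i : Gˣ) : G) : E) = ∏ i, ((y i : G) : E) ^ ε i := e1
    rw [e1', Finset.prod_apply, Finset.prod_apply, ← Finset.prod_mul_distrib,
      ← Finset.prod_div_distrib]
    refine H69.UIn.prod _ _ fun i _ => ?_
    rw [Pi.pow_apply, Pi.pow_apply, ← mul_zpow, ← div_zpow]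
    exact (hy3 i V hV (hsp i)).zpow (ε i)

/-- **(B5), comparison of two valuation rings through the reduction**: if the centres of `σ`
at `V` and `V'` are specialisations of `img σ₀`, then `pb σ D V / pb σ D V'` is a unit of `G`
and its reduction is `pullV σ₀ D (centre σ V) / pullV σ₀ D (centre σ V')`. -/
theorem pb_div_pb_of_isRed [IsProper f] {σ : Pt f E} {G : ValuationSubring E}
    {r : G →+* κ} [IsLocalHom r] {σ₀ : Pt f κ} (h : IsRed σ G r σ₀)
    {D : A → A.functionField} (hD : IsCartier D) (V V' : ValuationSubring E)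
    (hV : img σ₀ ⤳ centre σ V) (hV' : img σ₀ ⤳ centre σ V') :
    ∃ y : Gˣ, ((y : G) : E) = pb σ D V / pb σ D V' ∧
      r (y : G) = pullV σ₀ D (centre σ V) / pullV σ₀ D (centre σ V') := by
  have hη : img σ ⤳ img σ₀ := img_specializes_of_isRed h
  obtain ⟨y, hy1, hy2⟩ := pullAt_unit_of_isRed h (isUnitAt_div_div hD hV hV')
  refine ⟨y, ?_, ?_⟩
  · rw [hy1]
    exact (pullV_div_pullV σ hD (hη.trans hV) (hη.trans hV')).symm
  · rw [hy2]
    exact (pullV_div_pullV σ₀ hD hV hV').symm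

end B5

end Fermat.Agent.S26.C.X.H86
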