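import Mathlib
import Fermat.Agent.S26.C.X.Defs
import Fermat.Agent.S26.E.H14_Pts

/-!
# S26 (C), cube side, leaf CUBE3_of (helper8): `CENTRE → PRIG → CUBE3`

Induction on the list `l` of curves of the first block.  General lemmas of the valuative
language proved on the way:

* `mapPt_mul`, `mapPt_one`, `mapPt_list_prod`, `mapPt_mapPt` : base change of points is a
  homomorphism of groups, functorial;
* `pullAt_one`, `pullAt_of_isUnitAt` ;
* `pb_ne_zero` : the local equations of `σ^* D` are nonzero (at the valuation rings `⊇ K`);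
* `pb_one` : the pull-back along the zero point is trivial;
* `isVPt_one`, `IsVPt.mul_of_div` .
-/

set_option autoImplicit false
set_option linter.style.haveILetI false
set_option linter.unusedSectionVars false

open CategoryTheory CategoryTheory.Limits AlgebraicGeometry NeronModelInfra GoodReductionJacobian
open scoped IntermediateField

universe u

namespace Fermat.Agent.S26.C.X.H8

section Points

variable {K : Type u} [Field K] {A : Scheme.{u}} {f : A ⟶ Spec (CommRingCat.of K)}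
variable (L : RelativeGroupLaw K f)
variable {E : Type u} [Field E] [Algebra K E] {E' : Type u} [Field E'] [Algebra K E']

theorem str_map (j : E →ₐ[K] E') :
    Spec.map (CommRingCat.ofHom j.toRingHom) ≫ str K E = str K E' := by
  unfold str
  rw [← Spec.map_comp, ← CommRingCat.ofHom_comp]
  congr 2
  exact j.comp_algebraMap

theorem mapPt_eq (j : E →ₐ[K] E') (σ : Pt f E) :
    mapPt j σ = schemeHomOverComp (Spec.map (CommRingCat.ofHom j.toRingHom)) (str_map j) σ :=
  rfl

theorem mapPt_mul (j : E →ₐ[K] E') (σ τ : Pt f E) :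
    mapPt j (L.mul (str K E) σ τ) = L.mul (str K E') (mapPt j σ) (mapPt j τ) := by
  rw [mapPt_eq, mapPt_eq, mapPt_eq]
  exact L.mul_natural _ _ _ _ σ τ

theorem mapPt_one (j : E →ₐ[K] E') :
    mapPt j (L.one (str K E)) = (L.one (str K E') : Pt f E') := by
  rw [mapPt_eq]
  exact L.one_natural _ _ _ _

theorem mapPt_list_prod (j : E →ₐ[K] E') (l : List (Pt f E)) :
    mapPt j (letI : Group (Pt f E) := L.pointGroup (str K E); l.prod) =
      (letI : Group (Pt f E') := L.pointGroup (str K E'); (l.map (mapPt j)).prod) := by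
  induction l with
  | nil => exact mapPt_one L j
  | cons a l ih =>
    letI : Group (Pt f E) := L.pointGroup (str K E)
    letI : Group (Pt f E') := L.pointGroup (str K E')
    rw [List.prod_cons, List.map_cons, List.prod_cons]
    change mapPt j (L.mul (str K E) a l.prod) = L.mul (str K E') (mapPt j a) _
    rw [mapPt_mul, ih]

theorem mapPt_mapPt {E'' : Type u} [Field E''] [Algebra K E''] (j : E →ₐ[K] E')
    (j' : E' →ₐ[K] E'') (σ : Pt f E) : mapPt j' (mapPt j σ) = mapPt (j'.comp j) σ := by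
  apply Subtype.ext
  change Spec.map _ ≫ (Spec.map _ ≫ σ.1) = Spec.map _ ≫ σ.1
  rw [← Category.assoc, ← Spec.map_comp, ← CommRingCat.ofHom_comp]
  rfl

end Points

section Pull

variable {K : Type u} [Field K] {A : Scheme.{u}} {f : A ⟶ Spec (CommRingCat.of K)}
variable [IsIntegral A] {E : Type u} [Field E] [Algebra K E]

theorem pullAt_algebraMap (σ : Pt f E) (a : A.presheaf.stalk (img σ)) :
    pullAt σ (algebraMap (A.presheaf.stalk (img σ)) A.functionField a) = germ σ a := by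
  have hr : IsRegAt (img σ) (algebraMap (A.presheaf.stalk (img σ)) A.functionField a) :=
    ⟨a, rfl⟩
  unfold pullAt
  rw [dif_pos hr]
  congr 1
  exact IsFractionRing.injective (A.presheaf.stalk (img σ)) A.functionField hr.choose_spec

theorem pullAt_one (σ : Pt f E) : pullAt σ (1 : A.functionField) = 1 := by
  have h := pullAt_algebraMap σ 1
  rwa [map_one, map_one] at h

theorem pullAt_ne_zero_of_isUnitAt (σ : Pt f E) (h : A.functionField)
    (hu : IsUnitAt (img σ) h) : pullAt σ h ≠ 0 := by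
  obtain ⟨a, ha, rfl⟩ := hu
  rw [pullAt_algebraMap]
  exact (ha.map (germ σ)).ne_zero

/-- The image of a point specialises to its centres. -/
theorem img_specializes_of_isCentre (σ : Pt f E) (V : ValuationSubring E) (c : A)
    (h : IsCentre σ V c) : img σ ⤳ c := by
  obtain ⟨τ, hτ, rfl⟩ := h
  have h1 : img σ = τ ((Spec.map (CommRingCat.ofHom (algebraMap V E)))
      (IsLocalRing.closedPoint (CommRingCat.of E))) := by
    unfold img
    rw [← hτ]
    rfl
  rw [h1]
  exact (IsLocalRing.specializes_closedPoint _).map τ.continuous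

theorem centre_spec (hC : Stmt_CENTRE.{u}) [IsProper f] (σ : Pt f E) (V : ValuationSubring E)
    (hV : OverK K V) : IsCentre σ V (centre σ V) := by
  have hex : ∃ c, IsCentre σ V c := (hC K f E σ V hV).exists
  unfold centre
  rw [dif_pos hex]
  exact hex.choose_spec

theorem centre_eq (hC : Stmt_CENTRE.{u}) [IsProper f] (σ : Pt f E) (V : ValuationSubring E)
    (hV : OverK K V) (c : A) (h : IsCentre σ V c) : centre σ V = c :=
  (hC K f E σ V hV).unique (centre_spec hC σ V hV) h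

/-- The local equations of `σ^* D` are nonzero. -/
theorem pb_ne_zero (hC : Stmt_CENTRE.{u}) [IsProper f] (σ : Pt f E) (D : A → A.functionField)
    (hD : IsCartier D) (V : ValuationSubring E) (hV : OverK K V) : pb σ D V ≠ 0 := by
  have hsp := img_specializes_of_isCentre σ V _ (centre_spec hC σ V hV)
  obtain ⟨W, hcW, hW⟩ := hD.2 (centre σ V)
  have hmem : img σ ∈ W := hsp.mem_open W.isOpen hcW
  exact pullAt_ne_zero_of_isUnitAt σ _ (hW _ hmem)

/-- The zero point has centre `0` at every valuation ring containing `K`. -/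
theorem isCentre_one (L : RelativeGroupLaw K f) (V : ValuationSubring E) (hV : OverK K V) :
    IsCentre (L.one (str K E) : Pt f E) V (orig L) := by
  let kV : K →+* V := (algebraMap K E).codRestrict V.toSubring hV
  refine ⟨Spec.map (CommRingCat.ofHom kV) ≫ zeroHom L, ?_, ?_⟩
  · rw [Fermat.Agent.S26.E.H14.one_val]
    rw [← Category.assoc, ← Spec.map_comp, ← CommRingCat.ofHom_comp]
    rfl
  · unfold orig
    change (zeroHom L) ((Spec.map (CommRingCat.ofHom kV)) _) = _
    congr 1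
    exact Subsingleton.elim _ _

theorem img_one (L : RelativeGroupLaw K f) : img (L.one (str K E) : Pt f E) = orig L := by
  unfold img orig
  rw [Fermat.Agent.S26.E.H14.one_val]
  change (zeroHom L) ((str K E) _) = _
  congr 1
  exact Subsingleton.elim _ _

/-- The pull-back along the zero point is trivial. -/
theorem pb_one (hC : Stmt_CENTRE.{u}) [IsProper f] (L : RelativeGroupLaw K f)
    (D : A → A.functionField) (hD : IsCartier D) (V : ValuationSubring E) (hV : OverK K V) :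
    pb (L.one (str K E) : Pt f E) D V = 1 := by
  unfold pb pullV
  rw [centre_eq hC _ V hV _ (isCentre_one L V hV), img_one, div_self (hD.1 _)]
  exact pullAt_one _

end Pull

section VP

variable {K : Type u} [Field K] {E : Type u} [Field E] [Algebra K E]

theorem isVP_of_eq_one (Λ : ValuationSubring E → E)
    (h : ∀ V : ValuationSubring E, OverK K V → Λ V = 1) : IsVP K Λ := by
  refine ⟨1, one_ne_zero, fun V hV => ?_⟩
  rw [h V hV]
  simp [V.one_mem]

theorem isVP_congr {Λ Λ' : ValuationSubring E → E} (h : IsVP K Λ)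
    (heq : ∀ V : ValuationSubring E, OverK K V → Λ V = Λ' V) : IsVP K Λ' := by
  obtain ⟨Ψ, hΨ, hV⟩ := h
  refine ⟨Ψ, hΨ, fun V hVK => ?_⟩
  rw [← heq V hVK]
  exact hV V hVK

theorem isVP_mul {Λ₁ Λ₂ : ValuationSubring E → E} (h₁ : IsVP K Λ₁) (h₂ : IsVP K Λ₂) :
    IsVP K (Λ₁ * Λ₂) := by
  obtain ⟨Ψ₁, hΨ₁, hV₁⟩ := h₁
  obtain ⟨Ψ₂, hΨ₂, hV₂⟩ := h₂
  refine ⟨Ψ₁ * Ψ₂, mul_ne_zero hΨ₁ hΨ₂, fun V hVK => ?_⟩
  obtain ⟨a₁, b₁⟩ := hV₁ V hVK
  obtain ⟨a₂, b₂⟩ := hV₂ V hVK
  constructor
  · have h := V.mul_mem _ _ a₁ a₂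
    have e : Ψ₁ * Ψ₂ * ((Λ₁ * Λ₂) V)⁻¹ = Ψ₁ * (Λ₁ V)⁻¹ * (Ψ₂ * (Λ₂ V)⁻¹) := by
      rw [Pi.mul_apply, mul_inv]; ring
    rw [e]; exact h
  · have h := V.mul_mem _ _ b₁ b₂
    have e : (Λ₁ * Λ₂) V * (Ψ₁ * Ψ₂)⁻¹ = Λ₁ V * Ψ₁⁻¹ * (Λ₂ V * Ψ₂⁻¹) := by
      rw [Pi.mul_apply, mul_inv]; ring
    rw [e]; exact h

theorem isVP_pow {Λ : ValuationSubring E → E} (h : IsVP K Λ) (n : ℕ) : IsVP K (Λ ^ n) := by
  induction n with
  | zero =>
    rw [pow_zero]
    exact isVP_of_eq_one _ (fun _ _ => rfl)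
  | succ n ih =>
    rw [pow_succ]
    exact isVP_mul ih h

theorem isVPt_of_eq_one (Λ : ValuationSubring E → E)
    (h : ∀ V : ValuationSubring E, OverK K V → Λ V = 1) : IsVPt K Λ :=
  ⟨1, Nat.one_pos, by rw [pow_one]; exact isVP_of_eq_one Λ h⟩

/-- `Λ₁ / Λ₂` and `Λ₂` principal up to torsion, `Λ₂` without zeros ⟹ `Λ₁` principal up to
torsion. -/
theorem isVPt_of_div {Λ₁ Λ₂ : ValuationSubring E → E} (h₁ : IsVPt K (Λ₁ / Λ₂))
    (h₂ : IsVPt K Λ₂) (hne : ∀ V : ValuationSubring E, OverK K V → Λ₂ V ≠ 0) :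
    IsVPt K Λ₁ := by
  obtain ⟨k₁, hk₁, hv₁⟩ := h₁
  obtain ⟨k₂, hk₂, hv₂⟩ := h₂
  refine ⟨k₁ * k₂, Nat.mul_pos hk₁ hk₂, ?_⟩
  refine isVP_congr (isVP_mul (isVP_pow hv₁ k₂) (isVP_pow hv₂ k₁)) (fun V hV => ?_)
  simp only [Pi.mul_apply, Pi.pow_apply, Pi.div_apply]
  have := hne V hV
  rw [← pow_mul, ← pow_mul, mul_comm k₂ k₁, ← mul_pow, div_mul_cancel₀ _ this]

end VP

section Theta

variable {K : Type u} [Field K] {A : Scheme.{u}} {f : A ⟶ Spec (CommRingCat.of K)}
variable [IsIntegral A] {E : Type u} [Field E] [Algebra K E]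

theorem thetaV_apply (L : RelativeGroupLaw K f) (x₁ x₂ x₃ : Pt f E) (D : A → A.functionField)
    (V : ValuationSubring E) :
    thetaV L x₁ x₂ x₃ D V =
      pb (L.mul (str K E) (L.mul (str K E) x₁ x₂) x₃) D V * pb x₁ D V * pb x₂ D V * pb x₃ D V /
        (pb (L.mul (str K E) x₁ x₂) D V * pb (L.mul (str K E) x₁ x₃) D V *
          pb (L.mul (str K E) x₂ x₃) D V) :=
  rfl

theorem thetaV_ne_zero (hC : Stmt_CENTRE.{u}) [IsProper f] (L : RelativeGroupLaw K f)
    (x₁ x₂ x₃ : Pt f E) (D : A → A.functionField) (hD : IsCartier D) (V : ValuationSubring E)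
    (hV : OverK K V) : thetaV L x₁ x₂ x₃ D V ≠ 0 := by
  rw [thetaV_apply]
  have h := fun σ : Pt f E => pb_ne_zero hC σ D hD V hV
  exact div_ne_zero (mul_ne_zero (mul_ne_zero (mul_ne_zero (h _) (h _)) (h _)) (h _))
    (mul_ne_zero (mul_ne_zero (h _) (h _)) (h _))

/-- `Θ(0, β, γ) = 0`. -/
theorem thetaV_one (hC : Stmt_CENTRE.{u}) [IsProper f] (L : RelativeGroupLaw K f)
    (x₂ x₃ : Pt f E) (D : A → A.functionField) (hD : IsCartier D) (V : ValuationSubring E)
    (hV : OverK K V) : thetaV L (L.one (str K E)) x₂ x₃ D V = 1 := by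
  rw [thetaV_apply, L.one_mul, L.one_mul, pb_one hC L D hD V hV]
  have h := fun σ : Pt f E => pb_ne_zero hC σ D hD V hV
  have h1 := h (L.mul (str K E) x₂ x₃)
  have h2 := h x₂
  have h3 := h x₃
  field_simp

end Theta

section Block

variable {K : Type u} [Field K] {A : Scheme.{u}} {f : A ⟶ Spec (CommRingCat.of K)}
variable {E : Type u} [Field E] [Algebra K E] {ι : Type}

theorem le_blk_compl (F : ι → IntermediateField K E) {i i₀ : ι} (h : i ≠ i₀) :
    F i ≤ blk F {i₀}ᶜ :=
  le_iSup₂_of_le i (by simpa using h) le_rfl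

open Classical in
/-- The points of the curves `≠ i₀` as points of the block `{i₀}ᶜ`. -/
noncomputable def blkPt (L : RelativeGroupLaw K f) (F : ι → IntermediateField K E) (i₀ : ι)
    (ξ : ∀ i, Pt f (F i)) (i : ι) : Pt f (blk F {i₀}ᶜ) :=
  if h : i ≠ i₀ then mapPt (IntermediateField.inclusion (le_blk_compl F h)) (ξ i)
  else L.one (str K (blk F {i₀}ᶜ))

theorem incPt_blkPt (L : RelativeGroupLaw K f) (F : ι → IntermediateField K E) (i₀ : ι)
    (ξ : ∀ i, Pt f (F i)) {i : ι} (h : i ≠ i₀) : incPt (blkPt L F i₀ ξ i) = incPt (ξ i) := by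
  unfold blkPt incPt
  rw [dif_pos h, mapPt_mapPt]
  rfl

/-- The product of the points of a list of curves `≠ i₀`, as a point of the block `{i₀}ᶜ`. -/
noncomputable def blkProd (L : RelativeGroupLaw K f) (F : ι → IntermediateField K E) (i₀ : ι)
    (ξ : ∀ i, Pt f (F i)) (l : List ι) : Pt f (blk F {i₀}ᶜ) :=
  letI : Group (Pt f (blk F {i₀}ᶜ)) := L.pointGroup (str K (blk F {i₀}ᶜ))
  (l.map (blkPt L F i₀ ξ)).prod

theorem incPt_blkProd (L : RelativeGroupLaw K f) (F : ι → IntermediateField K E) (i₀ : ι)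
    (ξ : ∀ i, Pt f (F i)) (l : List ι) (hl : i₀ ∉ l) :
    incPt (blkProd L F i₀ ξ l) = prodPt L F l ξ := by
  unfold blkProd prodPt incPt
  rw [mapPt_list_prod, List.map_map]
  congr 1
  apply List.map_congr_left
  intro i hi
  have hne : i ≠ i₀ := fun h => hl (h ▸ hi)
  exact incPt_blkPt L F i₀ ξ hne

theorem prodPt_cons (L : RelativeGroupLaw K f) (F : ι → IntermediateField K E) (i₀ : ι)
    (l : List ι) (ξ : ∀ i, Pt f (F i)) :
    prodPt L F (i₀ :: l) ξ = L.mul (str K E) (incPt (ξ i₀)) (prodPt L F l ξ) := by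
  unfold prodPt
  letI : Group (Pt f E) := L.pointGroup (str K E)
  rw [List.map_cons, List.prod_cons]
  rfl

theorem prodPt_nil (L : RelativeGroupLaw K f) (F : ι → IntermediateField K E)
    (ξ : ∀ i, Pt f (F i)) : prodPt L F [] ξ = L.one (str K E) := rfl

end Block

/-- **CUBE3 from PRIG**. -/
theorem stmt_CUBE3_of : Stmt_CUBE3_of.{u} := by
  intro hC hP K _ A f L g hAV _ E _ _ ι _ F hF o ho l S₂ S₃ hnd hl hdisj ξ β γ hξ hβ hγ D hD
  haveI : IsProper f := hAV.bundle.proper
  induction l with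
  | nil =>
    rw [prodPt_nil]
    exact isVPt_of_eq_one _ (fun V hV => thetaV_one hC L _ _ D hD V hV)
  | cons i₀ l ih =>
    have hnd' := List.nodup_cons.mp hnd
    have hi₀ := hl i₀ (List.mem_cons_self)
    have ih' := ih hnd'.2 (fun i hi => hl i (List.mem_cons_of_mem _ hi))
      (fun i hi => hξ i (List.mem_cons_of_mem _ hi))
    have hp := hP K f L g hAV E ι F hF o ho i₀ S₂ S₃ hi₀.1 hi₀.2 hdisj (ξ i₀) β γ
      (blkProd L F i₀ ξ l) (hξ i₀ (List.mem_cons_self)) hβ hγ D hD
    rw [incPt_blkProd L F i₀ ξ l hnd'.1] at hp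
    rw [prodPt_cons]
    exact isVPt_of_div hp ih' (fun V hV => thetaV_ne_zero hC L _ _ _ D hD V hV)

end Fermat.Agent.S26.C.X.H8
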