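import Mathlib
import Fermat.Agent.S26.C.X.H86_Bridge
import Fermat.Agent.S26.C.X.H63_Rules
import Fermat.Agent.S26.C.X.H8_Cube3

/-!
# S26 (C), cube side, PRIG scheme fact MOV (helper86), abstract part

`(G, r)` a valuation ring of `E` over `K` with residue map `r : G →+* κ`.

* `Mov G r Λ Λ₀ V₀ 𝒱` : the valuative divisor `Λ` of `E` moves to `Λ₀` (a valuative divisor of
  `κ`): `Λ G ≠ 0` and there is a unit `y` of `G` with `r y = Λ₀ V₀` and
  `Λ V / (y · Λ G) ∈ Vˣ` for all `V ∈ 𝒱`;  `Mov.mul`, `Mov.div`, `Mov.one`;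
* `mov_pb` : `Mov` for `pb σ D`, `pb σ₀ D` when `IsRed σ G r σ₀` and the centres of `σ` at the
  `V ∈ 𝒱` are the centre of `σ₀` at `V₀`;
* `TubeData V V₀`, `TubeData.Rel` : `σ` and `σ₀` have the same reduction in `A(K)` at `V` and at
  `V₀`; closed under products; `TubeData.Rel.centre_eq`;
* `mov_thetaV`, `mov_theta_ratio`;
* `thetaV_one₂`, `thetaV_one₃`, `eq_one_of_isBased`.
-/

set_option autoImplicit false
set_option linter.style.haveILetI false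
set_option linter.unusedSectionVars false

open CategoryTheory CategoryTheory.Limits AlgebraicGeometry IsLocalRing NeronModelInfra
  GoodReductionJacobian

universe u

namespace Fermat.Agent.S26.C.X.H86

open Fermat.Agent.S26.C.X.H69 (UIn)

variable {K : Type u} [Field K] {A : Scheme.{u}} {f : A ⟶ Spec (CommRingCat.of K)}
variable {E : Type u} [Field E] [Algebra K E] {κ : Type u} [Field κ] [Algebra K κ]

/-! ## Points: `mapPt` of the identity, `K`-points -/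

section Pts

theorem mapPt_id (σ : Pt f E) : mapPt (AlgHom.id K E) σ = σ := by
  apply Subtype.ext
  show Spec.map (CommRingCat.ofHom (RingHom.id E)) ≫ σ.1 = σ.1
  have h : CommRingCat.ofHom (RingHom.id E) = 𝟙 (CommRingCat.of E) := rfl
  rw [h, Spec.map_id, Category.id_comp]

theorem str_self : str K K = 𝟙 (Spec (CommRingCat.of K)) := by
  show Spec.map (CommRingCat.ofHom (RingHom.id K)) = _
  have h : CommRingCat.ofHom (RingHom.id K) = 𝟙 (CommRingCat.of K) := rfl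
  rw [h, Spec.map_id]

/-- A `K`-point through the origin is the neutral point (`K` algebraically closed). -/
theorem eq_one_of_img [IsAlgClosed K] [LocallyOfFiniteType f] (L : RelativeGroupLaw K f)
    (s : Pt f K) (h : img s = orig L) : s = L.one (str K K) := by
  apply Subtype.ext
  refine ext_of_apply_closedPoint_eq f ?_ ?_ ?_
  · rw [s.2, str_self]
  · rw [(L.one (str K K)).2, str_self]
  · have h1 : img (L.one (str K K)) = orig L := H63.img_one L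
    exact h.trans h1.symm

/-- The reduction of a based point is the neutral point. -/
theorem eq_one_of_isBased [IsAlgClosed K] [LocallyOfFiniteType f] [IsSeparated f]
    (L : RelativeGroupLaw K f) {σ : Pt f E} {o : ValuationSubring E} (ho : OverK K o)
    {r : o →+* K} [IsLocalHom r] {s : Pt f K} (h : IsRed σ o r s) (hb : IsBased L σ o) :
    s = L.one (str K K) :=
  eq_one_of_img L s (H69.isCentre_unique σ o ho (isCentre_of_isRed h) hb)

end Pts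

/-! ## `Mov` -/

section Mov

/-- The valuative divisor `Λ` of `E` moves to the valuative divisor `Λ₀` of `κ`. -/
def Mov (G : ValuationSubring E) (r : G →+* κ) (Λ : ValuationSubring E → E)
    (Λ₀ : ValuationSubring κ → κ) (V₀ : ValuationSubring κ)
    (𝒱 : Set (ValuationSubring E)) : Prop :=
  Λ G ≠ 0 ∧ ∃ y : Gˣ, r (y : G) = Λ₀ V₀ ∧ ∀ V ∈ 𝒱, UIn V (Λ V / (((y : G) : E) * Λ G))

variable {G : ValuationSubring E} {r : G →+* κ} {V₀ : ValuationSubring κ}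
  {𝒱 : Set (ValuationSubring E)}

theorem Mov.one : Mov G r (1 : ValuationSubring E → E) (1 : ValuationSubring κ → κ) V₀ 𝒱 := by
  refine ⟨one_ne_zero, 1, by simp, fun V _ => ?_⟩
  simp only [Pi.one_apply, Units.val_one, OneMemClass.coe_one, mul_one, div_one]
  exact H69.UIn.one V

theorem Mov.mul {Λ Λ' : ValuationSubring E → E} {Λ₀ Λ₀' : ValuationSubring κ → κ}
    (h : Mov G r Λ Λ₀ V₀ 𝒱) (h' : Mov G r Λ' Λ₀' V₀ 𝒱) :
    Mov G r (Λ * Λ') (Λ₀ * Λ₀') V₀ 𝒱 := by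
  obtain ⟨h0, y, hy, hV⟩ := h
  obtain ⟨h0', y', hy', hV'⟩ := h'
  refine ⟨mul_ne_zero h0 h0', y * y', ?_, fun V hVm => ?_⟩
  · rw [Units.val_mul, map_mul, hy, hy']
    rfl
  · have e : (Λ * Λ') V / ((((y * y' : Gˣ) : G) : E) * (Λ * Λ') G) =
        Λ V / (((y : G) : E) * Λ G) * (Λ' V / (((y' : G) : E) * Λ' G)) := by
      simp only [Pi.mul_apply, Units.val_mul, MulMemClass.coe_mul]
      rw [div_mul_div_comm]
      congr 1
      ring
    rw [e]
    exact (hV V hVm).mul (hV' V hVm)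

theorem Mov.inv {Λ : ValuationSubring E → E} {Λ₀ : ValuationSubring κ → κ}
    (h : Mov G r Λ Λ₀ V₀ 𝒱) : Mov G r Λ⁻¹ Λ₀⁻¹ V₀ 𝒱 := by
  obtain ⟨h0, y, hy, hV⟩ := h
  refine ⟨inv_ne_zero h0, y⁻¹, ?_, fun V hVm => ?_⟩
  · have h1 : r (y : G) * r ((y⁻¹ : Gˣ) : G) = 1 := by
      rw [← map_mul, Units.mul_inv, map_one]
    rw [eq_inv_of_mul_eq_one_right h1, hy]
    rfl
  · have hyE : ((y : G) : E) * (((y⁻¹ : Gˣ) : G) : E) = 1 := by
      have := congrArg (Subtype.val) (Units.mul_inv y)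
      exact this
    have e : Λ⁻¹ V / ((((y⁻¹ : Gˣ) : G) : E) * Λ⁻¹ G) = (Λ V / (((y : G) : E) * Λ G))⁻¹ := by
      simp only [Pi.inv_apply]
      rw [eq_inv_of_mul_eq_one_right hyE, ← mul_inv, inv_div_inv, inv_div]
    rw [e]
    exact (hV V hVm).inv

theorem Mov.div {Λ Λ' : ValuationSubring E → E} {Λ₀ Λ₀' : ValuationSubring κ → κ}
    (h : Mov G r Λ Λ₀ V₀ 𝒱) (h' : Mov G r Λ' Λ₀' V₀ 𝒱) :
    Mov G r (Λ / Λ') (Λ₀ / Λ₀') V₀ 𝒱 := by
  rw [div_eq_mul_inv, div_eq_mul_inv]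
  exact h.mul h'.inv

theorem Mov.mono {Λ : ValuationSubring E → E} {Λ₀ : ValuationSubring κ → κ}
    {𝒱' : Set (ValuationSubring E)} (h : Mov G r Λ Λ₀ V₀ 𝒱) (hs : 𝒱' ⊆ 𝒱) :
    Mov G r Λ Λ₀ V₀ 𝒱' := by
  obtain ⟨h0, y, hy, hV⟩ := h
  exact ⟨h0, y, hy, fun V hVm => hV V (hs hVm)⟩

variable [IsIntegral A]

/-- **`Mov` for `pb`**. -/
theorem mov_pb [IsProper f] (hG : OverK K G) [IsLocalHom r] {σ : Pt f E} {σ₀ : Pt f κ}
    (h : IsRed σ G r σ₀) {D : A → A.functionField} (hD : IsCartier D) (hV₀ : OverK K V₀)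
    (h𝒱 : ∀ V ∈ 𝒱, OverK K V ∧ centre σ V ⤳ centre σ₀ V₀) :
    Mov G r (pb σ D) (pb σ₀ D) V₀ 𝒱 := by
  obtain ⟨y, hy, hV⟩ := moving_pb' hG h hD V₀ hV₀
  exact ⟨H63.pb_ne_zero σ hD G, y, hy, fun V hVm => hV V (h𝒱 V hVm).1 (h𝒱 V hVm).2⟩

end Mov

/-! ## Tubes: common reductions in `A(K)` -/

section Tube

/-- A valuation ring `V` of `E` and a valuation ring `V₀` of `κ`, both with residue maps to
`K` which are the identity on `K`. -/
structure TubeData (K : Type u) [Field K] {E : Type u} [Field E] [Algebra K E] {κ : Type u}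
    [Field κ] [Algebra K κ] (V : ValuationSubring E) (V₀ : ValuationSubring κ) where
  hV : OverK K V
  hV₀ : OverK K V₀
  /-- the residue map of `V` -/
  ρ : V →+* K
  /-- the residue map of `V₀` -/
  ρ₀ : V₀ →+* K
  hρ : ∀ a : K, ρ ⟨algebraMap K E a, hV a⟩ = algebraMap K K a
  hρ₀ : ∀ a : K, ρ₀ ⟨algebraMap K κ a, hV₀ a⟩ = algebraMap K K a

variable {V : ValuationSubring E} {V₀ : ValuationSubring κ}

namespace TubeData

variable (t : TubeData K V V₀)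

theorem ρ_surjective : Function.Surjective t.ρ := fun a => ⟨_, t.hρ a⟩

theorem ρ₀_surjective : Function.Surjective t.ρ₀ := fun a => ⟨_, t.hρ₀ a⟩

/-- `σ` (at `V`) and `σ₀` (at `V₀`) have the same reduction in `A(K)`. -/
def Rel (σ : Pt f E) (σ₀ : Pt f κ) : Prop :=
  ∃ s : Pt f K, IsRed σ V t.ρ s ∧ IsRed σ₀ V₀ t.ρ₀ s

variable {t}

theorem Rel.mul (L : RelativeGroupLaw K f) {σ σ' : Pt f E} {σ₀ σ₀' : Pt f κ}
    (h : t.Rel σ σ₀) (h' : t.Rel σ' σ₀') :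
    t.Rel (L.mul (str K E) σ σ') (L.mul (str K κ) σ₀ σ₀') := by
  obtain ⟨s, h1, h2⟩ := h
  obtain ⟨s', h1', h2'⟩ := h'
  exact ⟨L.mul (str K K) s s', isRed_mul V t.hV t.ρ t.hρ L h1 h1',
    isRed_mul V₀ t.hV₀ t.ρ₀ t.hρ₀ L h2 h2'⟩

theorem Rel.one (L : RelativeGroupLaw K f) :
    t.Rel (L.one (str K E) : Pt f E) (L.one (str K κ)) :=
  ⟨L.one (str K K), isRed_one V t.hV t.ρ t.hρ L, isRed_one V₀ t.hV₀ t.ρ₀ t.hρ₀ L⟩

/-- The centres agree. -/
theorem Rel.centre_eq [IsSeparated f] {σ : Pt f E} {σ₀ : Pt f κ} (h : t.Rel σ σ₀) :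
    centre σ V = centre σ₀ V₀ := by
  obtain ⟨s, h1, h2⟩ := h
  haveI : IsLocalHom t.ρ := IsLocalHom.of_surjective _ t.ρ_surjective
  haveI : IsLocalHom t.ρ₀ := IsLocalHom.of_surjective _ t.ρ₀_surjective
  rw [centre_of_isRed t.hV h1, centre_of_isRed t.hV₀ h2]

end TubeData

end Tube

/-! ## `Mov` for the theta combination -/

section Theta

variable [IsIntegral A] {G : ValuationSubring E} {r : G →+* κ} {V₀ : ValuationSubring κ}

/-- The set of the valuation rings of `E` at which the three pairs of points have common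
reductions with `V₀`. -/
def tubeSet (V₀ : ValuationSubring κ) (x₁ x₂ x₃ : Pt f E) (y₁ y₂ y₃ : Pt f κ) :
    Set (ValuationSubring E) :=
  {V | ∃ t : TubeData K V V₀, t.Rel x₁ y₁ ∧ t.Rel x₂ y₂ ∧ t.Rel x₃ y₃}

/-- **`Mov` for `thetaV`**. -/
theorem mov_thetaV [IsProper f] (L : RelativeGroupLaw K f) (hG : OverK K G)
    (hr : Function.Surjective r)
    (hrK : ∀ a : K, r ⟨algebraMap K E a, hG a⟩ = algebraMap K κ a)
    {x₁ x₂ x₃ : Pt f E} {y₁ y₂ y₃ : Pt f κ}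
    (h₁ : IsRed x₁ G r y₁) (h₂ : IsRed x₂ G r y₂) (h₃ : IsRed x₃ G r y₃)
    {D : A → A.functionField} (hD : IsCartier D) (hV₀ : OverK K V₀) :
    Mov G r (thetaV L x₁ x₂ x₃ D) (thetaV L y₁ y₂ y₃ D) V₀
      (tubeSet V₀ x₁ x₂ x₃ y₁ y₂ y₃) := by
  haveI : IsLocalHom r := IsLocalHom.of_surjective r hr
  have key : ∀ {σ : Pt f E} {σ₀ : Pt f κ}, IsRed σ G r σ₀ →
      (∀ V ∈ tubeSet V₀ x₁ x₂ x₃ y₁ y₂ y₃, ∀ t : TubeData K V V₀,
        t.Rel x₁ y₁ → t.Rel x₂ y₂ → t.Rel x₃ y₃ → t.Rel σ σ₀) →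
      Mov G r (pb σ D) (pb σ₀ D) V₀ (tubeSet V₀ x₁ x₂ x₃ y₁ y₂ y₃) := by
    intro σ σ₀ hσ hrel
    refine mov_pb hG hσ hD hV₀ fun V hV => ?_
    obtain ⟨t, ht1, ht2, ht3⟩ := hV
    refine ⟨t.hV, ?_⟩
    rw [(hrel V ⟨t, ht1, ht2, ht3⟩ t ht1 ht2 ht3).centre_eq]
  have m : ∀ {σ σ' : Pt f E} {σ₀ σ₀' : Pt f κ}, IsRed σ G r σ₀ → IsRed σ' G r σ₀' →
      IsRed (L.mul (str K E) σ σ') G r (L.mul (str K κ) σ₀ σ₀') :=
    fun h h' => isRed_mul G hG r hrK L h h'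
  have e : thetaV L x₁ x₂ x₃ D =
      pb (L.mul (str K E) (L.mul (str K E) x₁ x₂) x₃) D * pb x₁ D * pb x₂ D * pb x₃ D /
        (pb (L.mul (str K E) x₁ x₂) D * pb (L.mul (str K E) x₁ x₃) D *
          pb (L.mul (str K E) x₂ x₃) D) := rfl
  have e₀ : thetaV L y₁ y₂ y₃ D =
      pb (L.mul (str K κ) (L.mul (str K κ) y₁ y₂) y₃) D * pb y₁ D * pb y₂ D * pb y₃ D /
        (pb (L.mul (str K κ) y₁ y₂) D * pb (L.mul (str K κ) y₁ y₃) D *
          pb (L.mul (str K κ) y₂ y₃) D) := rfl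
  rw [e, e₀]
  refine Mov.div (Mov.mul (Mov.mul (Mov.mul ?_ ?_) ?_) ?_) (Mov.mul (Mov.mul ?_ ?_) ?_)
  · exact key (m (m h₁ h₂) h₃) fun V _ t t1 t2 t3 => (t1.mul L t2).mul L t3
  · exact key h₁ fun V _ t t1 _ _ => t1
  · exact key h₂ fun V _ t _ t2 _ => t2
  · exact key h₃ fun V _ t _ _ t3 => t3
  · exact key (m h₁ h₂) fun V _ t t1 t2 _ => t1.mul L t2
  · exact key (m h₁ h₃) fun V _ t t1 _ t3 => t1.mul L t3
  · exact key (m h₂ h₃) fun V _ t _ t2 t3 => t2.mul L t3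

/-- `Θ(x, 0, z) = 1`. -/
theorem thetaV_one₂ [IsSeparated f] (L : RelativeGroupLaw K f) (x₁ x₃ : Pt f E)
    {D : A → A.functionField} (hD : IsCartier D) (V : ValuationSubring E) (hV : OverK K V) :
    thetaV L x₁ (L.one (str K E)) x₃ D V = 1 := by
  rw [H8.thetaV_apply, L.mul_one, L.one_mul, H63.pb_one' L (hD.1 _) V hV]
  have h := fun σ : Pt f E => H63.pb_ne_zero σ hD V
  have h1 := h (L.mul (str K E) x₁ x₃)
  have h2 := h x₁
  have h3 := h x₃
  field_simp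

/-- `Θ(x, y, 0) = 1`. -/
theorem thetaV_one₃ [IsSeparated f] (L : RelativeGroupLaw K f) (x₁ x₂ : Pt f E)
    {D : A → A.functionField} (hD : IsCartier D) (V : ValuationSubring E) (hV : OverK K V) :
    thetaV L x₁ x₂ (L.one (str K E)) D V = 1 := by
  rw [H8.thetaV_apply, L.mul_one, L.mul_one, L.mul_one, H63.pb_one' L (hD.1 _) V hV]
  have h := fun σ : Pt f E => H63.pb_ne_zero σ hD V
  have h1 := h (L.mul (str K E) x₁ x₂)
  have h2 := h x₁
  have h3 := h x₂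
  field_simp

end Theta

end Fermat.Agent.S26.C.X.H86
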