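import Mathlib
import Fermat.Agent.S26.C.X.Defs
import Fermat.Agent.S26.C.X.H69_CentreX
import Fermat.Agent.S26.C.X.H55_Rules
import Fermat.Agent.S26.H55_Ex

/-!
# S26 (C), cube side (helper63): the theta combination as a product over `Fin 7`;
reduction (`IsRed`) and base change (`mapPt`) are compatible with the group law

For `SPEC` and `DESC` (stated for `∏ j, pb (σ j) D ^ ε j`) applied to `thetaV`:

* `thetaPts L x₁ x₂ x₃ : Fin 7 → Pt f E`, `thetaEps : Fin 7 → ℤ`,
  `thetaV_eq_prod : thetaV L x₁ x₂ x₃ D = ∏ j, pb (thetaPts L x₁ x₂ x₃ j) D ^ thetaEps j`;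
* `thetaPts_mapPt : thetaPts L (mapPt j x₁) (mapPt j x₂) (mapPt j x₃) i
    = mapPt j (thetaPts L x₁ x₂ x₃ i)`;
* `IsRed` is compatible with the group law: `isRed_one`, `isRed_mul`, `isRed_inv`, `isRed_pow`,
  `isRed_thetaPts`;
* `thetaV_div_eq_prod` : the quotient of two theta combinations as a product over `Fin 7 ⊕ Fin 7`.
-/

set_option autoImplicit false
set_option linter.style.haveILetI false

open CategoryTheory CategoryTheory.Limits AlgebraicGeometry IsLocalRing NeronModelInfra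
  GoodReductionJacobian

universe u

namespace Fermat.Agent.S26.C.X.H63

variable {K : Type u} [Field K] {A : Scheme.{u}} {f : A ⟶ Spec (CommRingCat.of K)}
variable {E : Type u} [Field E] [Algebra K E]

/-! ## The seven points -/

/-- The seven points of the theta combination. -/
noncomputable def thetaPts (L : RelativeGroupLaw K f) (x₁ x₂ x₃ : Pt f E) : Fin 7 → Pt f E :=
  letI : Group (Pt f E) := L.pointGroup (str K E)
  ![x₁ * x₂ * x₃, x₁, x₂, x₃, x₁ * x₂, x₁ * x₃, x₂ * x₃]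

/-- The seven signs of the theta combination. -/
def thetaEps : Fin 7 → ℤ := ![1, 1, 1, 1, -1, -1, -1]

/-- The theta combination is a product of powers of seven pull-backs. -/
theorem thetaV_eq_prod [IsIntegral A] (L : RelativeGroupLaw K f) (x₁ x₂ x₃ : Pt f E)
    (D : A → A.functionField) :
    thetaV L x₁ x₂ x₃ D = ∏ j : Fin 7, pb (thetaPts L x₁ x₂ x₃ j) D ^ thetaEps j := by
  letI : Group (Pt f E) := L.pointGroup (str K E)
  funext V
  rw [Finset.prod_apply, Fin.prod_univ_seven]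
  change pb (x₁ * x₂ * x₃) D V * pb x₁ D V * pb x₂ D V * pb x₃ D V /
      (pb (x₁ * x₂) D V * pb (x₁ * x₃) D V * pb (x₂ * x₃) D V) =
    pb (x₁ * x₂ * x₃) D V ^ (1 : ℤ) * pb x₁ D V ^ (1 : ℤ) * pb x₂ D V ^ (1 : ℤ) *
      pb x₃ D V ^ (1 : ℤ) * pb (x₁ * x₂) D V ^ (-1 : ℤ) * pb (x₁ * x₃) D V ^ (-1 : ℤ) *
      pb (x₂ * x₃) D V ^ (-1 : ℤ)
  rw [zpow_one, zpow_one, zpow_one, zpow_one, zpow_neg, zpow_neg, zpow_neg, zpow_one, zpow_one,
    zpow_one, div_eq_mul_inv, mul_inv, mul_inv]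
  ring

/-! ## Base change -/

section Map

variable {E' : Type u} [Field E'] [Algebra K E']

theorem thetaPts_mapPt (L : RelativeGroupLaw K f) (j : E →ₐ[K] E') (x₁ x₂ x₃ : Pt f E)
    (i : Fin 7) :
    thetaPts L (mapPt j x₁) (mapPt j x₂) (mapPt j x₃) i = mapPt j (thetaPts L x₁ x₂ x₃ i) := by
  letI : Group (Pt f E) := L.pointGroup (str K E)
  letI : Group (Pt f E') := L.pointGroup (str K E')
  have hm : ∀ σ σ' : Pt f E, mapPt j (σ * σ') = mapPt j σ * mapPt j σ' :=
    fun σ σ' => H55.mapPt_mul L j σ σ'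
  fin_cases i <;> simp [thetaPts, hm]

end Map

/-! ## Reduction -/

section Red

variable (L : RelativeGroupLaw K f) {κ : Type u} [Field κ] [Algebra K κ]
  (G : ValuationSubring E) (hG : OverK K G) (r : G →+* κ)
  (hr : ∀ a : K, r ⟨algebraMap K E a, hG a⟩ = algebraMap K κ a)

/-- The structure morphism of `Spec G`. -/
noncomputable abbrev strG : Spec (CommRingCat.of G) ⟶ Spec (CommRingCat.of K) :=
  Spec.map (CommRingCat.ofHom (H69.kap G hG))

theorem genG_comp :
    Spec.map (CommRingCat.ofHom (algebraMap G E)) ≫ strG G hG = str K E := by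
  rw [← Spec.map_comp]
  rfl

include hr in
theorem redG_comp : Spec.map (CommRingCat.ofHom r) ≫ strG G hG = str K κ := by
  unfold str
  rw [← Spec.map_comp, ← CommRingCat.ofHom_comp]
  congr 2
  exact RingHom.ext hr

include hr in
/-- `σ₀` is the reduction of `σ` iff both are restrictions of one `G`-point. -/
theorem isRed_iff_lift (σ : Pt f E) (σ₀ : Pt f κ) :
    IsRed σ G r σ₀ ↔ ∃ τ : SchemeHomOver (strG G hG) f,
      schemeHomOverComp _ (genG_comp G hG) τ = σ ∧
      schemeHomOverComp _ (redG_comp G hG r hr) τ = σ₀ := by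
  constructor
  · rintro ⟨τ, hτ, hτ₀⟩
    exact ⟨⟨τ, H69.centre_over σ G hG τ hτ⟩, Subtype.ext hτ, Subtype.ext hτ₀⟩
  · rintro ⟨τ, hτ, hτ₀⟩
    exact ⟨τ.1, congrArg Subtype.val hτ, congrArg Subtype.val hτ₀⟩

include hr in
theorem isRed_one' : IsRed (L.one (str K E)) G r (L.one (str K κ)) :=
  (isRed_iff_lift G hG r hr _ _).mpr ⟨L.one _, L.one_natural _ _ _ _, L.one_natural _ _ _ _⟩

include hr in
theorem isRed_mul' {σ σ' : Pt f E} {σ₀ σ₀' : Pt f κ} (h : IsRed σ G r σ₀)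
    (h' : IsRed σ' G r σ₀') :
    IsRed (L.mul (str K E) σ σ') G r (L.mul (str K κ) σ₀ σ₀') := by
  obtain ⟨τ, hτ, hτ₀⟩ := (isRed_iff_lift G hG r hr _ _).mp h
  obtain ⟨τ', hτ', hτ₀'⟩ := (isRed_iff_lift G hG r hr _ _).mp h'
  refine (isRed_iff_lift G hG r hr _ _).mpr ⟨L.mul _ τ τ', ?_, ?_⟩
  · rw [L.mul_natural, hτ, hτ']
  · rw [L.mul_natural, hτ₀, hτ₀']

include hr in
theorem isRed_inv' {σ : Pt f E} {σ₀ : Pt f κ} (h : IsRed σ G r σ₀) :
    IsRed (L.inv (str K E) σ) G r (L.inv (str K κ) σ₀) := by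
  obtain ⟨τ, hτ, hτ₀⟩ := (isRed_iff_lift G hG r hr _ _).mp h
  refine (isRed_iff_lift G hG r hr _ _).mpr ⟨L.inv _ τ, ?_, ?_⟩
  · rw [Fermat.Agent.S26.H55.inv_natural, hτ]
  · rw [Fermat.Agent.S26.H55.inv_natural, hτ₀]

/-! ### The same in the group notation -/

include hr in
theorem isRed_one :
    (letI : Group (Pt f E) := L.pointGroup (str K E)
     letI : Group (Pt f κ) := L.pointGroup (str K κ)
     IsRed (1 : Pt f E) G r (1 : Pt f κ)) :=
  isRed_one' L G hG r hr

include hr in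
theorem isRed_mul {σ σ' : Pt f E} {σ₀ σ₀' : Pt f κ} (h : IsRed σ G r σ₀)
    (h' : IsRed σ' G r σ₀') :
    (letI : Group (Pt f E) := L.pointGroup (str K E)
     letI : Group (Pt f κ) := L.pointGroup (str K κ)
     IsRed (σ * σ') G r (σ₀ * σ₀')) :=
  isRed_mul' L G hG r hr h h'

include hr in
theorem isRed_inv {σ : Pt f E} {σ₀ : Pt f κ} (h : IsRed σ G r σ₀) :
    (letI : Group (Pt f E) := L.pointGroup (str K E)
     letI : Group (Pt f κ) := L.pointGroup (str K κ)
     IsRed σ⁻¹ G r σ₀⁻¹) :=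
  isRed_inv' L G hG r hr h

include hr in
theorem isRed_pow {σ : Pt f E} {σ₀ : Pt f κ} (h : IsRed σ G r σ₀) (n : ℕ) :
    (letI : Group (Pt f E) := L.pointGroup (str K E)
     letI : Group (Pt f κ) := L.pointGroup (str K κ)
     IsRed (σ ^ n) G r (σ₀ ^ n)) := by
  letI : Group (Pt f E) := L.pointGroup (str K E)
  letI : Group (Pt f κ) := L.pointGroup (str K κ)
  induction n with
  | zero =>
    rw [pow_zero, pow_zero]
    exact isRed_one L G hG r hr
  | succ n ih =>
    rw [pow_succ, pow_succ]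
    exact isRed_mul L G hG r hr ih h

include hr in
/-- The seven points of the theta combination reduce to the seven points of the reductions. -/
theorem isRed_thetaPts {x₁ x₂ x₃ : Pt f E} {y₁ y₂ y₃ : Pt f κ} (h₁ : IsRed x₁ G r y₁)
    (h₂ : IsRed x₂ G r y₂) (h₃ : IsRed x₃ G r y₃) (i : Fin 7) :
    IsRed (thetaPts L x₁ x₂ x₃ i) G r (thetaPts L y₁ y₂ y₃ i) := by
  letI : Group (Pt f E) := L.pointGroup (str K E)
  letI : Group (Pt f κ) := L.pointGroup (str K κ)
  have m := fun {σ σ' : Pt f E} {σ₀ σ₀' : Pt f κ} (h : IsRed σ G r σ₀) (h' : IsRed σ' G r σ₀') =>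
    isRed_mul L G hG r hr h h'
  fin_cases i
  · exact m (m h₁ h₂) h₃
  · exact h₁
  · exact h₂
  · exact h₃
  · exact m h₁ h₂
  · exact m h₁ h₃
  · exact m h₂ h₃

end Red

end Fermat.Agent.S26.C.X.H63
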