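import Mathlib
import Fermat.Agent.S26.C.X.H86_Bridge
import Fermat.Agent.S26.C.X.H63_Theta7

/-!
# S26 (C), cube side, PRIG leaf BASE-Λ (helper90): points with the same reduction

`G ⊇ K` a valuation ring of `E` with residue map `r : G →+* κ`, `V₀ ⊇ K` a valuation ring of
`κ`, `V' := H90.compV G r hr V₀` the composite.

* `pb_ratio_of_isRed` : if `σ`, `σ'` have the SAME reduction at `G`, then
  `(pb σ D G / pb σ D V') / (pb σ' D G / pb σ' D V')` is a unit of `G` with reduction `1`;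
* `prod_ratio_of_isRed` : the same for `∏ j, pb (σ j) D ^ ε j`;
* `base_thetaV` : for `Λ := thetaV L (x * a) β γ D / thetaV L a β γ D` with `x` reducing to `1`
  at `G`:  `Λ G / Λ V'` is a unit of `G` with reduction `1`
  (the divisor is trivial on the section `{o} × S`).
-/

set_option autoImplicit false
set_option linter.style.haveILetI false
set_option linter.unusedSectionVars false

open CategoryTheory CategoryTheory.Limits AlgebraicGeometry IsLocalRing NeronModelInfra
  GoodReductionJacobian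

universe u

namespace Fermat.Agent.S26.C.X.H90base

variable {K : Type u} [Field K] {A : Scheme.{u}} {f : A ⟶ Spec (CommRingCat.of K)}
variable {E : Type u} [Field E] [Algebra K E] {κ : Type u} [Field κ] [Algebra K κ]

/-- The image of a quotient of units under a homomorphism to a field. -/
theorem map_units_div {R F : Type*} [CommRing R] [Field F] (φ : R →+* F) (y₁ y₂ : Rˣ) :
    φ ((y₁ / y₂ : Rˣ) : R) = φ (y₁ : R) / φ (y₂ : R) := by
  have h2 : φ (y₂ : R) ≠ 0 := ((y₂.isUnit).map φ).ne_zero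
  rw [eq_div_iff h2, ← map_mul, ← Units.val_mul, div_mul_cancel]

section

variable [IsProper f] [IsIntegral A] (G : ValuationSubring E) (hG : OverK K G) (r : G →+* κ)
  (hr : Function.Surjective r)
  (hrK : ∀ a : K, r ⟨algebraMap K E a, hG a⟩ = algebraMap K κ a)

include hG hrK in
/-- Two points with the same reduction at `G`. -/
theorem pb_ratio_of_isRed {σ σ' : Pt f E} {σ₀ : Pt f κ} (h : IsRed σ G r σ₀)
    (h' : IsRed σ' G r σ₀) {D : A → A.functionField} (hD : IsCartier D)
    (V₀ : ValuationSubring κ) (hV₀ : OverK K V₀) :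
    ∃ y : Gˣ, ((y : G) : E) =
        (pb σ D G / pb σ D (H90.compV G r hr V₀)) /
          (pb σ' D G / pb σ' D (H90.compV G r hr V₀)) ∧ r (y : G) = 1 := by
  haveI : IsLocalHom r := IsLocalHom.of_surjective r hr
  have hcG : centre σ G = img σ₀ := H86.centre_of_isRed hG h
  have hcG' : centre σ' G = img σ₀ := H86.centre_of_isRed hG h'
  have hcV : centre σ (H90.compV G r hr V₀) = centre σ₀ V₀ :=
    H86.centre_compV G hG r hr hrK hV₀ h
  have hcV' : centre σ' (H90.compV G r hr V₀) = centre σ₀ V₀ :=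
    H86.centre_compV G hG r hr hrK hV₀ h'
  have hsp : img σ₀ ⤳ centre σ₀ V₀ := H69.img_specializes_centre σ₀ V₀ hV₀
  obtain ⟨y₁, e₁, r₁⟩ := H86.pb_div_pb_of_isRed h hD G (H90.compV G r hr V₀)
    (by rw [hcG]) (by rw [hcV]; exact hsp)
  obtain ⟨y₂, e₂, r₂⟩ := H86.pb_div_pb_of_isRed h' hD G (H90.compV G r hr V₀)
    (by rw [hcG']) (by rw [hcV']; exact hsp)
  refine ⟨y₁ / y₂, ?_, ?_⟩
  · have := map_units_div (algebraMap G E) y₁ y₂
    rw [← e₁, ← e₂]
    exact this
  · rw [map_units_div r y₁ y₂, r₁, r₂, hcG, hcG', hcV, hcV']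
    have h1 : pullV σ₀ D (img σ₀) ≠ 0 := H86.pullV_ne_zero σ₀ hD specializes_rfl
    have h2 : pullV σ₀ D (centre σ₀ V₀) ≠ 0 := H86.pullV_ne_zero σ₀ hD hsp
    exact div_self (div_ne_zero h1 h2)

include hG hrK in
/-- Two families with the same reductions at `G`. -/
theorem prod_ratio_of_isRed {ι : Type*} [Fintype ι] (σ σ' : ι → Pt f E) (σ₀ : ι → Pt f κ)
    (ε : ι → ℤ) (h : ∀ j, IsRed (σ j) G r (σ₀ j)) (h' : ∀ j, IsRed (σ' j) G r (σ₀ j))
    {D : A → A.functionField} (hD : IsCartier D) (V₀ : ValuationSubring κ)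
    (hV₀ : OverK K V₀) :
    ∃ y : Gˣ, ((y : G) : E) =
        ((∏ j, pb (σ j) D ^ ε j) G / (∏ j, pb (σ j) D ^ ε j) (H90.compV G r hr V₀)) /
          ((∏ j, pb (σ' j) D ^ ε j) G / (∏ j, pb (σ' j) D ^ ε j) (H90.compV G r hr V₀)) ∧
      r (y : G) = 1 := by
  classical
  choose y hy1 hy2 using fun j => pb_ratio_of_isRed G hG r hr hrK (h j) (h' j) hD V₀ hV₀
  refine ⟨∏ j, y j ^ ε j, ?_, ?_⟩
  · have e1 := H90.map_prod_zpow_units (algebraMap G E) Finset.univ y ε
    have e1' : (((∏ j, y j ^ ε j : Gˣ) : G) : E) = ∏ j, ((y j : G) : E) ^ ε j := e1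
    rw [e1', Finset.prod_apply, Finset.prod_apply, Finset.prod_apply, Finset.prod_apply,
      ← Finset.prod_div_distrib, ← Finset.prod_div_distrib, ← Finset.prod_div_distrib]
    refine Finset.prod_congr rfl fun j _ => ?_
    rw [Pi.pow_apply, Pi.pow_apply, Pi.pow_apply, Pi.pow_apply, ← div_zpow, ← div_zpow,
      ← div_zpow, hy1 j]
  · rw [H90.map_prod_zpow_units r Finset.univ y ε]
    refine Finset.prod_eq_one fun j _ => ?_
    rw [hy2 j, one_zpow]

include hG hrK in
/-- **BASE-Λ** for the theta ratio: if `x` reduces to `1` at `G`, then `Λ G / Λ V'` is a unit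
of `G` with reduction `1`, `Λ := thetaV L (x * a) β γ D / thetaV L a β γ D`. -/
theorem base_thetaV (L : RelativeGroupLaw K f) {x a β γ : Pt f E} {a₀ β₀ γ₀ : Pt f κ}
    (hx : letI : Group (Pt f κ) := L.pointGroup (str K κ); IsRed x G r (1 : Pt f κ))
    (ha : IsRed a G r a₀) (hβ : IsRed β G r β₀) (hγ : IsRed γ G r γ₀)
    {D : A → A.functionField} (hD : IsCartier D) (V₀ : ValuationSubring κ)
    (hV₀ : OverK K V₀) :
    (letI : Group (Pt f E) := L.pointGroup (str K E)
     ∃ y : Gˣ, ((y : G) : E) =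
        (thetaV L (x * a) β γ D / thetaV L a β γ D) G /
          (thetaV L (x * a) β γ D / thetaV L a β γ D) (H90.compV G r hr V₀) ∧
      r (y : G) = 1) := by
  letI : Group (Pt f E) := L.pointGroup (str K E)
  letI : Group (Pt f κ) := L.pointGroup (str K κ)
  have hxa : IsRed (x * a) G r a₀ := by
    have := H63.isRed_mul L G hG r hrK hx ha
    rwa [one_mul] at this
  obtain ⟨y, hy1, hy2⟩ := prod_ratio_of_isRed G hG r hr hrK
    (H63.thetaPts L (x * a) β γ) (H63.thetaPts L a β γ) (H63.thetaPts L a₀ β₀ γ₀) H63.thetaEps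
    (fun j => H63.isRed_thetaPts L G hG r hrK hxa hβ hγ j)
    (fun j => H63.isRed_thetaPts L G hG r hrK ha hβ hγ j) hD V₀ hV₀
  refine ⟨y, ?_, hy2⟩
  rw [hy1, H63.thetaV_eq_prod, H63.thetaV_eq_prod, Pi.div_apply, Pi.div_apply]
  exact div_div_div_comm _ _ _ _

end

end Fermat.Agent.S26.C.X.H90base
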