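import Mathlib
import Fermat.Agent.S26.C.X.H6_CCCInst
import Fermat.Agent.S26.C.X.H90_Base
import Fermat.Agent.S26.C.X.H86_MovLam

/-!
# S26 (C), cube side, PRIG: the scheme fact `X.H6.Stmt_BASE` (helper90)

`stmt_BASE : X.H6.Stmt_BASE` (unconditional): on the section `{o} × S` the divisor `lamΩ` is
trivial.  From `H90base.base_thetaV` with `G = O_{Po}`, `r = valHom Po`:

* `compSub_eq_compV` : `compSub P hdeg O = H90.compV O_P (valHom P) _ O`;
* `isRed_ptΩ` : the constant points reduce to themselves at `O_P`;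
* `isRed_ptF_of_isBased` : a point of `F` based at `Qo` reduces to `1` at the constant place
  over `Qo`.
-/

set_option autoImplicit false
set_option linter.style.haveILetI false
set_option linter.unusedSectionVars false

open CategoryTheory CategoryTheory.Limits AlgebraicGeometry IsLocalRing NeronModelInfra
  GoodReductionJacobian AlgebraicCurve

universe u

namespace Fermat.Agent.S26.C.X.H90sb

open Fermat.Agent.S27.REDu Fermat.Agent.S27.REDu.H34 Fermat.Agent.S27.REDu.H34.RedSetting
  Fermat.Agent.S27.REDu.H51 Fermat.Agent.S27.REDu.H10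
open Fermat.Agent.S26.C.H6 (compSub mem_compSub_iff)

section Place

variable {Ω FΩ : Type u} [Field Ω] [Field FΩ] [Algebra Ω FΩ]

theorem valHom_surjective (P : Place Ω FΩ) (hdeg : P.deg = 1) :
    Function.Surjective (valHom P hdeg) :=
  fun c => ⟨algebraMap Ω ↥P.toValuationSubring c, valHom_algebraMap P hdeg c⟩

theorem valHom_mk_algebraMap (P : Place Ω FΩ) (hdeg : P.deg = 1) (c : Ω) :
    valHom P hdeg ⟨algebraMap Ω FΩ c, P.algebraMap_mem' c⟩ = c :=
  valHom_algebraMap P hdeg c

/-- the composite of `H6` is the composite of `H90`. -/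
theorem compSub_eq_compV (P : Place Ω FΩ) (hdeg : P.deg = 1) (O : ValuationSubring Ω) :
    compSub P hdeg O =
      H90.compV P.toValuationSubring (valHom P hdeg) (valHom_surjective P hdeg) O := by
  ext x
  rw [mem_compSub_iff, H90.mem_compV]
  constructor
  · rintro ⟨h, hv⟩
    exact ⟨⟨x, h⟩, hv, rfl⟩
  · rintro ⟨y, hy, rfl⟩
    exact ⟨y.2, hy⟩

end Place

variable {K F Ω FΩ : Type u}
  [Field K] [Field F] [Algebra K F] [Field Ω] [Field FΩ] [Algebra Ω FΩ]
  [Algebra K Ω] [Algebra F FΩ] [Algebra K FΩ] [IsScalarTower K F FΩ] [IsScalarTower K Ω FΩ]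
variable {A : Scheme.{u}} {f : A ⟶ Spec (CommRingCat.of K)}

theorem overK_place (P : Place Ω FΩ) : OverK K P.toValuationSubring := fun a => by
  rw [IsScalarTower.algebraMap_apply K Ω FΩ]
  exact P.algebraMap_mem' _

theorem valHom_const (P : Place Ω FΩ) (hdeg : P.deg = 1) (a : K) :
    valHom P hdeg ⟨algebraMap K FΩ a, overK_place P a⟩ = algebraMap K Ω a := by
  have e : (⟨algebraMap K FΩ a, overK_place P a⟩ : ↥P.toValuationSubring) =
      ⟨algebraMap Ω FΩ (algebraMap K Ω a), P.algebraMap_mem' _⟩ :=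
    Subtype.ext (IsScalarTower.algebraMap_apply K Ω FΩ a)
  rw [e]
  exact valHom_mk_algebraMap P hdeg _

/-- the constant points reduce to themselves at a place of `FΩ / Ω`. -/
theorem isRed_ptΩ (P : Place Ω FΩ) (hdeg : P.deg = 1) (b : Pt f Ω) :
    IsRed (H6.ptΩ FΩ b) P.toValuationSubring (valHom P hdeg) b := by
  have h := H86.isRed_of_mem (f := f) (IsScalarTower.toAlgHom K Ω FΩ) (AlgHom.id K Ω)
    P.toValuationSubring (valHom P hdeg) (fun c => P.algebraMap_mem' c)
    (fun c => valHom_mk_algebraMap P hdeg c) b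
  rwa [H86.mapPt_id] at h

/-- a point of `F` based at `Qo` reduces to `1` at a place `Po` of `FΩ / Ω` over `Qo` at which
the functions of `O_{Qo}` take their value at `Qo`. -/
theorem isRed_ptF_of_isBased [IsAlgClosed K] [IsProper f] (L : RelativeGroupLaw K f)
    (x : Pt f F) (Qo : Place K F) (hQo : Qo.deg = 1) (hx : IsBased L x Qo.toValuationSubring)
    (Po : Place Ω FΩ) (hPo : Po.deg = 1)
    (hval : ∀ z : ↥Qo.toValuationSubring,
      ∃ h : algebraMap F FΩ (z : F) ∈ Po.toValuationSubring,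
        valHom Po hPo ⟨algebraMap F FΩ (z : F), h⟩ = algebraMap K Ω (valHom Qo hQo z)) :
    IsRed (H6.ptF FΩ x) Po.toValuationSubring (valHom Po hPo) (L.one (str K Ω)) := by
  letI : Group (Pt f K) := L.pointGroup (str K K)
  letI : Group (Pt f Ω) := L.pointGroup (str K Ω)
  have hQK : OverK K Qo.toValuationSubring := fun a => Qo.algebraMap_mem' a
  have hrK : ∀ a : K, valHom Qo hQo ⟨algebraMap K F a, hQK a⟩ = algebraMap K K a :=
    fun a => valHom_mk_algebraMap Qo hQo a
  haveI : IsLocalHom (valHom Qo hQo) :=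
    IsLocalHom.of_surjective _ (valHom_surjective Qo hQo)
  obtain ⟨x₀, hx₀⟩ := H86.exists_isRed x Qo.toValuationSubring hQK (valHom Qo hQo) hrK
  have h1 : x₀ = L.one (str K K) := H86.eq_one_of_isBased L hQK hx₀ hx
  subst h1
  have h2 := H86.isRed_map (IsScalarTower.toAlgHom K F FΩ) (Algebra.ofId K Ω)
    Qo.toValuationSubring Po.toValuationSubring (valHom Qo hQo) (valHom Po hPo)
    (fun z hz => (hval ⟨z, hz⟩).1) (fun z => (hval z).2) hx₀
  have h3 : mapPt (Algebra.ofId K Ω) (L.one (str K K)) = L.one (str K Ω) :=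
    H55.mapPt_one L (Algebra.ofId K Ω)
  rw [h3] at h2
  exact h2

/-- **BASE**. -/
theorem stmt_BASE : Fermat.Agent.S26.C.X.H6.Stmt_BASE.{u} := by
  intro K _ _ A f L g hAV _ F Ω FΩ _ _ _ _ _ _ _ _ _ _ x a β γ D hD Qo hQo hx Po hPo hval O hO
  haveI : IsProper f := hAV.bundle.proper
  letI : Group (Pt f FΩ) := L.pointGroup (str K FΩ)
  letI : Group (Pt f Ω) := L.pointGroup (str K Ω)
  have hG : OverK K Po.toValuationSubring := overK_place Po
  have hxr := isRed_ptF_of_isBased L x Qo hQo hx Po hPo hval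
  obtain ⟨y, hy1, hy2⟩ := H90base.base_thetaV Po.toValuationSubring hG (valHom Po hPo)
    (valHom_surjective Po hPo) (valHom_const Po hPo) L hxr (isRed_ptΩ Po hPo a)
    (isRed_ptΩ Po hPo β) (isRed_ptΩ Po hPo γ) hD O hO.1
  rw [← compSub_eq_compV] at hy1
  have hm : H6.lamΩ FΩ L x a β γ D Po.toValuationSubring /
      H6.lamΩ FΩ L x a β γ D (compSub Po hPo O) ∈ Po.toValuationSubring := by
    have : H6.lamΩ FΩ L x a β γ D Po.toValuationSubring /
      H6.lamΩ FΩ L x a β γ D (compSub Po hPo O) = ((y : ↥Po.toValuationSubring) : FΩ) :=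
      hy1.symm
    rw [this]
    exact (y : ↥Po.toValuationSubring).2
  refine ⟨hm, ?_⟩
  have e : (⟨_, hm⟩ : ↥Po.toValuationSubring) = (y : ↥Po.toValuationSubring) :=
    Subtype.ext hy1.symm
  rw [e]
  exact hy2

end Fermat.Agent.S26.C.X.H90sb
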