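import Fermat.Agent.S26.C.X.H6_Prig
import Fermat.Agent.S26.C.X.H90_StmtBase

/-!
# S26, crux (C): **PRIG**, unconditional

helper6 (PRIG owner).  `stmt_PRIG : X.Stmt_PRIG` from `H6.stmt_PRIG_of_base` (TOP wiring) and
`H90sb.stmt_BASE` (helper90).
-/

set_option autoImplicit false

universe u

namespace Fermat.Agent.S26.C.X.H6

/-- **PRIG** (rigidity of the theta combination along one curve), unconditional. -/
theorem stmt_PRIG : Stmt_PRIG.{u} := stmt_PRIG_of_base H90sb.stmt_BASE

end Fermat.Agent.S26.C.X.H6
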