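import Mathlib
import Fermat.Agent.S26.C.X.Defs

/-!
# S26 (C), cube side, leaf CURVES (owner helper14): the sub-leaves

`X.Stmt_CURVES` is assembled (by helper14, `X/H14_Curves*.lean`) from

* CV-ALG   (helper14): the `g` curves through `0` of an étale chart: `V_i` = local ring at `0` of
  `{x_j = 0, j ≠ i}`, a DVR étale over `K[X_i]`; `Φ_i = Frac V_i`; maps `V_i → K[T]/(T)^k`;
* `Stmt_CVFIELD` : a field `E` with a FREE family of copies of given function fields `Φ_i`;
* `Stmt_CVUP`    : universal property of the subring generated by subalgebras `W_i ⊆ F_i` of a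
  free family (it is `⨂ W_i`);
* `Stmt_CVPLACE` : a `K`-place `o` of `E` containing the `W_i`, centred at given `K`-points of
  the `W_i`;
* `Stmt_CVFIN`   : `E` is finite over every subfield of transcendence degree `g`;
* CV-DOM   (helper14): the sum `s` is dominant (tangent vectors add: `E/H14_EH.lean`;
  `C/H14_DomAlg.lean`).

All four statements below are pure field theory (no scheme).
-/

set_option autoImplicit false

open scoped IntermediateField

universe u

namespace Fermat.Agent.S26.C.X

/-- **CV-FIELD**: given `g` function fields of one variable `Φ i` over an algebraically closed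
field `K`, there is a field `E` with `K`-embeddings `j i : Φ i → E` whose images form a free
family generating `E` (`E` = the function field of the product of the curves).
(Induction on `g`: `Φ ⊗[K] E'` is a domain (`C.H13.isDomain_tensorProduct`), Mathlib
`IntermediateField.LinearDisjoint.exists_field_of_isDomain`; tower property of linear
disjointness.) -/
def Stmt_CVFIELD : Prop :=
  ∀ (K : Type u) [Field K] [IsAlgClosed K] (g : ℕ) (Φ : Fin g → Type u)
    [∀ i, Field (Φ i)] [∀ i, Algebra K (Φ i)], (∀ i, IsFF1 K (Φ i)) →
    ∃ (E : Type u) (_ : Field E) (_ : Algebra K E) (j : ∀ i, Φ i →ₐ[K] E),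
      IsCurveFam (fun i => (j i).fieldRange)

/-- **CV-UP**: for a free family `F` and subalgebras `W i ⊆ F i`, every family of `K`-algebra
maps `W i → B` extends to the subalgebra generated by the `W i` (which is `⨂ W i`). -/
def Stmt_CVUP : Prop :=
  ∀ (K : Type u) [Field K] (E : Type u) [Field E] [Algebra K E] (ι : Type) [Finite ι]
    (F : ι → IntermediateField K E), IsCurveFam F →
    ∀ (W : ι → Subalgebra K E), (∀ i, W i ≤ (F i).toSubalgebra) →
    ∀ (B : Type u) [CommRing B] [Algebra K B] (lam : ∀ i, W i →ₐ[K] B),
      ∃ ρ : ↥(⨆ i, W i) →ₐ[K] B,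
        ∀ (i : ι) (w : W i), ρ ⟨w.1, (le_iSup W i) w.2⟩ = lam i w

/-- **CV-PLACE**: for a free family `F`, subalgebras `W i ⊆ F i` and `K`-points `r i` of the
`W i`, there is a `K`-place `o` of `E` containing all `W i` and centred at the `r i`.
(`CVUP` with `B = K` gives `χ : ⨆ W i → K`; a valuation ring dominating the localisation at
`ker χ`; then `C.H13.exists_valuationSubring_rational`.) -/
def Stmt_CVPLACE : Prop :=
  ∀ (K : Type u) [Field K] [IsAlgClosed K] (E : Type u) [Field E] [Algebra K E] (ι : Type)
    [Finite ι] (F : ι → IntermediateField K E), IsCurveFam F →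
    ∀ (W : ι → Subalgebra K E), (∀ i, W i ≤ (F i).toSubalgebra) →
    ∀ (r : ∀ i, W i →ₐ[K] K),
      ∃ o : ValuationSubring E, IsKPlace K o ∧
        ∀ (i : ι) (w : W i), (w : E) ∈ o ∧ (r i w = 0 → (w : E) ∈ o.nonunits)

/-- **CV-PLACE from CV-UP**. -/
def Stmt_CVPLACE_of : Prop := Stmt_CVUP.{u} → Stmt_CVPLACE.{u}

/-- **CV-FIN**: the function field of a product of `g` curves is finite over every subfield of
transcendence degree `g` over `K`.  (`E` is a finitely generated field over `K`, algebraic over
`K(x_1, …, x_g)`, `x_i ∈ F i`; additivity of the transcendence degree.) -/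
def Stmt_CVFIN : Prop :=
  ∀ (K : Type u) [Field K] (L₀ E : Type u) [Field L₀] [Field E] [Algebra K L₀] [Algebra K E]
    (g : ℕ) (F : Fin g → IntermediateField K E), IsCurveFam F →
    Algebra.trdeg K L₀ = g → ∀ ψ : L₀ →ₐ[K] E,
      (letI : Algebra L₀ E := ψ.toRingHom.toAlgebra
       FiniteDimensional L₀ E)

end Fermat.Agent.S26.C.X
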