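import Mathlib
import Fermat.Agent.S26.C.X.Defs
import Fermat.Agent.S26.E.H14_EH

/-!
# S26 (C), cube side, leaf CURVES (owner helper14): two scheme-side sub-leaves

* `Stmt_CVCHART` : an étale chart at the origin: an affine open `U ∋ 0`, the `K`-point
  `χ : Γ(A, U) → K` of the origin, and `e : K[X₁..X_g] → Γ(A, U)` étale over `K` with
  `χ (e X_l) = 0`.
  (Route: `SmoothOfRelativeDimension.exists_isStandardSmoothOfRelativeDimension` at the origin,
  `RingHom.IsStandardSmoothOfRelativeDimension.exists_etale_mvPolynomial` (pattern: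
  `G/H8_Dim.lean`, `LF/H18_Sch.lean`), the translation `LF/H47_Alg.translAlgHom` by the values
  `χ (e X_l)`; `E.H14.kap hU f = Spec.preimage (hU.fromSpec ≫ f)` is `f.appLE ⊤ U _` up to
  `ΓSpecIso`: `IsAffineOpen.SpecMap_appLE_fromSpec`, `IsAffineOpen.fromSpec_top`,
  `Scheme.isoSpec_Spec_inv`.)
* `Stmt_CVDOMPT` : a point `σ = pt hU ζ` with `ζ : Γ(A, U) → E` INJECTIVE is dominant: there is
  `ψ : K(A) → E` with `IsDomPt σ ψ`, extending `ζ` and `K`-linear.
  (Route: `ψ := IsFractionRing.lift` (`functionField_isFractionRing_of_isAffineOpen`);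
  `σ.1 = Spec.map ψ ≫ A.fromSpecStalk (genericPoint A)`, then
  `X.H69.stalkClosedPointTo_of_factor`.)
-/

set_option autoImplicit false

open CategoryTheory CategoryTheory.Limits AlgebraicGeometry NeronModelInfra GoodReductionJacobian

universe u

namespace Fermat.Agent.S26.C.X

/-- **CV-CHART**: an étale chart at the origin. -/
def Stmt_CVCHART : Prop :=
  ∀ (K : Type u) [Field K] [IsAlgClosed K] {A : Scheme.{u}} (f : A ⟶ Spec (CommRingCat.of K))
    (L : RelativeGroupLaw K f) (g : ℕ) [SmoothOfRelativeDimension g f],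
    ∃ (U : A.Opens) (hU : IsAffineOpen U) (χ : Γ(A, U) ⟶ CommRingCat.of K)
      (e : MvPolynomial (Fin g) K →+* Γ(A, U)),
      Fermat.Agent.S26.E.H14.unitHom L = Fermat.Agent.S26.E.H14.pt hU χ ∧
      e.comp MvPolynomial.C = (Fermat.Agent.S26.E.H14.kap hU f).hom ∧ e.Etale ∧
      ∀ l, χ.hom (e (MvPolynomial.X l)) = 0

/-- **CV-DOMPT**: a point given in an affine chart by an injective homomorphism is dominant. -/
def Stmt_CVDOMPT : Prop :=
  ∀ (K : Type u) [Field K] {A : Scheme.{u}} (f : A ⟶ Spec (CommRingCat.of K)) [IsIntegral A]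
    (U : A.Opens) (hU : IsAffineOpen U) [Nonempty U] (E : Type u) [Field E] [Algebra K E]
    (σ : Pt f E) (ζ : Γ(A, U) →+* E),
    σ.1 = Fermat.Agent.S26.E.H14.pt hU (CommRingCat.ofHom ζ) → Function.Injective ζ →
    ∃ ψ : A.functionField →+* E, IsDomPt σ ψ ∧
      (∀ a, ψ ((A.germToFunctionField U).hom a) = ζ a) ∧
      ψ.comp (constHom f) = algebraMap K E

end Fermat.Agent.S26.C.X
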