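import Mathlib
import Fermat.Agent.S26.C.X.Defs
import Fermat.Agent.S26.E.H14_EH
import Fermat.Agent.S26.C.H14_DomAlg

/-!
# S26 (C), cube side, leaf CURVES (owner helper14): two more sub-leaves

* `Stmt_CVBASED` : a point given in an affine chart `U ∋ 0` by a homomorphism
  `ζ : Γ(A, U) → o` (`o` a valuation ring of `E`) which sends the ideal of the origin into the
  maximal ideal of `o` is based at `o`.
  (Route: `τ := pt hU ζ`; `Spec.map (o → E) ≫ τ = σ` by `E.H14.pt_comp`; the closed point goes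
  to the prime `ζ⁻¹ 𝔪_o ⊇ ker χ`, and `ker χ` is maximal (`kap ≫ χ = 𝟙`).)
* `Stmt_CVDOMALG` : pure algebra.  `S` a domain, étale over `K[X₁..X_g]`, `χ : S → K` a
  `K`-point over `0`, `σ_k : S → K[T]/(T)^(k+1)` `K`-algebra maps over `χ` with
  `σ_k (X_l) ≡ T_l` modulo `(T)²`.  Then `⋂ ker σ_k = 0`.
  (Route: `O := Localization.AtPrime (ker χ)`; `σ_k` extends to `O` (`JP` is nilpotent);
  `C.H14d.dom_alg` on `O`: noetherian `C.H14c.noeth_loc_of_etale`, `hspan` from
  `C.H14c.map_eq_maximalIdeal_of_etale` (`(ker χ).under = idealOfVars`), `hres` from `χ`;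
  `S → O` is injective.)
-/

set_option autoImplicit false

open CategoryTheory CategoryTheory.Limits AlgebraicGeometry NeronModelInfra GoodReductionJacobian

universe u

namespace Fermat.Agent.S26.C.X

/-- **CV-BASED**: points with values in `o`, congruent to the origin modulo `𝔪_o`, are based. -/
def Stmt_CVBASED : Prop :=
  ∀ (K : Type u) [Field K] {A : Scheme.{u}} (f : A ⟶ Spec (CommRingCat.of K))
    (L : RelativeGroupLaw K f) (U : A.Opens) (hU : IsAffineOpen U)
    (χ : Γ(A, U) ⟶ CommRingCat.of K),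
    Fermat.Agent.S26.E.H14.unitHom L = Fermat.Agent.S26.E.H14.pt hU χ →
    ∀ (E : Type u) [Field E] [Algebra K E] (o : ValuationSubring E) (σ : Pt f E)
      (ζ : Γ(A, U) →+* o),
      σ.1 = Fermat.Agent.S26.E.H14.pt hU (CommRingCat.ofHom ((algebraMap o E).comp ζ)) →
      (∀ a, χ.hom a = 0 → ((ζ a : o) : E) ∈ o.nonunits) → IsBased L σ o

/-- **CV-DOMALG**: the homomorphisms `σ_k` are jointly injective. -/
def Stmt_CVDOMALG : Prop :=
  ∀ (K : Type u) [Field K] (g : ℕ) (S : Type u) [CommRing S] [IsDomain S] [Algebra K S]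
    [Algebra (MvPolynomial (Fin g) K) S] [IsScalarTower K (MvPolynomial (Fin g) K) S]
    [Algebra.Etale (MvPolynomial (Fin g) K) S] (χ : S →ₐ[K] K),
    (∀ l, χ (algebraMap (MvPolynomial (Fin g) K) S (MvPolynomial.X l)) = 0) →
    ∀ σ : ∀ k : ℕ, S →ₐ[K] Fermat.Agent.S26.C.H14d.Bk K g (k + 1),
      (∀ k a, χ a = 0 → σ k a ∈ Fermat.Agent.S26.LF.H18.JP K g (k + 1)) →
      (∀ k l, σ k (algebraMap (MvPolynomial (Fin g) K) S (MvPolynomial.X l)) -
        Fermat.Agent.S26.C.H14d.tk K g (k + 1) l ∈ Fermat.Agent.S26.LF.H18.JP K g (k + 1) ^ 2) →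
      ∀ a : S, (∀ k, σ k a = 0) → a = 0

end Fermat.Agent.S26.C.X
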