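import Mathlib
import Fermat.Agent.S26.C.X.Defs
import Fermat.Agent.S26.C.H14_DomAlg

/-!
# S26 (C), cube side, leaf CURVES (owner helper14): sub-leaf CV-LOC (pure algebra)

`R ⊆ E` a subalgebra of a field, `χR : R → K` a `K`-point, `ρ_k : R → K[T]/(T)^(k+1)`
`K`-algebra maps over `χR`.  Then everything extends to the local ring
`R' = Localization.AtPrime (ker χR)` (which embeds in `E`).

Route: `IsLocalization.liftAlgHom` three times; an element of `K[T]/(T)^(k+1)` outside `JP` is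
a unit (`JP` is nilpotent: `LF.H18.JP_pow`, `IsNilpotent.isUnit_add_left_of_commute`);
`incl` injective because `R` is a domain and `R → E` is injective
(`IsLocalization.lift_injective_iff`).
-/

set_option autoImplicit false

universe u

namespace Fermat.Agent.S26.C.X

/-- **CV-LOC**: extension to the local ring at the `K`-point. -/
def Stmt_CVLOC : Prop :=
  ∀ (K : Type u) [Field K] (E : Type u) [Field E] [Algebra K E] (R : Subalgebra K E) (g : ℕ)
    (χR : R →ₐ[K] K) (ρ : ∀ k : ℕ, R →ₐ[K] Fermat.Agent.S26.C.H14d.Bk K g (k + 1)),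
    (∀ k y, χR y = 0 → ρ k y ∈ Fermat.Agent.S26.LF.H18.JP K g (k + 1)) →
    ∃ (R' : Type u) (_ : CommRing R') (_ : Algebra K R') (_ : IsLocalRing R')
      (κ : R' →ₐ[K] K) (incl : R' →ₐ[K] E) (ι : R →ₐ[K] R')
      (ρ' : ∀ k : ℕ, R' →ₐ[K] Fermat.Agent.S26.C.H14d.Bk K g (k + 1)),
      Function.Injective incl ∧ (∀ y, incl (ι y) = (y : E)) ∧ (∀ y, κ (ι y) = χR y) ∧
      (∀ k y, ρ' k (ι y) = ρ k y) ∧
      (∀ k y, κ y = 0 → ρ' k y ∈ Fermat.Agent.S26.LF.H18.JP K g (k + 1))

end Fermat.Agent.S26.C.X
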