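import Mathlib
import Fermat.Agent.S26.C.X.Defs
import Fermat.Agent.S26.C.X.H8_Cube3
import Fermat.Agent.S26.C.H14_Pull
import Fermat.Agent.S26.E.H95_PSurj
import Fermat.Agent.S26.G.H80_Centre
import Fermat.Agent.S26.T.H69_Coh

/-!
# S26 (C), cube side, leaf PCORE_of_XQUAD (helper80): `CENTRE → XQUAD → PCORE`

* `g = 0`: `f` is étale, so `A` has no point of coheight one; `F := K(A)`, `Ψ := 1`.
* `g > 0`: `E, s, ψ` from `XQUAD`, `Ψ₀ ∈ E` with `Ψ₀ / Λ^k` a unit at every valuation ring of `E`
  over `K` (`Λ = pb (s ^ n) D / pb s D ^ (n²)`).  `F :=` a splitting field of `X^k - Ψ₀` over `E`,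
  `Ψ₁ ∈ F` a root.  A valuation ring `W` of `F` dominating `𝒪_{A,z}` restricts to a valuation ring
  `V` of `E` over `K` at which `s` has centre `z` and `s ^ n` has centre `[n] z`, and
  `Λ V = ψ (pull [n] D z) / ψ (D z / D η) ^ (n²)`; `(Ψ₁ / Λ V) ^ k` is a unit of `W`, hence so is
  `Ψ₁ / Λ V`, and `Ψ := Ψ₁ / ψ (D η) ^ (n²)`.
-/

set_option autoImplicit false
set_option linter.style.haveILetI false
set_option linter.unusedSectionVars false

open CategoryTheory CategoryTheory.Limits AlgebraicGeometry NeronModelInfra GoodReductionJacobian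

universe u

namespace Fermat.Agent.S26.C.X.H80

section Points

variable {K : Type u} [Field K] {A : Scheme.{u}} {f : A ⟶ Spec (CommRingCat.of K)}
variable {E : Type u} [Field E] [Algebra K E]

/-- The composition of a point with an endomorphism of `A` over `K`. -/
noncomputable def compPt (σ : Pt f E) (φ : A ⟶ A) (hφ : φ ≫ f = f) : Pt f E :=
  ⟨σ.1 ≫ φ, by rw [Category.assoc, hφ, σ.2]⟩

theorem img_compPt (σ : Pt f E) (φ : A ⟶ A) (hφ : φ ≫ f = f) :
    img (compPt σ φ hφ) = φ (img σ) := rfl

/-- The power of a point is the composition with `[n]`. -/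
theorem pow_eq_compPt (L : RelativeGroupLaw K f) (s : Pt f E) (n : ℕ) :
    (letI : Group (Pt f E) := L.pointGroup (str K E); s ^ n) =
      compPt s (L.schemeNsmul n) (L.schemeNsmul_over n) := by
  letI : Group (Pt f E) := L.pointGroup (str K E)
  have h1 : L.nsmul (str K E) n s = s ^ n := by
    induction n with
    | zero => rw [pow_zero]; rfl
    | succ n ih => rw [pow_succ, ← ih]; rfl
  rw [← h1]
  exact Subtype.ext (Fermat.Agent.S26.E.H95.nsmul_coe_general L n (str K E) s)

/-- A centre of `σ` gives a centre of `σ ≫ φ`. -/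
theorem isCentre_compPt (σ : Pt f E) (φ : A ⟶ A) (hφ : φ ≫ f = f) (V : ValuationSubring E)
    (c : A) (h : IsCentre σ V c) : IsCentre (compPt σ φ hφ) V (φ c) := by
  obtain ⟨τ, hτ, rfl⟩ := h
  refine ⟨τ ≫ φ, ?_, rfl⟩
  rw [← Category.assoc, hτ]
  rfl

end Points

section Dom

variable {K : Type u} [Field K] {A : Scheme.{u}} {f : A ⟶ Spec (CommRingCat.of K)}
variable {E : Type u} [Field E] [Algebra K E] [IsIntegral A]

/-- A dominant point is the generic point followed by `ψ`. -/
theorem pt_eq_of_isDomPt (s : Pt f E) (ψ : A.functionField →+* E) (h : IsDomPt s ψ) :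
    s.1 = Spec.map (CommRingCat.ofHom ψ) ≫ A.fromSpecStalk (genericPoint A) := by
  have hsp : genericPoint A ⤳ img s := C.H14.gen_specializes A (img s)
  have h1 : Scheme.stalkClosedPointTo s.1 =
      A.presheaf.stalkSpecializes hsp ≫ CommRingCat.ofHom ψ := by
    ext a
    exact (h a).symm
  have h2 : Spec.map (Scheme.stalkClosedPointTo s.1) ≫ A.fromSpecStalk (img s) = s.1 :=
    Scheme.Spec_stalkClosedPointTo_fromSpecStalk s.1
  have h3 : Spec.map (A.presheaf.stalkSpecializes hsp ≫ CommRingCat.ofHom ψ) =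
      Spec.map (CommRingCat.ofHom ψ) ≫ Spec.map (A.presheaf.stalkSpecializes hsp) :=
    Spec.map_comp _ _
  have h4 : Spec.map (A.presheaf.stalkSpecializes hsp) ≫ A.fromSpecStalk (img s) =
      A.fromSpecStalk (genericPoint A) :=
    Scheme.SpecMap_stalkSpecializes_fromSpecStalk hsp
  calc s.1 = Spec.map (Scheme.stalkClosedPointTo s.1) ≫ A.fromSpecStalk (img s) := h2.symm
    _ = Spec.map (A.presheaf.stalkSpecializes hsp ≫ CommRingCat.ofHom ψ) ≫
          A.fromSpecStalk (img s) :=
        congrArg (fun q => Spec.map q ≫ A.fromSpecStalk (img s)) h1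
    _ = (Spec.map (CommRingCat.ofHom ψ) ≫ Spec.map (A.presheaf.stalkSpecializes hsp)) ≫
          A.fromSpecStalk (img s) :=
        congrArg (fun q => q ≫ A.fromSpecStalk (img s)) h3
    _ = Spec.map (CommRingCat.ofHom ψ) ≫ (Spec.map (A.presheaf.stalkSpecializes hsp) ≫
          A.fromSpecStalk (img s)) := Category.assoc _ _ _
    _ = _ := congrArg (fun q => Spec.map (CommRingCat.ofHom ψ) ≫ q) h4

/-- The image of a dominant point is the generic point. -/
theorem img_eq_genericPoint (s : Pt f E) (ψ : A.functionField →+* E) (h : IsDomPt s ψ) :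
    img s = genericPoint A := by
  have h1 : img s = (Spec.map (CommRingCat.ofHom ψ) ≫ A.fromSpecStalk (genericPoint A))
      (IsLocalRing.closedPoint (CommRingCat.of E)) := by
    unfold img
    rw [← pt_eq_of_isDomPt s ψ h]
  rw [h1]
  change (A.fromSpecStalk (genericPoint A)) ((Spec.map (CommRingCat.ofHom ψ))
    (IsLocalRing.closedPoint (CommRingCat.of E))) = _
  have h2 : (Spec.map (CommRingCat.ofHom ψ)) (IsLocalRing.closedPoint (CommRingCat.of E)) =
      IsLocalRing.closedPoint (A.presheaf.stalk (genericPoint A)) := by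
    haveI : Subsingleton (PrimeSpectrum A.functionField) := inferInstance
    exact Subsingleton.elim (α := PrimeSpectrum A.functionField) _ _
  rw [h2, Scheme.fromSpecStalk_closedPoint]

/-- `ψ` is a homomorphism over `K`. -/
theorem psi_const (s : Pt f E) (ψ : A.functionField →+* E) (h : IsDomPt s ψ) (c : K) :
    ψ (constHom f c) = algebraMap K E c := by
  have h1 : s.1 ≫ f = str K E := s.2
  have h2 : s.1 ≫ f = Spec.map (CommRingCat.ofHom (constHom f) ≫ CommRingCat.ofHom ψ) := by
    calc s.1 ≫ f = (Spec.map (CommRingCat.ofHom ψ) ≫ A.fromSpecStalk (genericPoint A)) ≫ f :=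
          congrArg (fun q => q ≫ f) (pt_eq_of_isDomPt s ψ h)
      _ = Spec.map (CommRingCat.ofHom ψ) ≫ (G.H80.genericHom A ≫ f) := Category.assoc _ _ _
      _ = Spec.map (CommRingCat.ofHom ψ) ≫ Spec.map (CommRingCat.ofHom (constHom f)) :=
          congrArg (fun q => Spec.map (CommRingCat.ofHom ψ) ≫ q) (G.H80.genericHom_comp f)
      _ = _ := (Spec.map_comp _ _).symm
  have h3 : CommRingCat.ofHom (constHom f) ≫ CommRingCat.ofHom ψ =
      CommRingCat.ofHom (algebraMap K E) := Spec.map_injective (h2.symm.trans h1)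
  exact congrArg (fun q => q.hom c) h3

/-- The constants as germs at `z`. -/
theorem constHom_eq_algebraMap (z : A) (c : K) :
    constHom f c = algebraMap (A.presheaf.stalk z) A.functionField
      (A.presheaf.germ ⊤ z trivial
        (f.appTop.hom ((Scheme.ΓSpecIso (CommRingCat.of K)).inv.hom c))) := by
  haveI : Nonempty (⊤ : A.Opens) := ⟨⟨z, trivial⟩⟩
  rw [Scheme.algebraMap_germ_eq_germToFunctionField A (U := ⊤) trivial]
  rfl

end Dom

section Centre

variable {K : Type u} [Field K] {A : Scheme.{u}} {f : A ⟶ Spec (CommRingCat.of K)}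
variable {E : Type u} [Field E] [Algebra K E] [IsIntegral A]
variable {F : Type u} [Field F]

/-- A valuation ring of `F` containing `𝒪_{A,z}` restricts to a valuation ring of `E` over
`K`. -/
theorem overK_comap (s : Pt f E) (ψ : A.functionField →+* E) (h : IsDomPt s ψ) (j : E →+* F)
    (W : ValuationSubring F) (z : A)
    (h1 : ∀ a : A.presheaf.stalk z,
      j (ψ (algebraMap (A.presheaf.stalk z) A.functionField a)) ∈ W) :
    OverK K (W.comap j) := by
  intro c
  rw [ValuationSubring.mem_comap, ← psi_const s ψ h c, constHom_eq_algebraMap z c]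
  exact h1 _

/-- The homomorphism `𝒪_{A,z} → V`. -/
noncomputable def toV (ψ : A.functionField →+* E) (j : E →+* F) (W : ValuationSubring F) (z : A)
    (h1 : ∀ a : A.presheaf.stalk z,
      j (ψ (algebraMap (A.presheaf.stalk z) A.functionField a)) ∈ W) :
    A.presheaf.stalk z →+* (W.comap j) :=
  (ψ.comp (algebraMap (A.presheaf.stalk z) A.functionField)).codRestrict (W.comap j)
    (fun a => h1 a)

theorem isLocalHom_toV (ψ : A.functionField →+* E) (j : E →+* F) (W : ValuationSubring F)
    (z : A)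
    (h1 : ∀ a : A.presheaf.stalk z,
      j (ψ (algebraMap (A.presheaf.stalk z) A.functionField a)) ∈ W)
    (h2 : ∀ a : A.presheaf.stalk z, a ∈ IsLocalRing.maximalIdeal (A.presheaf.stalk z) → a ≠ 0 →
      (j (ψ (algebraMap (A.presheaf.stalk z) A.functionField a)))⁻¹ ∉ W) :
    IsLocalHom (toV ψ j W z h1) := by
  refine ⟨fun a ha => ?_⟩
  by_contra hna
  have hm : a ∈ IsLocalRing.maximalIdeal (A.presheaf.stalk z) := by
    rw [IsLocalRing.mem_maximalIdeal, mem_nonunits_iff]
    exact hna
  by_cases h0 : a = 0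
  · subst h0
    rw [map_zero] at ha
    exact not_isUnit_zero ha
  · apply h2 a hm h0
    obtain ⟨b, hb⟩ := ha.exists_right_inv
    have hb' : ψ (algebraMap (A.presheaf.stalk z) A.functionField a) * (b : E) = 1 :=
      congrArg (fun x : (W.comap j) => (x : E)) hb
    have hinv : (ψ (algebraMap (A.presheaf.stalk z) A.functionField a))⁻¹ = (b : E) :=
      inv_eq_of_mul_eq_one_right hb'
    rw [← map_inv₀, hinv]
    exact b.2

/-- **The centre**: a valuation ring `W` of `F` dominating `𝒪_{A,z}` restricts to a valuation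
ring of `E` at which the dominant point `s` has centre `z`. -/
theorem isCentre_of_dom (s : Pt f E) (ψ : A.functionField →+* E) (h : IsDomPt s ψ) (j : E →+* F)
    (W : ValuationSubring F) (z : A)
    (h1 : ∀ a : A.presheaf.stalk z,
      j (ψ (algebraMap (A.presheaf.stalk z) A.functionField a)) ∈ W)
    (h2 : ∀ a : A.presheaf.stalk z, a ∈ IsLocalRing.maximalIdeal (A.presheaf.stalk z) → a ≠ 0 →
      (j (ψ (algebraMap (A.presheaf.stalk z) A.functionField a)))⁻¹ ∉ W) :
    IsCentre s (W.comap j) z := by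
  haveI : IsLocalHom (toV ψ j W z h1) := isLocalHom_toV ψ j W z h1 h2
  haveI : IsLocalHom (CommRingCat.ofHom (toV ψ j W z h1)).hom := this
  have hsp : genericPoint A ⤳ z := C.H14.gen_specializes A z
  refine ⟨Spec.map (CommRingCat.ofHom (toV ψ j W z h1)) ≫ A.fromSpecStalk z, ?_, ?_⟩
  · have e1 : CommRingCat.ofHom (toV ψ j W z h1) ≫
        CommRingCat.ofHom (algebraMap (W.comap j) E) =
        A.presheaf.stalkSpecializes hsp ≫ CommRingCat.ofHom ψ := by
      ext a
      rfl
    have e2 : Spec.map (A.presheaf.stalkSpecializes hsp) ≫ A.fromSpecStalk z =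
        A.fromSpecStalk (genericPoint A) :=
      Scheme.SpecMap_stalkSpecializes_fromSpecStalk hsp
    calc Spec.map (CommRingCat.ofHom (algebraMap (W.comap j) E)) ≫
          Spec.map (CommRingCat.ofHom (toV ψ j W z h1)) ≫ A.fromSpecStalk z
        = (Spec.map (CommRingCat.ofHom (algebraMap (W.comap j) E)) ≫
          Spec.map (CommRingCat.ofHom (toV ψ j W z h1))) ≫ A.fromSpecStalk z :=
          (Category.assoc _ _ _).symm
      _ = Spec.map (CommRingCat.ofHom (toV ψ j W z h1) ≫
            CommRingCat.ofHom (algebraMap (W.comap j) E)) ≫ A.fromSpecStalk z :=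
          congrArg (fun q => q ≫ A.fromSpecStalk z) (Spec.map_comp _ _).symm
      _ = Spec.map (A.presheaf.stalkSpecializes hsp ≫ CommRingCat.ofHom ψ) ≫
            A.fromSpecStalk z :=
          congrArg (fun q => Spec.map q ≫ A.fromSpecStalk z) e1
      _ = (Spec.map (CommRingCat.ofHom ψ) ≫ Spec.map (A.presheaf.stalkSpecializes hsp)) ≫
            A.fromSpecStalk z :=
          congrArg (fun q => q ≫ A.fromSpecStalk z) (Spec.map_comp _ _)
      _ = Spec.map (CommRingCat.ofHom ψ) ≫ (Spec.map (A.presheaf.stalkSpecializes hsp) ≫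
            A.fromSpecStalk z) := Category.assoc _ _ _
      _ = Spec.map (CommRingCat.ofHom ψ) ≫ A.fromSpecStalk (genericPoint A) :=
          congrArg (fun q => Spec.map (CommRingCat.ofHom ψ) ≫ q) e2
      _ = s.1 := (pt_eq_of_isDomPt s ψ h).symm
  · change (A.fromSpecStalk z) ((Spec.map (CommRingCat.ofHom (toV ψ j W z h1)))
      (IsLocalRing.closedPoint (CommRingCat.of (W.comap j)))) = z
    rw [Spec_closedPoint, Scheme.fromSpecStalk_closedPoint]

end Centre

section Pull

variable {K : Type u} [Field K] {A : Scheme.{u}} {f : A ⟶ Spec (CommRingCat.of K)}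
variable {E : Type u} [Field E] [Algebra K E] [IsIntegral A]

/-- `σ^♯` of a dominant point is `ψ`. -/
theorem pullAt_of_isRegAt (s : Pt f E) (ψ : A.functionField →+* E) (h : IsDomPt s ψ)
    (x : A.functionField) (hx : IsRegAt (img s) x) : pullAt s x = ψ x := by
  obtain ⟨a, rfl⟩ := hx
  rw [H8.pullAt_algebraMap, h a]

theorem germ_compPt (σ : Pt f E) (φ : A ⟶ A) (hφ : φ ≫ f = f)
    (a : A.presheaf.stalk (φ (img σ))) :
    germ (compPt σ φ hφ) a = germ σ ((φ.stalkMap (img σ)).hom a) := by
  have e := Scheme.stalkClosedPointTo_comp σ.1 φ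
  exact congrArg (fun q => q.hom a) e

/-- `(σ ≫ φ)^♯ = ψ ∘ φ^♯` for a dominant point `σ`. -/
theorem pullAt_compPt (s : Pt f E) (ψ : A.functionField →+* E) (h : IsDomPt s ψ)
    (φ : A ⟶ A) (hφ : φ ≫ f = f) (x : A.functionField) (hx : IsRegAt (φ (img s)) x) :
    pullAt (compPt s φ hφ) x = ψ (pullFun φ x) := by
  obtain ⟨a, rfl⟩ := hx
  have e1 : pullAt (compPt s φ hφ)
      (algebraMap (A.presheaf.stalk (φ (img s))) A.functionField a) =
      germ (compPt s φ hφ) a := H8.pullAt_algebraMap (compPt s φ hφ) a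
  rw [e1, germ_compPt, C.H14.pullFun_algebraMap φ (img s) a, h]

/-- The local equation of `s^* D` at a valuation ring with centre `z`. -/
theorem pb_eq (hC : Stmt_CENTRE.{u}) [IsProper f] (s : Pt f E) (ψ : A.functionField →+* E)
    (h : IsDomPt s ψ) (D : A → A.functionField) (hD : IsCartier D) (V : ValuationSubring E)
    (hV : OverK K V) (z : A) (hz : IsCentre s V z) :
    pb s D V = ψ (D z / D (genericPoint A)) := by
  have hsp : img s ⤳ z := H8.img_specializes_of_isCentre s V z hz
  unfold pb pullV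
  rw [H8.centre_eq hC s V hV z hz,
    pullAt_of_isRegAt s ψ h _
      (C.H14.isRegAt_of_isUnitAt (C.H14.isUnitAt_div_of_isCartier hD hsp)),
    img_eq_genericPoint s ψ h]

/-- The local equation of `(s ≫ φ)^* D` at a valuation ring at which `s` has centre `z`. -/
theorem pb_compPt_eq (hC : Stmt_CENTRE.{u}) [IsProper f] (s : Pt f E)
    (ψ : A.functionField →+* E) (h : IsDomPt s ψ) (φ : A ⟶ A) (hφ : φ ≫ f = f)
    (D : A → A.functionField) (hD : IsCartier D) (V : ValuationSubring E)
    (hV : OverK K V) (z : A) (hz : IsCentre s V z) :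
    pb (compPt s φ hφ) D V = ψ (pull φ D z) := by
  have hsp : img s ⤳ z := H8.img_specializes_of_isCentre s V z hz
  have hsp' : φ (img s) ⤳ φ z := φ.base.hom.map_specializes hsp
  unfold pb pullV
  rw [H8.centre_eq hC (compPt s φ hφ) V hV (φ z) (isCentre_compPt s φ hφ V z hz), img_compPt,
    pullAt_compPt s ψ h φ hφ _
      (C.H14.isRegAt_of_isUnitAt (C.H14.isUnitAt_div_of_isCartier hD hsp')),
    C.H14.pull_apply, img_eq_genericPoint s ψ h]

end Pull

section Aux

/-- Valuation rings are integrally closed (for pure equations). -/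
theorem mem_of_pow_mem {F : Type u} [Field F] (W : ValuationSubring F) (x : F) (k : ℕ)
    (hk : 0 < k) (hx : x ^ k ∈ W) : x ∈ W := by
  by_contra hn
  have h0 : x ≠ 0 := by
    rintro rfl
    exact hn W.zero_mem
  have hinv : x⁻¹ ∈ W := (W.mem_or_inv_mem x).resolve_left hn
  apply hn
  have e : x = x ^ k * x⁻¹ ^ (k - 1) := by
    obtain ⟨m, rfl⟩ : ∃ m, k = m + 1 := ⟨k - 1, by omega⟩
    rw [Nat.add_sub_cancel, pow_succ, inv_pow]
    field_simp
  rw [e]
  exact W.mul_mem _ _ hx (W.pow_mem hinv _)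

/-- In relative dimension `0` there is no point of coheight one. -/
theorem coheight_eq_zero_of_dim_zero {K : Type u} [Field K] {A : Scheme.{u}}
    (f : A ⟶ Spec (CommRingCat.of K)) [SmoothOfRelativeDimension 0 f] [IsLocallyNoetherian A]
    (z : A) : Order.coheight z = 0 := by
  haveI : Etale f := (Etale.iff_smoothOfRelativeDimension_zero f).2 inferInstance
  have h := T.H69.coheight_eq_of_etale f z
  rw [← h, Order.coheight_eq_zero]
  intro y _
  have e : y = f z := Subsingleton.elim (α := PrimeSpectrum K) _ _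
  rw [e]

/-- A finite extension with a `k`-th root of `Ψ₀`. -/
theorem exists_root_ext (E : Type u) [Field E] (Ψ₀ : E) (k : ℕ) (hk : 0 < k) :
    ∃ (F : Type u) (_ : Field F) (_ : Algebra E F) (_ : FiniteDimensional E F) (Ψ₁ : F),
      Ψ₁ ^ k = algebraMap E F Ψ₀ := by
  let p : Polynomial E := Polynomial.X ^ k - Polynomial.C Ψ₀
  have hdeg : p.degree = k := Polynomial.degree_X_pow_sub_C hk Ψ₀
  have hsp := Polynomial.SplittingField.splits p
  have hd : (p.map (algebraMap E p.SplittingField)).degree ≠ 0 := by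
    rw [Polynomial.degree_map, hdeg]
    exact_mod_cast hk.ne'
  obtain ⟨a, ha⟩ := hsp.exists_eval_eq_zero hd
  refine ⟨p.SplittingField, inferInstance, inferInstance, inferInstance, a, ?_⟩
  rw [Polynomial.eval_map] at ha
  simp only [p, Polynomial.eval₂_sub, Polynomial.eval₂_pow, Polynomial.eval₂_X,
    Polynomial.eval₂_C] at ha
  exact sub_eq_zero.1 ha

end Aux

section Main

variable {K : Type u} [Field K] {A : Scheme.{u}} {f : A ⟶ Spec (CommRingCat.of K)}
variable {E : Type u} [Field E] [Algebra K E] [IsIntegral A]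

/-- The valuative divisor `(s ^ n)^* D - n² s^* D` at a valuation ring with centre `z`. -/
theorem lam_eq (hC : Stmt_CENTRE.{u}) [IsProper f] (L : RelativeGroupLaw K f) (s : Pt f E)
    (ψ : A.functionField →+* E) (h : IsDomPt s ψ) (D : A → A.functionField) (hD : IsCartier D)
    (n : ℕ) (V : ValuationSubring E) (hV : OverK K V) (z : A) (hz : IsCentre s V z) :
    (letI : Group (Pt f E) := L.pointGroup (str K E)
     (pb (s ^ n) D / pb s D ^ (n ^ 2)) V) =
      ψ (pull (L.schemeNsmul n) D z) / ψ (D z / D (genericPoint A)) ^ (n ^ 2) := by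
  letI : Group (Pt f E) := L.pointGroup (str K E)
  rw [Pi.div_apply, Pi.pow_apply, pb_eq hC s ψ h D hD V hV z hz]
  congr 1
  have e := pow_eq_compPt L s n
  rw [e]
  exact pb_compPt_eq hC s ψ h _ _ D hD V hV z hz

end Main

/-- **PCORE_of_XQUAD**. -/
theorem stmt_PCORE_of_XQUAD : Stmt_PCORE_of_XQUAD.{u} := by
  intro hC hX K _ _ A f L hc hA g _ _ _ D hD hsym n hn
  haveI : IsProper f := hA.proper
  rcases Nat.eq_zero_or_pos g with hg | hg
  · subst hg
    refine ⟨A.functionField, inferInstance, Algebra.id _, inferInstance, 1, one_ne_zero,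
      fun z hz => ?_⟩
    rw [coheight_eq_zero_of_dim_zero f z] at hz
    exact absurd hz (by norm_num)
  · have hav : IsAVg K f L g :=
      ⟨inferInstance, hc, hA, inferInstance, inferInstance, inferInstance⟩
    obtain ⟨E, iE, iKE, s, ψ, hdom, hfin, hquad⟩ := hX K f L g hav hg
    obtain ⟨k, hk, Ψ₀, hΨ₀, hΨ⟩ := hquad D hD hsym n hn
    obtain ⟨F, iF, iEF, hEF, Ψ₁, hΨ₁⟩ := exists_root_ext E Ψ₀ k hk
    letI iAE : Algebra A.functionField E := ψ.toAlgebra
    letI iAF : Algebra A.functionField F := ((algebraMap E F).comp ψ).toAlgebra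
    haveI : IsScalarTower A.functionField E F := IsScalarTower.of_algebraMap_eq (fun x => rfl)
    haveI hfin' : FiniteDimensional A.functionField E := hfin
    haveI : FiniteDimensional A.functionField F := Module.Finite.trans E F
    have hΨ₁0 : Ψ₁ ≠ 0 := by
      intro h0
      rw [h0, zero_pow hk.ne'] at hΨ₁
      exact hΨ₀ ((map_eq_zero (algebraMap E F)).1 hΨ₁.symm)
    have hd0 : algebraMap E F (ψ (D (genericPoint A))) ≠ 0 := by
      rw [Ne, map_eq_zero, map_eq_zero]
      exact hD.1 _
    refine ⟨F, iF, iAF, inferInstance,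
      Ψ₁ * (algebraMap E F (ψ (D (genericPoint A))) ^ (n ^ 2))⁻¹,
      mul_ne_zero hΨ₁0 (inv_ne_zero (pow_ne_zero _ hd0)), fun z _ W hW => ?_⟩
    obtain ⟨h1, h2⟩ := hW
    have hV : OverK K (W.comap (algebraMap E F)) := overK_comap s ψ hdom _ W z h1
    have hcz : IsCentre s (W.comap (algebraMap E F)) z := isCentre_of_dom s ψ hdom _ W z h1 h2
    obtain ⟨hu, hu'⟩ := hΨ (W.comap (algebraMap E F)) hV
    rw [Pi.pow_apply, lam_eq hC L s ψ hdom D hD n _ hV z hcz] at hu hu'
    rw [ValuationSubring.mem_comap] at hu hu'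
    have e0 : algebraMap A.functionField F
        (pull (L.schemeNsmul n) D z / D z ^ (n ^ 2)) =
        algebraMap E F (ψ (pull (L.schemeNsmul n) D z / D z ^ (n ^ 2))) := rfl
    rw [e0]
    have hz0 : algebraMap E F (ψ (D z)) ≠ 0 := by
      rw [Ne, map_eq_zero, map_eq_zero]
      exact hD.1 _
    have hkey : algebraMap E F (ψ (pull (L.schemeNsmul n) D z) /
        ψ (D z / D (genericPoint A)) ^ (n ^ 2)) =
        algebraMap E F (ψ (pull (L.schemeNsmul n) D z / D z ^ (n ^ 2))) *
          algebraMap E F (ψ (D (genericPoint A))) ^ (n ^ 2) := by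
      have hd1 : algebraMap E F (ψ (D (genericPoint A))) ^ (n ^ 2) ≠ 0 := pow_ne_zero _ hd0
      have hz1 : algebraMap E F (ψ (D z)) ^ (n ^ 2) ≠ 0 := pow_ne_zero _ hz0
      simp only [map_div₀, map_pow, div_pow]
      field_simp
    rw [map_mul, map_inv₀, map_pow, hkey, ← hΨ₁] at hu
    rw [map_mul, map_inv₀, map_pow, hkey, ← hΨ₁] at hu'
    generalize algebraMap E F (ψ (pull (L.schemeNsmul n) D z / D z ^ (n ^ 2))) = X at hu hu' ⊢
    generalize algebraMap E F (ψ (D (genericPoint A))) ^ (n ^ 2) = d at hu hu' ⊢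
    constructor
    · apply mem_of_pow_mem W _ k hk
      have e : (Ψ₁ * d⁻¹ * X⁻¹) ^ k = Ψ₁ ^ k * ((X * d) ^ k)⁻¹ := by
        simp only [mul_pow, mul_inv, inv_pow]
        ring
      rw [e]
      exact hu
    · apply mem_of_pow_mem W _ k hk
      have e : (X * (Ψ₁ * d⁻¹)⁻¹) ^ k = (X * d) ^ k * (Ψ₁ ^ k)⁻¹ := by
        simp only [mul_pow, mul_inv, inv_pow, inv_inv]
        ring
      rw [e]
      exact hu'

end Fermat.Agent.S26.C.X.H80
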