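/-
S26 (row 25), crux (C), cube side, leaf CURVES, sub-leaf CV-DOMPT (helper13): a point given in an
affine chart by an INJECTIVE homomorphism `ζ : Γ(A, U) → E` is dominant: `ψ := Frac ζ : K(A) → E`
satisfies `IsDomPt σ ψ`, extends `ζ` and is `K`-linear.
-/
import Mathlib
import Fermat.Agent.S26.C.X.CurvesDefs2
import Fermat.Agent.S26.C.X.H69_PullAt
import Fermat.Agent.S26.C.X.H80_PCoreOfXQuad

set_option autoImplicit false
set_option linter.style.haveILetI false
set_option linter.unusedSectionVars false

open CategoryTheory CategoryTheory.Limits AlgebraicGeometry NeronModelInfra GoodReductionJacobian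

universe u

namespace Fermat.Agent.S26.C.X.H13D

variable {K : Type u} [Field K] {A : Scheme.{u}} {f : A ⟶ Spec (CommRingCat.of K)}
variable {E : Type u} [Field E] [Algebra K E] [IsIntegral A]

/-- A point which factors through the generic point by `ψ` is dominant with function field map
`ψ`. -/
theorem isDomPt_of_factor (σ : Pt f E) (ψ : A.functionField →+* E)
    (h : σ.1 = Spec.map (CommRingCat.ofHom ψ) ≫ A.fromSpecStalk (genericPoint A)) :
    IsDomPt σ ψ := by
  intro a'
  obtain ⟨hs, e⟩ := H69.stalkClosedPointTo_of_factor (CommRingCat.ofHom ψ) σ.1 h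
    (algebraMap (A.presheaf.stalk (img σ)) A.functionField a')
  have h1 : (A.presheaf.stalkSpecializes hs).hom
      (algebraMap (A.presheaf.stalk (img σ)) A.functionField a') = a' := by
    apply C.H14.algebraMap_stalk_injective (img σ)
    have h2 := C.H14.algebraMap_stalkSpecializes hs
      (algebraMap (A.presheaf.stalk (img σ)) A.functionField a')
    refine h2.trans ?_
    rw [C.H14.algebraMap_stalk_apply (genericPoint A)]
    have h3 : A.presheaf.stalkSpecializes (C.H14.gen_specializes A (genericPoint A)) = 𝟙 _ :=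
      TopCat.Presheaf.stalkSpecializes_refl _ _
    rw [h3]
    rfl
  have e' : (Scheme.stalkClosedPointTo σ.1).hom a' =
      ψ (algebraMap (A.presheaf.stalk (img σ)) A.functionField a') := by
    have e2 := e
    rw [h1] at e2
    exact e2
  exact e'.symm

/-- The factorisation of a point given in an affine chart by `ζ = ψ ∘ germ`. -/
theorem factor_of_chart (U : A.Opens) (hU : IsAffineOpen U) [Nonempty U] (σ : Pt f E)
    (ζ : Γ(A, U) →+* E) (hσ : σ.1 = Fermat.Agent.S26.E.H14.pt hU (CommRingCat.ofHom ζ))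
    (ψ : A.functionField →+* E) (hψ : ∀ a, ψ ((A.germToFunctionField U).hom a) = ζ a) :
    σ.1 = Spec.map (CommRingCat.ofHom ψ) ≫ A.fromSpecStalk (genericPoint A) := by
  have hmem : genericPoint A ∈ U :=
    ((genericPoint_spec A).mem_open_set_iff U.isOpen).mpr (by simpa using ‹Nonempty U›)
  have h1 : CommRingCat.ofHom ζ = A.presheaf.germ U (genericPoint A) hmem ≫
      CommRingCat.ofHom ψ := by
    ext a
    exact (hψ a).symm
  have h2 : hU.fromSpecStalk hmem = A.fromSpecStalk (genericPoint A) :=
    hU.fromSpecStalk_eq_fromSpecStalk hmem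
  calc σ.1 = Spec.map (CommRingCat.ofHom ζ) ≫ hU.fromSpec := hσ
    _ = Spec.map (A.presheaf.germ U (genericPoint A) hmem ≫ CommRingCat.ofHom ψ) ≫
          hU.fromSpec := by rw [h1]
    _ = (Spec.map (CommRingCat.ofHom ψ) ≫ Spec.map (A.presheaf.germ U (genericPoint A) hmem)) ≫
          hU.fromSpec := congrArg (fun q => q ≫ hU.fromSpec) (Spec.map_comp _ _)
    _ = Spec.map (CommRingCat.ofHom ψ) ≫ (Spec.map (A.presheaf.germ U (genericPoint A) hmem) ≫
          hU.fromSpec) := Category.assoc _ _ _
    _ = Spec.map (CommRingCat.ofHom ψ) ≫ A.fromSpecStalk (genericPoint A) :=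
        congrArg (fun q => Spec.map (CommRingCat.ofHom ψ) ≫ q) h2

/-- **CV-DOMPT**. -/
theorem stmt_CVDOMPT : Stmt_CVDOMPT.{u} := by
  intro K _ A f _ U hU _ E _ _ σ ζ hσ hζ
  haveI : IsFractionRing Γ(A, U) A.functionField :=
    functionField_isFractionRing_of_isAffineOpen A U hU
  let ψ : A.functionField →+* E := IsFractionRing.lift hζ
  have hψ : ∀ a, ψ ((A.germToFunctionField U).hom a) = ζ a :=
    fun a => IsFractionRing.lift_algebraMap hζ a
  have hfac := factor_of_chart U hU σ ζ hσ ψ hψ
  have hdom : IsDomPt σ ψ := isDomPt_of_factor σ ψ hfac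
  exact ⟨ψ, hdom, hψ, RingHom.ext (H80.psi_const σ ψ hdom)⟩

end Fermat.Agent.S26.C.X.H13D
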