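import Mathlib
import Fermat.Agent.S26.C.H14_CurveAlg
import Fermat.Agent.S26.C.X.Defs

/-!
# S26 (C), cube side, leaf CURVES, part CV-ALG (helper14): one curve through the origin

`T` étale over `K[X]`, `χ : T → K` a `K`-point over `X = 0`, `V = T_{ker χ}`.
* `V` is a domain (a DVR with uniformiser `X`);
* `resV : V →ₐ[K] K`;
* `exists_lam` : for every `K`-algebra `B` with a nilpotent augmentation ideal and `b` in it there
  is a `K`-algebra map `V → B` over the augmentations with `X ↦ b` (formal smoothness);
* `isFF1_frac` : `Frac V` is a function field of one variable.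
-/

set_option autoImplicit false
set_option linter.style.haveILetI false
set_option linter.unusedSectionVars false

universe u

open IsLocalRing TensorProduct Polynomial

namespace Fermat.Agent.S26.C.X.H14a

open Fermat.Agent.S26.C.H14c

section Loc

variable (K : Type u) [Field K] (T : Type u) [CommRing T] [Algebra K[X] T]
  [Algebra.Etale K[X] T] (q : Ideal T) [q.IsPrime] (hq : q.under K[X] = Ideal.span {X})

include hq in
/-- the maximal ideal of the local ring of the curve is generated by `X` -/
theorem maximalIdeal_eq :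
    maximalIdeal (Localization.AtPrime q) =
      Ideal.span {algebraMap K[X] (Localization.AtPrime q) X} := by
  have h := map_eq_maximalIdeal_of_etale K[X] q
  rw [← h, hq, Ideal.map_span, Set.image_singleton]

/-- `X` is a nonzerodivisor of the local ring of the curve -/
theorem X_mem_nonZeroDivisors :
    algebraMap K[X] (Localization.AtPrime q) X ∈ nonZeroDivisors (Localization.AtPrime q) := by
  haveI := flat_loc_of_etale K[X] q
  have hX : (X : K[X]) ∈ nonZeroDivisors K[X] :=
    mem_nonZeroDivisors_of_ne_zero Polynomial.X_ne_zero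
  have hreg := Module.Flat.isSMulRegular_of_nonZeroDivisors (M := Localization.AtPrime q) hX
  rw [mem_nonZeroDivisors_iff]
  constructor
  · intro y hy
    apply hreg
    change (X : K[X]) • y = (X : K[X]) • (0 : Localization.AtPrime q)
    rw [smul_zero, Algebra.smul_def]; exact hy
  · intro y hy
    apply hreg
    change (X : K[X]) • y = (X : K[X]) • (0 : Localization.AtPrime q)
    rw [smul_zero, Algebra.smul_def, mul_comm]; exact hy

include hq in
theorem isDomain_loc : IsDomain (Localization.AtPrime q) := by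
  haveI := noeth_loc_of_etale K[X] q
  exact isDomain_of_nzd _ (maximalIdeal_eq K T q hq) (X_mem_nonZeroDivisors K T q)

include hq in
theorem isDVR_loc [IsDomain (Localization.AtPrime q)] :
    IsDiscreteValuationRing (Localization.AtPrime q) := by
  haveI := noeth_loc_of_etale K[X] q
  exact isDVR_of_nzd _ (maximalIdeal_eq K T q hq) (X_mem_nonZeroDivisors K T q)

/-- `K[X] → V` is injective -/
theorem algebraMap_loc_injective [IsDomain (Localization.AtPrime q)] :
    Function.Injective (algebraMap K[X] (Localization.AtPrime q)) := by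
  haveI := flat_loc_of_etale K[X] q
  rw [injective_iff_map_eq_zero]
  intro p hp
  by_contra hne
  have hp' : p ∈ nonZeroDivisors K[X] := mem_nonZeroDivisors_of_ne_zero hne
  have hreg := Module.Flat.isSMulRegular_of_nonZeroDivisors (M := Localization.AtPrime q) hp'
  have h1 : p • (1 : Localization.AtPrime q) = p • (0 : Localization.AtPrime q) := by
    rw [smul_zero, Algebra.smul_def, mul_one]; exact hp
  exact one_ne_zero (hreg h1)

end Loc

section Point

variable (K : Type u) [Field K] (T : Type u) [CommRing T] [Algebra K[X] T] [Algebra K T]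
  [IsScalarTower K K[X] T] [Algebra.Etale K[X] T] (χ : T →ₐ[K] K)
  (hχ : χ (algebraMap K[X] T X) = 0)

include hχ in
theorem chi_algebraMap (p : K[X]) : χ (algebraMap K[X] T p) = p.eval 0 := by
  have h : (χ.comp (IsScalarTower.toAlgHom K K[X] T)) = Polynomial.aeval (0 : K) := by
    apply Polynomial.algHom_ext
    simpa using hχ
  have := AlgHom.congr_fun h p
  simpa [Polynomial.coe_aeval_eq_eval] using this

/-- the prime ideal of the origin of the curve -/
def qq : Ideal T := RingHom.ker χ.toRingHom

instance qq_isMaximal : (qq K T χ).IsMaximal :=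
  RingHom.ker_isMaximal_of_surjective χ.toRingHom
    (fun a => ⟨algebraMap K T a, by simp⟩)

instance qq_isPrime : (qq K T χ).IsPrime := (qq_isMaximal K T χ).isPrime

theorem mem_qq (t : T) : t ∈ qq K T χ ↔ χ t = 0 := Iff.rfl

include hχ in
theorem under_qq : (qq K T χ).under K[X] = Ideal.span {X} := by
  have h1 : Ideal.span {(X : K[X])} ≤ (qq K T χ).under K[X] := by
    rw [Ideal.span_le]
    rintro _ rfl
    exact hχ
  have hmax : (Ideal.span {(X : K[X])}).IsMaximal :=
    PrincipalIdealRing.isMaximal_of_irreducible Polynomial.irreducible_X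
  have hne : (qq K T χ).under K[X] ≠ ⊤ := Ideal.IsPrime.ne_top'
  exact (hmax.eq_of_le hne h1).symm

/-- the local ring of the curve at the origin -/
abbrev Vc : Type u := Localization.AtPrime (qq K T χ)

include hχ in
theorem isDomain_Vc : IsDomain (Vc K T χ) := isDomain_loc K T _ (under_qq K T χ hχ)

/-- the residue map `V → K` -/
noncomputable def resV : Vc K T χ →ₐ[K] K :=
  IsLocalization.liftAlgHom (M := (qq K T χ).primeCompl) (f := χ)
    (fun y => isUnit_iff_ne_zero.2 (fun h => y.2 ((mem_qq K T χ _).2 h)))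

theorem resV_algebraMap (t : T) : resV K T χ (algebraMap T (Vc K T χ) t) = χ t := by
  simp [resV]

include hχ in
/-- **the maps to artinian algebras**: for a `K`-algebra `B` with an augmentation `aug` with
nilpotent kernel and `b ∈ ker aug`, there is a `K`-algebra map `V → B` over the augmentations
with `X ↦ b`. -/
theorem exists_lam (B : Type u) [CommRing B] [Algebra K B] (aug : B →ₐ[K] K)
    (hnil : IsNilpotent (RingHom.ker aug.toRingHom)) (b : B) (hb : aug b = 0) :
    ∃ lam : Vc K T χ →ₐ[K] B, aug.comp lam = resV K T χ ∧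
      lam (algebraMap T (Vc K T χ) (algebraMap K[X] T X)) = b := by
  classical
  -- `B` and `K` as `K[X]`-algebras
  letI algB : Algebra K[X] B := (Polynomial.aeval b).toRingHom.toAlgebra
  letI algK : Algebra K[X] K := (Polynomial.aeval (0 : K)).toRingHom.toAlgebra
  have hB : ∀ p : K[X], algebraMap K[X] B p = Polynomial.aeval b p := fun _ => rfl
  have hK : ∀ p : K[X], algebraMap K[X] K p = Polynomial.aeval (0 : K) p := fun _ => rfl
  let χ' : T →ₐ[K[X]] K :=
    { χ.toRingHom with
      commutes' := fun p => by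
        change χ (algebraMap K[X] T p) = _
        rw [chi_algebraMap K T χ hχ, hK, Polynomial.coe_aeval_eq_eval] }
  let aug' : B →ₐ[K[X]] K :=
    { aug.toRingHom with
      commutes' := fun p => by
        change aug (algebraMap K[X] B p) = _
        rw [hB, hK]
        have h : aug.comp (Polynomial.aeval b) = Polynomial.aeval (0 : K) := by
          apply Polynomial.algHom_ext
          simpa using hb
        exact AlgHom.congr_fun h p }
  have hsurj : Function.Surjective aug' := fun a => ⟨algebraMap K B a, by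
    change aug (algebraMap K B a) = a
    simp⟩
  have hnil' : IsNilpotent (RingHom.ker (aug' : B →+* K)) := hnil
  let l₀ : T →ₐ[K[X]] B := Algebra.FormallySmooth.liftOfSurjective χ' aug' hsurj hnil'
  have hl₀ : ∀ t, aug (l₀ t) = χ t := fun t =>
    Algebra.FormallySmooth.liftOfSurjective_apply χ' aug' hsurj hnil' t
  -- `l₀` is `K`-linear
  have hl₀K : ∀ a : K, l₀ (algebraMap K T a) = algebraMap K B a := by
    intro a
    rw [IsScalarTower.algebraMap_apply K K[X] T, l₀.commutes, hB]
    simp
  let l₁ : T →ₐ[K] B := { l₀.toRingHom with commutes' := hl₀K }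
  have hl₁ : ∀ t, l₁ t = l₀ t := fun _ => rfl
  -- units
  have hunit : ∀ y : (qq K T χ).primeCompl, IsUnit (l₁ y) := by
    intro y
    have hy : aug (l₁ (y : T)) ≠ 0 := by
      rw [hl₁, hl₀]
      exact fun h => y.2 ((mem_qq K T χ _).2 h)
    -- an element with nonzero augmentation is a unit
    obtain ⟨c, hc⟩ : ∃ c : K, c * aug (l₁ (y : T)) = 1 := ⟨(aug (l₁ (y : T)))⁻¹, inv_mul_cancel₀ hy⟩
    have hmem : algebraMap K B c * l₁ (y : T) - 1 ∈ RingHom.ker aug.toRingHom := by
      rw [RingHom.mem_ker]
      change aug (algebraMap K B c * l₁ (y : T) - 1) = 0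
      rw [map_sub, map_mul, AlgHom.commutes, map_one]
      simpa using sub_eq_zero.2 hc
    obtain ⟨n, hn⟩ := hnil
    have hnilp : IsNilpotent (algebraMap K B c * l₁ (y : T) - 1) :=
      ⟨n, by
        have := Ideal.pow_mem_pow hmem n
        rw [hn] at this
        exact this⟩
    have hu : IsUnit (algebraMap K B c * l₁ (y : T)) := by
      have := hnilp.isUnit_add_one
      simpa using this
    exact isUnit_of_mul_isUnit_right hu
  refine ⟨IsLocalization.liftAlgHom (M := (qq K T χ).primeCompl) (f := l₁) hunit, ?_, ?_⟩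
  · apply IsLocalization.algHom_ext (qq K T χ).primeCompl
    ext t
    change aug (IsLocalization.lift hunit (algebraMap T (Vc K T χ) t)) =
      resV K T χ (algebraMap T (Vc K T χ) t)
    rw [IsLocalization.lift_eq, resV_algebraMap]
    exact hl₀ t
  · rw [IsLocalization.liftAlgHom_apply, IsLocalization.lift_eq]
    change l₀ (algebraMap K[X] T X) = b
    rw [l₀.commutes, hB]
    simp

end Point

open scoped IntermediateField

section FF

variable (K : Type u) [Field K] (T : Type u) [CommRing T] [Algebra K[X] T] [Algebra K T]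
  [IsScalarTower K K[X] T] [Algebra.Etale K[X] T] (χ : T →ₐ[K] K)
  (hχ : χ (algebraMap K[X] T X) = 0)

include hχ in
theorem isFF1_frac [IsDomain (Vc K T χ)] : IsFF1 K (FractionRing (Vc K T χ)) := by
  classical
  set V := Vc K T χ with hV
  set Φ := FractionRing V with hΦ
  haveI : Algebra.FormallyUnramified K[X] V := Algebra.FormallyUnramified.comp K[X] T V
  haveI : Algebra.FormallyUnramified K[X] Φ := Algebra.FormallyUnramified.comp K[X] V Φ
  haveI : Algebra.EssFiniteType K[X] V := Algebra.EssFiniteType.comp K[X] T V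
  haveI : Algebra.EssFiniteType K[X] Φ := Algebra.EssFiniteType.comp K[X] V Φ
  have hinj : Function.Injective (algebraMap K[X] Φ) := by
    rw [IsScalarTower.algebraMap_eq K[X] V Φ]
    exact (IsFractionRing.injective V Φ).comp (algebraMap_loc_injective K T (qq K T χ))
  let x : Φ := algebraMap K[X] Φ X
  have haev : (Polynomial.aeval x : K[X] →ₐ[K] Φ) = IsScalarTower.toAlgHom K K[X] Φ := by
    apply Polynomial.algHom_ext
    simp [x]
  refine ⟨x, ?_, ?_⟩
  · rw [transcendental_iff_injective, haev]
    exact hinj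
  · have hx : x ∈ K⟮x⟯ := IntermediateField.mem_adjoin_simple_self K x
    letI : Algebra K[X] K⟮x⟯ := (Polynomial.aeval (⟨x, hx⟩ : K⟮x⟯)).toRingHom.toAlgebra
    haveI : IsScalarTower K[X] K⟮x⟯ Φ := by
      apply IsScalarTower.of_algebraMap_eq
      intro p
      change algebraMap K[X] Φ p = ((Polynomial.aeval (⟨x, hx⟩ : K⟮x⟯)) p : Φ)
      have h2 : ((IntermediateField.val K⟮x⟯).comp (Polynomial.aeval (⟨x, hx⟩ : K⟮x⟯))) =
          IsScalarTower.toAlgHom K K[X] Φ := by
        apply Polynomial.algHom_ext
        simp [x]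
      exact (AlgHom.congr_fun h2 p).symm
    haveI : Algebra.FormallyUnramified K⟮x⟯ Φ :=
      Algebra.FormallyUnramified.of_restrictScalars K[X] K⟮x⟯ Φ
    haveI : Algebra.EssFiniteType K⟮x⟯ Φ := Algebra.EssFiniteType.of_comp K[X] K⟮x⟯ Φ
    exact Algebra.FormallyUnramified.finite_of_free K⟮x⟯ Φ

end FF

/-- A curve through the `K`-point `χ` of `S` along the `i`-th coordinate `x i`. -/
structure CurveData (K : Type u) [Field K] (S : Type u) [CommRing S] [Algebra K S] {g : ℕ}
    (x : Fin g → S) (χ : S →ₐ[K] K) (i : Fin g) where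
  V : Type u
  [instCR : CommRing V]
  [instDom : IsDomain V]
  [instAlg : Algebra K V]
  c : S →ₐ[K] V
  r : V →ₐ[K] K
  r_c : ∀ a, r (c a) = χ a
  c_ne : ∀ l, l ≠ i → c (x l) = 0
  lam : ∀ (B : Type u) [CommRing B] [Algebra K B] (aug : B →ₐ[K] K),
    IsNilpotent (RingHom.ker aug.toRingHom) → ∀ b : B, aug b = 0 →
    ∃ l : V →ₐ[K] B, (∀ v, aug (l v) = r v) ∧ l (c (x i)) = b
  ff : IsFF1 K (FractionRing V)

/-- a ring homomorphism out of a tensor product of algebras -/
theorem exists_tensor_hom {R Q S C : Type*} [CommRing R] [CommRing Q] [CommRing S] [CommRing C]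
    [Algebra R Q] [Algebra R S] (f : Q →+* C) (h : S →+* C)
    (hfh : ∀ r : R, f (algebraMap R Q r) = h (algebraMap R S r)) :
    ∃ φ : Q ⊗[R] S →+* C, ∀ q s, φ (q ⊗ₜ[R] s) = f q * h s := by
  letI : Algebra R C := (f.comp (algebraMap R Q)).toAlgebra
  let f' : Q →ₐ[R] C := { f with commutes' := fun _ => rfl }
  let h' : S →ₐ[R] C := { h with commutes' := fun r => (hfh r).symm }
  exact ⟨(Algebra.TensorProduct.productMap f' h').toRingHom, fun q s => by
    change Algebra.TensorProduct.productMap f' h' (q ⊗ₜ[R] s) = _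
    rw [Algebra.TensorProduct.productMap_apply_tmul]
    rfl⟩

section Chart

variable (K : Type u) [Field K] (g : ℕ)

/-- evaluation on the `i`-th axis: `X_i ↦ X`, `X_l ↦ 0` for `l ≠ i` -/
noncomputable def ev (i : Fin g) : MvPolynomial (Fin g) K →ₐ[K] K[X] :=
  MvPolynomial.aeval (fun l => if l = i then Polynomial.X else 0)

theorem ev_X_self (i : Fin g) : ev K g i (MvPolynomial.X i) = Polynomial.X := by
  simp [ev]

theorem ev_X_ne (i l : Fin g) (h : l ≠ i) : ev K g i (MvPolynomial.X l) = 0 := by
  simp [ev, h]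

variable (S : Type u) [CommRing S] [Algebra K S] [Algebra (MvPolynomial (Fin g) K) S]
  [IsScalarTower K (MvPolynomial (Fin g) K) S] [Algebra.Etale (MvPolynomial (Fin g) K) S]
  (χ : S →ₐ[K] K) (hχ : ∀ l, χ (algebraMap (MvPolynomial (Fin g) K) S (MvPolynomial.X l)) = 0)

include hχ in
theorem exists_curveData (i : Fin g) :
    Nonempty (CurveData K S (fun l => algebraMap (MvPolynomial (Fin g) K) S (MvPolynomial.X l))
      χ i) := by
  classical
  letI algPQ : Algebra (MvPolynomial (Fin g) K) K[X] := (ev K g i).toRingHom.toAlgebra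
  have hPQ : ∀ p, algebraMap (MvPolynomial (Fin g) K) K[X] p = ev K g i p := fun _ => rfl
  haveI : IsScalarTower K (MvPolynomial (Fin g) K) K[X] :=
    IsScalarTower.of_algebraMap_eq (fun a => by rw [hPQ]; simp)
  let T := K[X] ⊗[MvPolynomial (Fin g) K] S
  haveI : Algebra.Etale K[X] T := inferInstance
  -- the inclusion `S → T`
  let c₀ : S →ₐ[MvPolynomial (Fin g) K] T := Algebra.TensorProduct.includeRight
  have hc₀P : ∀ p : MvPolynomial (Fin g) K,
      c₀ (algebraMap (MvPolynomial (Fin g) K) S p) = algebraMap K[X] T (ev K g i p) := by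
    intro p
    rw [c₀.commutes, Algebra.TensorProduct.algebraMap_apply, hPQ]
    rfl
  have hc₀K : ∀ a : K, c₀ (algebraMap K S a) = algebraMap K T a := by
    intro a
    rw [IsScalarTower.algebraMap_apply K (MvPolynomial (Fin g) K) S, hc₀P,
      IsScalarTower.algebraMap_apply K K[X] T]
    congr 1
    simp [ev]
  let c₁ : S →ₐ[K] T := { c₀.toRingHom with commutes' := hc₀K }
  have hc₁ : ∀ a, c₁ a = c₀ a := fun _ => rfl
  -- the point of `T`
  have hχP : ∀ p : MvPolynomial (Fin g) K,
      (Polynomial.aeval (0 : K)).toRingHom (algebraMap (MvPolynomial (Fin g) K) K[X] p) =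
        χ.toRingHom (algebraMap (MvPolynomial (Fin g) K) S p) := by
    intro p
    have h : χ.comp (IsScalarTower.toAlgHom K (MvPolynomial (Fin g) K) S) =
        (Polynomial.aeval (0 : K)).comp (ev K g i) := by
      apply MvPolynomial.algHom_ext
      intro l
      simp only [AlgHom.coe_comp, Function.comp_apply, IsScalarTower.coe_toAlgHom']
      rw [hχ l]
      by_cases hl : l = i
      · subst hl; rw [ev_X_self]; simp
      · rw [ev_X_ne K g i l hl]; simp
    exact (AlgHom.congr_fun h p).symm
  obtain ⟨χT₀, hχT₀⟩ := exists_tensor_hom (R := MvPolynomial (Fin g) K) (Q := K[X]) (S := S)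
    (Polynomial.aeval (0 : K)).toRingHom χ.toRingHom hχP
  have hχT₀K : ∀ a : K, χT₀ (algebraMap K T a) = algebraMap K K a := by
    intro a
    rw [IsScalarTower.algebraMap_apply K K[X] T, Algebra.TensorProduct.algebraMap_apply, hχT₀]
    simp
  let χT : T →ₐ[K] K := { χT₀ with commutes' := hχT₀K }
  have hχT : ∀ t, χT t = χT₀ t := fun _ => rfl
  have hχTX : χT (algebraMap K[X] T X) = 0 := by
    rw [hχT, Algebra.TensorProduct.algebraMap_apply, hχT₀]; simp
  have hχTc : ∀ a, χT (c₁ a) = χ a := by
    intro a
    rw [hχT, hc₁]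
    change χT₀ ((1 : K[X]) ⊗ₜ[MvPolynomial (Fin g) K] a) = χ a
    rw [hχT₀]
    simp
  haveI : IsDomain (Vc K T χT) := isDomain_Vc K T χT hχTX
  refine ⟨{
    V := Vc K T χT
    c := (IsScalarTower.toAlgHom K T (Vc K T χT)).comp c₁
    r := resV K T χT
    r_c := fun a => by
      change resV K T χT (algebraMap T (Vc K T χT) (c₁ a)) = χ a
      rw [resV_algebraMap, hχTc]
    c_ne := fun l hl => by
      change algebraMap T (Vc K T χT) (c₀ (algebraMap (MvPolynomial (Fin g) K) S
        (MvPolynomial.X l))) = 0
      rw [hc₀P, ev_X_ne K g i l hl, map_zero, map_zero]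
    lam := fun B _ _ aug hnil b hb => by
      obtain ⟨l, h1, h2⟩ := exists_lam K T χT hχTX B aug hnil b hb
      refine ⟨l, fun v => AlgHom.congr_fun h1 v, ?_⟩
      change l (algebraMap T (Vc K T χT) (c₀ (algebraMap (MvPolynomial (Fin g) K) S
        (MvPolynomial.X i)))) = b
      rw [hc₀P, ev_X_self]
      exact h2
    ff := isFF1_frac K T χT hχTX }⟩

end Chart

end Fermat.Agent.S26.C.X.H14a
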