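import Mathlib
import Fermat.Agent.S26.C.X.Defs
import Fermat.Agent.S26.E.H14_EH
import Fermat.Agent.S26.C.X.H69_PullAt

/-!
# S26 (C), cube side, leaf CURVES (helper14): points of `A` in an affine chart

`U` an affine open of `A`, `Γ(A, U)` with its `K`-algebra structure (`E.H14.kap`).

* `ptK hU hK ζ : Pt f R` : the `R`-valued point of a `K`-algebra homomorphism `ζ : Γ(A, U) → R`;
  `ptK_comp`, `ptK_inj`, `exists_ptK`, `exists_ptK_of_local`, `one_eq_ptK`;
* `comp_list_prod` : base change commutes with products of lists of points;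
* `list_prod_sqZero` : **tangent vectors add**: modulo a square-zero ideal, the product of
  points congruent to the unit is given by `a ↦ ε a + ∑ (ζ_i a - ε a)`;
* `isDomPt_of_injective` : a point `ptK ζ` with `ζ : Γ(A, U) → E` injective is dominant;
* `isBased_ptK` : the points `ptK ζ`, `ζ` with values in `o` and `ζ ≡ χ` modulo `𝔪_o`, are
  based.
-/

set_option autoImplicit false
set_option linter.style.haveILetI false
set_option linter.unusedSectionVars false

open CategoryTheory CategoryTheory.Limits AlgebraicGeometry IsLocalRing NeronModelInfra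
  GoodReductionJacobian

universe u

namespace Fermat.Agent.S26.C.X.H14p

open Fermat.Agent.S26.E.H14

section Pts

variable {K : Type u} [Field K] {A : Scheme.{u}} {f : A ⟶ Spec (CommRingCat.of K)}
variable {U : A.Opens} (hU : IsAffineOpen U)
variable [Algebra K Γ(A, U)] (hK : algebraMap K Γ(A, U) = (kap hU f).hom)

theorem str_map_ring {R R' : Type u} [CommRing R] [Algebra K R] [CommRing R'] [Algebra K R']
    (j : R →ₐ[K] R') : Spec.map (CommRingCat.ofHom j.toRingHom) ≫ str K R = str K R' := by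
  unfold str
  rw [← Spec.map_comp, ← CommRingCat.ofHom_comp]
  congr 2
  exact j.comp_algebraMap

include hK in
theorem kap_comp {R : Type u} [CommRing R] [Algebra K R] (ζ : Γ(A, U) →ₐ[K] R) :
    kap hU f ≫ CommRingCat.ofHom ζ.toRingHom = CommRingCat.ofHom (algebraMap K R) := by
  ext a
  change ζ ((kap hU f).hom a) = algebraMap K R a
  rw [← hK, ζ.commutes]

/-- The `R`-valued point of a `K`-algebra homomorphism `Γ(A, U) → R`. -/
noncomputable def ptK {R : Type u} [CommRing R] [Algebra K R] (ζ : Γ(A, U) →ₐ[K] R) : Pt f R :=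
  ⟨pt hU (CommRingCat.ofHom ζ.toRingHom), by
    rw [pt_comp_f, kap_comp hU hK ζ]⟩

theorem ptK_val {R : Type u} [CommRing R] [Algebra K R] (ζ : Γ(A, U) →ₐ[K] R) :
    (ptK hU hK ζ).1 = pt hU (CommRingCat.ofHom ζ.toRingHom) := rfl

theorem ptK_inj {R : Type u} [CommRing R] [Algebra K R] {ζ ζ' : Γ(A, U) →ₐ[K] R}
    (h : ptK hU hK ζ = ptK hU hK ζ') : ζ = ζ' := by
  have h1 := pt_inj hU (congrArg Subtype.val h)
  ext a
  exact congrArg (fun g : Γ(A, U) ⟶ CommRingCat.of R => g.hom a) h1

theorem ptK_comp {R R' : Type u} [CommRing R] [Algebra K R] [CommRing R'] [Algebra K R']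
    (j : R →ₐ[K] R') (ζ : Γ(A, U) →ₐ[K] R) :
    schemeHomOverComp (Spec.map (CommRingCat.ofHom j.toRingHom)) (str_map_ring j)
      (ptK hU hK ζ) = ptK hU hK (j.comp ζ) := by
  apply Subtype.ext
  rw [schemeHomOverComp_coe, ptK_val, ptK_val, ← pt_comp]
  rfl

/-- A point with image in `U` comes from a `K`-algebra homomorphism. -/
theorem exists_ptK {R : Type u} [CommRing R] [Algebra K R] (z : Pt f R)
    (h : Set.range z.1 ⊆ (U : Set A)) : ∃ ζ : Γ(A, U) →ₐ[K] R, z = ptK hU hK ζ := by
  obtain ⟨ζ, hζ⟩ := exists_pt hU z.1 h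
  have h1 : kap hU f ≫ ζ = CommRingCat.ofHom (algebraMap K R) := by
    have h2 : pt hU ζ ≫ f = str K R := by rw [← hζ]; exact z.2
    rw [pt_comp_f] at h2
    exact Spec.map_injective h2
  refine ⟨{ ζ.hom with commutes' := fun a => ?_ }, Subtype.ext ?_⟩
  · have := congrArg (fun g : CommRingCat.of K ⟶ CommRingCat.of R => g.hom a) h1
    rw [hK]
    exact this
  · rw [hζ]
    rfl

/-- A morphism from the spectrum of a local ring whose closed point goes into `U` has image
in `U`. -/
theorem range_subset_of_closedPoint {R : CommRingCat.{u}} [IsLocalRing R] (z : Spec R ⟶ A)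
    (h : z (closedPoint R) ∈ U) : Set.range z ⊆ (U : Set A) := by
  rintro _ ⟨x, rfl⟩
  have h1 : x ⤳ closedPoint R := IsLocalRing.specializes_closedPoint x
  have h2 : z x ⤳ z (closedPoint R) := h1.map z.continuous
  exact h2.mem_open U.isOpen h

/-- If the closed point of a local `K`-algebra goes into `U`, the point comes from a
homomorphism. -/
theorem exists_ptK_of_local {R : Type u} [CommRing R] [Algebra K R] [IsLocalRing R] (z : Pt f R)
    (h : z.1 (closedPoint (CommRingCat.of R)) ∈ U) : ∃ ζ : Γ(A, U) →ₐ[K] R, z = ptK hU hK ζ :=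
  exists_ptK hU hK z (range_subset_of_closedPoint (R := CommRingCat.of R) z.1 h)

variable (L : RelativeGroupLaw K f) (χ : Γ(A, U) →ₐ[K] K)
  (hχ : unitHom L = pt hU (CommRingCat.ofHom χ.toRingHom))

include hχ in
/-- The neutral element in the chart. -/
theorem one_eq_ptK (R : Type u) [CommRing R] [Algebra K R] :
    L.one (str K R) = ptK hU hK ((Algebra.ofId K R).comp χ) := by
  apply Subtype.ext
  rw [one_val, hχ, ptK_val, ← pt_comp]
  rfl

end Pts

section Nat

variable {K : Type u} [CommRing K] {A : Scheme.{u}} {f : A ⟶ Spec (CommRingCat.of K)}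
variable (L : RelativeGroupLaw K f)

/-- Base change commutes with products of lists. -/
theorem comp_list_prod {T T' : Scheme.{u}} (t : T ⟶ Spec (CommRingCat.of K))
    (t' : T' ⟶ Spec (CommRingCat.of K)) (ψ : T' ⟶ T) (hψ : ψ ≫ t = t')
    (l : List (SchemeHomOver t f)) :
    schemeHomOverComp ψ hψ (letI : Group (SchemeHomOver t f) := L.pointGroup t; l.prod) =
      (letI : Group (SchemeHomOver t' f) := L.pointGroup t'
       (l.map (schemeHomOverComp ψ hψ)).prod) := by
  induction l with
  | nil => exact L.one_natural t t' ψ hψ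
  | cons a l ih =>
    letI : Group (SchemeHomOver t f) := L.pointGroup t
    letI : Group (SchemeHomOver t' f) := L.pointGroup t'
    rw [List.prod_cons, List.map_cons, List.prod_cons]
    have h := L.mul_natural t t' ψ hψ a l.prod
    exact h.trans (congrArg (fun z => L.mul t' (schemeHomOverComp ψ hψ a) z) ih)

end Nat

section Tan

variable {K : Type u} [Field K] {A : Scheme.{u}} {f : A ⟶ Spec (CommRingCat.of K)}
variable {U : A.Opens} (hU : IsAffineOpen U)
variable [Algebra K Γ(A, U)] (hK : algebraMap K Γ(A, U) = (kap hU f).hom)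
variable (L : RelativeGroupLaw K f) (χ : Γ(A, U) →ₐ[K] K)
  (hχ : unitHom L = pt hU (CommRingCat.ofHom χ.toRingHom))

include hχ in
/-- **Tangent vectors add**, two points. -/
theorem mul_sqZero {Q : Type u} [CommRing Q] [Algebra K Q] (aug : Q →ₐ[K] K)
    (hsq : SqZero aug.toRingHom) (ζ ζ' : Γ(A, U) →ₐ[K] Q)
    (hζ : ∀ a, aug (ζ a) = χ a) (hζ' : ∀ a, aug (ζ' a) = χ a) :
    ∃ ζ'' : Γ(A, U) →ₐ[K] Q,
      L.mul (str K Q) (ptK hU hK ζ) (ptK hU hK ζ') = ptK hU hK ζ'' ∧
      (∀ a, aug (ζ'' a) = χ a) ∧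
      ∀ a, ζ'' a = ζ a + ζ' a - algebraMap K Q (χ a) := by
  have hε := congrArg Subtype.val (one_eq_ptK hU hK L χ hχ Q)
  rw [ptK_val] at hε
  have hc : ∀ a, (CommRingCat.ofHom aug.toRingHom).hom
      ((CommRingCat.ofHom ((Algebra.ofId K Q).comp χ).toRingHom).hom a) =
      (CommRingCat.ofHom aug.toRingHom).hom ((CommRingCat.ofHom ζ.toRingHom).hom a) := by
    intro a
    change aug (algebraMap K Q (χ a)) = aug (ζ a)
    rw [hζ, aug.commutes]
    rfl
  have hc' : ∀ a, (CommRingCat.ofHom aug.toRingHom).hom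
      ((CommRingCat.ofHom ((Algebra.ofId K Q).comp χ).toRingHom).hom a) =
      (CommRingCat.ofHom aug.toRingHom).hom ((CommRingCat.ofHom ζ'.toRingHom).hom a) := by
    intro a
    change aug (algebraMap K Q (χ a)) = aug (ζ' a)
    rw [hζ', aug.commutes]
    rfl
  have hm := mul_val L hU (CommRingCat.ofHom aug.toRingHom) hsq (str K Q)
    (CommRingCat.ofHom ((Algebra.ofId K Q).comp χ).toRingHom)
    (CommRingCat.ofHom ζ.toRingHom) (CommRingCat.ofHom ζ'.toRingHom) hε
    (ptK hU hK ζ) (ptK hU hK ζ') rfl rfl hc hc'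
  obtain ⟨ζ'', hζ''⟩ := exists_ptK hU hK (L.mul (str K Q) (ptK hU hK ζ) (ptK hU hK ζ')) (by
    rw [hm]
    exact range_pt hU _)
  have hval : ∀ a, ζ'' a = ζ a + ζ' a - algebraMap K Q (χ a) := by
    intro a
    have h1 : pt hU (CommRingCat.ofHom ζ''.toRingHom) =
        pt hU (lift3 (CommRingCat.ofHom aug.toRingHom)
          (CommRingCat.ofHom ((Algebra.ofId K Q).comp χ).toRingHom)
          (CommRingCat.ofHom ζ.toRingHom) (CommRingCat.ofHom ζ'.toRingHom) hc hc' ≫
          sm (CommRingCat.ofHom aug.toRingHom) hsq) := by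
      rw [← ptK_val hU hK, ← hζ'', hm]
    have h2 := pt_inj hU h1
    have h3 := congrArg (fun g : Γ(A, U) ⟶ CommRingCat.of Q => g.hom a) h2
    simp only at h3
    rw [lift3_sm_apply] at h3
    exact h3
  refine ⟨ζ'', hζ'', fun a => ?_, hval⟩
  rw [hval, map_sub, map_add, hζ, hζ', aug.commutes]
  change χ a + χ a - χ a = χ a
  ring

include hχ in
/-- **Tangent vectors add**: modulo a square-zero ideal, the product of points congruent to
the neutral element is `a ↦ ε a + ∑ (ζ_i a - ε a)`. -/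
theorem list_prod_sqZero {Q : Type u} [CommRing Q] [Algebra K Q] (aug : Q →ₐ[K] K)
    (hsq : SqZero aug.toRingHom) {ι : Type} (ζs : ι → (Γ(A, U) →ₐ[K] Q))
    (hζ : ∀ i a, aug (ζs i a) = χ a) (l : List ι) :
    ∃ ζ : Γ(A, U) →ₐ[K] Q,
      (letI : Group (Pt f Q) := L.pointGroup (str K Q)
       (l.map fun i => ptK hU hK (ζs i)).prod) = ptK hU hK ζ ∧
      (∀ a, aug (ζ a) = χ a) ∧
      ∀ a, ζ a = algebraMap K Q (χ a) + (l.map fun i => ζs i a - algebraMap K Q (χ a)).sum := by
  letI : Group (Pt f Q) := L.pointGroup (str K Q)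
  induction l with
  | nil =>
    refine ⟨(Algebra.ofId K Q).comp χ, one_eq_ptK hU hK L χ hχ Q, fun a => ?_, fun a => ?_⟩
    · change aug (algebraMap K Q (χ a)) = χ a
      rw [aug.commutes]
      rfl
    · rw [List.map_nil, List.sum_nil, add_zero]
      rfl
  | cons i l ih =>
    obtain ⟨ζl, h1, h2, h3⟩ := ih
    obtain ⟨ζ, k1, k2, k3⟩ := mul_sqZero hU hK L χ hχ aug hsq (ζs i) ζl (hζ i) h2
    refine ⟨ζ, ?_, k2, fun a => ?_⟩
    · rw [List.map_cons, List.prod_cons, h1]
      exact k1
    · rw [k3, h3, List.map_cons, List.sum_cons]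
      ring

/-- base change of a product of chart points -/
theorem comp_list_prod_ptK {R R' : Type u} [CommRing R] [Algebra K R] [CommRing R']
    [Algebra K R'] (j : R →ₐ[K] R') {ι : Type} (ζs : ι → (Γ(A, U) →ₐ[K] R)) (l : List ι) :
    schemeHomOverComp (Spec.map (CommRingCat.ofHom j.toRingHom)) (str_map_ring j)
      (letI : Group (Pt f R) := L.pointGroup (str K R)
       (l.map fun i => ptK hU hK (ζs i)).prod) =
    (letI : Group (Pt f R') := L.pointGroup (str K R')
     (l.map fun i => ptK hU hK (j.comp (ζs i))).prod) := by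
  rw [comp_list_prod L (str K R) (str K R'), List.map_map]
  congr 2
  funext i
  exact ptK_comp hU hK j (ζs i)

include hχ in
/-- a product of neutral elements -/
theorem list_prod_chi {ι : Type} (l : List ι) :
    (letI : Group (Pt f K) := L.pointGroup (str K K)
     (l.map fun _ => ptK hU hK χ).prod) = L.one (str K K) := by
  letI : Group (Pt f K) := L.pointGroup (str K K)
  have h1 : ptK hU hK χ = (1 : Pt f K) := by
    have h := one_eq_ptK hU hK L χ hχ K
    have h2 : (Algebra.ofId K K).comp χ = χ := by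
      ext a
      rfl
    rw [h2] at h
    exact h.symm
  rw [h1]
  exact List.prod_eq_one (fun x hx => by
    obtain ⟨_, _, rfl⟩ := List.mem_map.1 hx
    rfl)

include hχ in
/-- **The product in a local ring**: the product of chart points through the origin with
values in a local `K`-algebra `R` is a chart point, and its homomorphism is
`a ↦ ε a + ∑ (ζ_i a - ε a)` modulo the square of the maximal ideal. -/
theorem list_prod_local {R : Type u} [CommRing R] [Algebra K R] [IsLocalRing R]
    (κ : R →ₐ[K] K) {ι : Type} (ζs : ι → (Γ(A, U) →ₐ[K] R))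
    (hζ : ∀ i a, κ (ζs i a) = χ a) (l : List ι) :
    ∃ ζ : Γ(A, U) →ₐ[K] R,
      (letI : Group (Pt f R) := L.pointGroup (str K R)
       (l.map fun i => ptK hU hK (ζs i)).prod) = ptK hU hK ζ ∧
      ∀ a, ζ a - (algebraMap K R (χ a) + (l.map fun i => ζs i a - algebraMap K R (χ a)).sum) ∈
        RingHom.ker κ.toRingHom ^ 2 := by
  letI : Group (Pt f R) := L.pointGroup (str K R)
  -- the closed point
  have hκs : Function.Surjective κ := fun c => ⟨algebraMap K R c, κ.commutes c⟩
  have hmax : (RingHom.ker κ.toRingHom).IsMaximal :=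
    RingHom.ker_isMaximal_of_surjective κ.toRingHom hκs
  have hker : RingHom.ker κ.toRingHom = maximalIdeal R := IsLocalRing.eq_maximalIdeal hmax
  have hcl : Spec.map (CommRingCat.ofHom κ.toRingHom) (closedPoint (CommRingCat.of K)) =
      closedPoint (CommRingCat.of R) := by
    apply PrimeSpectrum.ext
    ext y
    show κ y ∈ maximalIdeal K ↔ y ∈ maximalIdeal R
    rw [IsLocalRing.maximalIdeal_eq_bot (R := K), ← hker]
    exact Iff.rfl
  -- the product lands in `U`
  have hκχ : ∀ i, κ.comp (ζs i) = χ := fun i => AlgHom.ext (hζ i)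
  have h0 := comp_list_prod_ptK hU hK L κ ζs l
  simp only [hκχ] at h0
  rw [list_prod_chi hU hK L χ hχ l] at h0
  have hmem : ((l.map fun i => ptK hU hK (ζs i)).prod : Pt f R).1
      (closedPoint (CommRingCat.of R)) ∈ U := by
    rw [← hcl]
    have h1 := congrArg Subtype.val h0
    rw [schemeHomOverComp_coe] at h1
    have h2 : (Spec.map (CommRingCat.ofHom κ.toRingHom) ≫
        ((l.map fun i => ptK hU hK (ζs i)).prod : Pt f R).1)
        (closedPoint (CommRingCat.of K)) ∈ U := by
      rw [h1, one_val, hχ, ← pt_comp]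
      exact range_pt hU _ ⟨_, rfl⟩
    exact h2
  obtain ⟨ζ, hζ'⟩ := exists_ptK_of_local hU hK _ hmem
  refine ⟨ζ, hζ', fun a => ?_⟩
  -- the tangent computation in `Q = R / m²`
  obtain ⟨I, hI⟩ : ∃ I : Ideal R, I = RingHom.ker κ.toRingHom ^ 2 := ⟨_, rfl⟩
  have hIle : ∀ x ∈ I, κ x = 0 := by
    intro x hx
    rw [hI] at hx
    exact Ideal.pow_le_self two_ne_zero hx
  let aug : (R ⧸ I) →ₐ[K] K := Ideal.Quotient.liftₐ I κ hIle
  let π : R →ₐ[K] (R ⧸ I) := Ideal.Quotient.mkₐ K I
  have haug : ∀ x, aug (π x) = κ x := fun x => rfl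
  have hsq : SqZero aug.toRingHom := by
    intro x y hx hy
    obtain ⟨x', rfl⟩ := Ideal.Quotient.mk_surjective x
    obtain ⟨y', rfl⟩ := Ideal.Quotient.mk_surjective y
    have hx' : x' ∈ RingHom.ker κ.toRingHom := hx
    have hy' : y' ∈ RingHom.ker κ.toRingHom := hy
    rw [← map_mul]
    apply Ideal.Quotient.eq_zero_iff_mem.2
    rw [hI, pow_two]
    exact Ideal.mul_mem_mul hx' hy'
  obtain ⟨ζQ, hQ1, -, hQ3⟩ := list_prod_sqZero hU hK L χ hχ aug hsq (fun i => π.comp (ζs i))
    (fun i a => (haug _).trans (hζ i a)) l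
  have h3 := comp_list_prod_ptK hU hK L π ζs l
  rw [hζ', ptK_comp, hQ1] at h3
  have h4 := ptK_inj hU hK h3
  have h5 : π (ζ a) = ζQ a := congrArg (fun g : Γ(A, U) →ₐ[K] (R ⧸ I) => g a) h4
  rw [hQ3] at h5
  have h6 : π (ζ a - (algebraMap K R (χ a) +
      (l.map fun i => ζs i a - algebraMap K R (χ a)).sum)) = 0 := by
    rw [map_sub, h5, map_add, AlgHom.commutes, map_list_sum, List.map_map, sub_eq_zero]
    congr 2
  rw [← hI]
  exact Ideal.Quotient.eq_zero_iff_mem.1 h6

end Tan

end Fermat.Agent.S26.C.X.H14p
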