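import Mathlib
import Fermat.Agent.S26.C.X.CurvesDefs
import Fermat.Agent.S26.C.H29_Rig

/-!
# S26 (C), cube side, CURVES sub-leaves CV-UP and CV-PLACE (helper90)

* `stmt_CVUP : X.Stmt_CVUP` : the subalgebra generated by subalgebras `W i ⊆ F i` of a free family
  of subfields has the universal property of `⨂ W i`.
* `stmt_CVPLACE_of : X.Stmt_CVPLACE_of`, `stmt_CVPLACE : X.Stmt_CVPLACE` : a `K`-place of `E`
  containing the `W i` and centred at given `K`-points (`H29.exists_kplace`).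
-/

set_option autoImplicit false
set_option linter.style.haveILetI false

open scoped TensorProduct IntermediateField

universe u

namespace Fermat.Agent.S26.C.X.H90cv

section Up

variable {K : Type u} [Field K] {E : Type u} [Field E] [Algebra K E]

/-- Two linearly disjoint subalgebras: a pair of maps extends to the supremum. -/
theorem exists_extend_sup (A₁ A₂ : Subalgebra K E) (H : A₁.LinearDisjoint A₂)
    {B : Type*} [CommRing B] [Algebra K B] (l₁ : A₁ →ₐ[K] B) (l₂ : A₂ →ₐ[K] B) :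
    ∃ ρ : ↥(A₁ ⊔ A₂) →ₐ[K] B,
      (∀ a : A₁, ρ ⟨a.1, (le_sup_left : A₁ ≤ A₁ ⊔ A₂) a.2⟩ = l₁ a) ∧
      (∀ a : A₂, ρ ⟨a.1, (le_sup_right : A₂ ≤ A₁ ⊔ A₂) a.2⟩ = l₂ a) := by
  refine ⟨(Algebra.TensorProduct.lift l₁ l₂ (fun _ _ => Commute.all _ _)).comp
    H.mulMap.symm.toAlgHom, ?_, ?_⟩
  · intro a
    have e : H.mulMap (a ⊗ₜ[K] 1) = ⟨a.1, (le_sup_left : A₁ ≤ A₁ ⊔ A₂) a.2⟩ :=
      Subtype.ext (by simp)
    rw [← e]
    simp
  · intro a
    have e : H.mulMap (1 ⊗ₜ[K] a) = ⟨a.1, (le_sup_right : A₂ ≤ A₁ ⊔ A₂) a.2⟩ :=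
      Subtype.ext (by simp)
    rw [← e]
    simp

/-- The induction over finite sets of indices. -/
theorem exists_extend_finset {ι : Type} (F : ι → IntermediateField K E)
    (hfree : ∀ i, (F i).LinearDisjoint (blk F {i}ᶜ))
    (W : ι → Subalgebra K E) (hW : ∀ i, W i ≤ (F i).toSubalgebra)
    {B : Type*} [CommRing B] [Algebra K B] (lam : ∀ i, W i →ₐ[K] B) (T : Finset ι) :
    ∃ ρ : ↥(⨆ i ∈ T, W i) →ₐ[K] B,
      ∀ (i : ι) (hi : i ∈ T) (w : W i),
        ρ ⟨w.1, (le_biSup W hi : W i ≤ ⨆ i ∈ T, W i) w.2⟩ = lam i w := by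
  classical
  induction T using Finset.induction_on with
  | empty =>
    have hbot : (⨆ i ∈ (∅ : Finset ι), W i) = ⊥ := by simp
    refine ⟨((Algebra.ofId K B).comp (Algebra.botEquiv K E).toAlgHom).comp
      (Subalgebra.inclusion (le_of_eq hbot)), ?_⟩
    intro i hi
    exact absurd hi (Finset.notMem_empty i)
  | insert i T hi ih =>
    obtain ⟨ρT, hρT⟩ := ih
    have hins : (⨆ j ∈ insert i T, W j) = W i ⊔ ⨆ j ∈ T, W j := Finset.iSup_insert i T W
    have hR : (⨆ j ∈ T, W j) ≤ (blk F {i}ᶜ).toSubalgebra := by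
      refine iSup₂_le fun j hj => ?_
      have hji : j ∈ ({i}ᶜ : Set ι) := by
        intro h
        rw [Set.mem_singleton_iff] at h
        exact hi (h ▸ hj)
      have h1 : F j ≤ blk F {i}ᶜ := le_iSup₂ (f := fun k (_ : k ∈ ({i}ᶜ : Set ι)) => F k) j hji
      exact fun x hx => h1 (hW j hx)
    have h0 := hfree i
    rw [IntermediateField.linearDisjoint_iff'] at h0
    have H : (W i).LinearDisjoint (⨆ j ∈ T, W j) := h0.of_le_of_flat_left (hW i) hR
    obtain ⟨ρ', h1, h2⟩ := exists_extend_sup (W i) (⨆ j ∈ T, W j) H (lam i) ρT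
    refine ⟨ρ'.comp (Subalgebra.inclusion (le_of_eq hins)), ?_⟩
    intro j hj w
    rcases Finset.mem_insert.1 hj with rfl | hjT
    · exact h1 w
    · have := h2 ⟨w.1, (le_biSup W hjT : W j ≤ ⨆ i ∈ T, W i) w.2⟩
      rw [hρT j hjT w] at this
      exact this

/-- **CV-UP**. -/
theorem stmt_CVUP : Stmt_CVUP.{u} := by
  intro K _ E _ _ ι _ F hF W hW B _ _ lam
  classical
  haveI : Fintype ι := Fintype.ofFinite ι
  obtain ⟨ρ, hρ⟩ := exists_extend_finset F hF.free W hW lam Finset.univ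
  have huniv : (⨆ i, W i) ≤ ⨆ i ∈ (Finset.univ : Finset ι), W i := by simp
  refine ⟨ρ.comp (Subalgebra.inclusion huniv), ?_⟩
  intro i w
  exact hρ i (Finset.mem_univ i) w

end Up

section Place

/-- **CV-PLACE from CV-UP**. -/
theorem stmt_CVPLACE_of : Stmt_CVPLACE_of.{u} := by
  intro hUP K _ _ E _ _ ι _ F hF W hW r
  obtain ⟨χ, hχ⟩ := hUP K E ι F hF W hW K r
  obtain ⟨o, ho, hc⟩ := H29.exists_kplace (⨆ i, W i) χ
  refine ⟨o, ⟨ho.1, fun x hx => ho.2 x hx⟩, ?_⟩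
  intro i w
  refine ⟨ho.mem_of_centredAt hc ⟨w.1, (le_iSup W i) w.2⟩, ?_⟩
  intro hr
  refine hc.mem_nonunits ⟨w.1, (le_iSup W i) w.2⟩ ?_
  rw [hχ i w, hr]

/-- **CV-PLACE**. -/
theorem stmt_CVPLACE : Stmt_CVPLACE.{u} := stmt_CVPLACE_of stmt_CVUP

end Place

end Fermat.Agent.S26.C.X.H90cv
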