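import Mathlib
import Fermat.Agent.S26.C.X.Defs
import Fermat.Agent.S26.C.X.CurvesDefs
import Fermat.Agent.S26.C.X.H90_CvUp
import Fermat.Agent.S26.C.H14_DomAlg

/-!
# S26 (C), cube side, leaf CURVES (helper14): the ring generated by the curves

`V i` the local rings of the `g` curves of the chart (`X.H14a.CurveData`), embedded in `E` by
`vE i : V i → Frac (V i) → E`; `W i` the image.

* `augB` : the augmentation of `K[T]/(T)^(k+1)`, `augB_eq_zero_iff` (kernel `JP`);
* `exists_place` : the `K`-place `o` (from `CV-PLACE`);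
* `exists_ring` : the ring `R = ⨆ W i` with its `K`-point `χR` and the homomorphisms
  `ρ_k : R → K[T]/(T)^(k+1)` (from `CV-UP`), `ρ_k (x_i on the curve i) = T_i`.
-/

set_option autoImplicit false
set_option linter.style.haveILetI false
set_option linter.unusedSectionVars false

universe u

namespace Fermat.Agent.S26.C.X.H14r

open Fermat.Agent.S26.C.H14d Fermat.Agent.S26.LF.H18 MvPolynomial

section Aug

variable (K : Type u) [Field K] (g k : ℕ)

theorem aeval_zero_of_mem (hk : 1 ≤ k) (p : MvPolynomial (Fin g) K)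
    (hp : p ∈ idealOfVars (Fin g) K ^ k) :
    MvPolynomial.aeval (fun _ : Fin g => (0 : K)) p = 0 := by
  have h1 : idealOfVars (Fin g) K ^ k ≤ idealOfVars (Fin g) K :=
    Ideal.pow_le_self (by omega)
  have h2 : idealOfVars (Fin g) K ≤
      RingHom.ker (MvPolynomial.aeval (fun _ : Fin g => (0 : K))).toRingHom := by
    unfold idealOfVars
    rw [Ideal.span_le]
    rintro _ ⟨i, rfl⟩
    show MvPolynomial.aeval (fun _ : Fin g => (0 : K)) (X i) = 0
    rw [aeval_X]
  exact h2 (h1 hp)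

/-- the augmentation of `K[T]/(T)^(k+1)` -/
noncomputable def augB : Bk K g (k + 1) →ₐ[K] K :=
  Ideal.Quotient.liftₐ _ (MvPolynomial.aeval (fun _ : Fin g => (0 : K)))
    (aeval_zero_of_mem K g (k + 1) (by omega))

theorem augB_mk (p : MvPolynomial (Fin g) K) :
    augB K g k (Ideal.Quotient.mk _ p) = MvPolynomial.aeval (fun _ : Fin g => (0 : K)) p := rfl

theorem augB_tk (i : Fin g) : augB K g k (tk K g (k + 1) i) = 0 := by
  unfold tk
  rw [augB_mk, aeval_X]

theorem augB_of_mem (b : Bk K g (k + 1)) (hb : b ∈ JP K g (k + 1)) : augB K g k b = 0 := by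
  have h : JP K g (k + 1) ≤ RingHom.ker (augB K g k).toRingHom := by
    rw [JP, Ideal.map_le_iff_le_comap]
    unfold idealOfVars
    rw [Ideal.span_le]
    rintro _ ⟨i, rfl⟩
    show augB K g k (Ideal.Quotient.mk _ (X i)) = 0
    rw [augB_mk, aeval_X]
  exact h hb

theorem augB_eq_zero_iff (b : Bk K g (k + 1)) : augB K g k b = 0 ↔ b ∈ JP K g (k + 1) := by
  refine ⟨fun h => ?_, augB_of_mem K g k b⟩
  obtain ⟨a, ha⟩ := JP_res (K := K) (g := g) (k + 1) b
  have h1 := augB_of_mem K g k _ ha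
  rw [map_sub, h, AlgHom.commutes, zero_sub, neg_eq_zero] at h1
  have h2 : a = 0 := h1
  rw [h2, map_zero, sub_zero] at ha
  exact ha

theorem ker_augB_nilpotent : IsNilpotent (RingHom.ker (augB K g k).toRingHom) := by
  refine ⟨k + 1, ?_⟩
  rw [Ideal.zero_eq_bot, ← le_bot_iff, ← JP_pow (K := K) (g := g) (k + 1)]
  apply Ideal.pow_right_mono
  intro b hb
  exact (augB_eq_zero_iff K g k b).1 hb

end Aug

section Ring

variable {K : Type u} [Field K] {g : ℕ}
  (V : Fin g → Type u) [∀ i, CommRing (V i)] [∀ i, IsDomain (V i)] [∀ i, Algebra K (V i)]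
  {E : Type u} [Field E] [Algebra K E] (j : ∀ i, FractionRing (V i) →ₐ[K] E)

/-- `V i → Frac (V i) → E` -/
noncomputable def vE (i : Fin g) : V i →ₐ[K] E :=
  (j i).comp (IsScalarTower.toAlgHom K (V i) (FractionRing (V i)))

theorem vE_apply (i : Fin g) (v : V i) :
    vE V j i v = j i (algebraMap (V i) (FractionRing (V i)) v) := rfl

theorem vE_injective (i : Fin g) : Function.Injective (vE V j i) := by
  intro a b h
  rw [vE_apply, vE_apply] at h
  exact IsFractionRing.injective (V i) (FractionRing (V i)) ((j i).injective h)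

/-- the image of `V i` in `E` -/
noncomputable def Wi (i : Fin g) : Subalgebra K E := (vE V j i).range

/-- `V i ≃ W i` -/
noncomputable def eW (i : Fin g) : V i ≃ₐ[K] Wi V j i :=
  AlgEquiv.ofInjective (vE V j i) (vE_injective V j i)

theorem eW_coe (i : Fin g) (v : V i) : ((eW V j i v : Wi V j i) : E) = vE V j i v := rfl

theorem Wi_le (i : Fin g) : Wi V j i ≤ ((j i).fieldRange).toSubalgebra := by
  rintro _ ⟨v, rfl⟩
  exact ⟨_, rfl⟩

variable {S : Type u} [CommRing S] [Algebra K S] (x : Fin g → S) (χ : S →ₐ[K] K)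
  (c : ∀ i, S →ₐ[K] V i) (r : ∀ i, V i →ₐ[K] K) (r_c : ∀ i a, r i (c i a) = χ a)

/-- the `K`-point of `W i` -/
noncomputable def rW (i : Fin g) : Wi V j i →ₐ[K] K := (r i).comp (eW V j i).symm.toAlgHom

theorem rW_eW (i : Fin g) (v : V i) : rW V j r i (eW V j i v) = r i v := by
  unfold rW
  rw [AlgHom.comp_apply]
  exact congrArg (r i) ((eW V j i).symm_apply_apply v)

include r_c in
/-- **The place**: a `K`-place `o` of `E` at which the curves are centred at the origin. -/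
theorem exists_place [IsAlgClosed K] (hfam : IsCurveFam (fun i => (j i).fieldRange)) :
    ∃ (o : ValuationSubring E) (ζo : ∀ i, S →+* o), IsKPlace K o ∧
      (∀ i a, ((ζo i a : o) : E) = vE V j i (c i a)) ∧
      ∀ i a, χ a = 0 → ((ζo i a : o) : E) ∈ o.nonunits := by
  obtain ⟨o, ho, hW⟩ := H90cv.stmt_CVPLACE K E (Fin g) (fun i => (j i).fieldRange) hfam
    (Wi V j) (Wi_le V j) (rW V j r)
  have hmem : ∀ i a, vE V j i (c i a) ∈ o := fun i a => (hW i (eW V j i (c i a))).1
  refine ⟨o, fun i => RingHom.codRestrict ((vE V j i).toRingHom.comp (c i).toRingHom)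
    o.toSubring (fun a => hmem i a), ho, fun i a => rfl, fun i a ha => ?_⟩
  have h := (hW i (eW V j i (c i a))).2 (by rw [rW_eW, r_c, ha])
  exact h

include r_c in
/-- **The ring**: `R = ⨆ W i` with its `K`-point and the homomorphisms to
`K[T]/(T)^(k+1)`. -/
theorem exists_ring (hfam : IsCurveFam (fun i => (j i).fieldRange))
    (c_ne : ∀ i l, l ≠ i → c i (x l) = 0)
    (lam : ∀ (i : Fin g) (B : Type u) [CommRing B] [Algebra K B] (aug : B →ₐ[K] K),
      IsNilpotent (RingHom.ker aug.toRingHom) → ∀ b : B, aug b = 0 →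
      ∃ l : V i →ₐ[K] B, (∀ v, aug (l v) = r i v) ∧ l (c i (x i)) = b) :
    ∃ (R : Subalgebra K E) (χR : R →ₐ[K] K) (ρ : ∀ k : ℕ, R →ₐ[K] Bk K g (k + 1))
      (ζR : ∀ _ : Fin g, S →ₐ[K] R),
      (∀ i a, ((ζR i a : R) : E) = vE V j i (c i a)) ∧ (∀ i a, χR (ζR i a) = χ a) ∧
      (∀ k y, χR y = 0 → ρ k y ∈ JP K g (k + 1)) ∧
      ∀ k i l, ρ k (ζR i (x l)) = if l = i then tk K g (k + 1) l else 0 := by
  classical
  -- the homomorphisms on the curves
  have hl : ∀ (k : ℕ) (i : Fin g), ∃ l : V i →ₐ[K] Bk K g (k + 1),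
      (∀ v, augB K g k (l v) = r i v) ∧ l (c i (x i)) = tk K g (k + 1) i := fun k i =>
    lam i (Bk K g (k + 1)) (augB K g k) (ker_augB_nilpotent K g k) (tk K g (k + 1) i)
      (augB_tk K g k i)
  choose l hl1 hl2 using hl
  -- `CV-UP`
  obtain ⟨χR, hχR⟩ := H90cv.stmt_CVUP K E (Fin g) (fun i => (j i).fieldRange) hfam
    (Wi V j) (Wi_le V j) K (rW V j r)
  have hρ : ∀ k : ℕ, ∃ ρ : ↥(⨆ i, Wi V j i) →ₐ[K] Bk K g (k + 1),
      ∀ (i : Fin g) (w : Wi V j i), ρ ⟨w.1, (le_iSup (Wi V j) i) w.2⟩ =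
        ((l k i).comp (eW V j i).symm.toAlgHom) w := fun k =>
    H90cv.stmt_CVUP K E (Fin g) (fun i => (j i).fieldRange) hfam
      (Wi V j) (Wi_le V j) (Bk K g (k + 1)) (fun i => (l k i).comp (eW V j i).symm.toAlgHom)
  choose ρ hρ using hρ
  -- `aug ∘ ρ = χR`
  have haug : ∀ (k : ℕ) (y : ↥(⨆ i, Wi V j i)), augB K g k (ρ k y) = χR y := by
    intro k ⟨y, hy⟩
    induction hy using Algebra.iSup_induction' with
    | basic i y hy =>
      have h1 := hρ k i ⟨y, hy⟩
      have h2 := hχR i ⟨y, hy⟩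
      rw [h1, h2, AlgHom.comp_apply, hl1]
      rfl
    | add a b ha hb iha ihb =>
      have e : (⟨a + b, add_mem ha hb⟩ : ↥(⨆ i, Wi V j i)) = ⟨a, ha⟩ + ⟨b, hb⟩ := rfl
      rw [e, map_add, map_add, map_add, iha, ihb]
    | mul a b ha hb iha ihb =>
      have e : (⟨a * b, mul_mem ha hb⟩ : ↥(⨆ i, Wi V j i)) = ⟨a, ha⟩ * ⟨b, hb⟩ := rfl
      rw [e, map_mul, map_mul, map_mul, iha, ihb]
    | algebraMap a =>
      have e : (⟨algebraMap K E a, Subalgebra.algebraMap_mem _ a⟩ : ↥(⨆ i, Wi V j i)) =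
        algebraMap K _ a := rfl
      rw [e, AlgHom.commutes, AlgHom.commutes, AlgHom.commutes]
  -- the points
  let ζR : ∀ i : Fin g, S →ₐ[K] ↥(⨆ i, Wi V j i) := fun i =>
    (Subalgebra.inclusion (le_iSup (Wi V j) i)).comp ((eW V j i).toAlgHom.comp (c i))
  have hζR : ∀ i a, ζR i a = ⟨(eW V j i (c i a)).1, (le_iSup (Wi V j) i) (eW V j i (c i a)).2⟩ :=
    fun i a => rfl
  refine ⟨⨆ i, Wi V j i, χR, ρ, ζR, fun i a => rfl, fun i a => ?_, fun k y hy => ?_,
    fun k i l' => ?_⟩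
  · rw [hζR, hχR, rW_eW, r_c]
  · rw [← augB_eq_zero_iff, haug, hy]
  · rw [hζR, hρ, AlgHom.comp_apply]
    have h1 : (eW V j i).symm.toAlgHom (eW V j i (c i (x l'))) = c i (x l') :=
      (eW V j i).symm_apply_apply _
    rw [h1]
    by_cases h : l' = i
    · subst h
      rw [if_pos rfl, hl2]
    · rw [if_neg h, c_ne i l' h, map_zero]

end Ring

end Fermat.Agent.S26.C.X.H14r
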