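/-
S26 (row 25), crux (C), cube side, leaf CURVES (owner helper14), sub-leaf **CV-FIELD** (helper38).

`stmt_CVFIELD : X.Stmt_CVFIELD` : for function fields of one variable `Φ i` (`i : Fin g`) over an
algebraically closed field `K` there is a field `E` with `K`-embeddings `j i : Φ i → E` whose
images form a free family generating `E` (`IsCurveFam`).

Reusable pieces (pure field theory):
* `linearDisjoint_sup_right` : tower property `A ⊥ B`, `AB ⊥ C` ⟹ `A ⊥ BC` (all over `K`);
* `subalgebra_linearDisjoint_sup` : the same for the RING `B·C`;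
* `linearDisjoint_adjoin_of_subalgebra` : from the ring `K[S]` to the field `K(S)`;
* `exists_compositum` : `Frac (A ⊗[K] B)` with linearly disjoint images that generate it;
* `step_free` : the induction step in terms of intermediate fields;
* `isFF1_of_algEquiv`, `isFF1_fieldRange` : transport of `IsFF1`;
* `exists_gen_free` : generation + freeness for ANY family of fields over `K` (no `IsFF1`).
-/
import Mathlib
import Fermat.Agent.S26.C.X.CurvesDefs
import Fermat.Agent.S26.C.H13_TensorDomain

set_option autoImplicit false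

open scoped IntermediateField TensorProduct

universe u

namespace Fermat.Agent.S26.C.X.H38cv

section Tower

variable {K E : Type*} [Field K] [Field E] [Algebra K E]

/-- Ring-level associativity of linear disjointness: if `A ⊥ B` and `AB ⊥ C` then `A` is
linearly disjoint from the ring `B·C`. -/
theorem subalgebra_linearDisjoint_sup (A B C : IntermediateField K E)
    (h1 : A.LinearDisjoint B) (h2 : (A ⊔ B).LinearDisjoint C) :
    A.toSubalgebra.LinearDisjoint (B.toSubalgebra ⊔ C.toSubalgebra) := by
  classical
  let a := Module.Basis.ofVectorSpace K A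
  let b := Module.Basis.ofVectorSpace K B
  let c := Module.Basis.ofVectorSpace K C
  have hBC : B.LinearDisjoint C := h2.of_le_left le_sup_right
  have hBC' : B.toSubalgebra.LinearDisjoint C.toSubalgebra :=
    IntermediateField.linearDisjoint_iff'.1 hBC
  let bc := (b.tensorProduct c).map hBC'.mulMap.toLinearEquiv
  have hbc : ∀ p, ((bc p : ↥(B.toSubalgebra ⊔ C.toSubalgebra)) : E) =
      (b p.1 : E) * (c p.2 : E) := by
    rintro ⟨i, j⟩
    simp only [bc, Module.Basis.map_apply, Module.Basis.tensorProduct_apply,
      AlgEquiv.coe_toLinearEquiv]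
    exact Subalgebra.LinearDisjoint.val_mulMap_tmul hBC' (b i) (c j)
  refine Subalgebra.LinearDisjoint.of_basis_mul _ _ a bc ?_
  have hab0 := h1.linearIndependent_mul a.linearIndependent b.linearIndependent
  let ab : _ × _ → ↥(A ⊔ B) := fun i =>
    ⟨(a i.1 : E) * (b i.2 : E),
      mul_mem ((le_sup_left : A ≤ A ⊔ B) (a i.1).2) ((le_sup_right : B ≤ A ⊔ B) (b i.2).2)⟩
  have hab : LinearIndependent K ab := by
    refine LinearIndependent.of_comp (A ⊔ B).val.toLinearMap ?_
    exact hab0
  have habc := h2.linearIndependent_mul hab c.linearIndependent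
  have := habc.comp (Equiv.prodAssoc _ _ _).symm (Equiv.injective _)
  convert this using 1
  funext i
  simp only [hbc, Function.comp_apply, Equiv.prodAssoc_symm_apply, ab, mul_assoc]
  rfl

open scoped IntermediateField.algebraAdjoinAdjoin in
/-- From the ring to its fraction field. -/
theorem linearDisjoint_adjoin_of_subalgebra (A : IntermediateField K E) (S : Set E)
    (h : A.toSubalgebra.LinearDisjoint (Algebra.adjoin K S)) :
    A.LinearDisjoint (IntermediateField.adjoin K S) := by
  classical
  let a := Module.Basis.ofVectorSpace K A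
  have hli : LinearIndependent (Algebra.adjoin K S) (A.val ∘ a) :=
    Subalgebra.LinearDisjoint.linearIndependent_left_of_flat h a.linearIndependent
  have h2 : LinearIndependent (IntermediateField.adjoin K S) (A.val ∘ a) :=
    LinearIndependent.localization (Rₛ := IntermediateField.adjoin K S)
      (S := nonZeroDivisors (Algebra.adjoin K S)) hli
  exact IntermediateField.LinearDisjoint.of_basis_left a h2

/-- **Tower property**: `A ⊥ B` and `AB ⊥ C` imply `A ⊥ BC`. -/
theorem linearDisjoint_sup_right (A B C : IntermediateField K E)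
    (h1 : A.LinearDisjoint B) (h2 : (A ⊔ B).LinearDisjoint C) :
    A.LinearDisjoint (B ⊔ C : IntermediateField K E) := by
  have h := subalgebra_linearDisjoint_sup A B C h1 h2
  have e1 : B ⊔ C = IntermediateField.adjoin K ((B : Set E) ∪ (C : Set E)) := by
    apply le_antisymm
    · exact sup_le (fun x hx => IntermediateField.subset_adjoin K _ (Or.inl hx))
        (fun x hx => IntermediateField.subset_adjoin K _ (Or.inr hx))
    · rw [IntermediateField.adjoin_le_iff]
      rintro x (hx | hx)
      · exact (le_sup_left : B ≤ B ⊔ C) hx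
      · exact (le_sup_right : C ≤ B ⊔ C) hx
  have e2 : Algebra.adjoin K ((B : Set E) ∪ (C : Set E)) =
      B.toSubalgebra ⊔ C.toSubalgebra := by
    rw [Algebra.adjoin_union]
    congr 1
    · exact Algebra.adjoin_eq B.toSubalgebra
    · exact Algebra.adjoin_eq C.toSubalgebra
  rw [e1]
  exact linearDisjoint_adjoin_of_subalgebra A _ (e2 ▸ h)

end Tower

section Compositum

/-- The free compositum of two fields over `K` whose tensor product is a domain, with
generation. -/
theorem exists_compositum (K : Type u) [Field K] (A B : Type u) [Field A] [Field B]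
    [Algebra K A] [Algebra K B] [IsDomain (A ⊗[K] B)] :
    ∃ (E : Type u) (_ : Field E) (_ : Algebra K E) (fa : A →ₐ[K] E) (fb : B →ₐ[K] E),
      fa.fieldRange.LinearDisjoint fb.fieldRange ∧ fa.fieldRange ⊔ fb.fieldRange = ⊤ := by
  let E := FractionRing (A ⊗[K] B)
  let i : A ⊗[K] B →ₐ[K] E := IsScalarTower.toAlgHom K (A ⊗[K] B) E
  have hi : Function.Injective i := IsFractionRing.injective (A ⊗[K] B) E
  let fa : A →ₐ[K] E := i.comp Algebra.TensorProduct.includeLeft
  let fb : B →ₐ[K] E := i.comp Algebra.TensorProduct.includeRight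
  refine ⟨E, inferInstance, inferInstance, fa, fb, ?_, ?_⟩
  · rw [IntermediateField.linearDisjoint_iff']
    simp only [AlgHom.fieldRange_toSubalgebra]
    have h0 := (Subalgebra.LinearDisjoint.include_range K A B).map i hi
    simp only [fa, fb, AlgHom.range_comp]
    exact h0
  · rw [eq_top_iff]
    intro z _
    obtain ⟨x, y, -, rfl⟩ := IsFractionRing.div_surjective (A := A ⊗[K] B) z
    have key : ∀ t : A ⊗[K] B,
        algebraMap (A ⊗[K] B) E t ∈ fa.fieldRange ⊔ fb.fieldRange := by
      intro t
      induction t using TensorProduct.induction_on with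
      | zero => simp
      | tmul a b =>
        have h1 : (a ⊗ₜ[K] b : A ⊗[K] B) = (a ⊗ₜ[K] (1 : B)) * ((1 : A) ⊗ₜ[K] b) := by simp
        rw [h1, map_mul]
        exact mul_mem ((le_sup_left : fa.fieldRange ≤ fa.fieldRange ⊔ fb.fieldRange) ⟨a, rfl⟩)
          ((le_sup_right : fb.fieldRange ≤ fa.fieldRange ⊔ fb.fieldRange) ⟨b, rfl⟩)
      | add x y hx hy => rw [map_add]; exact add_mem hx hy
    exact div_mem (key x) (key y)

end Compositum

section Step

variable {K : Type u} [Field K]

theorem map_le_fieldRange {E' E : Type u} [Field E'] [Field E] [Algebra K E'] [Algebra K E]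
    (fb : E' →ₐ[K] E) (M : IntermediateField K E') : M.map fb ≤ fb.fieldRange := by
  rintro _ ⟨y, -, rfl⟩
  exact ⟨y, rfl⟩

/-- The induction step: adjoining a new factor, free from the old compositum. -/
theorem step_free {E' E : Type u} [Field E'] [Field E] [Algebra K E'] [Algebra K E]
    {g : ℕ} (F' : Fin g → IntermediateField K E') (hgen' : blk F' Set.univ = ⊤)
    (hfree' : ∀ i, (F' i).LinearDisjoint (blk F' {i}ᶜ))
    (fb : E' →ₐ[K] E) (N : IntermediateField K E) (hd : N.LinearDisjoint fb.fieldRange)
    (hg : N ⊔ fb.fieldRange = ⊤)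
    (F : Fin (g + 1) → IntermediateField K E) (hlast : F (Fin.last g) = N)
    (hcast : ∀ i : Fin g, F i.castSucc = (F' i).map fb) :
    blk F Set.univ = ⊤ ∧ ∀ i, (F i).LinearDisjoint (blk F {i}ᶜ) := by
  have hrange : fb.fieldRange ≤ ⨆ i : Fin g, (F' i).map fb := by
    rw [AlgHom.fieldRange_eq_map, IntermediateField.map_le_iff_le_comap, ← hgen']
    exact iSup₂_le fun i _ =>
      IntermediateField.map_le_iff_le_comap.1 (le_iSup (fun i => (F' i).map fb) i)
  refine ⟨?_, ?_⟩
  · rw [eq_top_iff, ← hg]
    refine sup_le ?_ (hrange.trans (iSup_le fun i => ?_))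
    · rw [← hlast]
      exact le_biSup F (Set.mem_univ _)
    · rw [← hcast]
      exact le_biSup F (Set.mem_univ _)
  · intro i
    induction i using Fin.lastCases with
    | last =>
      rw [hlast]
      refine hd.of_le_right (iSup₂_le fun k hk => ?_)
      obtain ⟨k', rfl⟩ := Fin.exists_castSucc_eq.2 hk
      rw [hcast]
      exact map_le_fieldRange fb _
    | cast i =>
      rw [hcast]
      have h1 : ((F' i).map fb).LinearDisjoint ((blk F' {i}ᶜ).map fb) := (hfree' i).map fb
      have h2 : ((F' i).map fb ⊔ (blk F' {i}ᶜ).map fb).LinearDisjoint N :=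
        hd.symm.of_le_left (sup_le (map_le_fieldRange fb _) (map_le_fieldRange fb _))
      refine (linearDisjoint_sup_right _ _ _ h1 h2).of_le_right (iSup₂_le fun k hk => ?_)
      induction k using Fin.lastCases with
      | last => rw [hlast]; exact le_sup_right
      | cast k =>
        rw [hcast]
        refine le_trans (IntermediateField.map_mono fb ?_) le_sup_left
        refine le_biSup F' ?_
        intro h
        exact hk (by rw [Set.mem_singleton_iff] at h ⊢; rw [h])

end Step

section FF

variable {K : Type u} [Field K]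

/-- `IsFF1` is invariant under isomorphisms. -/
theorem isFF1_of_algEquiv {F F' : Type u} [Field F] [Field F'] [Algebra K F] [Algebra K F']
    (e : F ≃ₐ[K] F') (h : IsFF1 K F) : IsFF1 K F' := by
  obtain ⟨x, hx, hfin⟩ := h
  refine ⟨e x, ?_, ?_⟩
  · intro halg
    exact hx ((isAlgebraic_algHom_iff e.toAlgHom e.injective).1 halg)
  · have hmap : K⟮x⟯.map e.toAlgHom = K⟮e x⟯ := by
      rw [IntermediateField.adjoin_map, Set.image_singleton]
      rfl
    have hfin' : Module.Finite (K⟮x⟯.map e.toAlgHom) F' :=
      Module.Finite.of_equiv_equiv (A₁ := K⟮x⟯) (B₁ := F)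
        (K⟮x⟯.equivMap e.toAlgHom).toRingEquiv e.toRingEquiv (by ext y; rfl)
    exact hmap ▸ hfin'

theorem isFF1_fieldRange {F E : Type u} [Field F] [Field E] [Algebra K F] [Algebra K E]
    (j : F →ₐ[K] E) (h : IsFF1 K F) : IsFF1 K j.fieldRange :=
  isFF1_of_algEquiv (AlgEquiv.ofInjectiveField j) h

end FF

section Main

/-- Generation and freeness, by induction on the number of factors. -/
theorem exists_gen_free (K : Type u) [Field K] [IsAlgClosed K] (g : ℕ) :
    ∀ (Φ : Fin g → Type u) [∀ i, Field (Φ i)] [∀ i, Algebra K (Φ i)],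
    ∃ (E : Type u) (_ : Field E) (_ : Algebra K E) (j : ∀ i, Φ i →ₐ[K] E),
      blk (fun i => (j i).fieldRange) Set.univ = ⊤ ∧
      ∀ i, ((j i).fieldRange).LinearDisjoint (blk (fun i => (j i).fieldRange) {i}ᶜ) := by
  induction g with
  | zero =>
    intro Φ _ _
    refine ⟨K, inferInstance, inferInstance, fun i => i.elim0, ?_, fun i => i.elim0⟩
    rw [eq_top_iff]
    intro x _
    exact IntermediateField.algebraMap_mem _ x
  | succ g ih =>
    intro Φ _ _
    obtain ⟨E', _, _, j', hgen', hfree'⟩ := ih (fun i => Φ i.castSucc)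
    have : IsDomain (Φ (Fin.last g) ⊗[K] E') := C.H13.isDomain_tensorProduct (K := K) _ _
    obtain ⟨E, _, _, fa, fb, hd, hg⟩ := exists_compositum K (Φ (Fin.last g)) E'
    let j : ∀ i, Φ i →ₐ[K] E := fun i =>
      Fin.lastCases (motive := fun i => Φ i →ₐ[K] E) fa (fun i => fb.comp (j' i)) i
    refine ⟨E, inferInstance, inferInstance, j, ?_⟩
    refine step_free (fun i => (j' i).fieldRange) hgen' hfree' fb fa.fieldRange hd hg _ ?_ ?_
    · simp only [j, Fin.lastCases_last]
    · intro i
      simp only [j, Fin.lastCases_castSucc]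
      ext y
      simp only [AlgHom.mem_fieldRange, IntermediateField.mem_map, AlgHom.coe_comp,
        Function.comp_apply]
      constructor
      · rintro ⟨x, rfl⟩
        exact ⟨j' i x, ⟨x, rfl⟩, rfl⟩
      · rintro ⟨_, ⟨x, rfl⟩, rfl⟩
        exact ⟨x, rfl⟩

/-- **CV-FIELD**. -/
theorem stmt_CVFIELD : Stmt_CVFIELD.{u} := by
  intro K _ _ g Φ _ _ hff
  obtain ⟨E, iE, aE, j, hgen, hfree⟩ := exists_gen_free K g Φ
  exact ⟨E, iE, aE, j, ⟨fun i => isFF1_fieldRange (j i) (hff i), hgen, hfree⟩⟩

end Main

end Fermat.Agent.S26.C.X.H38cv
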