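import Mathlib
import Fermat.Agent.S26.C.X.CurvesDefs3

/-!
# S26 (C), cube side, leaf CURVES, sub-leaf CV-BASED (helper49)

`stmt_CVBASED : Stmt_CVBASED`: a point given in an affine chart `U ∋ 0` by a homomorphism
`ζ : Γ(A, U) → o` which sends the ideal of the origin into the maximal ideal of `o` is based
at `o`.

Proof: `τ := pt hU ζ` extends `σ` (`pt_comp`); the closed point of `Spec o` goes to the prime
`ζ⁻¹ 𝔪_o ⊇ ker χ`; `ker χ` is maximal (`kap ≫ χ = 𝟙`), so the prime is `ker χ`, the origin.
-/

set_option autoImplicit false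

open CategoryTheory CategoryTheory.Limits AlgebraicGeometry NeronModelInfra GoodReductionJacobian
  IsLocalRing

universe u

namespace Fermat.Agent.S26.C.X.H49b

open Fermat.Agent.S26.E.H14

/-- **CV-BASED**. -/
theorem stmt_CVBASED : Stmt_CVBASED.{u} := by
  intro K _ A f L U hU χ hχ E _ _ o σ ζ hσ hζ
  -- `χ` is a retraction of the structure map
  have hret : kap hU f ≫ χ = 𝟙 _ := by
    have h1 : pt hU χ ≫ f = 𝟙 _ := by
      rw [← hχ]
      exact unitHom_comp L
    rw [pt_comp_f] at h1
    apply Spec.map_injective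
    rw [h1, Spec.map_id]
  have hsurj : Function.Surjective χ.hom := by
    intro a
    refine ⟨(kap hU f).hom a, ?_⟩
    have := congrArg (fun φ => φ.hom a) hret
    simpa using this
  have hmax : (RingHom.ker χ.hom).IsMaximal := RingHom.ker_isMaximal_of_surjective χ.hom hsurj
  refine ⟨pt hU (CommRingCat.ofHom ζ), ?_, ?_⟩
  · rw [hσ, ← pt_comp]
    rfl
  · have h0 : orig L = (pt hU χ) (closedPoint (CommRingCat.of K)) := by
      unfold orig
      have : zeroHom L = pt hU χ := hχ
      rw [this]
    rw [h0]
    show hU.fromSpec (Spec.map (CommRingCat.ofHom ζ) (closedPoint (CommRingCat.of o))) =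
      hU.fromSpec (Spec.map χ (closedPoint (CommRingCat.of K)))
    congr 1
    apply PrimeSpectrum.ext
    -- the two primes of `Γ(A, U)`
    have hle : RingHom.ker χ.hom ≤
        (Spec.map (CommRingCat.ofHom ζ) (closedPoint (CommRingCat.of o))).asIdeal := by
      intro a ha
      show ζ a ∈ maximalIdeal o
      exact ValuationSubring.coe_mem_nonunits_iff.mp (hζ a ha)
    have hne : (Spec.map (CommRingCat.ofHom ζ) (closedPoint (CommRingCat.of o))).asIdeal ≠ ⊤ :=
      (Spec.map (CommRingCat.ofHom ζ) (closedPoint (CommRingCat.of o))).isPrime.ne_top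
    have e1 := hmax.eq_of_le hne hle
    have e2 : (Spec.map χ (closedPoint (CommRingCat.of K))).asIdeal = RingHom.ker χ.hom := by
      ext a
      show χ.hom a ∈ maximalIdeal K ↔ _
      rw [mem_maximalIdeal, mem_nonunits_iff, RingHom.mem_ker, isUnit_iff_ne_zero, not_not]
    rw [e2, e1]

end Fermat.Agent.S26.C.X.H49b
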