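import Mathlib
import Fermat.Agent.S26.C.X.CurvesDefs2
import Fermat.Agent.S26.LF.H47_Alg

/-!
# S26 (C), cube side, leaf CURVES, sub-leaf CV-CHART (helper55)

`stmt_CVCHART : Stmt_CVCHART`: an étale chart at the origin of a smooth group scheme of relative
dimension `g` over a field: an affine open `U ∋ 0`, the `K`-point `χ : Γ(A, U) → K` of the
origin and an étale `e : K[X₁, …, X_g] → Γ(A, U)` over `K` with `χ (e X_l) = 0`.
-/

set_option autoImplicit false
set_option linter.style.haveILetI false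

open CategoryTheory CategoryTheory.Limits AlgebraicGeometry NeronModelInfra GoodReductionJacobian

universe u

namespace Fermat.Agent.S26.C.X.H55c

open Fermat.Agent.S26.E

/-- Every open of `Spec K` containing a point is everything. -/
theorem opens_spec_field_eq_top (K : Type u) [Field K] (U : (Spec (CommRingCat.of K)).Opens)
    (y : Spec (CommRingCat.of K)) (hy : y ∈ U) : U = ⊤ := by
  ext z
  simp only [TopologicalSpace.Opens.coe_top, Set.mem_univ, iff_true, SetLike.mem_coe]
  have : z = y := Subsingleton.elim (α := PrimeSpectrum K) z y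
  rw [this]
  exact hy

section Factor

variable {K : Type u} [Field K] {A : Scheme.{u}}

/-- A `K`-point whose image lies in an affine open `V` comes from a homomorphism `Γ(A, V) → K`. -/
theorem exists_pt_of_mem (s : Spec (CommRingCat.of K) ⟶ A) {V : A.Opens} (hV : IsAffineOpen V)
    (h : s (IsLocalRing.closedPoint K) ∈ V) :
    ∃ χ : Γ(A, V) ⟶ CommRingCat.of K, s = H14.pt hV χ := by
  have hrange : Set.range s ⊆ Set.range V.ι := by
    rintro _ ⟨y, rfl⟩
    have hy : y = IsLocalRing.closedPoint K := Subsingleton.elim (α := PrimeSpectrum K) _ _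
    rw [hy, Scheme.Opens.range_ι]
    exact h
  let s' : Spec (CommRingCat.of K) ⟶ Spec Γ(A, V) :=
    IsOpenImmersion.lift V.ι s hrange ≫ hV.isoSpec.hom
  refine ⟨Spec.preimage s', ?_⟩
  unfold H14.pt
  rw [Spec.map_preimage]
  change s = (IsOpenImmersion.lift V.ι s hrange ≫ hV.isoSpec.hom) ≫ hV.fromSpec
  rw [IsAffineOpen.fromSpec, Category.assoc, Iso.hom_inv_id_assoc, IsOpenImmersion.lift_fac]

/-- The structure homomorphism `kap hV f` is `f.appLE ⊤ V` up to `ΓSpecIso`. -/
theorem kap_eq_appLE (f : A ⟶ Spec (CommRingCat.of K)) {V : A.Opens} (hV : IsAffineOpen V)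
    (e₀ : V ≤ f ⁻¹ᵁ ⊤) :
    H14.kap hV f = (Scheme.ΓSpecIso (CommRingCat.of K)).inv ≫ f.appLE ⊤ V e₀ := by
  unfold H14.kap
  apply Spec.map_injective
  rw [Spec.map_preimage, Spec.map_comp,
    ← IsAffineOpen.SpecMap_appLE_fromSpec f (isAffineOpen_top _) hV e₀,
    IsAffineOpen.fromSpec_top, Scheme.isoSpec_Spec_inv]

end Factor

/-- **CV-CHART**. -/
theorem stmt_CVCHART : Stmt_CVCHART.{u} := by
  intro K _ _ A f L g _
  have hsf : H14.unitHom L ≫ f = 𝟙 _ := H14.unitHom_comp L
  obtain ⟨U₀, hU₀, V, hV, hxV, e₀, hf⟩ :=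
    SmoothOfRelativeDimension.exists_isStandardSmoothOfRelativeDimension (n := g) (f := f)
      ((H14.unitHom L) (IsLocalRing.closedPoint K))
  have hUtop : U₀ = ⊤ := opens_spec_field_eq_top K U₀ _ (e₀ hxV)
  subst hUtop
  obtain ⟨χ, hχ⟩ := exists_pt_of_mem (H14.unitHom L) hV hxV
  -- the structure homomorphism is standard smooth of relative dimension `g`
  let ιe : K ≃+* Γ(Spec (CommRingCat.of K), ⊤) :=
    (Scheme.ΓSpecIso (CommRingCat.of K)).symm.commRingCatIsoToRingEquiv
  have hι : (ιe : K →+* Γ(Spec (CommRingCat.of K), ⊤)).IsStandardSmoothOfRelativeDimension 0 :=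
    RingHom.IsStandardSmoothOfRelativeDimension.equiv ιe
  have hkap : (H14.kap hV f).hom =
      (f.appLE ⊤ V e₀).hom.comp (ιe : K →+* Γ(Spec (CommRingCat.of K), ⊤)) := by
    rw [kap_eq_appLE f hV e₀]
    rfl
  have hφ₀ : (H14.kap hV f).hom.IsStandardSmoothOfRelativeDimension g := by
    rw [hkap]
    have := hf.comp hι
    rwa [add_zero] at this
  obtain ⟨e₁, he₁C, he₁⟩ :=
    RingHom.IsStandardSmoothOfRelativeDimension.exists_etale_mvPolynomial hφ₀
  -- `χ` is a section of the structure homomorphism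
  have hsec : H14.kap hV f ≫ χ = 𝟙 _ := by
    apply Spec.map_injective
    rw [← H14.pt_comp_f, ← hχ, hsf, Spec.map_id]
  have hsec' : ∀ a : K, χ.hom ((H14.kap hV f).hom a) = a := fun a =>
    congrArg (fun ψ : CommRingCat.of K ⟶ CommRingCat.of K => ψ.hom a) hsec
  -- the translation
  let a : Fin g → K := fun l => χ.hom (e₁ (MvPolynomial.X l))
  let θ : MvPolynomial (Fin g) K →+* MvPolynomial (Fin g) K :=
    (LF.H47.translAlgHom K g a).toRingHom
  have hθ : θ.Etale := RingHom.Etale.of_bijective (LF.H47.translAlgHom_bijective K g a)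
  have he : (e₁.comp θ).Etale := RingHom.Etale.stableUnderComposition _ _ hθ he₁
  have hC : (e₁.comp θ).comp MvPolynomial.C = (H14.kap hV f).hom := by
    rw [← he₁C]
    ext k
    simp [θ, LF.H47.translAlgHom]
  refine ⟨V, hV, χ, e₁.comp θ, hχ, hC, he, fun l => ?_⟩
  have h1 : (e₁.comp θ) (MvPolynomial.X l) =
      e₁ (MvPolynomial.X l) - (H14.kap hV f).hom (a l) := by
    rw [← he₁C]
    simp [θ, LF.H47.translAlgHom]
  rw [h1, map_sub, hsec']
  exact sub_self _

end Fermat.Agent.S26.C.X.H55c
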