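import Mathlib
import Fermat.Agent.S26.C.X.CurvesDefs3
import Fermat.Agent.S26.C.H14_CurveAlg
import Fermat.Agent.S26.C.H14_DomAlg

/-!
# S26 (C), cube side, leaf CURVES, cut CV-DOMALG (helper80)

`S` a domain, étale over `R = K[X₁..X_g]`, `χ : S → K` a `K`-point over `0`,
`σ_k : S → K[T]/(T)^(k+1)` over `χ` with `σ_k X_l ≡ T_l` modulo `(T)²`.  Then `⋂ ker σ_k = 0`.

`O := S_q`, `q = ker χ`: noetherian local with residue field `K`, `q O = (X₁..X_g) O`
(étale ⟹ unramified), the `σ_k` extend to `O`, `C.H14d.dom_alg` applies, and `S → O` is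
injective.
-/

set_option autoImplicit false
set_option linter.style.haveILetI false
set_option linter.unusedSectionVars false

open IsLocalRing MvPolynomial

universe u

namespace Fermat.Agent.S26.C.X.H80d

open Fermat.Agent.S26.LF.H18 Fermat.Agent.S26.C.H14d

section Unit

variable {K : Type u} [Field K] {g : ℕ} {S : Type u} [CommRing S] [Algebra K S]

/-- An element with nonzero value at `χ` is mapped to a unit of `B k`. -/
theorem isUnit_of_chi_ne_zero (χ : S →ₐ[K] K) (k : ℕ) (σ : S →ₐ[K] Bk K g k)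
    (h : ∀ a, χ a = 0 → σ a ∈ JP K g k) (s : S) (hs : χ s ≠ 0) : IsUnit (σ s) := by
  have h1 : σ (s - algebraMap K S (χ s)) ∈ JP K g k := h _ (by simp)
  have hn : IsNilpotent (σ (s - algebraMap K S (χ s))) := by
    refine ⟨k, ?_⟩
    have h2 := Ideal.pow_mem_pow h1 k
    rw [JP_pow] at h2
    simpa using h2
  have hu : IsUnit (algebraMap K (Bk K g k) (χ s)) := (IsUnit.mk0 _ hs).map _
  have e : σ s = algebraMap K (Bk K g k) (χ s) + σ (s - algebraMap K S (χ s)) := by
    rw [map_sub, AlgHom.commutes]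
    ring
  rw [e]
  exact hn.isUnit_add_left_of_commute hu (Commute.all _ _)

end Unit

section Under

variable {K : Type u} [Field K] {g : ℕ} {S : Type u} [CommRing S] [Algebra K S]
  [Algebra (MvPolynomial (Fin g) K) S] [IsScalarTower K (MvPolynomial (Fin g) K) S]

/-- The value of `χ` on a polynomial is its constant coefficient. -/
theorem chi_algebraMap (χ : S →ₐ[K] K)
    (hχ : ∀ l, χ (algebraMap (MvPolynomial (Fin g) K) S (X l)) = 0)
    (p : MvPolynomial (Fin g) K) :
    χ (algebraMap (MvPolynomial (Fin g) K) S p) = coeff 0 p := by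
  have h1 : χ.comp (IsScalarTower.toAlgHom K (MvPolynomial (Fin g) K) S) =
      MvPolynomial.aeval (fun _ : Fin g => (0 : K)) := by
    apply MvPolynomial.algHom_ext
    intro l
    simp [hχ l]
  have h2 := congrArg (fun φ : MvPolynomial (Fin g) K →ₐ[K] K => φ p) h1
  simp only [AlgHom.comp_apply, IsScalarTower.coe_toAlgHom'] at h2
  rw [h2]
  have h3 : MvPolynomial.aeval (fun _ : Fin g => (0 : K)) p = constantCoeff p := by
    simp
  rw [h3, constantCoeff_eq]

theorem mem_idealOfVars_iff_coeff (p : MvPolynomial (Fin g) K) :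
    p ∈ idealOfVars (Fin g) K ↔ coeff 0 p = 0 := by
  have h := mem_pow_idealOfVars_iff' (σ := Fin g) (R := K) 1 p
  rw [pow_one] at h
  rw [h]
  constructor
  · intro h0
    exact h0 0 (by simp)
  · intro h0 x hx
    have : x = 0 := by
      have h1 : Finsupp.degree x = 0 := by omega
      exact (Finsupp.degree_eq_zero_iff x).1 h1
    rw [this]
    exact h0

/-- The prime of `K[X]` under `ker χ` is the ideal of the origin. -/
theorem under_eq (χ : S →ₐ[K] K)
    (hχ : ∀ l, χ (algebraMap (MvPolynomial (Fin g) K) S (X l)) = 0) :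
    (RingHom.ker χ).under (MvPolynomial (Fin g) K) = idealOfVars (Fin g) K := by
  ext p
  rw [Ideal.under_def, Ideal.mem_comap, RingHom.mem_ker, chi_algebraMap χ hχ p,
    mem_idealOfVars_iff_coeff]

end Under

/-- **CV-DOMALG**. -/
theorem stmt_CVDOMALG : Stmt_CVDOMALG.{u} := by
  intro K _ g S _ _ _ _ _ _ χ hχ σ hJ hσ a ha
  classical
  haveI hq : (RingHom.ker χ.toRingHom).IsPrime := RingHom.ker_isPrime χ.toRingHom
  have hmemq : ∀ s : S, s ∈ RingHom.ker χ.toRingHom ↔ χ s = 0 := fun s => RingHom.mem_ker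
  haveI : IsNoetherianRing (Localization.AtPrime (RingHom.ker χ.toRingHom)) :=
    C.H14c.noeth_loc_of_etale (MvPolynomial (Fin g) K) (RingHom.ker χ.toRingHom)
  have hmax := C.H14c.map_eq_maximalIdeal_of_etale (MvPolynomial (Fin g) K)
    (RingHom.ker χ.toRingHom)
  have hunder : (RingHom.ker χ.toRingHom).under (MvPolynomial (Fin g) K) =
      idealOfVars (Fin g) K := under_eq χ hχ
  rw [hunder] at hmax
  -- the residue map
  have hunitχ : ∀ y : (RingHom.ker χ.toRingHom).primeCompl, IsUnit (χ y) := fun y =>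
    IsUnit.mk0 _ (fun h0 => y.2 ((hmemq y).2 h0))
  let χ' : Localization.AtPrime (RingHom.ker χ.toRingHom) →ₐ[K] K :=
    IsLocalization.liftAlgHom (M := (RingHom.ker χ.toRingHom).primeCompl) (f := χ) hunitχ
  have hker : ∀ b : Localization.AtPrime (RingHom.ker χ.toRingHom), χ' b = 0 →
      b ∈ maximalIdeal (Localization.AtPrime (RingHom.ker χ.toRingHom)) := by
    intro b hb
    rw [mem_maximalIdeal, mem_nonunits_iff]
    intro hu
    have := hu.map χ'
    rw [hb] at this
    exact not_isUnit_zero this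
  have hres : ∀ b : Localization.AtPrime (RingHom.ker χ.toRingHom), ∃ c : K,
      b - algebraMap K _ c ∈ maximalIdeal (Localization.AtPrime (RingHom.ker χ.toRingHom)) := by
    intro b
    refine ⟨χ' b, hker _ ?_⟩
    rw [map_sub, AlgHom.commutes]
    simp
  -- the extensions of the `σ k`
  have hunit : ∀ k (y : (RingHom.ker χ.toRingHom).primeCompl), IsUnit (σ k y) := fun k y =>
    isUnit_of_chi_ne_zero χ (k + 1) (σ k) (hJ k) y (fun h0 => y.2 ((hmemq y).2 h0))
  let σ' : ∀ k : ℕ, Localization.AtPrime (RingHom.ker χ.toRingHom) →ₐ[K] Bk K g (k + 1) :=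
    fun k => IsLocalization.liftAlgHom (M := (RingHom.ker χ.toRingHom).primeCompl)
      (f := σ k) (hunit k)
  have hσ' : ∀ k s, σ' k (algebraMap S _ s) = σ k s := fun k s =>
    IsLocalization.lift_eq (hunit k) s
  -- the parameters
  let x : Fin g → Localization.AtPrime (RingHom.ker χ.toRingHom) :=
    fun i => algebraMap S _ (algebraMap (MvPolynomial (Fin g) K) S (X i))
  have hxR : ∀ i, x i = algebraMap (MvPolynomial (Fin g) K)
      (Localization.AtPrime (RingHom.ker χ.toRingHom)) (X i) := fun i =>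
    (IsScalarTower.algebraMap_apply _ _ _ _).symm
  have hx : ∀ i, x i ∈ maximalIdeal (Localization.AtPrime (RingHom.ker χ.toRingHom)) := by
    intro i
    rw [← hmax, hxR]
    exact Ideal.mem_map_of_mem _ (Ideal.subset_span ⟨i, rfl⟩)
  have hspan : ∀ y ∈ maximalIdeal (Localization.AtPrime (RingHom.ker χ.toRingHom)),
      ∃ c : Fin g → K, y - ∑ i, c i • x i ∈
        maximalIdeal (Localization.AtPrime (RingHom.ker χ.toRingHom)) ^ 2 := by
    intro y hy
    rw [← hmax, Ideal.map_span, ← Set.range_comp] at hy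
    obtain ⟨b, hb⟩ := (Ideal.mem_span_range_iff_exists_fun).1 hy
    refine ⟨fun i => χ' (b i), ?_⟩
    have e : y - ∑ i, χ' (b i) • x i = ∑ i, (b i - algebraMap K _ (χ' (b i))) * x i := by
      rw [← hb, ← Finset.sum_sub_distrib]
      refine Finset.sum_congr rfl fun i _ => ?_
      rw [Function.comp_apply, ← hxR, Algebra.smul_def]
      ring
    rw [e, pow_two]
    refine Ideal.sum_mem _ fun i _ => Ideal.mul_mem_mul (hker _ ?_) (hx i)
    rw [map_sub, AlgHom.commutes]
    simp
  have key := dom_alg hres x hx hspan σ' (fun k i => by rw [hσ']; exact hσ k i)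
    (algebraMap S _ a) (fun k => by rw [hσ']; exact ha k)
  have hinj : Function.Injective
      (algebraMap S (Localization.AtPrime (RingHom.ker χ.toRingHom))) :=
    IsLocalization.injective _ (M := (RingHom.ker χ.toRingHom).primeCompl)
      (Ideal.primeCompl_le_nonZeroDivisors _)
  exact hinj (key.trans (map_zero _).symm)

end Fermat.Agent.S26.C.X.H80d
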