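import Mathlib
import Fermat.Agent.S26.C.X.CurvesDefs4
import Fermat.Agent.S26.C.X.H80_CvDomAlg

/-!
# S26 (C), cube side, leaf CURVES, cut CV-LOC (helper80)

`R ⊆ E` a subalgebra of a field, `χR : R → K` a `K`-point, `ρ_k : R → K[T]/(T)^(k+1)` over `χR`:
everything extends to `R' = Localization.AtPrime (ker χR)`, which embeds in `E`.
-/

set_option autoImplicit false
set_option linter.style.haveILetI false
set_option linter.unusedSectionVars false

open IsLocalRing MvPolynomial

universe u

namespace Fermat.Agent.S26.C.X.H80l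

open Fermat.Agent.S26.LF.H18 Fermat.Agent.S26.C.H14d

/-- **CV-LOC**. -/
theorem stmt_CVLOC : Stmt_CVLOC.{u} := by
  intro K _ E _ _ R g χR ρ hρ
  classical
  haveI hq : (RingHom.ker χR.toRingHom).IsPrime := RingHom.ker_isPrime χR.toRingHom
  have hmemq : ∀ s : R, s ∈ RingHom.ker χR.toRingHom ↔ χR s = 0 := fun s => RingHom.mem_ker
  have hne : ∀ y : (RingHom.ker χR.toRingHom).primeCompl, χR y ≠ 0 := fun y h0 =>
    y.2 ((hmemq y).2 h0)
  have hunitχ : ∀ y : (RingHom.ker χR.toRingHom).primeCompl, IsUnit (χR y) := fun y =>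
    IsUnit.mk0 _ (hne y)
  have hunitE : ∀ y : (RingHom.ker χR.toRingHom).primeCompl, IsUnit (R.val y) := fun y => by
    refine IsUnit.mk0 _ (fun h0 => hne y ?_)
    have : (y : R) = 0 := Subtype.ext h0
    rw [this, map_zero]
  have hunitρ : ∀ k (y : (RingHom.ker χR.toRingHom).primeCompl), IsUnit (ρ k y) := fun k y =>
    H80d.isUnit_of_chi_ne_zero χR (k + 1) (ρ k) (hρ k) y (hne y)
  let κ : Localization.AtPrime (RingHom.ker χR.toRingHom) →ₐ[K] K :=
    IsLocalization.liftAlgHom (M := (RingHom.ker χR.toRingHom).primeCompl) (f := χR) hunitχ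
  let incl : Localization.AtPrime (RingHom.ker χR.toRingHom) →ₐ[K] E :=
    IsLocalization.liftAlgHom (M := (RingHom.ker χR.toRingHom).primeCompl) (f := R.val) hunitE
  let ρ' : ∀ k : ℕ, Localization.AtPrime (RingHom.ker χR.toRingHom) →ₐ[K] Bk K g (k + 1) :=
    fun k => IsLocalization.liftAlgHom (M := (RingHom.ker χR.toRingHom).primeCompl)
      (f := ρ k) (hunitρ k)
  have hκ : ∀ y, κ (algebraMap R _ y) = χR y := fun y => IsLocalization.lift_eq hunitχ y
  have hincl : ∀ y, incl (algebraMap R _ y) = (y : E) := fun y =>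
    IsLocalization.lift_eq hunitE y
  have hρ' : ∀ k y, ρ' k (algebraMap R _ y) = ρ k y := fun k y =>
    IsLocalization.lift_eq (hunitρ k) y
  have hinjR : Function.Injective
      (algebraMap R (Localization.AtPrime (RingHom.ker χR.toRingHom))) :=
    IsLocalization.injective _ (M := (RingHom.ker χR.toRingHom).primeCompl)
      (Ideal.primeCompl_le_nonZeroDivisors _)
  refine ⟨Localization.AtPrime (RingHom.ker χR.toRingHom), inferInstance, inferInstance,
    inferInstance, κ, incl, IsScalarTower.toAlgHom K R _, ρ', ?_, ?_, ?_, ?_, ?_⟩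
  · -- injectivity
    have h := (IsLocalization.lift_injective_iff (M := (RingHom.ker χR.toRingHom).primeCompl)
      (S := Localization.AtPrime (RingHom.ker χR.toRingHom)) (g := R.val.toRingHom) hunitE).2
    refine h (fun x y => ?_)
    constructor
    · intro hxy
      rw [hinjR hxy]
    · intro hxy
      have : x = y := Subtype.ext hxy
      rw [this]
  · intro y
    exact hincl y
  · intro y
    exact hκ y
  · intro k y
    exact hρ' k y
  · intro k y hy
    obtain ⟨s, t, rfl⟩ := IsLocalization.exists_mk'_eq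
      (RingHom.ker χR.toRingHom).primeCompl y
    have hspec : IsLocalization.mk' (Localization.AtPrime (RingHom.ker χR.toRingHom)) s t *
        algebraMap R _ (t : R) = algebraMap R _ s := IsLocalization.mk'_spec _ s t
    have h1 : χR s = 0 := by
      have := congrArg κ hspec
      rw [map_mul, hκ, hκ, hy, zero_mul] at this
      exact this.symm
    have h2 : ρ' k (IsLocalization.mk' (Localization.AtPrime (RingHom.ker χR.toRingHom)) s t) *
        ρ k t = ρ k s := by
      have := congrArg (ρ' k) hspec
      rw [map_mul, hρ', hρ'] at this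
      exact this
    obtain ⟨u, hu⟩ := (hunitρ k t).exists_right_inv
    have h3 : ρ' k (IsLocalization.mk' (Localization.AtPrime (RingHom.ker χR.toRingHom)) s t) =
        ρ k s * u := by
      rw [← h2, mul_assoc, hu, mul_one]
    rw [h3]
    exact Ideal.mul_mem_right _ _ (hρ k s h1)

end Fermat.Agent.S26.C.X.H80l
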