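import Mathlib
import Fermat.Agent.S26.C.X.Defs
import Fermat.Agent.S26.C.X.CurvesDefs
import Fermat.Agent.S26.C.X.CurvesDefs2
import Fermat.Agent.S26.C.X.CurvesDefs3
import Fermat.Agent.S26.C.X.CurvesDefs4
import Fermat.Agent.S26.C.X.H14_CvAlg
import Fermat.Agent.S26.C.X.H14_CvPts
import Fermat.Agent.S26.C.X.H14_CvRing
import Fermat.Agent.S26.C.X.H13_CvDomPt
import Fermat.Agent.S26.C.X.H38_CvField
import Fermat.Agent.S26.C.X.H49_CvBased
import Fermat.Agent.S26.C.X.H80_CvDomAlg
import Fermat.Agent.S26.C.X.H8_CvFin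
import Fermat.Agent.S26.C.X.H55_CvChart
import Fermat.Agent.S26.C.X.H80_CvLoc
import Fermat.Agent.S26.G.H8_Dim

/-!
# S26 (C), cube side, leaf CURVES (helper14): the assembly

`stmt_CURVES_of : Stmt_CVCHART → Stmt_CVLOC → Stmt_CURVES`.
-/

set_option autoImplicit false
set_option linter.style.haveILetI false
set_option linter.unusedSectionVars false

open CategoryTheory CategoryTheory.Limits AlgebraicGeometry IsLocalRing NeronModelInfra
  GoodReductionJacobian

universe u

namespace Fermat.Agent.S26.C.X.H14v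

open Fermat.Agent.S26.E.H14 Fermat.Agent.S26.C.H14d Fermat.Agent.S26.LF.H18
open Fermat.Agent.S26.C.X.H14a Fermat.Agent.S26.C.X.H14p Fermat.Agent.S26.C.X.H14r

section Alg

variable {K : Type u} [Field K] {g : ℕ} {S : Type u} [CommRing S] [Algebra K S]

/-- the tangent computation: from the congruence of `list_prod_local` to the hypothesis of
`CV-DOMALG` -/
theorem tangent_of_cong {R : Type u} [CommRing R] [Algebra K R] (κ : R →ₐ[K] K)
    (χ : S →ₐ[K] K) (x : Fin g → S) (hχx : ∀ l, χ (x l) = 0)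
    (ζ' : Fin g → (S →ₐ[K] R)) (ζs : S →ₐ[K] R)
    (htan : ∀ a, ζs a - (algebraMap K R (χ a) +
      ((List.finRange g).map fun i => ζ' i a - algebraMap K R (χ a)).sum) ∈
        RingHom.ker κ.toRingHom ^ 2)
    (k : ℕ) (ρ' : R →ₐ[K] Bk K g (k + 1))
    (hρJ : ∀ y, κ y = 0 → ρ' y ∈ JP K g (k + 1))
    (hρ' : ∀ i l, ρ' (ζ' i (x l)) = if l = i then tk K g (k + 1) l else 0) (l : Fin g) :
    ρ' (ζs (x l)) - tk K g (k + 1) l ∈ JP K g (k + 1) ^ 2 := by
  have hmap : (RingHom.ker κ.toRingHom ^ 2).map ρ'.toRingHom ≤ JP K g (k + 1) ^ 2 := by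
    rw [Ideal.map_pow]
    apply Ideal.pow_right_mono
    rw [Ideal.map_le_iff_le_comap]
    intro y hy
    exact hρJ y hy
  have h1 := hmap (Ideal.mem_map_of_mem ρ'.toRingHom (htan (x l)))
  have h2 : ρ'.toRingHom (ζs (x l) - (algebraMap K R (χ (x l)) +
      ((List.finRange g).map fun i => ζ' i (x l) - algebraMap K R (χ (x l))).sum)) =
      ρ' (ζs (x l)) - tk K g (k + 1) l := by
    show ρ' _ = _
    rw [map_sub, map_add, hχx, map_zero, map_zero, zero_add, map_list_sum, List.map_map]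
    congr 1
    have h3 : (⇑ρ' ∘ fun i => ζ' i (x l) - 0) =
        fun i => if l = i then tk K g (k + 1) l else 0 := by
      funext i
      simp only [Function.comp_apply, sub_zero]
      exact hρ' i l
    rw [h3, ← Fin.sum_univ_def, Finset.sum_ite_eq]
    simp
  rw [h2] at h1
  exact h1

/-- `κ ∘ ζs = χ` -/
theorem kappa_of_cong {R : Type u} [CommRing R] [Algebra K R] (κ : R →ₐ[K] K)
    (χ : S →ₐ[K] K) {ι : Type} (l : List ι)
    (ζ' : ι → (S →ₐ[K] R)) (hζ' : ∀ i a, κ (ζ' i a) = χ a) (ζs : S →ₐ[K] R)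
    (htan : ∀ a, ζs a - (algebraMap K R (χ a) +
      (l.map fun i => ζ' i a - algebraMap K R (χ a)).sum) ∈
        RingHom.ker κ.toRingHom ^ 2) (a : S) : κ (ζs a) = χ a := by
  have h1 : ζs a - (algebraMap K R (χ a) +
      (l.map fun i => ζ' i a - algebraMap K R (χ a)).sum) ∈ RingHom.ker κ.toRingHom :=
    Ideal.pow_le_self two_ne_zero (htan a)
  have h2 : κ (ζs a - (algebraMap K R (χ a) +
      (l.map fun i => ζ' i a - algebraMap K R (χ a)).sum)) = 0 := h1
  rw [map_sub, map_add, AlgHom.commutes, map_list_sum, List.map_map, sub_eq_zero] at h2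
  rw [h2]
  have h3 : (l.map (⇑κ ∘ fun i => ζ' i a - algebraMap K R (χ a))).sum = 0 := by
    apply List.sum_eq_zero
    intro y hy
    obtain ⟨i, -, rfl⟩ := List.mem_map.1 hy
    simp only [Function.comp_apply, map_sub, AlgHom.commutes, hζ' i a]
    exact sub_self _
  rw [h3, add_zero]
  rfl

end Alg

section Main

variable {K : Type u} [Field K] {A : Scheme.{u}} {f : A ⟶ Spec (CommRingCat.of K)}

/-- **CURVES**, in a chart. -/
theorem curves_of_chart [IsAlgClosed K] (L : RelativeGroupLaw K f) (g : ℕ)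
    [SmoothOfRelativeDimension g f] [IsIntegral A]
    (U : A.Opens) (hU : IsAffineOpen U) [Nonempty U]
    [Algebra K Γ(A, U)] (hK : algebraMap K Γ(A, U) = (kap hU f).hom)
    [Algebra (MvPolynomial (Fin g) K) Γ(A, U)] [IsScalarTower K (MvPolynomial (Fin g) K) Γ(A, U)]
    [Algebra.Etale (MvPolynomial (Fin g) K) Γ(A, U)]
    (χ : Γ(A, U) →ₐ[K] K) (hχ : unitHom L = pt hU (CommRingCat.ofHom χ.toRingHom))
    (hχx : ∀ l, χ (algebraMap (MvPolynomial (Fin g) K) Γ(A, U) (MvPolynomial.X l)) = 0) :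
    ∃ (E : Type u) (_ : Field E) (_ : Algebra K E) (F : Fin g → IntermediateField K E)
      (o : ValuationSubring E) (ξ : ∀ i, Pt f (F i)) (ψ : A.functionField →+* E),
      IsCurveFam F ∧ IsKPlace K o ∧ (∀ i, IsBased L (incPt (ξ i)) o) ∧
      IsDomPt (prodPt L F (List.finRange g) ξ) ψ ∧
      (letI : Algebra A.functionField E := ψ.toAlgebra
       FiniteDimensional A.functionField E) := by
  classical
  -- the curves
  have hD : ∀ i : Fin g, Nonempty (CurveData K Γ(A, U)
      (fun l => algebraMap (MvPolynomial (Fin g) K) Γ(A, U) (MvPolynomial.X l)) χ i) :=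
    fun i => exists_curveData K g Γ(A, U) χ hχx i
  obtain ⟨D⟩ : Nonempty (∀ i : Fin g, CurveData K Γ(A, U)
      (fun l => algebraMap (MvPolynomial (Fin g) K) Γ(A, U) (MvPolynomial.X l)) χ i) :=
    ⟨fun i => (hD i).some⟩
  letI iCR : ∀ i, CommRing (D i).V := fun i => (D i).instCR
  letI iDom : ∀ i, IsDomain (D i).V := fun i => (D i).instDom
  letI iAlg : ∀ i, Algebra K (D i).V := fun i => (D i).instAlg
  -- the field
  obtain ⟨E, _, _, j, hfam⟩ := H38cv.stmt_CVFIELD K g (fun i => FractionRing (D i).V)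
    (fun i => (D i).ff)
  -- the place
  obtain ⟨o, ζo, ho, hζo, hζo0⟩ := exists_place (fun i => (D i).V) j χ (fun i => (D i).c)
    (fun i => (D i).r) (fun i a => (D i).r_c a) hfam
  -- the ring
  obtain ⟨R, χR, ρ, ζR, hR1, hR2, hR3, hR4⟩ := exists_ring (fun i => (D i).V) j
    (fun l => algebraMap (MvPolynomial (Fin g) K) Γ(A, U) (MvPolynomial.X l)) χ
    (fun i => (D i).c) (fun i => (D i).r) (fun i a => (D i).r_c a) hfam
    (fun i => (D i).c_ne) (fun i => (D i).lam)
  -- the local ring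
  obtain ⟨R', _, _, _, κ, incl, ι, ρ', hinj, hι, hκ, hρ', hρJ⟩ :=
    H80l.stmt_CVLOC K E R g χR ρ hR3
  -- the points with values in `R'`
  obtain ⟨ζ', hζ'⟩ : ∃ ζ' : Fin g → (Γ(A, U) →ₐ[K] R'), ζ' = fun i => ι.comp (ζR i) := ⟨_, rfl⟩
  have hζ'κ : ∀ i a, κ (ζ' i a) = χ a := by
    intro i a
    rw [hζ']
    exact (hκ _).trans (hR2 i a)
  have hζ'E : ∀ i a, incl (ζ' i a) = vE (fun i => (D i).V) j i ((D i).c a) := by
    intro i a
    rw [hζ']
    exact (hι _).trans (hR1 i a)
  obtain ⟨ζs, hprod, htan⟩ := list_prod_local hU hK L χ hχ κ ζ' hζ'κ (List.finRange g)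
  have hκζs : ∀ a, κ (ζs a) = χ a := kappa_of_cong κ χ (List.finRange g) ζ' hζ'κ ζs htan
  -- injectivity
  have hinjs : Function.Injective ζs := by
    rw [injective_iff_map_eq_zero]
    intro a ha
    refine H80d.stmt_CVDOMALG K g Γ(A, U) χ hχx (fun k => (ρ' k).comp ζs)
      (fun k a ha => hρJ k _ ((hκζs a).trans ha)) (fun k l => ?_) a (fun k => ?_)
    · refine tangent_of_cong κ χ _ hχx ζ' ζs htan k (ρ' k) (hρJ k) (fun i l' => ?_) l
      rw [hζ']
      exact (hρ' k _).trans (hR4 k i l')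
    · rw [AlgHom.comp_apply, ha, map_zero]
  -- the curves as points
  obtain ⟨ζF, hζF⟩ : ∃ ζF : ∀ i, Γ(A, U) →ₐ[K] ↥((j i).fieldRange),
      ∀ i a, ((ζF i a : (j i).fieldRange) : E) = vE (fun i => (D i).V) j i ((D i).c a) :=
    ⟨fun i => (AlgEquiv.ofInjectiveField (j i)).toAlgHom.comp
      ((IsScalarTower.toAlgHom K (D i).V (FractionRing (D i).V)).comp (D i).c), fun i a => rfl⟩
  have hinc : ∀ i, incPt (ptK hU hK (ζF i)) = ptK hU hK (incl.comp (ζ' i)) := by
    intro i
    have h1 : incPt (ptK hU hK (ζF i)) = ptK hU hK (((j i).fieldRange).val.comp (ζF i)) :=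
      ptK_comp hU hK _ _
    rw [h1]
    congr 1
    ext a
    exact (hζF i a).trans (hζ'E i a).symm
  have hs : prodPt L (fun i => (j i).fieldRange) (List.finRange g)
      (fun i => ptK hU hK (ζF i)) = ptK hU hK (incl.comp ζs) := by
    unfold prodPt
    simp only [hinc]
    rw [← comp_list_prod_ptK hU hK L incl ζ' (List.finRange g), hprod, ptK_comp]
  -- the function field
  obtain ⟨ψ, hdom, -, hψK⟩ := H13D.stmt_CVDOMPT K f U hU E
    (prodPt L (fun i => (j i).fieldRange) (List.finRange g) (fun i => ptK hU hK (ζF i)))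
    (incl.comp ζs).toRingHom (by rw [hs]; rfl) (hinj.comp hinjs)
  refine ⟨E, _, _, fun i => (j i).fieldRange, o, fun i => ptK hU hK (ζF i), ψ, hfam, ho, ?_,
    hdom, ?_⟩
  · intro i
    refine H49b.stmt_CVBASED K f L U hU (CommRingCat.ofHom χ.toRingHom) hχ E o _ (ζo i) ?_
      (fun a ha => hζo0 i a ha)
    rw [hinc i, ptK_val]
    congr 2
    ext a
    exact (hζ'E i a).trans (hζo i a).symm
  · letI : Algebra K A.functionField := (constHom f).toAlgebra
    have htr : Algebra.trdeg K A.functionField = g := G.H8.trdeg_functionField f g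
    let ψ' : A.functionField →ₐ[K] E :=
      { ψ with commutes' := fun a => congrArg (fun h : K →+* E => h a) hψK }
    exact H8cv.stmt_CVFIN K A.functionField E g _ hfam htr ψ'

/-- **CURVES**: for `g > 0` (in fact for every `g`) there are `g` curves through `0` such that
the sum of their points is dominant and generically finite. -/
theorem stmt_CURVES : Stmt_CURVES.{u} := by
  intro K _ A f L g hAV _ _
  haveI := hAV.algClosed
  haveI : SmoothOfRelativeDimension g f := hAV.smooth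
  obtain ⟨U, hU, χ₀, e, hχ₀, heC, het, heX⟩ := H55c.stmt_CVCHART K f L g
  letI algS : Algebra K Γ(A, U) := (kap hU f).hom.toAlgebra
  letI algP : Algebra (MvPolynomial (Fin g) K) Γ(A, U) := e.toAlgebra
  haveI : IsScalarTower K (MvPolynomial (Fin g) K) Γ(A, U) :=
    IsScalarTower.of_algebraMap_eq (fun a => by
      show (kap hU f).hom a = e (MvPolynomial.C a)
      rw [← heC]
      rfl)
  haveI : Algebra.Etale (MvPolynomial (Fin g) K) Γ(A, U) := het
  haveI : Nonempty U :=
    ⟨⟨unitHom L (closedPoint (CommRingCat.of K)), by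
      rw [hχ₀]
      exact range_pt hU χ₀ ⟨_, rfl⟩⟩⟩
  have hkχ : kap hU f ≫ χ₀ = 𝟙 _ := by
    have h1 : pt hU χ₀ ≫ f = 𝟙 _ := by
      rw [← hχ₀]
      exact unitHom_comp L
    rw [pt_comp_f, ← Spec.map_id] at h1
    exact Spec.map_injective h1
  let χ : Γ(A, U) →ₐ[K] K :=
    { χ₀.hom with
      commutes' := fun a =>
        congrArg (fun h : CommRingCat.of K ⟶ CommRingCat.of K => h.hom a) hkχ }
  exact curves_of_chart L g U hU rfl χ hχ₀ heX

end Main

end Fermat.Agent.S26.C.X.H14v
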