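import Mathlib
import Fermat.Agent.S26.C.X.Defs
import Fermat.Agent.S26.C.X.H8_Cube3
import Fermat.Agent.S26.C.X.H69_CentreX

/-!
# S26 (C), cube side: basics for the leaf CUBEPC_of (helper42)

* `exists_comap_eq` : every valuation ring of `E` is the trace of a valuation ring of any
  extension field `E'`;
* `isCentre_mapPt` : the centre of `mapPt j σ` at `V'` is the centre of `σ` at `V'.comap j`;
* `isRed_mapPt`, `isRed_mul` : reductions of base-changed points and of products;
* `thetaV_eq_prod` : the theta combination as a product with exponents (the form of `SPEC`, `DESC`).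
-/

set_option autoImplicit false
set_option linter.style.haveILetI false
set_option linter.unusedSectionVars false

open CategoryTheory CategoryTheory.Limits AlgebraicGeometry NeronModelInfra GoodReductionJacobian
open scoped IntermediateField

universe u

namespace Fermat.Agent.S26.C.X.H42

section Ext

variable {E E' : Type*} [Field E] [Field E']

/-- Extension of valuation rings: every valuation ring `V` of `E` is `V'.comap j` for a
valuation ring `V'` of `E'`. -/
theorem exists_comap_eq (j : E →+* E') (V : ValuationSubring E) :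
    ∃ V' : ValuationSubring E', V'.comap j = V := by
  let R : LocalSubring E' := LocalSubring.range (j.comp V.subtype)
  obtain ⟨V', hle, hloc⟩ := R.exists_le_valuationSubring
  refine ⟨V', ?_⟩
  ext x
  rw [ValuationSubring.mem_comap]
  constructor
  · intro hx
    by_contra hxV
    have hx0 : x ≠ 0 := fun h => hxV (h ▸ V.zero_mem)
    have hinv : x⁻¹ ∈ V := (V.mem_or_inv_mem x).resolve_left hxV
    have hR : j x⁻¹ ∈ R.toSubring := ⟨⟨x⁻¹, hinv⟩, rfl⟩
    have hunit : IsUnit (Subring.inclusion hle ⟨j x⁻¹, hR⟩) := by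
      refine isUnit_iff_exists_inv.mpr ⟨⟨j x, hx⟩, Subtype.ext ?_⟩
      change j x⁻¹ * j x = 1
      rw [← map_mul, inv_mul_cancel₀ hx0, map_one]
    have hunitR : IsUnit (⟨j x⁻¹, hR⟩ : R.toSubring) := hloc.map_nonunit _ hunit
    obtain ⟨⟨y, hy⟩, hyy⟩ := isUnit_iff_exists_inv.mp hunitR
    obtain ⟨v, rfl⟩ := hy
    have h1 : j x⁻¹ * j (v : E) = 1 := congrArg Subtype.val hyy
    rw [← map_mul, ← map_one j] at h1
    have h2 : x⁻¹ * (v : E) = 1 := j.injective h1
    have h3 : (v : E) = x := by
      have := congrArg (fun t => x * t) h2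
      simpa [← mul_assoc, mul_inv_cancel₀ hx0] using this
    exact hxV (h3 ▸ v.2)
  · intro hx
    exact hle ⟨⟨x, hx⟩, rfl⟩

end Ext

section Points

variable {K : Type u} [Field K] {A : Scheme.{u}} {f : A ⟶ Spec (CommRingCat.of K)}
variable {E : Type u} [Field E] [Algebra K E] {E' : Type u} [Field E'] [Algebra K E']

/-- The restriction of `j : E → E'` to the valuation rings `V'.comap j → V'`. -/
noncomputable def resV (j : E →ₐ[K] E') (V' : ValuationSubring E') :
    (V'.comap j.toRingHom) →+* V' :=
  (j.toRingHom.comp (V'.comap j.toRingHom).subtype).codRestrict V'.toSubring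
    (fun x => x.2)

instance isLocalHom_resV (j : E →ₐ[K] E') (V' : ValuationSubring E') :
    IsLocalHom (resV j V') := by
  constructor
  rintro ⟨x, hx⟩ hu
  obtain ⟨⟨y, hy⟩, hxy⟩ := isUnit_iff_exists_inv.mp hu
  have h1 : j x * y = 1 := congrArg Subtype.val hxy
  have hx0 : x ≠ 0 := by
    rintro rfl
    simp at h1
  have hy' : y = j x⁻¹ := by
    have h2 : j x * j x⁻¹ = 1 := by
      rw [← map_mul, mul_inv_cancel₀ hx0, map_one]
    have hjx : j x ≠ 0 := fun h => by simp [h] at h1
    exact mul_left_cancel₀ hjx (h1.trans h2.symm)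
  have hinv : x⁻¹ ∈ V'.comap j.toRingHom := by
    rw [ValuationSubring.mem_comap]
    change j x⁻¹ ∈ V'
    rw [← hy']
    exact hy
  exact isUnit_iff_exists_inv.mpr ⟨⟨x⁻¹, hinv⟩, Subtype.ext (mul_inv_cancel₀ hx0)⟩

/-- The centre of `mapPt j σ` at `V'` is the centre of `σ` at `V'.comap j`. -/
theorem isCentre_mapPt (j : E →ₐ[K] E') (σ : Pt f E) (V' : ValuationSubring E') (c : A)
    (h : IsCentre σ (V'.comap j.toRingHom) c) : IsCentre (mapPt j σ) V' c := by
  obtain ⟨τ, hτ, rfl⟩ := h
  refine ⟨Spec.map (CommRingCat.ofHom (resV j V')) ≫ τ, ?_, ?_⟩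
  · rw [← Category.assoc, ← Spec.map_comp, ← CommRingCat.ofHom_comp]
    have e : (algebraMap V' E').comp (resV j V') =
        j.toRingHom.comp (algebraMap (V'.comap j.toRingHom) E) := rfl
    rw [e, CommRingCat.ofHom_comp, Spec.map_comp, Category.assoc, hτ]
    rfl
  · change τ ((Spec.map (CommRingCat.ofHom (resV j V')))
      (IsLocalRing.closedPoint (CommRingCat.of V'))) = _
    congr 1
    exact IsLocalRing.comap_closedPoint (resV j V')

/-- Based points stay based. -/
theorem isBased_mapPt (L : RelativeGroupLaw K f) (j : E →ₐ[K] E') (σ : Pt f E)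
    (o' : ValuationSubring E') (o : ValuationSubring E) (ho : o'.comap j.toRingHom = o)
    (h : IsBased L σ o) : IsBased L (mapPt j σ) o' := by
  subst ho
  exact isCentre_mapPt j σ o' _ h

end Points

end Fermat.Agent.S26.C.X.H42
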