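import Mathlib
import Fermat.Agent.S26.C.X.Defs

/-!
# S26 (C), cube side, leaf CUBEPC_of: the TRIPLE field (interface)

helper52.  `Stmt_TRIPLE` is the field-theoretic input of `X.Stmt_CUBEPC_of` (wiring: helper42):
for a field `E / K` (`K` algebraically closed) with a curve family `F` and a `K`-place `o`, the
function field `E'` of `X × X × X`:

* three embeddings `j a : E →ₐ[K] E'` (`a : Fin 3`), the family `(a, i) ↦ (F i).map (j a)` is a
  curve family of `E'` (index type `Fin 3 × ι`), and `j a` maps `E` into the block
  `{p | p.1 = a}`;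
* a `K`-place `o'` of `E'` which restricts to `o` along each `j a`
  (the point `(o, o, o)` of `X × X × X`);
* a valuation ring `G ⊇ K` of `E'` "centred at the diagonal": residue field `r : G →+* κ`
  (surjective), `j a x ∈ G` and `r (j a x) = e x` for ONE embedding `e : E →ₐ[K] κ`
  (independent of `a`), and `κ` is ALGEBRAIC over `e E`.

Then `SPEC` along `(G, r)` brings a relation on `E'` to `κ`, an element of `κ` lies in a finite
extension of `E`, and `DESC` brings the relation to `E`.
-/

set_option autoImplicit false

open scoped IntermediateField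

universe u

namespace Fermat.Agent.S26.C.X.H52

/-- The family of the three copies of the curve family `F`. -/
def fam3 {K : Type u} [Field K] {E E' : Type u} [Field E] [Algebra K E] [Field E'] [Algebra K E']
    {ι : Type} (F : ι → IntermediateField K E) (j : Fin 3 → (E →ₐ[K] E')) :
    Fin 3 × ι → IntermediateField K E' :=
  fun p => (F p.2).map (j p.1)

/-- **TRIPLE**: the function field of `X × X × X`, the place `(o, o, o)` and a valuation ring
centred at the diagonal with residue field algebraic over `E`. -/
def Stmt_TRIPLE : Prop :=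
  ∀ (K : Type u) [Field K] [IsAlgClosed K] (E : Type u) [Field E] [Algebra K E]
    (ι : Type) [Finite ι] (F : ι → IntermediateField K E), IsCurveFam F →
    ∀ o : ValuationSubring E, IsKPlace K o →
    ∃ (E' : Type u) (_ : Field E') (_ : Algebra K E') (j : Fin 3 → (E →ₐ[K] E'))
      (o' G : ValuationSubring E') (κ : Type u) (_ : Field κ) (_ : Algebra K κ)
      (r : G →+* κ) (e : E →ₐ[K] κ),
      IsCurveFam (fam3 F j) ∧
      (∀ (a : Fin 3) (x : E), j a x ∈ blk (fam3 F j) {p | p.1 = a}) ∧
      IsKPlace K o' ∧ (∀ a : Fin 3, o'.comap (j a).toRingHom = o) ∧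
      OverK K G ∧ Function.Surjective r ∧
      (∀ (a : Fin 3) (x : E), ∃ h : j a x ∈ G, r ⟨j a x, h⟩ = e x) ∧
      (letI : Algebra E κ := e.toRingHom.toAlgebra
       Algebra.IsAlgebraic E κ)

end Fermat.Agent.S26.C.X.H52
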