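import Mathlib
import Fermat.Agent.S26.C.X.Defs
import Fermat.Agent.S26.C.X.H8_Cube3
import Fermat.Agent.S26.C.X.H69_CentreX
import Fermat.Agent.S26.C.X.H69_PullAt
import Fermat.Agent.S26.C.X.H69_Desc
import Fermat.Agent.S26.C.X.H90_Spec
import Fermat.Agent.S26.C.X.H52_TripleDefs
import Fermat.Agent.S26.C.X.H42_CubePCBasics

/-!
# S26 (C), cube side, leaf CUBEPC_of: the wiring (helper42)

`cubepc_of_triple : H52.Stmt_TRIPLE → Stmt_CUBEPC_of`:

1. `CUBE3` on the field `E'` of `X × X × X` for the points `j₀ x₁`, `j₁ x₂`, `j₂ x₃`;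
2. `SPEC` along the valuation ring `G` centred at the diagonal: the relation on the residue
   field `κ` for `e x₁`, `e x₂`, `e x₃`;
3. `κ` is algebraic over `E`: the relation descends to a finite extension `E₂ = E(Ψ)` of `E`
   (every valuation ring of `E₂` extends to `κ`), and `DESC` brings it to `E`.
-/

set_option autoImplicit false
set_option linter.style.haveILetI false
set_option linter.unusedSectionVars false

open CategoryTheory CategoryTheory.Limits AlgebraicGeometry NeronModelInfra GoodReductionJacobian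
open scoped IntermediateField

universe u

namespace Fermat.Agent.S26.C.X.H42

/-! ## Reductions -/

section Red

variable {K : Type u} [Field K] {A : Scheme.{u}} {f : A ⟶ Spec (CommRingCat.of K)}
variable {E' : Type u} [Field E'] [Algebra K E'] {κ : Type u} [Field κ] [Algebra K κ]

/-- The reduction of a base-changed point `j x` at a valuation ring `G ⊇ j E` on which the
residue map is `e` on `E`: it is `e x`. -/
theorem isRed_mapPt {E : Type u} [Field E] [Algebra K E] (j : E →ₐ[K] E') (e : E →ₐ[K] κ)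
    (G : ValuationSubring E') (r : G →+* κ)
    (h : ∀ x : E, ∃ h : j x ∈ G, r ⟨j x, h⟩ = e x) (σ : Pt f E) :
    IsRed (mapPt j σ) G r (mapPt e σ) := by
  let jG : E →+* G := j.toRingHom.codRestrict G.toSubring (fun x => (h x).choose)
  refine ⟨Spec.map (CommRingCat.ofHom jG) ≫ σ.1, ?_, ?_⟩
  · rw [← Category.assoc, ← Spec.map_comp, ← CommRingCat.ofHom_comp]
    rfl
  · rw [← Category.assoc, ← Spec.map_comp, ← CommRingCat.ofHom_comp]
    have e1 : r.comp jG = e.toRingHom := by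
      ext x
      exact (h x).choose_spec
    rw [e1]
    rfl

/-- Reductions are multiplicative. -/
theorem isRed_mul (L : RelativeGroupLaw K f) (G : ValuationSubring E') (hG : OverK K G)
    (r : G →+* κ) (hrK : ∀ a : K, r ⟨algebraMap K E' a, hG a⟩ = algebraMap K κ a)
    {σ σ' : Pt f E'} {σ₀ σ₀' : Pt f κ} (h : IsRed σ G r σ₀) (h' : IsRed σ' G r σ₀') :
    IsRed (L.mul (str K E') σ σ') G r (L.mul (str K κ) σ₀ σ₀') := by
  obtain ⟨τ, hτ1, hτ2⟩ := h
  obtain ⟨τ', hτ1', hτ2'⟩ := h'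
  let sG : Spec (CommRingCat.of G) ⟶ Spec (CommRingCat.of K) :=
    Spec.map (CommRingCat.ofHom (H69.kap G hG))
  have ho : τ ≫ f = sG := H69.centre_over σ G hG τ hτ1
  have ho' : τ' ≫ f = sG := H69.centre_over σ' G hG τ' hτ1'
  let t : SchemeHomOver sG f := ⟨τ, ho⟩
  let t' : SchemeHomOver sG f := ⟨τ', ho'⟩
  have hg : Spec.map (CommRingCat.ofHom (algebraMap G E')) ≫ sG = str K E' := by
    rw [← Spec.map_comp, ← CommRingCat.ofHom_comp]
    rfl
  have hg' : Spec.map (CommRingCat.ofHom r) ≫ sG = str K κ := by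
    rw [← Spec.map_comp, ← CommRingCat.ofHom_comp]
    congr 2
    ext a
    exact hrK a
  refine ⟨(L.mul sG t t').1, ?_, ?_⟩
  · have hn := L.mul_natural sG (str K E') _ hg t t'
    have e1 : schemeHomOverComp _ hg t = σ := Subtype.ext hτ1
    have e2 : schemeHomOverComp _ hg t' = σ' := Subtype.ext hτ1'
    rw [e1, e2] at hn
    exact congrArg Subtype.val hn
  · have hn := L.mul_natural sG (str K κ) _ hg' t t'
    have e1 : schemeHomOverComp _ hg' t = σ₀ := Subtype.ext hτ2
    have e2 : schemeHomOverComp _ hg' t' = σ₀' := Subtype.ext hτ2'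
    rw [e1, e2] at hn
    exact congrArg Subtype.val hn

end Red

/-! ## The theta combination as a product with exponents -/

section Seven

variable {K : Type u} [Field K] {A : Scheme.{u}} {f : A ⟶ Spec (CommRingCat.of K)}
variable {E : Type u} [Field E] [Algebra K E]

/-- The seven points of the theta combination. -/
noncomputable def th7 (L : RelativeGroupLaw K f) (x₁ x₂ x₃ : Pt f E) : Fin 7 → Pt f E :=
  ![L.mul (str K E) (L.mul (str K E) x₁ x₂) x₃, x₁, x₂, x₃, L.mul (str K E) x₁ x₂,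
    L.mul (str K E) x₁ x₃, L.mul (str K E) x₂ x₃]

/-- The seven exponents of the `k`-th power of the theta combination. -/
def eps7 (k : ℕ) : Fin 7 → ℤ := ![k, k, k, k, -k, -k, -k]

theorem thetaV_pow_eq [IsIntegral A] (L : RelativeGroupLaw K f) (x₁ x₂ x₃ : Pt f E)
    (D : A → A.functionField) (k : ℕ) (V : ValuationSubring E) :
    (thetaV L x₁ x₂ x₃ D ^ k) V = (∏ i, pb (th7 L x₁ x₂ x₃ i) D ^ eps7 k i) V := by
  rw [Pi.pow_apply, H8.thetaV_apply, Finset.prod_apply]
  simp only [Fin.prod_univ_succ, Fin.prod_univ_zero, Pi.pow_apply, th7, eps7]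
  simp [mul_pow, div_eq_mul_inv]
  ring

theorem th7_mapPt (L : RelativeGroupLaw K f) {E' : Type u} [Field E'] [Algebra K E']
    (j : E →ₐ[K] E') (x₁ x₂ x₃ : Pt f E) (i : Fin 7) :
    th7 L (mapPt j x₁) (mapPt j x₂) (mapPt j x₃) i = mapPt j (th7 L x₁ x₂ x₃ i) := by
  fin_cases i <;> simp [th7, H8.mapPt_mul]

theorem isRed_th7 (L : RelativeGroupLaw K f) {κ : Type u} [Field κ] [Algebra K κ]
    (G : ValuationSubring E) (hG : OverK K G)
    (r : G →+* κ) (hrK : ∀ a : K, r ⟨algebraMap K E a, hG a⟩ = algebraMap K κ a)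
    {y₁ y₂ y₃ : Pt f E} {z₁ z₂ z₃ : Pt f κ} (h₁ : IsRed y₁ G r z₁) (h₂ : IsRed y₂ G r z₂)
    (h₃ : IsRed y₃ G r z₃) (i : Fin 7) :
    IsRed (th7 L y₁ y₂ y₃ i) G r (th7 L z₁ z₂ z₃ i) := by
  have m := fun {σ σ' : Pt f E} {σ₀ σ₀' : Pt f κ} (h : IsRed σ G r σ₀) (h' : IsRed σ' G r σ₀') =>
    isRed_mul L G hG r hrK h h'
  fin_cases i
  · exact m (m h₁ h₂) h₃
  · exact h₁
  · exact h₂
  · exact h₃
  · exact m h₁ h₂
  · exact m h₁ h₃
  · exact m h₂ h₃

end Seven

/-! ## Descent along an algebraic extension -/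

section Alg

variable {K : Type u} [Field K] {A : Scheme.{u}} {f : A ⟶ Spec (CommRingCat.of K)}
variable {E : Type u} [Field E] [Algebra K E] {κ : Type u} [Field κ] [Algebra K κ]

/-- **DESC for algebraic extensions**: `κ / E` algebraic; a relation principal on `κ` is
principal up to torsion on `E`. -/
theorem isVPt_of_algebraic [IsProper f] [IsIntegral A] (hDe : Stmt_DESC.{u}) (e : E →ₐ[K] κ)
    (halg : letI : Algebra E κ := e.toRingHom.toAlgebra; Algebra.IsAlgebraic E κ)
    {ι : Type} [Fintype ι] (σ : ι → Pt f E) (ε : ι → ℤ) (D : A → A.functionField)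
    (hD : IsCartier D) (h : IsVP K (∏ i, pb (mapPt e (σ i)) D ^ ε i)) :
    IsVPt K (∏ i, pb (σ i) D ^ ε i) := by
  letI algEκ : Algebra E κ := e.toRingHom.toAlgebra
  haveI : Algebra.IsAlgebraic E κ := halg
  haveI : IsScalarTower K E κ := IsScalarTower.of_algebraMap_eq (fun a => (e.commutes a).symm)
  obtain ⟨Ψ, hΨ0, hΨ⟩ := h
  let E₂ : IntermediateField E κ := IntermediateField.adjoin E {Ψ}
  haveI hfd : FiniteDimensional E E₂ :=
    IntermediateField.adjoin.finiteDimensional (Algebra.IsIntegral.isIntegral Ψ)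
  let e₂ : E →ₐ[K] E₂ := IsScalarTower.toAlgHom K E E₂
  let ι₂ : E₂ →ₐ[K] κ := E₂.val.restrictScalars K
  have hcomp : ι₂.comp e₂ = e := AlgHom.ext (fun _ => rfl)
  have hfin : (letI : Algebra E E₂ := e₂.toRingHom.toAlgebra; FiniteDimensional E E₂) := by
    have e1 : (e₂.toRingHom.toAlgebra : Algebra E E₂) = (inferInstance : Algebra E E₂) :=
      Algebra.algebra_ext _ _ (fun _ => rfl)
    show @FiniteDimensional E E₂ _ _ (e₂.toRingHom.toAlgebra : Algebra E E₂).toModule
    rw [e1]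
    exact hfd
  refine hDe K f E E₂ e₂ hfin ι σ ε D hD ?_
  have hΨ2 : Ψ ∈ E₂ := IntermediateField.mem_adjoin_simple_self E Ψ
  refine ⟨⟨Ψ, hΨ2⟩, fun h0 => hΨ0 (congrArg Subtype.val h0), fun V₂ hV₂ => ?_⟩
  obtain ⟨V', hV'⟩ := exists_comap_eq ι₂.toRingHom V₂
  have hV'K : OverK K V' := by
    intro a
    have h1 : algebraMap K E₂ a ∈ V'.comap ι₂.toRingHom := by
      rw [hV']
      exact hV₂ a
    rw [ValuationSubring.mem_comap] at h1
    have h2 : ι₂.toRingHom (algebraMap K E₂ a) = algebraMap K κ a := ι₂.commutes a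
    rwa [h2] at h1
  have key : (∏ i, pb (mapPt e (σ i)) D ^ ε i) V' =
      ι₂ ((∏ i, pb (mapPt e₂ (σ i)) D ^ ε i) V₂) := by
    rw [Finset.prod_apply, Finset.prod_apply, map_prod]
    refine Finset.prod_congr rfl fun i _ => ?_
    rw [Pi.pow_apply, Pi.pow_apply, map_zpow₀, ← hcomp, ← H8.mapPt_mapPt,
      H69.pb_mapPt ι₂ _ D V' hV'K, hV']
  obtain ⟨h1, h2⟩ := hΨ V' hV'K
  rw [key] at h1 h2
  have hmem : ∀ y : E₂, ι₂ y ∈ V' → y ∈ V₂ := by
    intro y hy
    rw [← hV', ValuationSubring.mem_comap]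
    exact hy
  constructor
  · apply hmem
    rw [map_mul, map_inv₀]
    exact h1
  · apply hmem
    rw [map_mul, map_inv₀]
    exact h2

end Alg

/-! ## From the triple product to the diagonal -/

section Diag

variable {K : Type u} [Field K] {A : Scheme.{u}} {f : A ⟶ Spec (CommRingCat.of K)}
variable {E : Type u} [Field E] [Algebra K E] {E' : Type u} [Field E'] [Algebra K E']

/-- **The diagonal step**: a theta relation (up to torsion) on `E'` for the points
`j₀ x₁`, `j₁ x₂`, `j₂ x₃` gives the theta relation (up to torsion) on `E` for `x₁`, `x₂`, `x₃`,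
if `G` is a valuation ring of `E'` with residue field `κ` algebraic over `E` on which all the
`j a` reduce to the same embedding `e`. -/
theorem isVPt_thetaV_of_diag [IsProper f] [IsIntegral A] (hS : Stmt_SPEC.{u})
    (hDe : Stmt_DESC.{u}) (L : RelativeGroupLaw K f) (j : Fin 3 → (E →ₐ[K] E'))
    (G : ValuationSubring E') {κ : Type u} [Field κ] [Algebra K κ] (r : G →+* κ)
    (e : E →ₐ[K] κ) (hG : OverK K G) (hr : Function.Surjective r)
    (hre : ∀ (a : Fin 3) (x : E), ∃ h : j a x ∈ G, r ⟨j a x, h⟩ = e x)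
    (halg : letI : Algebra E κ := e.toRingHom.toAlgebra; Algebra.IsAlgebraic E κ)
    (x₁ x₂ x₃ : Pt f E) (D : A → A.functionField) (hD : IsCartier D)
    (h : IsVPt K (thetaV L (mapPt (j 0) x₁) (mapPt (j 1) x₂) (mapPt (j 2) x₃) D)) :
    IsVPt K (thetaV L x₁ x₂ x₃ D) := by
  obtain ⟨k, hk, hvp⟩ := h
  -- compatibility of `r` with the constants
  have hrK : ∀ a : K, r ⟨algebraMap K E' a, hG a⟩ = algebraMap K κ a := by
    intro a
    obtain ⟨h1, h2⟩ := hre 0 (algebraMap K E a)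
    have e1 : (⟨algebraMap K E' a, hG a⟩ : G) = ⟨j 0 (algebraMap K E a), h1⟩ :=
      Subtype.ext ((j 0).commutes a).symm
    rw [e1, h2]
    exact e.commutes a
  -- the relation on `E'` as a product
  have hvp' : IsVP K (∏ i, pb (th7 L (mapPt (j 0) x₁) (mapPt (j 1) x₂) (mapPt (j 2) x₃) i) D ^
      eps7 k i) :=
    H8.isVP_congr hvp (fun V _ => thetaV_pow_eq L _ _ _ D k V)
  -- specialisation
  have hred : ∀ i, IsRed (th7 L (mapPt (j 0) x₁) (mapPt (j 1) x₂) (mapPt (j 2) x₃) i) G r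
      (th7 L (mapPt e x₁) (mapPt e x₂) (mapPt e x₃) i) :=
    isRed_th7 L G hG r hrK (isRed_mapPt (j 0) e G r (hre 0) x₁)
      (isRed_mapPt (j 1) e G r (hre 1) x₂) (isRed_mapPt (j 2) e G r (hre 2) x₃)
  have hκ : IsVP K (∏ i, pb (th7 L (mapPt e x₁) (mapPt e x₂) (mapPt e x₃) i) D ^ eps7 k i) :=
    hS K f E' κ G r hG hr hrK (Fin 7) _ _ (eps7 k) hred D hD hvp'
  have hκ' : IsVP K (∏ i, pb (mapPt e (th7 L x₁ x₂ x₃ i)) D ^ eps7 k i) := by
    have e1 : (fun i => th7 L (mapPt e x₁) (mapPt e x₂) (mapPt e x₃) i) =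
        fun i => mapPt e (th7 L x₁ x₂ x₃ i) := funext (th7_mapPt L e x₁ x₂ x₃)
    have e2 : (∏ i, pb (th7 L (mapPt e x₁) (mapPt e x₂) (mapPt e x₃) i) D ^ eps7 k i) =
        ∏ i, pb (mapPt e (th7 L x₁ x₂ x₃ i)) D ^ eps7 k i :=
      Finset.prod_congr rfl (fun i _ => by rw [th7_mapPt])
    rw [← e2]
    exact hκ
  -- descent
  obtain ⟨k', hk', hE⟩ := isVPt_of_algebraic hDe e halg (th7 L x₁ x₂ x₃) (eps7 k) D hD hκ'
  refine ⟨k * k', Nat.mul_pos hk hk', H8.isVP_congr hE (fun V _ => ?_)⟩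
  rw [Pi.pow_apply, ← thetaV_pow_eq, Pi.pow_apply, Pi.pow_apply, pow_mul]

end Diag

/-! ## The points on the triple product -/

section Triple

variable {K : Type u} [Field K] {A : Scheme.{u}} {f : A ⟶ Spec (CommRingCat.of K)}
variable {E : Type u} [Field E] [Algebra K E] {E' : Type u} [Field E'] [Algebra K E']

/-- `j : E → E'` with image in `M`, as a map to `M`. -/
noncomputable def toIF (M : IntermediateField K E') (j : E →ₐ[K] E') (h : ∀ x, j x ∈ M) :
    E →ₐ[K] M where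
  toFun x := ⟨j x, h x⟩
  map_one' := Subtype.ext (map_one j)
  map_mul' x y := Subtype.ext (map_mul j x y)
  map_zero' := Subtype.ext (map_zero j)
  map_add' x y := Subtype.ext (map_add j x y)
  commutes' a := Subtype.ext (j.commutes a)

theorem val_comp_toIF (M : IntermediateField K E') (j : E →ₐ[K] E') (h : ∀ x, j x ∈ M) :
    M.val.comp (toIF M j h) = j :=
  AlgHom.ext (fun _ => rfl)

theorem incPt_mapPt_toIF (M : IntermediateField K E') (j : E →ₐ[K] E') (h : ∀ x, j x ∈ M)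
    (x : Pt f E) : incPt (mapPt (toIF M j h) x) = mapPt j x := by
  unfold incPt
  rw [H8.mapPt_mapPt, val_comp_toIF]

variable {ι : Type} (F : ι → IntermediateField K E) (j : Fin 3 → (E →ₐ[K] E'))

/-- The curve `F i` to its copy `a`. -/
noncomputable def toFam (p : Fin 3 × ι) : F p.2 →ₐ[K] H52.fam3 F j p :=
  toIF (H52.fam3 F j p) ((j p.1).comp (F p.2).val) (fun x => by
    show _ ∈ (F p.2).map (j p.1)
    exact (IntermediateField.mem_map (F p.2)).mpr ⟨x.1, x.2, rfl⟩)

/-- The points of the curves of the three copies. -/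
noncomputable def xi3 (ξ : ∀ i, Pt f (F i)) (p : Fin 3 × ι) : Pt f (H52.fam3 F j p) :=
  mapPt (toFam F j p) (ξ p.2)

theorem incPt_xi3 (ξ : ∀ i, Pt f (F i)) (p : Fin 3 × ι) :
    incPt (xi3 F j ξ p) = mapPt (j p.1) (incPt (ξ p.2)) := by
  unfold incPt xi3 toFam
  rw [H8.mapPt_mapPt, H8.mapPt_mapPt, val_comp_toIF]

theorem prodPt_xi3 (L : RelativeGroupLaw K f) (ξ : ∀ i, Pt f (F i)) (l : List ι) (a : Fin 3) :
    prodPt L (H52.fam3 F j) (l.map fun i => (a, i)) (xi3 F j ξ) =
      mapPt (j a) (prodPt L F l ξ) := by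
  unfold prodPt
  rw [H8.mapPt_list_prod, List.map_map, List.map_map]
  congr 1
  apply List.map_congr_left
  intro i _
  exact incPt_xi3 F j ξ (a, i)

end Triple

/-! ## CUBEPC -/

/-- **CUBEPC from CUBE3**, given the triple field. -/
theorem cubepc_of_triple (hT : H52.Stmt_TRIPLE.{u}) : Stmt_CUBEPC_of.{u} := by
  intro _hC hS hDe hCu K _ A f L g hAV _ E _ _ ι _ F hF o ho l ξ x₂ x₃ hnd hξ hx₂ hx₃ D hD
  haveI := hAV.algClosed
  haveI : IsProper f := hAV.bundle.proper
  obtain ⟨E', _, _, j, o', G, κ, _, _, r, e, hF', hblk, ho', hcomap, hG, hr, hre, halg⟩ :=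
    hT K E ι F hF o ho
  refine isVPt_thetaV_of_diag hS hDe L j G r e hG hr hre halg _ x₂ x₃ D hD ?_
  -- the theorem of the cube on the triple product
  have h3 := hCu K f L g hAV E' (Fin 3 × ι) (H52.fam3 F j) hF' o' ho'
    (l.map fun i => ((0 : Fin 3), i)) {p | p.1 = 1} {p | p.1 = 2}
    (hnd.map (fun i i' h => (Prod.mk.inj h).2))
    (by
      intro p hp
      obtain ⟨i, _, rfl⟩ := List.mem_map.mp hp
      constructor <;> simp)
    (by
      rw [Set.disjoint_left]
      intro p h1 h2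
      change p.1 = 1 at h1
      change p.1 = 2 at h2
      rw [h1] at h2
      exact absurd h2 (by decide))
    (xi3 F j ξ) (mapPt (toIF _ (j 1) (hblk 1)) x₂) (mapPt (toIF _ (j 2) (hblk 2)) x₃)
    (by
      intro p hp
      obtain ⟨i, hi, rfl⟩ := List.mem_map.mp hp
      unfold IsBased
      rw [incPt_xi3]
      exact isCentre_mapPt (j 0) _ o' _ (by rw [hcomap 0]; exact hξ i hi))
    (by
      unfold IsBased
      rw [incPt_mapPt_toIF]
      exact isCentre_mapPt (j 1) _ o' _ (by rw [hcomap 1]; exact hx₂))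
    (by
      unfold IsBased
      rw [incPt_mapPt_toIF]
      exact isCentre_mapPt (j 2) _ o' _ (by rw [hcomap 2]; exact hx₃))
    D hD
  rw [prodPt_xi3, incPt_mapPt_toIF, incPt_mapPt_toIF] at h3
  exact h3

end Fermat.Agent.S26.C.X.H42
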