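import Mathlib
import Fermat.Agent.S26.C.X.Defs

/-!
# S26 (C), TRIPLE field: two sub-leaves (pure valuation theory)

helper52.  Two statements used in the proof of `H52.Stmt_TRIPLE`; both are Mathlib-only
(the second uses `X.IsKPlace` of `X/Defs.lean`).

* `Stmt_VALG` (Chevalley with ALGEBRAIC residue field): `A` a subring of a field `P`, `I` a
  maximal ideal of `A`.  There is a valuation ring `G ⊇ A` of `P` with `I ⊆ 𝔪_G` such that the
  residue field of `G` is algebraic over `A / I`: every `y ∈ G` is a root modulo `𝔪_G` of a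
  polynomial over `A` with a coefficient outside `I`.
  (Proof: a MINIMAL valuation ring with the first two properties, `S27.Char0.H57`
  `exists_minimal_valuationSubring`; if `ȳ` were transcendental over the image `k` of `A`, the
  ring `k[ȳ]` has a valuation ring `W` of the residue field with `ȳ ∈ 𝔪_W`, and the composite
  is strictly smaller.  Same pattern as `H13.exists_valuationSubring_rational`.)

* `Stmt_KPL2` (the place `(o₁, o₂)` of a product): `j₁ : E₁ → P`, `j₂ : E₂ → P` with linearly
  disjoint images over the algebraically closed `K`, `o₁`, `o₂` `K`-places.  There is a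
  `K`-place `o` of `P` with `o.comap j₁ = o₁` and `o.comap j₂ = o₂`.
  (Proof: `o₁ ⊗[K] o₂ → P` is injective, `B` its range, `φ = res₁ ⊗ res₂ : B → K`,
  `H29.exists_kplace B φ`; domination gives equality of the comaps.)
-/

set_option autoImplicit false

open scoped IntermediateField

universe u

namespace Fermat.Agent.S26.C.X.H52

/-- **VALG**: a valuation ring over a maximal ideal with algebraic residue field. -/
def Stmt_VALG : Prop :=
  ∀ (P : Type u) [Field P] (A : Subring P) (I : Ideal A), I.IsMaximal →
    ∃ G : ValuationSubring P, A ≤ G.toSubring ∧ (∀ a : A, a ∈ I → (a : P) ∈ G.nonunits) ∧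
      ∀ y ∈ G, ∃ q : Polynomial A, (∃ n, q.coeff n ∉ I) ∧ q.eval₂ A.subtype y ∈ G.nonunits

/-- **KPL2**: the `K`-place `(o₁, o₂)` of a field generated by two linearly disjoint fields. -/
def Stmt_KPL2 : Prop :=
  ∀ (K : Type u) [Field K] [IsAlgClosed K] (E₁ E₂ P : Type u) [Field E₁] [Field E₂] [Field P]
    [Algebra K E₁] [Algebra K E₂] [Algebra K P] (j₁ : E₁ →ₐ[K] P) (j₂ : E₂ →ₐ[K] P),
    j₁.fieldRange.LinearDisjoint j₂.fieldRange →
    ∀ (o₁ : ValuationSubring E₁) (o₂ : ValuationSubring E₂), IsKPlace K o₁ → IsKPlace K o₂ →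
    ∃ o : ValuationSubring P, IsKPlace K o ∧ o.comap j₁.toRingHom = o₁ ∧
      o.comap j₂.toRingHom = o₂

end Fermat.Agent.S26.C.X.H52
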