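import Mathlib
import Fermat.Agent.S27.Char0.H57_VALCore
import Fermat.Agent.S26.C.X.H52_TripleSub

/-!
# S26 (C), TRIPLE sub-leaf VALG (helper49)

`stmt_VALG : H52.Stmt_VALG`: for a subring `A` of a field `P` and a maximal ideal `I` of `A`
there is a valuation ring `G ⊇ A` of `P` with `I ⊆ 𝔪_G` whose residue field is algebraic over
`A / I`: every `y ∈ G` is a root modulo `𝔪_G` of a polynomial over `A` with a coefficient
outside `I`.

Proof: a MINIMAL valuation ring `V ⊇ A` with `I ⊆ 𝔪_V` (Zorn, `H57.exists_minimal_valuationSubring`).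
If `y ∈ V` is a root modulo `𝔪_V` of no such polynomial, then the ideal `(ȳ)` of the ring
`A' = (image of A)[ȳ]` of the residue field is proper (`ȳ · p(ȳ) = 1` makes `X p - 1` such a
polynomial); a valuation ring `W ⊇ A'` of the residue field with `ȳ ∈ 𝔪_W` gives the composite
`compVal V W ⊊ V` (it does not contain `y⁻¹`), with the same properties: contradiction.
-/

set_option autoImplicit false
set_option linter.style.haveILetI false

noncomputable section

open IsLocalRing Polynomial Fermat.Agent.S27.Char0.H57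

universe u

namespace Fermat.Agent.S26.C.X.H49v

/-- **VALG**. -/
theorem stmt_VALG : H52.Stmt_VALG.{u} := by
  classical
  intro P _ A I hI
  have hItop : I ≠ ⊤ := hI.ne_top
  -- existence of one valuation ring
  obtain ⟨O₀, hAO₀, hIO₀⟩ := Ideal.image_subset_nonunits_valuationSubring I hItop
  set M : Set P := (algebraMap A P) '' (I : Set A) with hM
  obtain ⟨V, ⟨hAV, hMV⟩, hmin⟩ := exists_minimal_valuationSubring A M ⟨O₀, hAO₀, hIO₀⟩
  refine ⟨V, hAV, ?_, ?_⟩
  · intro a ha
    exact hMV ⟨a, ha, rfl⟩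
  by_contra hcon
  push Not at hcon
  obtain ⟨y, hyV, hy⟩ := hcon
  -- the ring homomorphisms
  let ι : A →+* V := Subring.inclusion hAV
  let ev : A[X] →+* V := eval₂RingHom ι ⟨y, hyV⟩
  have hev : ∀ q : A[X], ((ev q : V) : P) = q.eval₂ A.subtype y := by
    intro q
    have h := Polynomial.hom_eval₂ q ι V.subtype ⟨y, hyV⟩
    exact h
  let φ : A[X] →+* ResidueField V := (residue V).comp ev
  -- the key property: `φ q ≠ 0` if `q` has a coefficient outside `I`
  have hφ : ∀ q : A[X], (∃ n, q.coeff n ∉ I) → φ q ≠ 0 := by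
    intro q hq h0
    apply hy q hq
    have h1 : residue V (ev q) = 0 := h0
    rw [residue_eq_zero_iff_or] at h1
    rw [ValuationSubring.mem_nonunits_iff_or, ← hev]
    exact h1
  have h1I : (1 : A) ∉ I := fun h => hItop ((Ideal.eq_top_iff_one I).mpr h)
  set yb : ResidueField V := residue V ⟨y, hyV⟩ with hyb
  have hφX : φ X = yb := by
    show residue V (ev X) = _
    congr 1
    simp [ev]
  have hyb0 : yb ≠ 0 := by
    rw [← hφX]
    apply hφ
    refine ⟨1, ?_⟩
    rw [coeff_X_one]
    exact h1I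
  have hyne : y ≠ 0 := by
    intro h0
    apply hyb0
    rw [hyb, residue_eq_zero_iff_or]
    exact Or.inl h0
  have hyinv : y⁻¹ ∈ V := by
    by_contra h
    apply hyb0
    rw [hyb, residue_eq_zero_iff_or]
    exact Or.inr h
  -- the subring `A'` and the ideal `(yb)`
  let A' : Subring (ResidueField V) := φ.range
  have hybA' : yb ∈ A' := ⟨X, hφX⟩
  let I' : Ideal A' := Ideal.span {⟨yb, hybA'⟩}
  have hI' : I' ≠ ⊤ := by
    intro htop
    have h1 : (1 : A') ∈ I' := by rw [htop]; trivial
    obtain ⟨z, hz⟩ := Ideal.mem_span_singleton'.mp h1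
    obtain ⟨p, hp⟩ := z.2
    have h2 : (z : ResidueField V) * yb = 1 := by
      have := congrArg (Subtype.val) hz
      simpa using this
    have h3 : φ (p * X - 1) = 0 := by
      rw [map_sub, map_mul, map_one, hφX, hp, h2, sub_self]
    refine hφ (p * X - 1) ⟨0, ?_⟩ h3
    rw [coeff_sub, coeff_zero_eq_eval_zero (p * X), eval_mul, eval_X, mul_zero, coeff_one_zero,
      zero_sub]
    intro h
    apply h1I
    have := I.neg_mem h
    simpa using this
  obtain ⟨W, hA'W, hI'W⟩ := Ideal.image_subset_nonunits_valuationSubring I' hI'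
  have hybW : yb ∈ W.nonunits :=
    hI'W ⟨⟨yb, hybA'⟩, Ideal.subset_span (Set.mem_singleton _), rfl⟩
  -- the composite
  have hle : compVal V W ≤ V := compVal_le V W
  have hAV' : A ≤ (compVal V W).toSubring := by
    intro a ha
    show a ∈ compVal V W
    rw [mem_compVal]
    refine ⟨hAV ha, ?_⟩
    apply hA'W
    refine ⟨C ⟨a, ha⟩, ?_⟩
    show residue V (ev (C ⟨a, ha⟩)) = _
    have hC : ev (C ⟨a, ha⟩) = ⟨a, hAV ha⟩ := by
      apply Subtype.ext
      rw [hev, eval₂_C]
      rfl
    rw [hC]
  have hMV' : M ⊆ (compVal V W).nonunits := by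
    intro m hm
    exact (ValuationSubring.nonunits_le_nonunits.mpr hle) (hMV hm)
  have hVle := hmin (compVal V W) hAV' hMV' hle
  have h3 : y⁻¹ ∈ compVal V W := hVle hyinv
  rw [mem_compVal] at h3
  obtain ⟨h4, h5⟩ := h3
  rw [residue_inv V hyV h4 hyne] at h5
  rw [ValuationSubring.mem_nonunits_iff_or] at hybW
  rcases hybW with h | h
  · exact hyb0 h
  · exact h h5

end Fermat.Agent.S26.C.X.H49v
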