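import Mathlib
import Fermat.Agent.S26.C.X.Defs
import Fermat.Agent.S26.C.X.H52_TripleSub
import Fermat.Agent.S26.C.H29_Rig
import Fermat.Agent.S26.C.H30_BC

/-!
# S26 (C), TRIPLE sub-leaf **KPL2** (helper83): the `K`-place `(o₁, o₂)` of a product

`j₁ : E₁ → P`, `j₂ : E₂ → P` with linearly disjoint images over the algebraically closed `K`,
`o₁`, `o₂` `K`-places of `E₁`, `E₂`.  Then there is a `K`-place `o` of `P` with
`o.comap j₁ = o₁` and `o.comap j₂ = o₂`.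

Proof: `A_i := j_i (o_i)` are linearly disjoint subalgebras of `P`, so `A₁ ⊗ A₂ ≃ A₁ ⊔ A₂ =: B`;
`φ := res₁ ⊗ res₂ : B → K`; `H29.exists_kplace B φ` gives a `K`-place `O` centred at `φ`; `O ∩ E_i`
dominates `o_i`, hence is equal to it.

* `comap_eq_of_dominates` : a valuation ring of `P` whose restriction to `E` contains `o` and
  whose maximal ideal contains the image of `𝔪_o` restricts to `o`;
* `stmt_KPL2 : H52.Stmt_KPL2`.
-/

set_option autoImplicit false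

open scoped IntermediateField TensorProduct

universe u

namespace Fermat.Agent.S26.C.X.H83k

open Fermat.Agent.S26.C Fermat.Agent.S26.C.X

/-- Domination: if `j o ⊆ O` and `j 𝔪_o ⊆ 𝔪_O` then `O.comap j = o`. -/
theorem comap_eq_of_dominates {E P : Type u} [Field E] [Field P] (j : E →+* P)
    (o : ValuationSubring E) (O : ValuationSubring P)
    (h1 : ∀ x ∈ o, j x ∈ O) (h2 : ∀ x ∈ o.nonunits, j x ∈ O.nonunits) :
    O.comap j = o := by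
  ext x
  rw [ValuationSubring.mem_comap]
  constructor
  · intro hx
    by_contra hxo
    have hx0 : x ≠ 0 := fun h0 => hxo (h0 ▸ o.zero_mem)
    -- `x⁻¹` is a nonunit of `o`
    have hinv : x⁻¹ ∈ o.nonunits := by
      rw [ValuationSubring.mem_nonunits_iff, map_inv₀]
      have hv : 1 < o.valuation x := by
        rw [← not_le, ValuationSubring.valuation_le_one_iff]
        exact hxo
      exact inv_lt_one_of_one_lt₀ hv
    have h3 := h2 _ hinv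
    rw [ValuationSubring.mem_nonunits_iff, map_inv₀, map_inv₀] at h3
    have h4 : O.valuation (j x) ≤ 1 := (O.valuation_le_one_iff _).2 hx
    have hjx : O.valuation (j x) ≠ 0 := by
      rw [Valuation.ne_zero_iff]
      exact (map_ne_zero j).2 hx0
    have h5 : 1 ≤ (O.valuation (j x))⁻¹ := by
      rw [one_le_inv₀ (zero_lt_iff.2 hjx)]
      exact h4
    exact absurd h3 (not_lt.2 h5)
  · intro hx
    exact h1 x hx

/-- **KPL2**. -/
theorem stmt_KPL2 : H52.Stmt_KPL2.{u} := by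
  intro K _ _ E₁ E₂ P _ _ _ _ _ _ j₁ j₂ hld o₁ o₂ ho₁ ho₂
  classical
  -- the two places as `KPl`
  let P₁ : H30.KPl K E₁ := ⟨o₁, ho₁.1, fun a ha => ho₁.2 a ha⟩
  let P₂ : H30.KPl K E₂ := ⟨o₂, ho₂.1, fun a ha => ho₂.2 a ha⟩
  -- the images of the valuation rings
  let A₁ : Subalgebra K P := P₁.alg.map j₁
  let A₂ : Subalgebra K P := P₂.alg.map j₂
  have hA₁ : A₁ ≤ j₁.fieldRange.toSubalgebra := by
    rintro _ ⟨x, -, rfl⟩
    exact ⟨x, rfl⟩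
  have hA₂ : A₂ ≤ j₂.fieldRange.toSubalgebra := by
    rintro _ ⟨x, -, rfl⟩
    exact ⟨x, rfl⟩
  have hld' : j₁.fieldRange.toSubalgebra.LinearDisjoint j₂.fieldRange.toSubalgebra :=
    IntermediateField.linearDisjoint_iff'.1 hld
  have hA : A₁.LinearDisjoint A₂ := hld'.of_le_of_flat_left hA₁ hA₂
  -- the residue maps on the images
  let e₁ : P₁.alg ≃ₐ[K] A₁ := P₁.alg.equivMapOfInjective j₁ j₁.injective
  let e₂ : P₂.alg ≃ₐ[K] A₂ := P₂.alg.equivMapOfInjective j₂ j₂.injective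
  let r₁ : A₁ →ₐ[K] K := P₁.res.comp e₁.symm.toAlgHom
  let r₂ : A₂ →ₐ[K] K := P₂.res.comp e₂.symm.toAlgHom
  have hr₁ : ∀ x : P₁.alg, r₁ (e₁ x) = P₁.res x := fun x => by
    change P₁.res (e₁.symm (e₁ x)) = P₁.res x
    rw [AlgEquiv.symm_apply_apply]
  have hr₂ : ∀ x : P₂.alg, r₂ (e₂ x) = P₂.res x := fun x => by
    change P₂.res (e₂.symm (e₂ x)) = P₂.res x
    rw [AlgEquiv.symm_apply_apply]
  -- the point `φ` of `B = A₁ ⊔ A₂`
  let m : A₁ ⊗[K] A₂ ≃ₐ[K] ↥(A₁ ⊔ A₂) := hA.mulMap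
  let φ : ↥(A₁ ⊔ A₂) →ₐ[K] K :=
    (Algebra.TensorProduct.lift r₁ r₂ (fun _ _ => Commute.all _ _)).comp m.symm.toAlgHom
  have hφ₁ : ∀ (x : P₁.alg) (hx : j₁ (x : E₁) ∈ A₁ ⊔ A₂), φ ⟨j₁ (x : E₁), hx⟩ = P₁.res x := by
    intro x hx
    have e : (⟨j₁ (x : E₁), hx⟩ : ↥(A₁ ⊔ A₂)) = m (e₁ x ⊗ₜ[K] (1 : A₂)) := by
      apply Subtype.ext
      rw [Subalgebra.LinearDisjoint.val_mulMap_tmul, OneMemClass.coe_one, mul_one]
      rfl
    rw [e]
    change Algebra.TensorProduct.lift r₁ r₂ (fun _ _ => Commute.all _ _)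
      (m.symm (m (e₁ x ⊗ₜ[K] (1 : A₂)))) = _
    rw [AlgEquiv.symm_apply_apply, Algebra.TensorProduct.lift_tmul, map_one, mul_one, hr₁]
  have hφ₂ : ∀ (x : P₂.alg) (hx : j₂ (x : E₂) ∈ A₁ ⊔ A₂), φ ⟨j₂ (x : E₂), hx⟩ = P₂.res x := by
    intro x hx
    have e : (⟨j₂ (x : E₂), hx⟩ : ↥(A₁ ⊔ A₂)) = m ((1 : A₁) ⊗ₜ[K] e₂ x) := by
      apply Subtype.ext
      rw [Subalgebra.LinearDisjoint.val_mulMap_tmul, OneMemClass.coe_one, one_mul]
      rfl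
    rw [e]
    change Algebra.TensorProduct.lift r₁ r₂ (fun _ _ => Commute.all _ _)
      (m.symm (m ((1 : A₁) ⊗ₜ[K] e₂ x))) = _
    rw [AlgEquiv.symm_apply_apply, Algebra.TensorProduct.lift_tmul, map_one, one_mul, hr₂]
  -- the place
  obtain ⟨O, hO, hc⟩ := H29.exists_kplace (A₁ ⊔ A₂) φ
  have hmem₁ : ∀ x ∈ o₁, j₁ x ∈ A₁ ⊔ A₂ := fun x hx =>
    (le_sup_left : A₁ ≤ A₁ ⊔ A₂) ⟨x, hx, rfl⟩
  have hmem₂ : ∀ x ∈ o₂, j₂ x ∈ A₁ ⊔ A₂ := fun x hx =>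
    (le_sup_right : A₂ ≤ A₁ ⊔ A₂) ⟨x, hx, rfl⟩
  refine ⟨O, ⟨hO.1, hO.2⟩, ?_, ?_⟩
  · refine comap_eq_of_dominates j₁.toRingHom o₁ O ?_ ?_
    · intro x hx
      exact hO.mem_of_centredAt hc ⟨j₁ x, hmem₁ x hx⟩
    · intro x hx
      have hxo : x ∈ o₁ := o₁.nonunits_subset hx
      refine hc.mem_nonunits ⟨j₁ x, hmem₁ x hxo⟩ ?_
      rw [hφ₁ ⟨x, hxo⟩ (hmem₁ x hxo)]
      exact (P₁.res_eq_zero_iff ⟨x, hxo⟩).2 hx
  · refine comap_eq_of_dominates j₂.toRingHom o₂ O ?_ ?_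
    · intro x hx
      exact hO.mem_of_centredAt hc ⟨j₂ x, hmem₂ x hx⟩
    · intro x hx
      have hxo : x ∈ o₂ := o₂.nonunits_subset hx
      refine hc.mem_nonunits ⟨j₂ x, hmem₂ x hxo⟩ ?_
      rw [hφ₂ ⟨x, hxo⟩ (hmem₂ x hxo)]
      exact (P₂.res_eq_zero_iff ⟨x, hxo⟩).2 hx

end Fermat.Agent.S26.C.X.H83k
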