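import Fermat.Agent.S26.C.X.H52_Triple
import Fermat.Agent.S26.C.X.H49_Valg
import Fermat.Agent.S26.C.X.H83_Kpl2

/-!
# S26 (C), TRIPLE field: `Stmt_TRIPLE`, unconditional

helper52.  `stmt_TRIPLE_of` with `VALG` (helper49) and `KPL2` (helper83).
-/

set_option autoImplicit false

universe u

namespace Fermat.Agent.S26.C.X.H52

/-- **TRIPLE**, unconditional. -/
theorem stmt_TRIPLE : Stmt_TRIPLE.{u} :=
  stmt_TRIPLE_of Fermat.Agent.S26.C.X.H49v.stmt_VALG Fermat.Agent.S26.C.X.H83k.stmt_KPL2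

end Fermat.Agent.S26.C.X.H52
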