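import Mathlib
import Fermat.Agent.S26.C.X.Defs
import Fermat.Agent.S26.C.X.H8_Cube3
import Fermat.Agent.S26.C.X.H69_CentreX
import Fermat.Agent.S26.C.X.H69_Desc
import Fermat.Agent.S26.C.X.H90_Spec
import Fermat.Agent.S26.C.X.H52_TripleFinal
import Fermat.Agent.S26.C.X.H42_CubePC

/-!
# S26 (C), cube side: the leaf CUBEPC_of, closed (helper42)

* uses `H52.stmt_TRIPLE` (helper52, with VALG of helper49 and KPL2 of helper83);
* `stmt_CUBEPC_of : Stmt_CUBEPC_of`;
* `cubepc_of_prig : Stmt_PRIG → Stmt_CUBEPC` (CENTRE, SPEC, DESC, CUBE3_of are proved).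
-/

set_option autoImplicit false

universe u

namespace Fermat.Agent.S26.C.X.H42

/-- **CUBEPC from CUBE3** (diagonal), unconditional. -/
theorem stmt_CUBEPC_of : Stmt_CUBEPC_of.{u} :=
  cubepc_of_triple H52.stmt_TRIPLE

/-- **CUBEPC from PRIG**: the only open input of the theorem of the cube on a product of
curves is the rigidity along a curve. -/
theorem cubepc_of_prig (hP : Stmt_PRIG.{u}) : Stmt_CUBEPC.{u} :=
  stmt_CUBEPC_of H69.stmt_CENTRE H90.stmt_SPEC H69.stmt_DESC
    (H8.stmt_CUBE3_of H69.stmt_CENTRE hP)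

end Fermat.Agent.S26.C.X.H42
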