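import Mathlib
import Fermat.Agent.S26.C.X.H63_Rules

/-!
# S26 (C), cube side, RULES (helper63): `R-BASED`

`o` a `K`-place of `E` (valuation ring `⊇ K` with residue field `K`), `K` algebraically closed,
`f` locally of finite type.  The points of `A(E)` with centre `0` at `o` form a subgroup:

* `isBased_one`  : `IsBased L 1 o` (needs only `OverK K o`);
* `isBased_mul`, `isBased_inv`, `isBased_pow`, `isBased_zpow`, `isBased_div`;
* `isBased_iff_lift` : `σ` is based iff it is the restriction of a `𝒪_o`-point of `A` whose
  restriction to the closed point `Spec K` is the neutral element.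

Tools: `resK o ho : o →+* K` (the residue map of a `K`-place), `clK o ho : Spec K ⟶ Spec o`
(its closed point), `clK_closedPoint`, `lift_clK_eq_zero`.
-/

set_option autoImplicit false
set_option linter.style.haveILetI false

open CategoryTheory CategoryTheory.Limits AlgebraicGeometry IsLocalRing NeronModelInfra
  GoodReductionJacobian

universe u

namespace Fermat.Agent.S26.C.X.H63

variable {K : Type u} [Field K] {A : Scheme.{u}} {f : A ⟶ Spec (CommRingCat.of K)}
variable {E : Type u} [Field E] [Algebra K E]

/-! ## The residue map of a `K`-place -/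

section Res

variable (o : ValuationSubring E) (ho : IsKPlace K o)

/-- `K → o → residue field of o`. -/
noncomputable def kRes : K →+* ResidueField o :=
  (residue o).comp (H69.kap o ho.1)

include ho in
theorem kRes_bijective : Function.Bijective (kRes o ho) := by
  refine ⟨(kRes o ho).injective, fun y => ?_⟩
  obtain ⟨x, rfl⟩ := residue_surjective y
  obtain ⟨a, ha⟩ := ho.2 x x.2
  refine ⟨a, ?_⟩
  have hmem : x - H69.kap o ho.1 a ∈ maximalIdeal o := by
    rw [← ValuationSubring.coe_mem_nonunits_iff]
    exact ha
  have h0 : residue o (x - H69.kap o ho.1 a) = 0 :=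
    (residue_eq_zero_iff _).mpr hmem
  rw [map_sub, sub_eq_zero] at h0
  exact h0.symm

/-- The residue map `o → K` of a `K`-place. -/
noncomputable def resK : o →+* K :=
  ((RingEquiv.ofBijective (kRes o ho) (kRes_bijective o ho)).symm : ResidueField o →+* K).comp
    (residue o)

theorem resK_kap (a : K) : resK o ho (H69.kap o ho.1 a) = a := by
  unfold resK
  rw [RingHom.comp_apply]
  exact (RingEquiv.ofBijective (kRes o ho) (kRes_bijective o ho)).symm_apply_apply a

theorem resK_comp_kap : (resK o ho).comp (H69.kap o ho.1) = RingHom.id K :=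
  RingHom.ext fun a => resK_kap o ho a

theorem resK_eq_zero_iff (x : o) : resK o ho x = 0 ↔ x ∈ maximalIdeal o := by
  unfold resK
  rw [RingHom.comp_apply]
  constructor
  · intro h
    have h2 : residue o x = 0 := by
      have := congrArg (RingEquiv.ofBijective (kRes o ho) (kRes_bijective o ho)) h
      rwa [map_zero, RingHom.coe_coe, RingEquiv.apply_symm_apply] at this
    exact (residue_eq_zero_iff _).mp h2
  · intro h
    rw [(residue_eq_zero_iff _).mpr h, map_zero]

/-- The closed point of a `K`-place, as a `K`-point of `Spec o`. -/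
noncomputable def clK : Spec (CommRingCat.of K) ⟶ Spec (CommRingCat.of o) :=
  Spec.map (CommRingCat.ofHom (resK o ho))

theorem clK_comp : clK o ho ≫ Spec.map (CommRingCat.ofHom (H69.kap o ho.1)) =
    𝟙 (Spec (CommRingCat.of K)) := by
  unfold clK
  rw [← Spec.map_comp, ← CommRingCat.ofHom_comp, resK_comp_kap]
  exact Spec.map_id _

theorem clK_closedPoint (x : Spec (CommRingCat.of K)) :
    (clK o ho) x = closedPoint (CommRingCat.of o) := by
  have hx : x = closedPoint (CommRingCat.of K) := Subsingleton.elim _ _
  subst hx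
  apply PrimeSpectrum.ext
  ext y
  show resK o ho y ∈ (closedPoint K).asIdeal ↔ y ∈ maximalIdeal o
  rw [← resK_eq_zero_iff o ho]
  show resK o ho y ∈ maximalIdeal K ↔ _
  rw [IsLocalRing.maximalIdeal_eq_bot (R := K)]
  exact Ideal.mem_bot

end Res

/-! ## Lifts of points to the valuation ring -/

section Lift

variable (L : RelativeGroupLaw K f) (o : ValuationSubring E) (ho : IsKPlace K o)

/-- The structure morphism of `Spec o`. -/
noncomputable abbrev strO : Spec (CommRingCat.of o) ⟶ Spec (CommRingCat.of K) :=
  Spec.map (CommRingCat.ofHom (H69.kap o ho.1))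

/-- The generic point of `Spec o`. -/
noncomputable abbrev genO : Spec (CommRingCat.of E) ⟶ Spec (CommRingCat.of o) :=
  Spec.map (CommRingCat.ofHom (algebraMap o E))

theorem genO_comp : genO o ≫ strO o ho = str K E := by
  rw [← Spec.map_comp]
  rfl

/-- A `K`-point of `A` over `K` through the origin is the zero section. -/
theorem eq_zeroHom_of_apply [IsAlgClosed K] [LocallyOfFiniteType f]
    (s : Spec (CommRingCat.of K) ⟶ A) (hs : s ≫ f = 𝟙 _)
    (h : s (closedPoint (CommRingCat.of K)) = orig L) : s = zeroHom L :=
  ext_of_apply_closedPoint_eq f hs (Fermat.Agent.S26.H55.zeroHom_comp_structure L) h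

/-- `σ` is based at `o` iff it lifts to an `o`-point which is neutral at the closed point. -/
theorem isBased_iff_lift [IsAlgClosed K] [LocallyOfFiniteType f] (σ : Pt f E) :
    IsBased L σ o ↔ ∃ τ : SchemeHomOver (strO o ho) f,
      schemeHomOverComp (genO o) (genO_comp o ho) τ = σ ∧
      schemeHomOverComp (clK o ho) (clK_comp o ho) τ = L.one (𝟙 _) := by
  constructor
  · rintro ⟨τ, hτ, hc⟩
    refine ⟨⟨τ, H69.centre_over σ o ho.1 τ hτ⟩, Subtype.ext hτ, Subtype.ext ?_⟩
    show clK o ho ≫ τ = zeroHom L
    apply eq_zeroHom_of_apply L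
    · rw [Category.assoc, H69.centre_over σ o ho.1 τ hτ]
      exact clK_comp o ho
    · show τ ((clK o ho) (closedPoint (CommRingCat.of K))) = orig L
      rw [clK_closedPoint]
      exact hc
  · rintro ⟨τ, hτ, hc⟩
    refine ⟨τ.1, congrArg Subtype.val hτ, ?_⟩
    have h1 : clK o ho ≫ τ.1 = zeroHom L := congrArg Subtype.val hc
    have h2 : τ.1 ((clK o ho) (closedPoint (CommRingCat.of K))) = orig L := by
      show (clK o ho ≫ τ.1) (closedPoint (CommRingCat.of K)) = orig L
      rw [h1]
      rfl
    rwa [clK_closedPoint] at h2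

end Lift

/-! ## R-BASED -/

section Based

variable (L : RelativeGroupLaw K f) (o : ValuationSubring E)

/-- **R-BASED** (neutral element). -/
theorem isBased_one' (ho : OverK K o) : IsBased L (L.one (str K E)) o :=
  isCentre_one L o ho

variable [IsAlgClosed K] [LocallyOfFiniteType f] (ho : IsKPlace K o)

include ho in
/-- **R-BASED** (product). -/
theorem isBased_mul' {σ σ' : Pt f E} (h : IsBased L σ o) (h' : IsBased L σ' o) :
    IsBased L (L.mul (str K E) σ σ') o := by
  obtain ⟨τ, hτ, hc⟩ := (isBased_iff_lift L o ho σ).mp h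
  obtain ⟨τ', hτ', hc'⟩ := (isBased_iff_lift L o ho σ').mp h'
  refine (isBased_iff_lift L o ho _).mpr ⟨L.mul _ τ τ', ?_, ?_⟩
  · rw [L.mul_natural, hτ, hτ']
  · rw [L.mul_natural, hc, hc', L.one_mul]

include ho in
/-- **R-BASED** (inverse). -/
theorem isBased_inv' {σ : Pt f E} (h : IsBased L σ o) :
    IsBased L (L.inv (str K E) σ) o := by
  obtain ⟨τ, hτ, hc⟩ := (isBased_iff_lift L o ho σ).mp h
  refine (isBased_iff_lift L o ho _).mpr ⟨L.inv _ τ, ?_, ?_⟩
  · rw [Fermat.Agent.S26.H55.inv_natural, hτ]
  · rw [Fermat.Agent.S26.H55.inv_natural, hc, Fermat.Agent.S26.H55.inv_one_eq]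

/-! ### The same in the group notation -/

omit [IsAlgClosed K] [LocallyOfFiniteType f] in
include ho in
theorem isBased_one :
    (letI : Group (Pt f E) := L.pointGroup (str K E); IsBased L (1 : Pt f E) o) :=
  isBased_one' L o ho.1

include ho in
theorem isBased_mul {σ σ' : Pt f E} (h : IsBased L σ o) (h' : IsBased L σ' o) :
    (letI : Group (Pt f E) := L.pointGroup (str K E); IsBased L (σ * σ') o) :=
  isBased_mul' L o ho h h'

include ho in
theorem isBased_inv {σ : Pt f E} (h : IsBased L σ o) :
    (letI : Group (Pt f E) := L.pointGroup (str K E); IsBased L σ⁻¹ o) :=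
  isBased_inv' L o ho h

include ho in
theorem isBased_div {σ σ' : Pt f E} (h : IsBased L σ o) (h' : IsBased L σ' o) :
    (letI : Group (Pt f E) := L.pointGroup (str K E); IsBased L (σ / σ') o) := by
  letI : Group (Pt f E) := L.pointGroup (str K E)
  rw [div_eq_mul_inv]
  exact isBased_mul L o ho h (isBased_inv L o ho h')

include ho in
theorem isBased_pow {σ : Pt f E} (h : IsBased L σ o) (n : ℕ) :
    (letI : Group (Pt f E) := L.pointGroup (str K E); IsBased L (σ ^ n) o) := by
  letI : Group (Pt f E) := L.pointGroup (str K E)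
  induction n with
  | zero =>
    rw [pow_zero]
    exact isBased_one L o ho
  | succ n ih =>
    rw [pow_succ]
    exact isBased_mul L o ho ih h

include ho in
theorem isBased_zpow {σ : Pt f E} (h : IsBased L σ o) (n : ℤ) :
    (letI : Group (Pt f E) := L.pointGroup (str K E); IsBased L (σ ^ n) o) := by
  letI : Group (Pt f E) := L.pointGroup (str K E)
  cases n with
  | ofNat n =>
    rw [Int.ofNat_eq_natCast, zpow_natCast]
    exact isBased_pow L o ho h n
  | negSucc n =>
    rw [zpow_negSucc]
    exact isBased_inv L o ho (isBased_pow L o ho h (n + 1))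

include ho in
/-- **R-BASED** (products of lists). -/
theorem isBased_list_prod (l : List (Pt f E)) (h : ∀ σ ∈ l, IsBased L σ o) :
    (letI : Group (Pt f E) := L.pointGroup (str K E); IsBased L l.prod o) := by
  letI : Group (Pt f E) := L.pointGroup (str K E)
  induction l with
  | nil =>
    rw [List.prod_nil]
    exact isBased_one L o ho
  | cons a l ih =>
    rw [List.prod_cons]
    exact isBased_mul L o ho (h a (List.mem_cons_self))
      (ih fun σ hσ => h σ (List.mem_cons_of_mem _ hσ))

end Based

end Fermat.Agent.S26.C.X.H63
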