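import Mathlib
import Fermat.Agent.S26.C.X.Defs
import Fermat.Agent.S26.C.X.H69_CentreX
import Fermat.Agent.S26.C.X.H69_PullAt
import Fermat.Agent.S26.C.H14_Pull
import Fermat.Agent.S26.H55_Ex

/-!
# S26 (C), cube side, RULES (helper83): composition, linear equivalence, symmetry (R-SYM)

Valuative language of `S26/C/X/Defs.lean`.  `f : A ⟶ Spec K` proper, `A` integral.

* `compPt σ φ hφ` : the point `σ ≫ φ` of `A`, for an endomorphism `φ` of `A` over `K`;
* `img_compPt`, `isCentre_compPt`, `centre_compPt`, `pullAt_compPt` :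
  `pullAt (σ ≫ φ) h = pullAt σ (pullFun φ h)` for `h` regular at `φ (img σ)`;
* `pb_compPt` (**R-COMP**, on the nose) : `pb (σ ≫ φ) D V = pb σ (pull φ D) V` (`D` Cartier, `V ⊇ K`);
* `isVP_of_linEquiv` (**R-LIN**) : `D₁ ∼ D₂` Cartier ⟹ `IsVP K (pb σ D₁ / pb σ D₂)`;
* `inv_val` : `(σ⁻¹).1 = σ.1 ≫ negHom L`;
* `isVP_inv` (**R-SYM**) : `D` Cartier, `[-1]^* D ∼ D` ⟹ `IsVP K (pb σ⁻¹ D / pb σ D)`.
-/

set_option autoImplicit false
set_option linter.style.haveILetI false
set_option linter.unusedSectionVars false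

open CategoryTheory CategoryTheory.Limits AlgebraicGeometry IsLocalRing NeronModelInfra
  GoodReductionJacobian

universe u

namespace Fermat.Agent.S26.C.X.H83

open Fermat.Agent.S26 Fermat.Agent.S26.C Fermat.Agent.S26.C.X

variable {K : Type u} [Field K] {A : Scheme.{u}} {f : A ⟶ Spec (CommRingCat.of K)}
variable {E : Type u} [Field E] [Algebra K E]

/-- The point `σ ≫ φ`, `φ` an endomorphism of `A` over `K`. -/
noncomputable def compPt (σ : Pt f E) (φ : A ⟶ A) (hφ : φ ≫ f = f) : Pt f E :=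
  ⟨σ.1 ≫ φ, by rw [Category.assoc, hφ, σ.2]⟩

theorem compPt_val (σ : Pt f E) (φ : A ⟶ A) (hφ : φ ≫ f = f) :
    (compPt σ φ hφ).1 = σ.1 ≫ φ := rfl

theorem img_compPt (σ : Pt f E) (φ : A ⟶ A) (hφ : φ ≫ f = f) :
    img (compPt σ φ hφ) = φ (img σ) := rfl

/-- The factorisation of `σ ≫ φ` through the local ring at `φ (img σ)`. -/
theorem factor_compPt (σ : Pt f E) (φ : A ⟶ A) (hφ : φ ≫ f = f) :
    (compPt σ φ hφ).1 =
      Spec.map (CommRingCat.ofHom ((germ σ).comp (φ.stalkMap (img σ)).hom)) ≫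
        A.fromSpecStalk (φ (img σ)) := by
  rw [compPt_val]
  conv_lhs => rw [H69.factor_germ σ]
  rw [Category.assoc, ← Scheme.SpecMap_stalkMap_fromSpecStalk, ← Category.assoc,
    ← Spec.map_comp]
  rfl

theorem isCentre_compPt (σ : Pt f E) (φ : A ⟶ A) (hφ : φ ≫ f = f) (V : ValuationSubring E)
    {c : A} (hc : IsCentre σ V c) : IsCentre (compPt σ φ hφ) V (φ c) := by
  obtain ⟨τ, hτ, rfl⟩ := hc
  refine ⟨τ ≫ φ, ?_, rfl⟩
  rw [← Category.assoc, hτ]
  rfl

theorem centre_compPt [IsProper f] (σ : Pt f E) (φ : A ⟶ A) (hφ : φ ≫ f = f)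
    (V : ValuationSubring E) (hV : OverK K V) :
    centre (compPt σ φ hφ) V = φ (centre σ V) :=
  H69.centre_eq (compPt σ φ hφ) V hV (isCentre_compPt σ φ hφ V (H69.isCentre_centre σ V hV))

variable [IsIntegral A]

/-- `pullAt (σ ≫ φ) h = pullAt σ (φ^♯ h)` for `h` regular at `φ (img σ)`. -/
theorem pullAt_compPt (σ : Pt f E) (φ : A ⟶ A) (hφ : φ ≫ f = f) {h : A.functionField}
    (hh : IsRegAt (φ (img σ)) h) :
    pullAt (compPt σ φ hφ) h = pullAt σ (pullFun φ h) := by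
  obtain ⟨a, rfl⟩ := hh
  rw [H69.pullAt_of_factor (compPt σ φ hφ) _ (factor_compPt σ φ hφ) a,
    H14.pullFun_algebraMap φ (img σ) a, H69.pullAt_algebraMap]
  rfl

/-- **R-COMP**: `pb (σ ≫ φ) D = pb σ (pull φ D)`, on the nose at every `V ⊇ K`. -/
theorem pb_compPt [IsProper f] (σ : Pt f E) (φ : A ⟶ A) (hφ : φ ≫ f = f)
    {D : A → A.functionField} (hD : IsCartier D) (V : ValuationSubring E) (hV : OverK K V) :
    pb (compPt σ φ hφ) D V = pb σ (pull φ D) V := by
  have hsp : img σ ⤳ centre σ V := H69.img_specializes_centre σ V hV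
  have hsp' : φ (img σ) ⤳ φ (centre σ V) := φ.base.hom.map_specializes hsp
  have hu : IsUnitAt (φ (img σ)) (D (φ (centre σ V)) / D (φ (img σ))) :=
    H14.isUnitAt_div_of_isCartier hD hsp'
  unfold pb pullV
  rw [centre_compPt σ φ hφ V hV, img_compPt, H14.pull_div_pull φ hD,
    pullAt_compPt σ φ hφ (H14.isRegAt_of_isUnitAt hu)]

/-- **R-LIN**: linearly equivalent Cartier divisors have the same pull-back up to a principal
valuative divisor. -/
theorem isVP_of_linEquiv [IsProper f] (σ : Pt f E) {D₁ D₂ : A → A.functionField}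
    (h1 : IsCartier D₁) (h2 : IsCartier D₂) (hl : LinEquiv D₁ D₂) :
    IsVP K (pb σ D₁ / pb σ D₂) := by
  obtain ⟨H, hH, hu⟩ := hl
  -- the unit at `img σ`
  have hu0 : IsUnitAt (img σ) ((D₁ / D₂) (img σ) / H) := hu (img σ)
  refine ⟨(pullAt σ ((D₁ / D₂) (img σ) / H))⁻¹, inv_ne_zero (H69.pullAt_ne_zero σ hu0), ?_⟩
  intro V hV
  have hsp : img σ ⤳ centre σ V := H69.img_specializes_centre σ V hV
  have hc : IsCentre σ V (centre σ V) := H69.isCentre_centre σ V hV
  have huc : IsUnitAt (centre σ V) ((D₁ / D₂) (centre σ V) / H) := hu (centre σ V)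
  have huc0 : IsUnitAt (img σ) ((D₁ / D₂) (centre σ V) / H) :=
    H14.isUnitAt_of_specializes hsp huc
  have hd1 : IsUnitAt (img σ) (D₁ (centre σ V) / D₁ (img σ)) :=
    H14.isUnitAt_div_of_isCartier h1 hsp
  have hd2 : IsUnitAt (img σ) (D₂ (centre σ V) / D₂ (img σ)) :=
    H14.isUnitAt_div_of_isCartier h2 hsp
  have key : (pb σ D₁ / pb σ D₂) V =
      pullAt σ ((D₁ / D₂) (centre σ V) / H) / pullAt σ ((D₁ / D₂) (img σ) / H) := by
    change pullAt σ (D₁ (centre σ V) / D₁ (img σ)) / pullAt σ (D₂ (centre σ V) / D₂ (img σ)) = _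
    rw [← H69.pullAt_div σ (H14.isRegAt_of_isUnitAt hd1) hd2,
      ← H69.pullAt_div σ (H14.isRegAt_of_isUnitAt huc0) hu0]
    congr 1
    have e1 := h1.1 (centre σ V)
    have e2 := h1.1 (img σ)
    have e3 := h2.1 (centre σ V)
    have e4 := h2.1 (img σ)
    simp only [Pi.div_apply]
    field_simp
  have hmem := H69.pullAt_mem_of_isUnitAt σ V hc huc
  have hne : pullAt σ ((D₁ / D₂) (centre σ V) / H) ≠ 0 := H69.pullAt_ne_zero σ huc0
  have hne0 : pullAt σ ((D₁ / D₂) (img σ) / H) ≠ 0 := H69.pullAt_ne_zero σ hu0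
  rw [key]
  constructor
  · have e : (pullAt σ ((D₁ / D₂) (img σ) / H))⁻¹ *
        (pullAt σ ((D₁ / D₂) (centre σ V) / H) / pullAt σ ((D₁ / D₂) (img σ) / H))⁻¹ =
        (pullAt σ ((D₁ / D₂) (centre σ V) / H))⁻¹ := by
      field_simp
    rw [e]
    exact hmem.2
  · have e : pullAt σ ((D₁ / D₂) (centre σ V) / H) / pullAt σ ((D₁ / D₂) (img σ) / H) *
        ((pullAt σ ((D₁ / D₂) (img σ) / H))⁻¹)⁻¹ =
        pullAt σ ((D₁ / D₂) (centre σ V) / H) := by
      field_simp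
    rw [e]
    exact hmem.1

/-- `IsVP` only depends on the values at the `V ⊇ K`. -/
theorem isVP_congr' {Λ Λ' : ValuationSubring E → E} (h : IsVP K Λ)
    (e : ∀ V : ValuationSubring E, OverK K V → Λ' V = Λ V) : IsVP K Λ' := by
  obtain ⟨Ψ, hΨ, hV⟩ := h
  refine ⟨Ψ, hΨ, fun V hVK => ?_⟩
  rw [e V hVK]
  exact hV V hVK

/-- **R-COMP + R-LIN**: `φ^* D ∼ D` ⟹ `pb (σ ≫ φ) D / pb σ D` is principal. -/
theorem isVP_compPt [IsProper f] (σ : Pt f E) (φ : A ⟶ A) (hφ : φ ≫ f = f)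
    {D : A → A.functionField} (hD : IsCartier D) (hl : LinEquiv (pull φ D) D) :
    IsVP K (pb (compPt σ φ hφ) D / pb σ D) := by
  refine isVP_congr' (isVP_of_linEquiv σ (H14.stmt_PULLC φ D hD) hD hl) (fun V hV => ?_)
  simp only [Pi.div_apply]
  rw [pb_compPt σ φ hφ hD V hV]

/-- The inverse of a point is the composition with `[-1]`. -/
theorem inv_val (L : RelativeGroupLaw K f) (σ : Pt f E) :
    (L.inv (str K E) σ).1 = σ.1 ≫ negHom L := by
  have h := H55.inv_natural L f (str K E) σ.1 σ.2 RelativeGroupLaw.idPoint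
  have h2 : schemeHomOverComp σ.1 σ.2 (RelativeGroupLaw.idPoint (f := f)) = σ := by
    apply Subtype.ext
    rw [schemeHomOverComp_coe]
    exact Category.comp_id _
  rw [h2] at h
  rw [← h]
  rfl

theorem inv_eq_compPt (L : RelativeGroupLaw K f) (σ : Pt f E) :
    L.inv (str K E) σ = compPt σ (negHom L) (H55.negHom_comp_structure L) :=
  Subtype.ext (inv_val L σ)

/-- **R-SYM**: for a symmetric Cartier divisor, `pb σ⁻¹ D / pb σ D` is principal. -/
theorem isVP_inv [IsProper f] (L : RelativeGroupLaw K f) (σ : Pt f E)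
    {D : A → A.functionField} (hD : IsCartier D) (hl : LinEquiv (pull (negHom L) D) D) :
    letI : Group (Pt f E) := L.pointGroup (str K E)
    IsVP K (pb σ⁻¹ D / pb σ D) := by
  have h := isVP_compPt σ (negHom L) (H55.negHom_comp_structure L) hD hl
  rw [← inv_eq_compPt L σ] at h
  exact h

/-- **R-SYM** with `IsVPt`. -/
theorem isVPt_inv [IsProper f] (L : RelativeGroupLaw K f) (σ : Pt f E)
    {D : A → A.functionField} (hD : IsCartier D) (hl : LinEquiv (pull (negHom L) D) D) :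
    letI : Group (Pt f E) := L.pointGroup (str K E)
    IsVPt K (pb σ⁻¹ D / pb σ D) :=
  ⟨1, Nat.one_pos, by rw [pow_one]; exact isVP_inv L σ hD hl⟩

end Fermat.Agent.S26.C.X.H83
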