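import Mathlib
import Fermat.Agent.S26.C.X.Defs
import Fermat.Agent.S26.C.X.H55_Rules
import Fermat.Agent.S26.C.X.H8_Cube3
import Fermat.Agent.S26.C.X.H63_RulesBased
import Fermat.Agent.S26.C.X.H83_RSym

/-!
# S26 (C), cube side, leaf XQUAD_of (helper55): `CENTRE → CURVES → CUBEPC → XQUAD`

The induction of `(n s)^* D ∼ n² s^* D` in the valuative language, from the theorem of the cube
for `Θ(s^(m+1), s, s⁻¹)`.  Two rules are inputs:

* `Rule_BASED` : the points with centre `0` at a `K`-place form a subgroup (helper63,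
  `H63_RulesBased.lean`);
* `Rule_SYM`   : `(σ⁻¹)^* D ∼ σ^* D` for a symmetric divisor `D` (helper83, `H83_RSym.lean`).

Result: `stmt_XQUAD_of : Stmt_XQUAD_of`.
-/

set_option autoImplicit false
set_option linter.style.haveILetI false
set_option linter.unusedSectionVars false

open CategoryTheory CategoryTheory.Limits AlgebraicGeometry NeronModelInfra GoodReductionJacobian
open scoped IntermediateField

universe u

namespace Fermat.Agent.S26.C.X.H55

/-- **R-BASED**: the points with centre `0` at a `K`-place form a subgroup. -/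
def Rule_BASED : Prop :=
  ∀ (K : Type u) [Field K] {A : Scheme.{u}} (f : A ⟶ Spec (CommRingCat.of K))
    (L : RelativeGroupLaw K f) (g : ℕ), IsAVg K f L g →
    ∀ (E : Type u) [Field E] [Algebra K E] (o : ValuationSubring E), IsKPlace K o →
    ∀ σ σ' : Pt f E, IsBased L σ o → IsBased L σ' o →
      IsBased L (L.mul (str K E) σ σ') o ∧ IsBased L (L.inv (str K E) σ) o

/-- **R-SYM**: `(σ⁻¹)^* D ∼ σ^* D` for a symmetric divisor `D`. -/
def Rule_SYM : Prop :=
  ∀ (K : Type u) [Field K] {A : Scheme.{u}} (f : A ⟶ Spec (CommRingCat.of K))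
    (L : RelativeGroupLaw K f) (g : ℕ), IsAVg K f L g → ∀ [IsIntegral A]
    (E : Type u) [Field E] [Algebra K E] (σ : Pt f E) (D : A → A.functionField),
    IsCartier D → LinEquiv (pull (negHom L) D) D →
      IsVP K (pb (L.inv (str K E) σ) D / pb σ D)

section Based

variable {K : Type u} [Field K] {A : Scheme.{u}} {f : A ⟶ Spec (CommRingCat.of K)}
  {L : RelativeGroupLaw K f} {g : ℕ} {E : Type u} [Field E] [Algebra K E]

theorem isBased_one [IsIntegral A] (o : ValuationSubring E) (ho : IsKPlace K o) :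
    IsBased L (L.one (str K E)) o :=
  H8.isCentre_one L o ho.1

theorem isBased_pow [IsIntegral A] (hB : Rule_BASED.{u}) (hAV : IsAVg K f L g)
    (o : ValuationSubring E) (ho : IsKPlace K o) (σ : Pt f E) (hσ : IsBased L σ o) (m : ℕ) :
    letI : Group (Pt f E) := L.pointGroup (str K E)
    IsBased L (σ ^ m) o := by
  letI : Group (Pt f E) := L.pointGroup (str K E)
  induction m with
  | zero =>
    rw [pow_zero]
    exact isBased_one o ho
  | succ m ih =>
    rw [pow_succ]
    exact (hB K f L g hAV E o ho _ _ ih hσ).1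

theorem isBased_list_prod [IsIntegral A] (hB : Rule_BASED.{u}) (hAV : IsAVg K f L g)
    (o : ValuationSubring E) (ho : IsKPlace K o) (l : List (Pt f E))
    (hl : ∀ σ ∈ l, IsBased L σ o) :
    letI : Group (Pt f E) := L.pointGroup (str K E)
    IsBased L l.prod o := by
  letI : Group (Pt f E) := L.pointGroup (str K E)
  induction l with
  | nil =>
    rw [List.prod_nil]
    exact isBased_one o ho
  | cons a l ih =>
    rw [List.prod_cons]
    exact (hB K f L g hAV E o ho _ _ (hl a List.mem_cons_self)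
      (ih fun σ hσ => hl σ (List.mem_cons_of_mem _ hσ))).1

theorem isBased_prodPt [IsIntegral A] (hB : Rule_BASED.{u}) (hAV : IsAVg K f L g)
    (o : ValuationSubring E) (ho : IsKPlace K o) {ι : Type} (F : ι → IntermediateField K E)
    (l : List ι) (ξ : ∀ i, Pt f (F i)) (hξ : ∀ i ∈ l, IsBased L (incPt (ξ i)) o) :
    IsBased L (prodPt L F l ξ) o := by
  unfold prodPt
  refine isBased_list_prod hB hAV o ho _ fun σ hσ => ?_
  obtain ⟨i, hi, rfl⟩ := List.mem_map.mp hσ
  exact hξ i hi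

end Based

section Theta

variable {K : Type u} [Field K] {A : Scheme.{u}} {f : A ⟶ Spec (CommRingCat.of K)}
  [IsIntegral A] {E : Type u} [Field E] [Algebra K E]

/-- `Θ(s^(m+1), s, s⁻¹)` in terms of the `(s^k)^* D`. -/
theorem thetaV_pow (hC : Stmt_CENTRE.{u}) [IsProper f] (L : RelativeGroupLaw K f) (s : Pt f E)
    (D : A → A.functionField) (hD : IsCartier D) (m : ℕ) (V : ValuationSubring E)
    (hV : OverK K V) :
    letI : Group (Pt f E) := L.pointGroup (str K E)
    thetaV L (s ^ (m + 1)) s s⁻¹ D V =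
      pb (s ^ (m + 1)) D V * pb (s ^ (m + 1)) D V * pb s D V * pb s⁻¹ D V /
        (pb (s ^ (m + 2)) D V * pb (s ^ m) D V) := by
  letI : Group (Pt f E) := L.pointGroup (str K E)
  have e1 : s ^ (m + 1) * s * s⁻¹ = s ^ (m + 1) := mul_inv_cancel_right _ _
  have e2 : s ^ (m + 1) * s = s ^ (m + 2) := (pow_succ s (m + 1)).symm
  have e3 : s ^ (m + 1) * s⁻¹ = s ^ m := by rw [pow_succ, mul_inv_cancel_right]
  have e4 : s * s⁻¹ = 1 := mul_inv_cancel s
  have e5 : pb (1 : Pt f E) D V = 1 := H8.pb_one hC L D hD V hV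
  change pb (s ^ (m + 1) * s * s⁻¹) D V * pb (s ^ (m + 1)) D V * pb s D V * pb s⁻¹ D V /
    (pb (s ^ (m + 1) * s) D V * pb (s ^ (m + 1) * s⁻¹) D V * pb (s * s⁻¹) D V) = _
  rw [e1, e2, e3, e4, e5, mul_one]

/-- The algebra of the induction step. -/
theorem quad_step_alg (x y0 y1 y2 r : E) (m : ℕ) (hx : x ≠ 0) (hy0 : y0 ≠ 0) (hy1 : y1 ≠ 0)
    (hy2 : y2 ≠ 0) (hr : r ≠ 0) :
    (y1 / x ^ ((m + 1) ^ 2)) ^ 2 * (r / x) /
        (y1 * y1 * x * r / (y2 * y0) * (y0 / x ^ (m ^ 2))) =
      y2 / x ^ ((m + 2) ^ 2) := by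
  have hp : x ^ (m ^ 2) ≠ 0 := pow_ne_zero _ hx
  have hq : x ^ ((m + 1) ^ 2) ≠ 0 := pow_ne_zero _ hx
  have ht : x ^ ((m + 2) ^ 2) ≠ 0 := pow_ne_zero _ hx
  have hrel : x ^ ((m + 2) ^ 2) * x ^ (m ^ 2) = (x ^ ((m + 1) ^ 2)) ^ 2 * x ^ 2 := by
    rw [← pow_add, ← pow_mul, ← pow_add]
    congr 1
    ring
  generalize x ^ (m ^ 2) = p at hp hrel
  generalize x ^ ((m + 1) ^ 2) = q at hq hrel
  generalize x ^ ((m + 2) ^ 2) = t at ht hrel
  have ht' : t = q ^ 2 * x ^ 2 / p := by
    rw [eq_div_iff hp]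
    exact hrel
  rw [ht']
  field_simp

end Theta

/-- **XQUAD from CURVES + CUBEPC**, given the rules R-BASED and R-SYM. -/
theorem stmt_XQUAD_of_rules (hB : Rule_BASED.{u}) (hS : Rule_SYM.{u}) : Stmt_XQUAD_of.{u} := by
  intro hC hCurves hCube K _ A f L g hAV hg _
  haveI : IsProper f := hAV.bundle.proper
  obtain ⟨E, iF, iA, F, o, ξ, ψ, hF, ho, hξ, hdom, hfin⟩ := hCurves K f L g hAV hg
  letI : Group (Pt f E) := L.pointGroup (str K E)
  refine ⟨E, iF, iA, prodPt L F (List.finRange g) ξ, ψ, hdom, hfin, fun D hD hsym n _ => ?_⟩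
  set s : Pt f E := prodPt L F (List.finRange g) ξ with hs
  have hne : ∀ (σ : Pt f E) (V : ValuationSubring E), OverK K V → pb σ D V ≠ 0 :=
    fun σ V hV => H8.pb_ne_zero hC σ D hD V hV
  have hsB : IsBased L s o :=
    isBased_prodPt hB hAV o ho F _ ξ fun i _ => hξ i
  have hsB' : IsBased L s⁻¹ o := (hB K f L g hAV E o ho s s hsB hsB).2
  have hR : IsVPt K (pb s⁻¹ D / pb s D) := isVPt_of_isVP (hS K f L g hAV E s D hD hsym)
  -- the theorem of the cube for `Θ(s^(m+1), s, s⁻¹)`
  have hΘ : ∀ m : ℕ, IsVPt K (thetaV L (s ^ (m + 1)) s s⁻¹ D) := by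
    intro m
    have h := hCube K f L g hAV E (Fin g) F hF o ho (List.finRange g)
      (fun i => letI : Group (Pt f (F i)) := L.pointGroup (str K (F i)); ξ i ^ (m + 1)) s s⁻¹
      (List.nodup_finRange g)
      (fun i _ => by
        letI : Group (Pt f (F i)) := L.pointGroup (str K (F i))
        have := isBased_pow hB hAV o ho (incPt (ξ i)) (hξ i) (m + 1)
        rwa [← incPt_pow] at this)
      hsB hsB' D hD
    rwa [← prodPt_pow L hAV.comm F (List.finRange g) ξ (m + 1)] at h
  -- the induction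
  have key : ∀ m : ℕ, IsVPt K (pb (s ^ m) D / pb s D ^ (m ^ 2)) ∧
      IsVPt K (pb (s ^ (m + 1)) D / pb s D ^ ((m + 1) ^ 2)) := by
    intro m
    induction m with
    | zero =>
      constructor
      · refine isVPt_congr (fun V hV => ?_) isVPt_one
        rw [Pi.div_apply, Pi.pow_apply, show (s ^ 0 : Pt f E) = 1 from pow_zero s,
          show pb (1 : Pt f E) D V = 1 from H8.pb_one hC L D hD V hV]
        simp
      · refine isVPt_congr (fun V hV => ?_) isVPt_one
        rw [Pi.div_apply, Pi.pow_apply, show (s ^ (0 + 1) : Pt f E) = s from pow_one s]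
        simp [hne s V hV]
    | succ m ih =>
      refine ⟨ih.2, ?_⟩
      have h1 := isVPt_div (isVPt_mul (isVPt_pow ih.2 2) hR) (isVPt_mul (hΘ m) ih.1)
      refine isVPt_congr (fun V hV => ?_) h1
      simp only [Pi.div_apply, Pi.mul_apply, Pi.pow_apply]
      rw [thetaV_pow hC L s D hD m V hV]
      exact quad_step_alg (pb s D V) (pb (s ^ m) D V) (pb (s ^ (m + 1)) D V)
        (pb (s ^ (m + 2)) D V) (pb s⁻¹ D V) m (hne _ V hV) (hne _ V hV) (hne _ V hV)
        (hne _ V hV) (hne _ V hV)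
  exact (key n).1

theorem rule_BASED : Rule_BASED.{u} := by
  intro K _ A f L g hAV E _ _ o ho σ σ' h h'
  haveI : IsAlgClosed K := hAV.algClosed
  haveI : IsProper f := hAV.bundle.proper
  exact ⟨H63.isBased_mul' L o ho h h', H63.isBased_inv' L o ho h⟩

theorem rule_SYM : Rule_SYM.{u} := by
  intro K _ A f L g hAV _ E _ _ σ D hD hl
  haveI : IsProper f := hAV.bundle.proper
  exact H83.isVP_inv L σ hD hl

/-- **XQUAD from CURVES + CUBEPC**. -/
theorem stmt_XQUAD_of : Stmt_XQUAD_of.{u} :=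
  stmt_XQUAD_of_rules rule_BASED rule_SYM

end Fermat.Agent.S26.C.X.H55
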