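import Mathlib
import Fermat.Agent.S26.C.X.Defs
import Fermat.Agent.S26.C.X.H69_CentreX
import Fermat.Agent.S26.C.X.H90_Spec
import Fermat.Agent.S26.C.X.H69_Desc
import Fermat.Agent.S26.C.X.H8_Cube3
import Fermat.Agent.S26.C.X.H55_XQuad
import Fermat.Agent.S26.C.X.H80_PCoreOfXQuad

/-!
# S26 (C), cube side: the final wiring (helper49)

`pcore_of_leaves` : `C.Stmt_PCORE` from the leaves which are still open
(`PRIG`, `CURVES`, `CUBEPC_of`); the closed leaves (`CENTRE`, `SPEC`, `DESC`, `CUBE3_of`,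
`XQUAD_of`, `PCORE_of_XQUAD`) are plugged in.
-/

set_option autoImplicit false

universe u

namespace Fermat.Agent.S26.C.X.H49

/-- The cube side from its open leaves. -/
theorem pcore_of_leaves (hP : Stmt_PRIG.{u}) (hCV : Stmt_CURVES.{u})
    (hCP : Stmt_CUBEPC_of.{u}) : Stmt_PCORE.{u} :=
  H80.stmt_PCORE_of_XQUAD H69.stmt_CENTRE
    (H55.stmt_XQUAD_of H69.stmt_CENTRE hCV
      (hCP H69.stmt_CENTRE H90.stmt_SPEC H69.stmt_DESC
        (H8.stmt_CUBE3_of H69.stmt_CENTRE hP)))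

end Fermat.Agent.S26.C.X.H49
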