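import Mathlib
import Fermat.Agent.S26.C.X.Defs
import Fermat.Agent.S26.C.X.H69_CentreX
import Fermat.Agent.S26.C.X.H69_PullAt
import Fermat.Agent.S26.C.X.H69_Desc

/-!
# S26 (C), cube side, PRIG/BRIDGE (helper69): FIN-SUPP, abstract form

`f : A ⟶ Spec K` proper, `σ ∈ A(E)`, `D` Cartier.  There is a FINITE set `s ⊆ E` such that
`pb σ D V ∈ Vˣ` for every valuation ring `V ⊇ K` of `E` containing `s`
(`s` = the values at `σ` of generators of the coordinate ring of an affine neighbourhood of
`img σ` on which `D (img σ)` is a local equation of `D`).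

For a function field of one variable: every element has finitely many poles, so
`pb σ D (𝒪_Q) ∈ 𝒪_Qˣ` for almost all places `Q`.
-/

set_option autoImplicit false
set_option linter.style.haveILetI false
set_option linter.unusedSectionVars false

open CategoryTheory CategoryTheory.Limits AlgebraicGeometry IsLocalRing NeronModelInfra
  GoodReductionJacobian

universe u

namespace Fermat.Agent.S26.C.X.H69

variable {K : Type u} [Field K] {A : Scheme.{u}} {f : A ⟶ Spec (CommRingCat.of K)}
variable {E : Type u} [Field E] [Algebra K E]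

/-- The local homomorphism of `Spec φ` at the closed point, on global sections. -/
theorem germ_top_stalkClosedPointTo_of_eq {R S : CommRingCat.{u}} [IsLocalRing S]
    (φ : R ⟶ S) (g : Spec S ⟶ Spec R) (hg : g = Spec.map φ) :
    (Spec R).presheaf.germ ⊤ (g (closedPoint S)) trivial ≫ Scheme.stalkClosedPointTo g =
      (Scheme.ΓSpecIso R).hom ≫ φ := by
  subst hg
  exact Scheme.germ_stalkClosedPointTo_Spec φ

/-- The value at `σ` of a constant. -/
theorem germ_const (σ : Pt f E) (x : Γ(Spec (CommRingCat.of K), ⊤)) :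
    germ σ ((A.presheaf.germ ⊤ (img σ) trivial).hom ((f.appTop).hom x)) =
      algebraMap K E ((Scheme.ΓSpecIso (CommRingCat.of K)).hom.hom x) := by
  have h1 := germ_top_stalkClosedPointTo_of_eq (CommRingCat.ofHom (algebraMap K E))
    (σ.1 ≫ f) σ.2
  rw [Scheme.stalkClosedPointTo_comp] at h1
  have h3 := congrArg (fun ψ => ψ.hom x) h1
  have h2 := Scheme.Hom.germ_stalkMap_apply f ⊤ (σ.1 (closedPoint (CommRingCat.of E))) trivial x
  have h4 : (Scheme.stalkClosedPointTo σ.1).hom
      ((f.stalkMap (σ.1 (closedPoint (CommRingCat.of E)))).hom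
        (((Spec (CommRingCat.of K)).presheaf.germ ⊤
          (f (σ.1 (closedPoint (CommRingCat.of E)))) trivial).hom x)) =
      algebraMap K E ((Scheme.ΓSpecIso (CommRingCat.of K)).hom.hom x) := h3
  have h5 : (f.stalkMap (σ.1 (closedPoint (CommRingCat.of E)))).hom
        (((Spec (CommRingCat.of K)).presheaf.germ ⊤
          (f (σ.1 (closedPoint (CommRingCat.of E)))) trivial).hom x) =
      (A.presheaf.germ ⊤ (σ.1 (closedPoint (CommRingCat.of E))) trivial).hom
        ((f.appTop).hom x) := h2
  exact (congrArg (Scheme.stalkClosedPointTo σ.1).hom h5).symm.trans h4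

/-- The value at `σ` of a section over an open containing `img σ`. -/
noncomputable def valU (σ : Pt f E) (U : A.Opens) (hU : img σ ∈ U) : Γ(A, U) →+* E :=
  (germ σ).comp (A.presheaf.germ U (img σ) hU).hom

/-- `σ` factors through every affine open containing `img σ`. -/
theorem factor_affine (σ : Pt f E) {U : A.Opens} (hU : IsAffineOpen U) (hη : img σ ∈ U) :
    σ.1 = Spec.map (CommRingCat.ofHom (valU σ U hη)) ≫ hU.fromSpec := by
  conv_lhs => rw [factor_germ σ, ← hU.fromSpecStalk_eq_fromSpecStalk hη]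
  unfold IsAffineOpen.fromSpecStalk
  rw [← Category.assoc, ← Spec.map_comp]
  rfl

/-- The value of a constant, over `U`. -/
theorem valU_const (σ : Pt f E) (U : A.Opens) (hη : img σ ∈ U)
    (x : Γ(Spec (CommRingCat.of K), ⊤)) :
    valU σ U hη ((f.appLE ⊤ U le_top).hom x) =
      algebraMap K E ((Scheme.ΓSpecIso (CommRingCat.of K)).hom.hom x) := by
  rw [← germ_const σ x]
  unfold valU
  have h : (A.presheaf.germ U (img σ) hη).hom ((f.appLE ⊤ U le_top).hom x) =
      (A.presheaf.germ ⊤ (img σ) trivial).hom ((f.appTop).hom x) := by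
    unfold Scheme.Hom.appLE
    exact TopCat.Presheaf.germ_res_apply A.presheaf (homOfLE le_top) (img σ) hη _
  simp only [RingHom.coe_comp, Function.comp_apply]
  rw [h]

/-- If `V ⊇ K` contains the values of the sections over the affine open `U ∋ img σ`, the
centre of `σ` at `V` lies in `U`. -/
theorem centre_mem_of_valU [IsSeparated f] (σ : Pt f E) {U : A.Opens} (hU : IsAffineOpen U)
    (hη : img σ ∈ U) (V : ValuationSubring E) (hV : OverK K V)
    (h : ∀ b : Γ(A, U), valU σ U hη b ∈ V) : centre σ V ∈ U := by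
  let φ : Γ(A, U) →+* V := (valU σ U hη).codRestrict V.toSubring h
  have hτ : Spec.map (CommRingCat.ofHom (algebraMap V E)) ≫
      (Spec.map (CommRingCat.ofHom φ) ≫ hU.fromSpec) = σ.1 := by
    rw [factor_affine σ hU hη, ← Category.assoc, ← Spec.map_comp]
    rfl
  have hc : IsCentre σ V ((Spec.map (CommRingCat.ofHom φ) ≫ hU.fromSpec)
      (closedPoint (CommRingCat.of V))) := ⟨_, hτ, rfl⟩
  rw [centre_eq σ V hV hc]
  have hr : (Spec.map (CommRingCat.ofHom φ) ≫ hU.fromSpec) (closedPoint (CommRingCat.of V)) ∈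
      Set.range hU.fromSpec := ⟨_, rfl⟩
  rw [hU.range_fromSpec] at hr
  exact hr

/-- **FIN-SUPP**, abstract form. -/
theorem finSupp_abs [IsProper f] [IsIntegral A] (σ : Pt f E) {D : A → A.functionField}
    (hD : IsCartier D) :
    ∃ s : Finset E, ∀ V : ValuationSubring E, OverK K V → (∀ z ∈ s, z ∈ V) →
      UIn V (pb σ D V) := by
  classical
  obtain ⟨N, hηN, hN⟩ := hD.2 (img σ)
  obtain ⟨_, ⟨U, hU, rfl⟩, hηU, hUN⟩ :=
    A.isBasis_affineOpens.exists_subset_of_mem_open hηN N.isOpen
  have hft : (f.appLE ⊤ U le_top).hom.FiniteType :=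
    HasRingHomProperty.appLE @LocallyOfFiniteType f inferInstance
      ⟨⊤, isAffineOpen_top _⟩ ⟨U, hU⟩ le_top
  letI alg : Algebra Γ(Spec (CommRingCat.of K), ⊤) Γ(A, U) := (f.appLE ⊤ U le_top).hom.toAlgebra
  obtain ⟨S, hS⟩ := (hft : Algebra.FiniteType Γ(Spec (CommRingCat.of K), ⊤) Γ(A, U)).out
  refine ⟨S.image (valU σ U hηU), fun V hV hsV => ?_⟩
  have hmem : ∀ b : Γ(A, U), valU σ U hηU b ∈ V := by
    intro b
    have hb : b ∈ Algebra.adjoin Γ(Spec (CommRingCat.of K), ⊤) (S : Set Γ(A, U)) := by
      rw [hS]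
      exact Algebra.mem_top
    induction hb using Algebra.adjoin_induction with
    | mem x hx => exact hsV _ (Finset.mem_image_of_mem _ hx)
    | algebraMap r =>
      have e : algebraMap Γ(Spec (CommRingCat.of K), ⊤) Γ(A, U) r =
          (f.appLE ⊤ U le_top).hom r := rfl
      rw [e, valU_const]
      exact hV _
    | add x y _ _ hx hy =>
      rw [map_add]
      exact V.add_mem _ _ hx hy
    | mul x y _ _ hx hy =>
      rw [map_mul]
      exact V.mul_mem _ _ hx hy
  have hcU : centre σ V ∈ U := centre_mem_of_valU σ hU hηU V hV hmem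
  have hu : IsUnitAt (centre σ V) (D (img σ) / D (centre σ V)) := hN _ (hUN hcU)
  have h := pullAt_mem_of_isUnitAt σ V (isCentre_centre σ V hV) (H14.isUnitAt_inv hu)
  rw [inv_div] at h
  exact h

end Fermat.Agent.S26.C.X.H69
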