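import Mathlib
import Fermat.Agent.S26.C.X.Defs
import Fermat.Agent.S26.C.X.H69_CentreX
import Fermat.Agent.S26.C.X.H69_PullAt
import Fermat.Agent.S26.C.X.H69_Desc
import Fermat.Agent.S26.C.H13_RatCentre

/-!
# S26 (C), cube side, PRIG/BRIDGE (helper69): generisation and VP-KPLACE

* `IsGenV K Λ` : the valuative divisor `Λ` has no zero and satisfies GENERISATION:
  `V ≤ W` (both `⊇ K`) ⟹ `Λ V / Λ W ∈ Wˣ`.  True for `pb σ D` (`D` Cartier, `f` proper), stable
  under products, quotients, powers: `isGenV_pb`, `IsGenV.mul/div/inv/pow/zpow/prod`,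
  `isGenV_thetaV`.
* `isVP_of_kplaces` (**VP-KPLACE**, helper27's R1): for `Λ` with generisation, `K` algebraically
  closed: `Ψ / Λ V ∈ Vˣ` for all `K`-PLACES `V` ⟹ `IsVP K Λ` (witness `Ψ`).
* `isVP_iff`, `UIn` conversions.
-/

set_option autoImplicit false
set_option linter.style.haveILetI false
set_option linter.unusedSectionVars false

open CategoryTheory CategoryTheory.Limits AlgebraicGeometry IsLocalRing NeronModelInfra
  GoodReductionJacobian

universe u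

namespace Fermat.Agent.S26.C.X.H69

section UIn

variable {E : Type*} [Field E]

theorem UIn.of_le {V W : ValuationSubring E} (h : V ≤ W) {x : E} (hx : UIn V x) : UIn W x :=
  ⟨h hx.1, h hx.2⟩

theorem uIn_div_iff {V : ValuationSubring E} {Ψ l : E} :
    UIn V (Ψ / l) ↔ Ψ * l⁻¹ ∈ V ∧ l * Ψ⁻¹ ∈ V := by
  unfold UIn
  rw [inv_div, div_eq_mul_inv, div_eq_mul_inv]

end UIn

section Gen

variable (K : Type u) [Field K] {E : Type u} [Field E] [Algebra K E]

/-- `Λ` has no zero and satisfies generisation. -/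
def IsGenV (Λ : ValuationSubring E → E) : Prop :=
  (∀ V : ValuationSubring E, OverK K V → Λ V ≠ 0) ∧
    ∀ V W : ValuationSubring E, OverK K V → V ≤ W → UIn W (Λ V / Λ W)

variable {K}

theorem isVP_iff {Λ : ValuationSubring E → E} :
    IsVP K Λ ↔ ∃ Ψ : E, Ψ ≠ 0 ∧ ∀ V : ValuationSubring E, OverK K V → UIn V (Ψ / Λ V) := by
  unfold IsVP
  simp only [uIn_div_iff]

theorem overK_of_le {V W : ValuationSubring E} (hV : OverK K V) (h : V ≤ W) : OverK K W :=
  fun a => h (hV a)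

theorem IsGenV.one : IsGenV K (1 : ValuationSubring E → E) :=
  ⟨fun _ _ => one_ne_zero, fun _ W _ _ => by
    simp only [Pi.one_apply, div_one]
    exact UIn.one W⟩

theorem IsGenV.mul {Λ₁ Λ₂ : ValuationSubring E → E} (h₁ : IsGenV K Λ₁) (h₂ : IsGenV K Λ₂) :
    IsGenV K (Λ₁ * Λ₂) :=
  ⟨fun V hV => mul_ne_zero (h₁.1 V hV) (h₂.1 V hV), fun V W hV hVW => by
    have e : (Λ₁ * Λ₂) V / (Λ₁ * Λ₂) W = Λ₁ V / Λ₁ W * (Λ₂ V / Λ₂ W) := by
      simp only [Pi.mul_apply]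
      rw [mul_div_mul_comm]
    rw [e]
    exact (h₁.2 V W hV hVW).mul (h₂.2 V W hV hVW)⟩

theorem IsGenV.inv {Λ : ValuationSubring E → E} (h : IsGenV K Λ) : IsGenV K Λ⁻¹ :=
  ⟨fun V hV => inv_ne_zero (h.1 V hV), fun V W hV hVW => by
    have e : Λ⁻¹ V / Λ⁻¹ W = (Λ V / Λ W)⁻¹ := by
      simp only [Pi.inv_apply]
      rw [inv_div_inv, inv_div]
    rw [e]
    exact (h.2 V W hV hVW).inv⟩

theorem IsGenV.div {Λ₁ Λ₂ : ValuationSubring E → E} (h₁ : IsGenV K Λ₁) (h₂ : IsGenV K Λ₂) :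
    IsGenV K (Λ₁ / Λ₂) := by
  rw [div_eq_mul_inv]
  exact h₁.mul h₂.inv

theorem IsGenV.pow {Λ : ValuationSubring E → E} (h : IsGenV K Λ) (n : ℕ) : IsGenV K (Λ ^ n) := by
  induction n with
  | zero =>
    rw [pow_zero]
    exact IsGenV.one
  | succ n ih =>
    rw [pow_succ]
    exact ih.mul h

theorem IsGenV.zpow {Λ : ValuationSubring E → E} (h : IsGenV K Λ) (n : ℤ) :
    IsGenV K (Λ ^ n) := by
  cases n with
  | ofNat m =>
    rw [Int.ofNat_eq_natCast, zpow_natCast]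
    exact h.pow m
  | negSucc m =>
    rw [zpow_negSucc]
    exact (h.pow (m + 1)).inv

theorem IsGenV.prod {ι : Type*} (s : Finset ι) (Λ : ι → ValuationSubring E → E)
    (h : ∀ i ∈ s, IsGenV K (Λ i)) : IsGenV K (∏ i ∈ s, Λ i) := by
  classical
  induction s using Finset.induction_on with
  | empty =>
    rw [Finset.prod_empty]
    exact IsGenV.one
  | insert a s ha ih =>
    rw [Finset.prod_insert ha]
    exact (h a (Finset.mem_insert_self a s)).mul
      (ih fun i hi => h i (Finset.mem_insert_of_mem hi))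

/-- **VP-KPLACE**: for a valuative divisor with generisation, principality is tested at the
`K`-places only. -/
theorem isVP_of_kplaces [IsAlgClosed K] {Λ : ValuationSubring E → E} (hΛ : IsGenV K Λ)
    (Ψ : E) (hΨ : Ψ ≠ 0)
    (h : ∀ V : ValuationSubring E, IsKPlace K V → UIn V (Ψ / Λ V)) : IsVP K Λ := by
  rw [isVP_iff]
  refine ⟨Ψ, hΨ, fun W hW => ?_⟩
  obtain ⟨V, hVW, hV1, hV2⟩ := C.H13.exists_le_rational K W hW
  have hVK : IsKPlace K V := ⟨hV1, hV2⟩
  have h1 : UIn W (Ψ / Λ V) := (h V hVK).of_le hVW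
  have h2 : UIn W (Λ V / Λ W) := hΛ.2 V W hV1 hVW
  have e : Ψ / Λ W = Ψ / Λ V * (Λ V / Λ W) := by
    have n1 : Λ V ≠ 0 := hΛ.1 V hV1
    have n2 : Λ W ≠ 0 := hΛ.1 W hW
    field_simp
  rw [e]
  exact h1.mul h2

/-- **VP-KPLACE**, torsion form. -/
theorem isVPt_of_kplaces [IsAlgClosed K] {Λ : ValuationSubring E → E} (hΛ : IsGenV K Λ)
    (k : ℕ) (hk : 0 < k) (Ψ : E) (hΨ : Ψ ≠ 0)
    (h : ∀ V : ValuationSubring E, IsKPlace K V → UIn V (Ψ / Λ V ^ k)) : IsVPt K Λ :=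
  ⟨k, hk, isVP_of_kplaces (hΛ.pow k) Ψ hΨ fun V hV => by
    rw [Pi.pow_apply]
    exact h V hV⟩

end Gen

section Pb

variable {K : Type u} [Field K] {A : Scheme.{u}} {f : A ⟶ Spec (CommRingCat.of K)}
variable {E : Type u} [Field E] [Algebra K E] [IsIntegral A] [IsProper f]

/-- `pb σ D` has generisation. -/
theorem isGenV_pb (σ : Pt f E) {D : A → A.functionField} (hD : IsCartier D) :
    IsGenV K (pb σ D) :=
  ⟨fun V hV => pb_ne_zero σ hD V hV, fun _ _ hV hVW => pb_div_pb_mem σ hD hV hVW⟩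

/-- `thetaV` has generisation. -/
theorem isGenV_thetaV (L : RelativeGroupLaw K f) (x₁ x₂ x₃ : Pt f E)
    {D : A → A.functionField} (hD : IsCartier D) : IsGenV K (thetaV L x₁ x₂ x₃ D) := by
  unfold thetaV
  exact ((((isGenV_pb _ hD).mul (isGenV_pb _ hD)).mul (isGenV_pb _ hD)).mul
    (isGenV_pb _ hD)).div (((isGenV_pb _ hD).mul (isGenV_pb _ hD)).mul (isGenV_pb _ hD))

/-- `∏ pb (σ i) D ^ ε i` has generisation. -/
theorem isGenV_prod_pb {ι : Type*} [Fintype ι] (σ : ι → Pt f E) (ε : ι → ℤ)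
    {D : A → A.functionField} (hD : IsCartier D) : IsGenV K (∏ i, pb (σ i) D ^ ε i) :=
  IsGenV.prod _ _ fun i _ => (isGenV_pb (σ i) hD).zpow (ε i)

end Pb

end Fermat.Agent.S26.C.X.H69
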