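import Mathlib
import Fermat.Agent.S26.C.X.Defs
import Fermat.Agent.S26.C.X.H69_FinSupp
import Fermat.Agent.S26.C.X.H69_KPlace
import Fermat.Agent.S27.REDu.H51_Ord

/-!
# S26 (C), cube side, PRIG/BRIDGE (helper69): FIN-SUPP at the places of a function field

`F / k` with principal divisors (`AlgebraicCurve.HasPrincipalDivisors k F`), `K → k → F`,
`σ ∈ A(F)`, `D` Cartier on `A`: `pb σ D (𝒪_v) ∈ 𝒪_vˣ` for almost all places `v` of `F / k`.

* `finite_poles_place` : an element of `F` has finitely many poles;
* `FinSuppP k Λ` : `Λ (𝒪_v) ∈ 𝒪_vˣ` for almost all places `v`; stable under products,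
  quotients, powers;
* `finSuppP_pb`, `finSuppP_prod_pb`, `finSuppP_thetaV`.
-/

set_option autoImplicit false
set_option linter.style.haveILetI false
set_option linter.unusedSectionVars false

open CategoryTheory CategoryTheory.Limits AlgebraicGeometry IsLocalRing NeronModelInfra
  GoodReductionJacobian AlgebraicCurve

universe u

namespace Fermat.Agent.S26.C.X.H69

section Places

variable {k F : Type*} [Field k] [Field F] [Algebra k F]

/-- An element of `F` has finitely many poles. -/
theorem finite_poles_place (hP : HasPrincipalDivisors k F) (z : F) :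
    {v : Place k F | z ∉ v.toValuationSubring}.Finite := by
  by_cases hz : z = 0
  · have e : {v : Place k F | z ∉ v.toValuationSubring} = ∅ := by
      ext v
      simp only [Set.mem_ofPred_eq, Set.mem_empty_iff_false, iff_false, not_not]
      rw [hz]
      exact v.toValuationSubring.zero_mem
    rw [e]
    exact Set.finite_empty
  · obtain ⟨D, hD, -⟩ := hP.exists_divisor z hz
    refine D.support.finite_toSet.subset fun v hv => ?_
    rw [Finset.mem_coe, Finsupp.mem_support_iff, hD v]
    have h : v.ord z < 0 := (Fermat.Agent.S27.REDu.H51.not_mem_iff_ord_neg v).1 hv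
    exact h.ne

/-- Finitely many elements have finitely many poles. -/
theorem finite_poles_finset (hP : HasPrincipalDivisors k F) (s : Finset F) :
    {v : Place k F | ¬ ∀ z ∈ s, z ∈ v.toValuationSubring}.Finite := by
  have e : {v : Place k F | ¬ ∀ z ∈ s, z ∈ v.toValuationSubring} =
      ⋃ z ∈ s, {v : Place k F | z ∉ v.toValuationSubring} := by
    ext v
    simp only [Set.mem_ofPred_eq, Set.mem_iUnion, not_forall, exists_prop]
  rw [e]
  exact s.finite_toSet.biUnion fun z _ => finite_poles_place hP z

variable (k)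

/-- `Λ (𝒪_v)` is a unit of `𝒪_v` for almost all places `v` of `F / k`. -/
def FinSuppP (Λ : ValuationSubring F → F) : Prop :=
  {v : Place k F | ¬ UIn v.toValuationSubring (Λ v.toValuationSubring)}.Finite

variable {k}

theorem FinSuppP.one : FinSuppP k (1 : ValuationSubring F → F) := by
  have e : {v : Place k F | ¬ UIn v.toValuationSubring
      ((1 : ValuationSubring F → F) v.toValuationSubring)} = ∅ := by
    ext v
    simp only [Set.mem_ofPred_eq, Set.mem_empty_iff_false, iff_false, not_not, Pi.one_apply]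
    exact UIn.one _
  unfold FinSuppP
  rw [e]
  exact Set.finite_empty

theorem FinSuppP.mul {Λ₁ Λ₂ : ValuationSubring F → F} (h₁ : FinSuppP k Λ₁)
    (h₂ : FinSuppP k Λ₂) : FinSuppP k (Λ₁ * Λ₂) := by
  refine (h₁.union h₂).subset fun v hv => ?_
  by_contra hc
  rw [Set.mem_union, not_or] at hc
  simp only [Set.mem_ofPred_eq, not_not] at hc
  exact hv (hc.1.mul hc.2)

theorem FinSuppP.inv {Λ : ValuationSubring F → F} (h : FinSuppP k Λ) : FinSuppP k Λ⁻¹ := by
  refine h.subset fun v hv => ?_
  intro hc
  exact hv hc.inv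

theorem FinSuppP.div {Λ₁ Λ₂ : ValuationSubring F → F} (h₁ : FinSuppP k Λ₁)
    (h₂ : FinSuppP k Λ₂) : FinSuppP k (Λ₁ / Λ₂) := by
  rw [div_eq_mul_inv]
  exact h₁.mul h₂.inv

theorem FinSuppP.pow {Λ : ValuationSubring F → F} (h : FinSuppP k Λ) (n : ℕ) :
    FinSuppP k (Λ ^ n) := by
  induction n with
  | zero =>
    rw [pow_zero]
    exact FinSuppP.one
  | succ n ih =>
    rw [pow_succ]
    exact ih.mul h

theorem FinSuppP.zpow {Λ : ValuationSubring F → F} (h : FinSuppP k Λ) (n : ℤ) :
    FinSuppP k (Λ ^ n) := by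
  cases n with
  | ofNat m =>
    rw [Int.ofNat_eq_natCast, zpow_natCast]
    exact h.pow m
  | negSucc m =>
    rw [zpow_negSucc]
    exact (h.pow (m + 1)).inv

theorem FinSuppP.prod {ι : Type*} (s : Finset ι) (Λ : ι → ValuationSubring F → F)
    (h : ∀ i ∈ s, FinSuppP k (Λ i)) : FinSuppP k (∏ i ∈ s, Λ i) := by
  classical
  induction s using Finset.induction_on with
  | empty =>
    rw [Finset.prod_empty]
    exact FinSuppP.one
  | insert a s ha ih =>
    rw [Finset.prod_insert ha]
    exact (h a (Finset.mem_insert_self a s)).mul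
      (ih fun i hi => h i (Finset.mem_insert_of_mem hi))

end Places

section Pb

variable {K : Type u} [Field K] {A : Scheme.{u}} {f : A ⟶ Spec (CommRingCat.of K)}
variable [IsIntegral A] [IsProper f]
variable {k : Type*} [Field k] [Algebra K k] {F : Type u} [Field F] [Algebra K F] [Algebra k F]
  [IsScalarTower K k F]

omit [IsIntegral A] [IsProper f] in
theorem overK_place (v : Place k F) : OverK K v.toValuationSubring := by
  intro a
  rw [IsScalarTower.algebraMap_apply K k F]
  exact v.algebraMap_mem' _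

/-- **FIN-SUPP**: `pb σ D (𝒪_v) ∈ 𝒪_vˣ` for almost all places `v`. -/
theorem finSuppP_pb (hP : HasPrincipalDivisors k F) (σ : Pt f F) {D : A → A.functionField}
    (hD : IsCartier D) : FinSuppP k (pb σ D) := by
  obtain ⟨s, hs⟩ := finSupp_abs σ hD
  refine (finite_poles_finset hP s).subset fun v hv => ?_
  intro hc
  exact hv (hs v.toValuationSubring (overK_place v) hc)

/-- **FIN-SUPP** for `∏ pb (σ i) D ^ ε i`. -/
theorem finSuppP_prod_pb (hP : HasPrincipalDivisors k F) {ι : Type*} [Fintype ι]
    (σ : ι → Pt f F) (ε : ι → ℤ) {D : A → A.functionField} (hD : IsCartier D) :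
    FinSuppP k (∏ i, pb (σ i) D ^ ε i) :=
  FinSuppP.prod _ _ fun i _ => (finSuppP_pb hP (σ i) hD).zpow (ε i)

/-- **FIN-SUPP** for the theta combination. -/
theorem finSuppP_thetaV (hP : HasPrincipalDivisors k F) (L : RelativeGroupLaw K f)
    (x₁ x₂ x₃ : Pt f F) {D : A → A.functionField} (hD : IsCartier D) :
    FinSuppP k (thetaV L x₁ x₂ x₃ D) := by
  unfold thetaV
  exact ((((finSuppP_pb hP _ hD).mul (finSuppP_pb hP _ hD)).mul (finSuppP_pb hP _ hD)).mul
    (finSuppP_pb hP _ hD)).div
      (((finSuppP_pb hP _ hD).mul (finSuppP_pb hP _ hD)).mul (finSuppP_pb hP _ hD))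

end Pb

end Fermat.Agent.S26.C.X.H69
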