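import Mathlib
import Fermat.Agent.S26.C.X.Defs
import Fermat.Agent.S26.C.X.H69_Desc
import Fermat.Agent.S26.C.H29_Rig
import Fermat.Agent.S26.C.H69_NormAlg

/-!
# S26 (C), cube side, PRIG step (7): KPL-DESC (helper95)

`K` algebraically closed, `E / K` a field, `Ω / E` any field extension, `ψ ∈ Ωˣ` ALGEBRAIC over `E`,
`Λ : ValuationSubring E → E` a valuative divisor with

* (ne)  `Λ V ≠ 0`,
* (gen) `V ≤ W` ⟹ `Λ V / Λ W ∈ Wˣ` (generisation; true for `pb σ D`, `D` Cartier: `H69.pb_div_pb_mem`).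

If `ψ / Λ (O ∩ E) ∈ Oˣ` for every `K`-PLACE `O` of `Ω` (helper6's CLAIM of step (6) of the PRIG
plan: the value at the diagonal place), then `Λ` is principal up to torsion on `E`:
`Λ ^ k = div (N_{E(ψ)/E} ψ)`, `k = [E(ψ) : E]`.

Proof.  Every valuation ring `V''` of `Ω` containing `K` contains a `K`-place `O`
(`exists_kplace_le`: composite with a `K`-place of the residue field, `H29.exists_kplace`).
By (gen) `ψ / Λ V ∈ V''ˣ` for every valuation ring `V ⊇ K` of `E` and every `V'' ⊇ V`; so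
`ψ / Λ V` and its inverse are integral over `V`, and the norm is a unit of `V`
(`C.H69.norm_eq_unit_mul_pow`).

* `exists_kplace_le` : a `K`-place inside every valuation ring containing `K`;
* `IsGenDiv` : (ne) + (gen), with the closure rules `isGenDiv_pb`, `.mul`, `.div`, `.inv`, `.pow`,
  `.zpow`, `.prod`, `isGenDiv_thetaV`;
* `isVPt_of_kplaces` : KPL-DESC;
* `isVP_of_kplaces` : the case `ψ ∈ E` (`IsVP` needs to be checked at `K`-places only);
* `isVPt_theta_of_kpl` : the instance for `Λ = thetaV … / thetaV …` of `Stmt_PRIG`.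
-/

set_option autoImplicit false
set_option linter.style.haveILetI false
set_option linter.unusedSectionVars false

open CategoryTheory CategoryTheory.Limits AlgebraicGeometry IsLocalRing NeronModelInfra
  GoodReductionJacobian

universe u

namespace Fermat.Agent.S26.C.X.H95

open Fermat.Agent.S26.C.X.H69 (UIn)

/-! ## A `K`-place inside every valuation ring containing `K` -/

section KPlace

variable {K : Type*} {Ω : Type*} [Field K] [Field Ω] [Algebra K Ω]

/-- Every valuation ring of `Ω` containing the algebraically closed field `K` contains a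
`K`-place of `Ω`. -/
theorem exists_kplace_le [IsAlgClosed K] (V : ValuationSubring Ω)
    (hV : ∀ a : K, algebraMap K Ω a ∈ V) :
    ∃ O : ValuationSubring Ω, C.H29.IsKPlace K O ∧ O ≤ V := by
  classical
  let ι : K →+* V := (algebraMap K Ω).codRestrict V.toSubring hV
  letI : Algebra K (ResidueField V) := ((residue V).comp ι).toAlgebra
  have halg : ∀ a : K, algebraMap K (ResidueField V) a = residue V (ι a) := fun _ => rfl
  obtain ⟨W, hW, -⟩ := C.H29.exists_kplace (K := K) (Ω := ResidueField V) ⊥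
    ((Algebra.botEquiv K (ResidueField V)) : (⊥ : Subalgebra K (ResidueField V)) →ₐ[K] K)
  refine ⟨C.H29.compVal V W, ⟨fun a => ?_, fun x hx => ?_⟩, C.H29.compVal_le V W⟩
  · exact C.H29.mem_compVal.mpr ⟨hV a, hW.1 a⟩
  · obtain ⟨hxV, hxW⟩ := C.H29.mem_compVal.mp hx
    obtain ⟨a, ha⟩ := hW.2 _ hxW
    refine ⟨a, ?_⟩
    rw [ValuationSubring.mem_nonunits_iff_or]
    by_cases h0 : x - algebraMap K Ω a = 0
    · exact Or.inl h0
    · right
      intro hinv
      obtain ⟨hiV, hiW⟩ := C.H29.mem_compVal.mp hinv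
      have hyV : x - algebraMap K Ω a ∈ V := V.sub_mem hxV (hV a)
      have e1 : residue V ⟨x - algebraMap K Ω a, hyV⟩ =
          residue V ⟨x, hxV⟩ - algebraMap K (ResidueField V) a := by
        rw [halg, ← map_sub]
        rfl
      have e2 : residue V ⟨x - algebraMap K Ω a, hyV⟩ *
          residue V ⟨(x - algebraMap K Ω a)⁻¹, hiV⟩ = 1 := by
        rw [← map_mul]
        have : (⟨x - algebraMap K Ω a, hyV⟩ : V) * ⟨(x - algebraMap K Ω a)⁻¹, hiV⟩ = 1 :=
          Subtype.ext (mul_inv_cancel₀ h0)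
        rw [this, map_one]
      rw [← e1, ValuationSubring.mem_nonunits_iff_or] at ha
      rcases ha with ha | ha
      · rw [ha, zero_mul] at e2
        exact zero_ne_one e2
      · apply ha
        rw [eq_inv_of_mul_eq_one_right e2] at hiW
        exact hiW

end KPlace

/-! ## Unit rules -/

section UInRules

variable {E : Type*} [Field E]

theorem uIn_mono {V W : ValuationSubring E} (h : V ≤ W) {x : E} (hx : UIn V x) : UIn W x :=
  ⟨h hx.1, h hx.2⟩

theorem uIn_iff_mul {V : ValuationSubring E} {x y : E} :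
    UIn V (x / y) ↔ (x * y⁻¹ ∈ V ∧ y * x⁻¹ ∈ V) := by
  unfold UIn
  rw [inv_div, div_eq_mul_inv, div_eq_mul_inv]

end UInRules

/-! ## Valuative divisors with generisation -/

section Gen

variable (K : Type u) [Field K] {E : Type u} [Field E] [Algebra K E]

/-- (ne) + (gen): `Λ V ≠ 0` and `Λ V / Λ W ∈ Wˣ` for `V ≤ W`. -/
def IsGenDiv (Λ : ValuationSubring E → E) : Prop :=
  (∀ V : ValuationSubring E, OverK K V → Λ V ≠ 0) ∧
    ∀ V W : ValuationSubring E, OverK K V → V ≤ W → UIn W (Λ V / Λ W)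

variable {K}

theorem isGenDiv_one : IsGenDiv K (1 : ValuationSubring E → E) :=
  ⟨fun _ _ => one_ne_zero, fun _ W _ _ => by
    simp only [Pi.one_apply, div_one]
    exact UIn.one W⟩

theorem IsGenDiv.mul {Λ₁ Λ₂ : ValuationSubring E → E} (h₁ : IsGenDiv K Λ₁)
    (h₂ : IsGenDiv K Λ₂) : IsGenDiv K (Λ₁ * Λ₂) :=
  ⟨fun V hV => mul_ne_zero (h₁.1 V hV) (h₂.1 V hV), fun V W hV hVW => by
    have e : (Λ₁ * Λ₂) V / (Λ₁ * Λ₂) W = Λ₁ V / Λ₁ W * (Λ₂ V / Λ₂ W) := by
      simp only [Pi.mul_apply]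
      rw [mul_div_mul_comm]
    rw [e]
    exact (h₁.2 V W hV hVW).mul (h₂.2 V W hV hVW)⟩

theorem IsGenDiv.inv {Λ : ValuationSubring E → E} (h : IsGenDiv K Λ) : IsGenDiv K Λ⁻¹ :=
  ⟨fun V hV => inv_ne_zero (h.1 V hV), fun V W hV hVW => by
    have e : Λ⁻¹ V / Λ⁻¹ W = (Λ V / Λ W)⁻¹ := by
      simp only [Pi.inv_apply]
      rw [inv_div_inv, inv_div]
    rw [e]
    exact (h.2 V W hV hVW).inv⟩

theorem IsGenDiv.div {Λ₁ Λ₂ : ValuationSubring E → E} (h₁ : IsGenDiv K Λ₁)
    (h₂ : IsGenDiv K Λ₂) : IsGenDiv K (Λ₁ / Λ₂) := by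
  rw [div_eq_mul_inv]
  exact h₁.mul h₂.inv

theorem IsGenDiv.pow {Λ : ValuationSubring E → E} (h : IsGenDiv K Λ) (n : ℕ) :
    IsGenDiv K (Λ ^ n) :=
  ⟨fun V hV => pow_ne_zero _ (h.1 V hV), fun V W hV hVW => by
    have e : (Λ ^ n) V / (Λ ^ n) W = (Λ V / Λ W) ^ n := by
      simp only [Pi.pow_apply]
      rw [div_pow]
    rw [e]
    exact (h.2 V W hV hVW).pow n⟩

theorem IsGenDiv.zpow {Λ : ValuationSubring E → E} (h : IsGenDiv K Λ) (n : ℤ) :
    IsGenDiv K (Λ ^ n) :=
  ⟨fun V hV => zpow_ne_zero _ (h.1 V hV), fun V W hV hVW => by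
    have e : (Λ ^ n) V / (Λ ^ n) W = (Λ V / Λ W) ^ n := by
      simp only [Pi.pow_apply]
      rw [div_zpow]
    rw [e]
    exact (h.2 V W hV hVW).zpow n⟩

theorem IsGenDiv.prod {ι : Type*} (s : Finset ι) (Λ : ι → ValuationSubring E → E)
    (h : ∀ i ∈ s, IsGenDiv K (Λ i)) : IsGenDiv K (∏ i ∈ s, Λ i) := by
  classical
  induction s using Finset.induction_on with
  | empty =>
    rw [Finset.prod_empty]
    exact isGenDiv_one
  | insert a s ha ih =>
    rw [Finset.prod_insert ha]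
    exact (h a (Finset.mem_insert_self a s)).mul
      (ih fun i hi => h i (Finset.mem_insert_of_mem hi))

end Gen

section GenPb

variable {K : Type u} [Field K] {A : Scheme.{u}} {f : A ⟶ Spec (CommRingCat.of K)}
variable {E : Type u} [Field E] [Algebra K E]

/-- `pb σ D` satisfies (ne) and (gen) (`H69.pb_ne_zero`, `H69.pb_div_pb_mem`). -/
theorem isGenDiv_pb [IsProper f] [IsIntegral A] (σ : Pt f E) {D : A → A.functionField}
    (hD : IsCartier D) : IsGenDiv K (pb σ D) :=
  ⟨fun V hV => H69.pb_ne_zero σ hD V hV, fun _ _ hV hVW => H69.pb_div_pb_mem σ hD hV hVW⟩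

/-- `thetaV L x₁ x₂ x₃ D` satisfies (ne) and (gen). -/
theorem isGenDiv_thetaV [IsProper f] [IsIntegral A] (L : RelativeGroupLaw K f)
    (x₁ x₂ x₃ : Pt f E) {D : A → A.functionField} (hD : IsCartier D) :
    IsGenDiv K (thetaV L x₁ x₂ x₃ D) := by
  unfold thetaV
  exact ((((isGenDiv_pb _ hD).mul (isGenDiv_pb _ hD)).mul (isGenDiv_pb _ hD)).mul
    (isGenDiv_pb _ hD)).div (((isGenDiv_pb _ hD).mul (isGenDiv_pb _ hD)).mul (isGenDiv_pb _ hD))

end GenPb

/-! ## KPL-DESC -/

section Main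

variable {K : Type u} [Field K] {E : Type u} [Field E] [Algebra K E]
variable {Ω : Type u} [Field Ω] [Algebra K Ω] [Algebra E Ω] [IsScalarTower K E Ω]

/-- the trace on `E` of a valuation ring of `Ω` containing `K` contains `K` -/
theorem overK_comap_algebraMap (O : ValuationSubring Ω)
    (hO : OverK K O) : OverK K (O.comap (algebraMap E Ω)) := by
  intro a
  rw [ValuationSubring.mem_comap, ← IsScalarTower.algebraMap_apply]
  exact hO a

/-- The key step: `ψ / Λ V` is a unit of every valuation ring of `Ω` containing `V`. -/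
theorem uIn_of_kplaces [IsAlgClosed K] {Λ : ValuationSubring E → E} (hΛ : IsGenDiv K Λ)
    (ψ : Ω)
    (hkpl : ∀ O : ValuationSubring Ω, IsKPlace K O →
      UIn O (ψ / algebraMap E Ω (Λ (O.comap (algebraMap E Ω)))))
    (V : ValuationSubring E) (hV : OverK K V) (V'' : ValuationSubring Ω)
    (hVV'' : V ≤ V''.comap (algebraMap E Ω)) :
    UIn V'' (ψ / algebraMap E Ω (Λ V)) := by
  have hV'' : OverK K V'' := by
    intro a
    have h := hVV'' (hV a)
    rwa [ValuationSubring.mem_comap, ← IsScalarTower.algebraMap_apply] at h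
  obtain ⟨O, hO, hOV⟩ := exists_kplace_le (K := K) V'' hV''
  have hO' : IsKPlace K O := ⟨hO.1, hO.2⟩
  set V₀ := O.comap (algebraMap E Ω) with hV₀
  set W := V''.comap (algebraMap E Ω) with hW
  have hV₀K : OverK K V₀ := overK_comap_algebraMap O hO.1
  have hWK : OverK K W := overK_comap_algebraMap V'' hV''
  have hV₀W : V₀ ≤ W := fun x hx => by
    rw [hW, ValuationSubring.mem_comap]
    exact hOV (ValuationSubring.mem_comap.1 hx)
  have h1 : UIn V'' (ψ / algebraMap E Ω (Λ V₀)) := uIn_mono hOV (hkpl O hO')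
  have h2 : UIn V'' (algebraMap E Ω (Λ V₀ / Λ W)) :=
    UIn.map (algebraMap E Ω) V'' (hΛ.2 V₀ W hV₀K hV₀W)
  have h3 : UIn V'' (algebraMap E Ω (Λ V / Λ W)) :=
    UIn.map (algebraMap E Ω) V'' (hΛ.2 V W hV hVV'')
  have h4 := (h1.mul h2).div h3
  have n1 : algebraMap E Ω (Λ V) ≠ 0 := (map_ne_zero _).2 (hΛ.1 V hV)
  have n2 : algebraMap E Ω (Λ V₀) ≠ 0 := (map_ne_zero _).2 (hΛ.1 V₀ hV₀K)
  have n3 : algebraMap E Ω (Λ W) ≠ 0 := (map_ne_zero _).2 (hΛ.1 W hWK)
  have e : ψ / algebraMap E Ω (Λ V₀) * algebraMap E Ω (Λ V₀ / Λ W) /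
      algebraMap E Ω (Λ V / Λ W) = ψ / algebraMap E Ω (Λ V) := by
    rw [map_div₀, map_div₀]
    field_simp
  rwa [e] at h4

/-- **KPL-DESC** (step (7) of the PRIG plan): a valuative divisor with generisation which is the
divisor of an element `ψ` of an extension `Ω`, algebraic over `E`, at all `K`-places of `Ω`, is
principal up to torsion on `E`. -/
theorem isVPt_of_kplaces [IsAlgClosed K] {Λ : ValuationSubring E → E} (hΛ : IsGenDiv K Λ)
    (ψ : Ω) (hψ0 : ψ ≠ 0) (hψ : IsAlgebraic E ψ)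
    (hkpl : ∀ O : ValuationSubring Ω, IsKPlace K O →
      UIn O (ψ / algebraMap E Ω (Λ (O.comap (algebraMap E Ω))))) :
    IsVPt K Λ := by
  classical
  -- the finite extension `E' = E(ψ)`
  let E' : IntermediateField E Ω := IntermediateField.adjoin E {ψ}
  haveI : FiniteDimensional E E' := IntermediateField.adjoin.finiteDimensional hψ.isIntegral
  let ψ' : E' := IntermediateField.AdjoinSimple.gen E ψ
  have hψ'coe : algebraMap E' Ω ψ' = ψ := IntermediateField.AdjoinSimple.algebraMap_gen E ψ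
  have hψ'0 : ψ' ≠ 0 := by
    intro h
    apply hψ0
    rw [← hψ'coe, h, map_zero]
  have hk : 0 < Module.finrank E E' := Module.finrank_pos
  have hN0 : Algebra.norm E ψ' ≠ 0 := Algebra.norm_ne_zero_iff.2 hψ'0
  refine ⟨Module.finrank E E', hk, Algebra.norm E ψ', hN0, fun V hV => ?_⟩
  -- the algebra structures over `V`
  letI algVE' : Algebra V E' := ((algebraMap E E').comp (algebraMap V E)).toAlgebra
  haveI : IsScalarTower V E E' := IsScalarTower.of_algebraMap_eq (fun _ => rfl)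
  letI algVΩ : Algebra V Ω := ((algebraMap E Ω).comp (algebraMap V E)).toAlgebra
  haveI : IsScalarTower V E Ω := IsScalarTower.of_algebraMap_eq (fun _ => rfl)
  haveI : IsScalarTower V E' Ω := IsScalarTower.of_algebraMap_eq (fun _ => rfl)
  have key : ∀ V'' : ValuationSubring Ω, (∀ a : V, algebraMap V Ω a ∈ V'') →
      UIn V'' (ψ / algebraMap E Ω (Λ V)) := by
    intro V'' hVV''
    exact uIn_of_kplaces hΛ ψ hkpl V hV V'' fun a ha =>
      ValuationSubring.mem_comap.2 (hVV'' ⟨a, ha⟩)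
  have hinj : Function.Injective (algebraMap E' Ω) := (algebraMap E' Ω).injective
  have hi1 : IsIntegral V (ψ' / algebraMap E E' (Λ V)) := by
    rw [← isIntegral_algebraMap_iff hinj, map_div₀, hψ'coe,
      ← IsScalarTower.algebraMap_apply E E' Ω]
    exact H69.isIntegral_of_forall_vs fun V'' hVV'' => (key V'' hVV'').1
  have hi2 : IsIntegral V (algebraMap E E' (Λ V) / ψ') := by
    rw [← isIntegral_algebraMap_iff hinj, map_div₀, hψ'coe,
      ← IsScalarTower.algebraMap_apply E E' Ω]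
    apply H69.isIntegral_of_forall_vs
    intro V'' hVV''
    have h := (key V'' hVV'').2
    rwa [inv_div] at h
  obtain ⟨r, hr⟩ := C.H69.norm_eq_unit_mul_pow (R := V) (hΛ.1 V hV) hψ'0 hi1 hi2
  rw [Pi.pow_apply, hr]
  have hΛk : Λ V ^ Module.finrank E E' ≠ 0 := pow_ne_zero _ (hΛ.1 V hV)
  have hr0 : algebraMap V E (r : V) ≠ 0 := ((r.isUnit).map (algebraMap V E)).ne_zero
  have hrinv : (algebraMap V E (r : V))⁻¹ = algebraMap V E ((r⁻¹ : Vˣ) : V) := by
    apply inv_eq_of_mul_eq_one_right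
    rw [← map_mul, ← Units.val_mul, mul_inv_cancel, Units.val_one, map_one]
  constructor
  · have e : algebraMap V E (r : V) * Λ V ^ Module.finrank E E' *
        (Λ V ^ Module.finrank E E')⁻¹ = algebraMap V E (r : V) := by
      field_simp
    rw [e]
    exact (r : V).2
  · have e : Λ V ^ Module.finrank E E' *
        (algebraMap V E (r : V) * Λ V ^ Module.finrank E E')⁻¹ =
        algebraMap V E ((r⁻¹ : Vˣ) : V) := by
      rw [← hrinv]
      field_simp
    rw [e]
    exact ((r⁻¹ : Vˣ) : V).2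

end Main

/-! ## `IsVP` needs to be checked at `K`-places only -/

section VP

variable {K : Type u} [Field K] {E : Type u} [Field E] [Algebra K E]

/-- **VP-KPLACE** (helper27's R1): for a valuative divisor with generisation, `IsVP` needs to be
checked at the `K`-places of `E` only. -/
theorem isVP_of_kplaces [IsAlgClosed K] {Λ : ValuationSubring E → E} (hΛ : IsGenDiv K Λ)
    (Ψ : E) (hΨ0 : Ψ ≠ 0)
    (hkpl : ∀ O : ValuationSubring E, IsKPlace K O → UIn O (Ψ / Λ O)) :
    IsVP K Λ := by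
  refine ⟨Ψ, hΨ0, fun V hV => ?_⟩
  obtain ⟨O, hO, hOV⟩ := exists_kplace_le (K := K) V hV
  have h1 : UIn V (Ψ / Λ O) := uIn_mono hOV (hkpl O ⟨hO.1, hO.2⟩)
  have h2 : UIn V (Λ O / Λ V) := hΛ.2 O V hO.1 hOV
  have h3 := h1.mul h2
  have n1 : Λ O ≠ 0 := hΛ.1 O hO.1
  have e : Ψ / Λ O * (Λ O / Λ V) = Ψ / Λ V := by
    field_simp
  rw [e] at h3
  exact uIn_iff_mul.1 h3

end VP

/-! ## The instance for `Stmt_PRIG` -/

section Theta

variable {K : Type u} [Field K] {A : Scheme.{u}} {f : A ⟶ Spec (CommRingCat.of K)}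
variable {E : Type u} [Field E] [Algebra K E]
variable {Ω : Type u} [Field Ω] [Algebra K Ω] [Algebra E Ω] [IsScalarTower K E Ω]

/-- KPL-DESC for the valuative divisor of `Stmt_PRIG`. -/
theorem isVPt_theta_of_kpl [IsAlgClosed K] [IsProper f] [IsIntegral A]
    (L : RelativeGroupLaw K f) (x₁ x₂ x₃ y₁ y₂ y₃ : Pt f E) {D : A → A.functionField}
    (hD : IsCartier D) (ψ : Ω) (hψ0 : ψ ≠ 0) (hψ : IsAlgebraic E ψ)
    (hkpl : ∀ O : ValuationSubring Ω, IsKPlace K O →
      UIn O (ψ / algebraMap E Ω ((thetaV L x₁ x₂ x₃ D / thetaV L y₁ y₂ y₃ D)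
        (O.comap (algebraMap E Ω))))) :
    IsVPt K (thetaV L x₁ x₂ x₃ D / thetaV L y₁ y₂ y₃ D) :=
  isVPt_of_kplaces ((isGenDiv_thetaV L x₁ x₂ x₃ hD).div (isGenDiv_thetaV L y₁ y₂ y₃ hD))
    ψ hψ0 hψ hkpl

end Theta

end Fermat.Agent.S26.C.X.H95
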