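import Mathlib
import Fermat.Agent.S26.C.X.Defs
import Fermat.Agent.S26.C.X.H69_Desc

/-!
# S26 (C), cube side, PRIG step (6): the VERTICAL step (helper27), abstract form

helper6's diagonal trick, in pure valuation theory (no scheme, no divisor).

Setting: `K ⊆ E ⊆ Ω` fields, `FΩ ⊇ Ω` a field, `j : E →+* FΩ` (the "geometric" embedding:
`E = Frac (F ⊗ k')`, `j` is the identity on the curve `F` and the constants on `k'`),
a system of `Ω`-places of `FΩ` (`PlSys`: valuation rings `W p ⊇ Ω` with value maps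
`val p : W p →+* Ω` and composites `cmp p O` with the valuation rings `O` of `Ω`),
a valuative divisor `Λ` of `E` and `Ψ ∈ FΩˣ`.

`vert` : from

* (HOR) `Ψ / j (Λ (W p ∩ E)) ∈ (W p)ˣ` for every place `p` (`div Ψ = λ` on the curve `X_Ω`),
* (LOCAL) a Gauss unit without zero and pole on a tube has values in `Oˣ` on the tube,
* (GΛ), (LOC), (gen), (ne) : the rules of `Λ` (locality, generisation),
* (SEC) the normalisation at the constant place `p₀` over the base point,
* (DIAG) the diagonal place `pδ`: `(j e)(pδ) = e`,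

the value `ψ = Ψ(pδ)` satisfies `ψ / Λ (O ∩ E) ∈ Oˣ` for EVERY `K`-place `O` of `Ω`:
the hypothesis `hkpl` of `X.H95.isVPt_of_kplaces` (KPL-DESC).
-/

set_option autoImplicit false

universe u v

namespace Fermat.Agent.S26.C.X.H27

open Fermat.Agent.S26.C.X.H69 (UIn)

/-- A system of `Ω`-places of `FΩ`: valuation rings `W p ⊇ Ω` of `FΩ` with value maps
`val p : W p →+* Ω` (the identity on `Ω`), and the composites `cmp p O` with the valuation rings
`O` of `Ω`. -/
structure PlSys (Ω : Type u) (FΩ : Type u) [Field Ω] [Field FΩ] [Algebra Ω FΩ] where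
  /-- the index type of the places -/
  P : Type v
  /-- the valuation ring of a place -/
  W : P → ValuationSubring FΩ
  /-- the value at a place -/
  val : ∀ p : P, W p →+* Ω
  val_alg : ∀ (p : P) (a : Ω), ∃ h : algebraMap Ω FΩ a ∈ W p, val p ⟨algebraMap Ω FΩ a, h⟩ = a
  /-- the composite of a place with a valuation ring of `Ω` -/
  cmp : P → ValuationSubring Ω → ValuationSubring FΩ
  mem_cmp : ∀ (p : P) (O : ValuationSubring Ω) (x : FΩ),
    x ∈ cmp p O ↔ ∃ h : x ∈ W p, val p ⟨x, h⟩ ∈ O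

namespace PlSys

variable {Ω : Type u} {FΩ : Type u} [Field Ω] [Field FΩ] [Algebra Ω FΩ] (S : PlSys.{u, v} Ω FΩ)

theorem alg_mem (p : S.P) (a : Ω) : algebraMap Ω FΩ a ∈ S.W p := (S.val_alg p a).1

theorem val_algebraMap (p : S.P) (a : Ω) (h : algebraMap Ω FΩ a ∈ S.W p) :
    S.val p ⟨algebraMap Ω FΩ a, h⟩ = a := (S.val_alg p a).2

theorem val_surjective (p : S.P) : Function.Surjective (S.val p) := fun a =>
  ⟨⟨algebraMap Ω FΩ a, S.alg_mem p a⟩, S.val_algebraMap p a _⟩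

theorem cmp_le (p : S.P) (O : ValuationSubring Ω) : S.cmp p O ≤ S.W p := fun _ hx =>
  ((S.mem_cmp p O _).1 hx).1

/-- the value of a product -/
theorem val_mul (p : S.P) {x y : FΩ} (hx : x ∈ S.W p) (hy : y ∈ S.W p) :
    S.val p ⟨x * y, (S.W p).mul_mem _ _ hx hy⟩ = S.val p ⟨x, hx⟩ * S.val p ⟨y, hy⟩ :=
  map_mul (S.val p) ⟨x, hx⟩ ⟨y, hy⟩

/-- a function with an inverse in `W p` has a nonzero value, and the value of the inverse is the
inverse of the value -/
theorem val_inv (p : S.P) {x : FΩ} (hx0 : x ≠ 0) (hx : x ∈ S.W p) (hx' : x⁻¹ ∈ S.W p) :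
    S.val p ⟨x⁻¹, hx'⟩ = (S.val p ⟨x, hx⟩)⁻¹ := by
  have h1 : S.val p ⟨x, hx⟩ * S.val p ⟨x⁻¹, hx'⟩ = 1 := by
    rw [← map_mul]
    have : (⟨x, hx⟩ : S.W p) * ⟨x⁻¹, hx'⟩ = 1 := Subtype.ext (mul_inv_cancel₀ hx0)
    rw [this, map_one]
  exact eq_inv_of_mul_eq_one_right h1

theorem val_ne_zero (p : S.P) {x : FΩ} (hx0 : x ≠ 0) (hx : x ∈ S.W p) (hx' : x⁻¹ ∈ S.W p) :
    S.val p ⟨x, hx⟩ ≠ 0 := by
  intro h0
  have h1 : S.val p ⟨x, hx⟩ * S.val p ⟨x⁻¹, hx'⟩ = 1 := by
    rw [← map_mul]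
    have : (⟨x, hx⟩ : S.W p) * ⟨x⁻¹, hx'⟩ = 1 := Subtype.ext (mul_inv_cancel₀ hx0)
    rw [this, map_one]
  rw [h0, zero_mul] at h1
  exact zero_ne_one h1

/-- a function of `W p` with a nonzero value is a unit of `W p` -/
theorem inv_mem_of_val_ne_zero (p : S.P) {x : FΩ} (hx : x ∈ S.W p)
    (hv : S.val p ⟨x, hx⟩ ≠ 0) : x⁻¹ ∈ S.W p := by
  by_contra hx'
  apply hv
  -- `x` is a non-unit of `W p`, so it lies in the kernel of `val p`
  have hker : RingHom.ker (S.val p) = IsLocalRing.maximalIdeal (S.W p) := by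
    haveI := RingHom.ker_isMaximal_of_surjective (S.val p) (S.val_surjective p)
    exact IsLocalRing.eq_maximalIdeal this
  have hmem : (⟨x, hx⟩ : S.W p) ∈ IsLocalRing.maximalIdeal (S.W p) := by
    rw [← ValuationSubring.coe_mem_nonunits_iff, ValuationSubring.mem_nonunits_iff_or]
    exact Or.inr hx'
  rw [← hker] at hmem
  exact hmem

/-- units of the composite: the value is a unit of `O` -/
theorem uIn_val_of_uIn_cmp (p : S.P) (O : ValuationSubring Ω) {x : FΩ} (hx0 : x ≠ 0)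
    (h : UIn (S.cmp p O) x) :
    ∃ hx : x ∈ S.W p, S.val p ⟨x, hx⟩ ≠ 0 ∧ UIn O (S.val p ⟨x, hx⟩) := by
  obtain ⟨hx, hxO⟩ := (S.mem_cmp p O x).1 h.1
  obtain ⟨hx', hxO'⟩ := (S.mem_cmp p O x⁻¹).1 h.2
  refine ⟨hx, S.val_ne_zero p hx0 hx hx', hxO, ?_⟩
  rw [← S.val_inv p hx0 hx hx']
  exact hxO'

/-- units of the composite: converse -/
theorem uIn_cmp_of_uIn_val (p : S.P) (O : ValuationSubring Ω) {x : FΩ} (hx : x ∈ S.W p)
    (hv : S.val p ⟨x, hx⟩ ≠ 0) (h : UIn O (S.val p ⟨x, hx⟩)) : UIn (S.cmp p O) x := by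
  have hx' := S.inv_mem_of_val_ne_zero p hx hv
  have hx0 : x ≠ 0 := by
    rintro rfl
    exact hv (map_zero (S.val p))
  refine ⟨(S.mem_cmp p O x).2 ⟨hx, h.1⟩, (S.mem_cmp p O x⁻¹).2 ⟨hx', ?_⟩⟩
  rw [S.val_inv p hx0 hx hx']
  exact h.2

/-- a nonzero constant is a unit of every place -/
theorem uIn_const (p : S.P) (c : Ω) : UIn (S.W p) (algebraMap Ω FΩ c) :=
  ⟨S.alg_mem p c, by rw [← map_inv₀]; exact S.alg_mem p _⟩

/-- a constant is a unit of the composite iff it is a unit of `O` -/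
theorem uIn_const_cmp_iff (p : S.P) (O : ValuationSubring Ω) (c : Ω) :
    UIn (S.cmp p O) (algebraMap Ω FΩ c) ↔ UIn O c := by
  constructor
  · rintro ⟨h1, h2⟩
    obtain ⟨h, hO⟩ := (S.mem_cmp p O _).1 h1
    rw [← map_inv₀] at h2
    obtain ⟨h', hO'⟩ := (S.mem_cmp p O _).1 h2
    rw [S.val_algebraMap] at hO hO'
    exact ⟨hO, hO'⟩
  · rintro ⟨h1, h2⟩
    refine ⟨(S.mem_cmp p O _).2 ⟨S.alg_mem p c, by rw [S.val_algebraMap]; exact h1⟩, ?_⟩
    rw [← map_inv₀]
    exact (S.mem_cmp p O _).2 ⟨S.alg_mem p _, by rw [S.val_algebraMap]; exact h2⟩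

end PlSys

section Vert

variable {K E Ω FΩ F k' : Type u} [Field K] [Field E] [Field Ω] [Field FΩ] [Field F] [Field k']
  [Algebra K E] [Algebra K Ω] [Algebra E Ω] [IsScalarTower K E Ω] [Algebra Ω FΩ]
  [Algebra F E] [Algebra k' E] [Algebra K k'] [IsScalarTower K k' E]

/-- a nonunit which is not zero has no inverse in the valuation ring -/
theorem not_uIn_of_mem_nonunits {L : Type*} [Field L] {V : ValuationSubring L} {x : L}
    (hx0 : x ≠ 0) (hx : x ∈ V.nonunits) : x⁻¹ ∉ V := by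
  rcases (ValuationSubring.mem_nonunits_iff_or V).1 hx with h | h
  · exact absurd h hx0
  · exact h

theorem mem_nonunits_of {L : Type*} [Field L] {V : ValuationSubring L} {x : L}
    (h : x ≠ 0 → x⁻¹ ∉ V) : x ∈ V.nonunits := by
  rw [ValuationSubring.mem_nonunits_iff_or]
  by_cases hx : x = 0
  · exact Or.inl hx
  · exact Or.inr (h hx)

/-- the restriction to `E` of a `K`-place of `Ω` is a `K`-place -/
theorem isKPlace_comap {O : ValuationSubring Ω} (hO : IsKPlace K O) :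
    IsKPlace K (O.comap (algebraMap E Ω)) := by
  refine ⟨fun a => ?_, fun x hx => ?_⟩
  · rw [ValuationSubring.mem_comap, ← IsScalarTower.algebraMap_apply]
    exact hO.1 a
  · obtain ⟨a, ha⟩ := hO.2 _ (ValuationSubring.mem_comap.1 hx)
    refine ⟨a, mem_nonunits_of fun h0 hinv => ?_⟩
    rw [ValuationSubring.mem_comap, map_inv₀, map_sub, ← IsScalarTower.algebraMap_apply] at hinv
    have h0' : algebraMap E Ω x - algebraMap K Ω a ≠ 0 := by
      rw [IsScalarTower.algebraMap_apply K E Ω, ← map_sub]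
      exact (map_ne_zero _).2 h0
    exact not_uIn_of_mem_nonunits h0' ha hinv

variable (S : PlSys.{u, v} Ω FΩ) (j : E →+* FΩ)

/-- the restriction to `E` (along `j`) of the composite of a place with a `K`-place of `Ω` is a
`K`-place of `E` -/
theorem isKPlace_cmp_comap
    (hjK : ∀ a : K, j (algebraMap K E a) = algebraMap Ω FΩ (algebraMap K Ω a))
    (p : S.P) {O : ValuationSubring Ω} (hO : IsKPlace K O) :
    IsKPlace K ((S.cmp p O).comap j) := by
  refine ⟨fun a => ?_, fun e he => ?_⟩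
  · rw [ValuationSubring.mem_comap, hjK, S.mem_cmp]
    exact ⟨S.alg_mem p _, by rw [S.val_algebraMap]; exact hO.1 a⟩
  · obtain ⟨h, hω⟩ := (S.mem_cmp p O _).1 (ValuationSubring.mem_comap.1 he)
    obtain ⟨a, ha⟩ := hO.2 _ hω
    refine ⟨a, mem_nonunits_of fun h0 hinv => ?_⟩
    rw [ValuationSubring.mem_comap, map_inv₀] at hinv
    have hmem : j (e - algebraMap K E a) ∈ S.cmp p O := by
      rw [map_sub]
      exact sub_mem (ValuationSubring.mem_comap.1 he)
        (by rw [hjK, S.mem_cmp]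
            exact ⟨S.alg_mem p _, by rw [S.val_algebraMap]; exact hO.1 a⟩)
    have hj0 : j (e - algebraMap K E a) ≠ 0 := (map_ne_zero _).2 h0
    obtain ⟨hx, hv0, hv⟩ := S.uIn_val_of_uIn_cmp p O hj0 ⟨hmem, hinv⟩
    -- the value is `val (j e) - a`
    have hval : S.val p ⟨j (e - algebraMap K E a), hx⟩ =
        S.val p ⟨j e, h⟩ - algebraMap K Ω a := by
      have e1 : (⟨j (e - algebraMap K E a), hx⟩ : S.W p) =
          ⟨j e, h⟩ - ⟨algebraMap Ω FΩ (algebraMap K Ω a), S.alg_mem p _⟩ := by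
        apply Subtype.ext
        show j (e - algebraMap K E a) = j e - algebraMap Ω FΩ (algebraMap K Ω a)
        rw [map_sub, hjK]
      rw [e1, map_sub, S.val_algebraMap]
    rw [hval] at hv hv0
    exact not_uIn_of_mem_nonunits hv0 ha hv.2

/-- the function `Ψ / j (Λ V)` attached to a valuation ring `V` of `E` -/
noncomputable def hfun (j : E →+* FΩ) (Λ : ValuationSubring E → E) (Ψ : FΩ)
    (V : ValuationSubring E) : FΩ := Ψ / j (Λ V)

/-- **VERT** (step (6) of helper6's PRIG plan, abstract form). -/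
theorem vert
    (hjk : ∀ c : k', j (algebraMap k' E c) = algebraMap Ω FΩ (algebraMap E Ω (algebraMap k' E c)))
    (Λ : ValuationSubring E → E)
    (hne : ∀ V : ValuationSubring E, OverK K V → Λ V ≠ 0)
    (hgen : ∀ V W : ValuationSubring E, OverK K V → V ≤ W → UIn W (Λ V / Λ W))
    (hLOC : ∀ V V' : ValuationSubring E, IsKPlace K V → IsKPlace K V' →
      V.comap (algebraMap F E) = V'.comap (algebraMap F E) →
      V.comap (algebraMap k' E) = V'.comap (algebraMap k' E) → Λ V = Λ V')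
    (Ψ : FΩ) (hΨ : Ψ ≠ 0)
    (hHOR : ∀ p : S.P, UIn (S.W p) (Ψ / j (Λ ((S.W p).comap j))))
    (G : ValuationSubring Ω → ValuationSubring FΩ)
    (hG1 : ∀ O : ValuationSubring Ω, IsKPlace K O → (G O).comap (algebraMap Ω FΩ) = O)
    (hGΛ : ∀ O : ValuationSubring Ω, IsKPlace K O → ∀ V : ValuationSubring E, IsKPlace K V →
      V.comap (algebraMap k' E) = O.comap ((algebraMap E Ω).comp (algebraMap k' E)) →
      UIn (G O) (j (Λ V / Λ ((G O).comap j))))
    (hG3 : ∀ O : ValuationSubring Ω, IsKPlace K O → ∀ h : FΩ, h ≠ 0 →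
      ∃ c : Ω, c ≠ 0 ∧ UIn (G O) (h / algebraMap Ω FΩ c))
    (hLOCAL : ∀ O : ValuationSubring Ω, IsKPlace K O → ∀ h : FΩ, h ≠ 0 → UIn (G O) h →
      ∀ p₀ : S.P,
        (∀ p : S.P, (S.cmp p O).comap (j.comp (algebraMap F E)) =
            (S.cmp p₀ O).comap (j.comp (algebraMap F E)) → UIn (S.W p) h) →
        UIn (S.cmp p₀ O) h)
    (pδ : S.P)
    (hδ : ∀ e : E, ∃ h : j e ∈ S.W pδ, S.val pδ ⟨j e, h⟩ = algebraMap E Ω e)
    (po : S.P)
    (hSEC : ∀ O : ValuationSubring Ω, IsKPlace K O →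
      ∃ h : Ψ / j (Λ ((S.cmp po O).comap j)) ∈ S.W po,
        S.val po ⟨Ψ / j (Λ ((S.cmp po O).comap j)), h⟩ = 1) :
    ∃ ψ : Ω, ψ ≠ 0 ∧ (∃ h : Ψ ∈ S.W pδ, S.val pδ ⟨Ψ, h⟩ = ψ) ∧
      ∀ O : ValuationSubring Ω, IsKPlace K O →
        UIn O (ψ / algebraMap E Ω (Λ (O.comap (algebraMap E Ω)))) := by
  -- `j` on the constants of `K`
  have hjK : ∀ a : K, j (algebraMap K E a) = algebraMap Ω FΩ (algebraMap K Ω a) := by
    intro a
    rw [IsScalarTower.algebraMap_apply K k' E, hjk, ← IsScalarTower.algebraMap_apply K k' E,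
      ← IsScalarTower.algebraMap_apply K E Ω]
  -- the restriction of a place to `E` contains `K`
  have hWK : ∀ p : S.P, OverK K ((S.W p).comap j) := by
    intro p a
    rw [ValuationSubring.mem_comap, hjK]
    exact S.alg_mem p _
  -- `j` of a nonzero element is nonzero
  have hj0 : ∀ e : E, e ≠ 0 → j e ≠ 0 := fun e he => (map_ne_zero j).2 he
  -- the restriction to `k'` of the composites
  have hk' : ∀ (p : S.P) (O : ValuationSubring Ω),
      ((S.cmp p O).comap j).comap (algebraMap k' E) =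
        O.comap ((algebraMap E Ω).comp (algebraMap k' E)) := by
    intro p O
    ext c
    rw [ValuationSubring.mem_comap, ValuationSubring.mem_comap, ValuationSubring.mem_comap, hjk,
      S.mem_cmp]
    constructor
    · rintro ⟨h, hO⟩
      rw [S.val_algebraMap] at hO
      exact hO
    · intro hO
      exact ⟨S.alg_mem p _, by rw [S.val_algebraMap]; exact hO⟩
  -- on a tube the function `Ψ / j (Λ V_{p₀})` has no zero and no pole
  have htube : ∀ (O : ValuationSubring Ω), IsKPlace K O → ∀ p₀ p : S.P,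
      (S.cmp p O).comap (j.comp (algebraMap F E)) =
        (S.cmp p₀ O).comap (j.comp (algebraMap F E)) →
      UIn (S.W p) (Ψ / j (Λ ((S.cmp p₀ O).comap j))) := by
    intro O hO p₀ p hpp
    have hKp := isKPlace_cmp_comap S j hjK p hO
    have hKp₀ := isKPlace_cmp_comap S j hjK p₀ hO
    have hΛeq : Λ ((S.cmp p O).comap j) = Λ ((S.cmp p₀ O).comap j) := by
      refine hLOC _ _ hKp hKp₀ ?_ ?_
      · rw [ValuationSubring.comap_comap, ValuationSubring.comap_comap]
        exact hpp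
      · rw [hk', hk']
    rw [← hΛeq]
    have hle : (S.cmp p O).comap j ≤ (S.W p).comap j := fun x hx =>
      ValuationSubring.mem_comap.2 (S.cmp_le p O (ValuationSubring.mem_comap.1 hx))
    have h1 := hHOR p
    have h2 : UIn (S.W p) (j (Λ ((S.cmp p O).comap j) / Λ ((S.W p).comap j))) :=
      UIn.map j (S.W p) (hgen _ _ hKp.1 hle)
    have e : Ψ / j (Λ ((S.cmp p O).comap j)) =
        Ψ / j (Λ ((S.W p).comap j)) /
          j (Λ ((S.cmp p O).comap j) / Λ ((S.W p).comap j)) := by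
      have n1 : j (Λ ((S.cmp p O).comap j)) ≠ 0 := hj0 _ (hne _ hKp.1)
      have n2 : j (Λ ((S.W p).comap j)) ≠ 0 := hj0 _ (hne _ (hWK p))
      rw [map_div₀]
      field_simp
    rw [e]
    exact h1.div h2
  -- `Ψ` is a unit at the diagonal place
  have hΨδ : UIn (S.W pδ) Ψ := by
    have h1 := hHOR pδ
    have n2 : Λ ((S.W pδ).comap j) ≠ 0 := hne _ (hWK pδ)
    have h2 : UIn (S.W pδ) (j (Λ ((S.W pδ).comap j))) := by
      refine ⟨(hδ _).1, ?_⟩
      rw [← map_inv₀]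
      exact (hδ _).1
    have e : Ψ = Ψ / j (Λ ((S.W pδ).comap j)) * j (Λ ((S.W pδ).comap j)) := by
      have := hj0 _ n2
      field_simp
    rw [e]
    exact h1.mul h2
  have hψ0 : S.val pδ ⟨Ψ, hΨδ.1⟩ ≠ 0 := S.val_ne_zero pδ hΨ hΨδ.1 hΨδ.2
  refine ⟨S.val pδ ⟨Ψ, hΨδ.1⟩, hψ0, ⟨hΨδ.1, rfl⟩, fun O hO => ?_⟩
  set V : ValuationSubring E := O.comap (algebraMap E Ω) with hV
  have hVK : IsKPlace K V := isKPlace_comap hO
  have hΛV : Λ V ≠ 0 := hne V hVK.1
  -- step 1: `h_o` is a Gauss unit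
  set Vo : ValuationSubring E := (S.cmp po O).comap j with hVo
  have hVoK : IsKPlace K Vo := isKPlace_cmp_comap S j hjK po hO
  have hΛVo : Λ Vo ≠ 0 := hne Vo hVoK.1
  have hho0 : Ψ / j (Λ Vo) ≠ 0 := div_ne_zero hΨ (hj0 _ hΛVo)
  obtain ⟨c, hc0, hcG⟩ := hG3 O hO _ hho0
  have hcc : algebraMap Ω FΩ c ≠ 0 := (map_ne_zero _).2 hc0
  have hoG : UIn (G O) (Ψ / j (Λ Vo)) := by
    -- `h_o / c` is a unit of the composite at `po`
    have h1 : UIn (S.cmp po O) (Ψ / j (Λ Vo) / algebraMap Ω FΩ c) := by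
      refine hLOCAL O hO _ (div_ne_zero hho0 hcc) hcG po fun p hp => ?_
      exact (htube O hO po p hp).div (S.uIn_const p c)
    -- `h_o` is a unit of the composite at `po`
    obtain ⟨hm, hv⟩ := hSEC O hO
    have h2 : UIn (S.cmp po O) (Ψ / j (Λ Vo)) := by
      refine S.uIn_cmp_of_uIn_val po O hm ?_ ?_
      · rw [hv]; exact one_ne_zero
      · rw [hv]; exact UIn.one O
    -- so `c` is a unit of `O`
    have h3 : UIn (S.cmp po O) (algebraMap Ω FΩ c) := by
      have e : algebraMap Ω FΩ c = Ψ / j (Λ Vo) / (Ψ / j (Λ Vo) / algebraMap Ω FΩ c) := by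
        rw [div_div_cancel₀ hho0]
      rw [e]
      exact h2.div h1
    have h4 : UIn O c := (S.uIn_const_cmp_iff po O c).1 h3
    have h5 : UIn (G O) (algebraMap Ω FΩ c) := by
      refine ⟨?_, ?_⟩
      · have := h4.1
        rw [← hG1 O hO] at this
        exact ValuationSubring.mem_comap.1 this
      · have := h4.2
        rw [← hG1 O hO] at this
        rw [← map_inv₀]
        exact ValuationSubring.mem_comap.1 this
    have e : Ψ / j (Λ Vo) = Ψ / j (Λ Vo) / algebraMap Ω FΩ c * algebraMap Ω FΩ c := by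
      field_simp
    rw [e]
    exact hcG.mul h5
  -- step 2: `h_V` is a Gauss unit
  have hVk : V.comap (algebraMap k' E) = O.comap ((algebraMap E Ω).comp (algebraMap k' E)) := by
    rw [hV, ValuationSubring.comap_comap]
  have hΛG : Λ ((G O).comap j) ≠ 0 := by
    refine hne _ fun a => ?_
    rw [ValuationSubring.mem_comap, hjK]
    have := hO.1 a
    rw [← hG1 O hO] at this
    exact ValuationSubring.mem_comap.1 this
  have hVG : UIn (G O) (Ψ / j (Λ V)) := by
    have h1 := hGΛ O hO V hVK hVk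
    have h2 := hGΛ O hO Vo hVoK (hk' po O)
    have e : Ψ / j (Λ V) = Ψ / j (Λ Vo) * (j (Λ Vo / Λ ((G O).comap j)) /
        j (Λ V / Λ ((G O).comap j))) := by
      have n1 := hj0 _ hΛV
      have n2 := hj0 _ hΛVo
      have n3 := hj0 _ hΛG
      rw [map_div₀, map_div₀]
      field_simp
    rw [e]
    exact hoG.mul (h2.div h1)
  -- step 3: the diagonal place lies in the tube of `V ∩ F`, and `V = V_{pδ}`
  have hVδ : (S.cmp pδ O).comap j = V := by
    ext e
    rw [ValuationSubring.mem_comap, S.mem_cmp, hV, ValuationSubring.mem_comap]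
    constructor
    · rintro ⟨h, hO'⟩
      rw [(hδ e).2] at hO'
      exact hO'
    · intro hO'
      exact ⟨(hδ e).1, by rw [(hδ e).2]; exact hO'⟩
  have hVne : Ψ / j (Λ V) ≠ 0 := div_ne_zero hΨ (hj0 _ hΛV)
  have h6 : UIn (S.cmp pδ O) (Ψ / j (Λ V)) := by
    refine hLOCAL O hO _ hVne hVG pδ fun p hp => ?_
    have := htube O hO pδ p hp
    rw [hVδ] at this
    exact this
  -- the value at the diagonal place
  obtain ⟨hx, -, hu⟩ := S.uIn_val_of_uIn_cmp pδ O hVne h6
  have hjΛ : j (Λ V) ∈ S.W pδ := (hδ _).1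
  have hjΛ' : (j (Λ V))⁻¹ ∈ S.W pδ := by
    rw [← map_inv₀]; exact (hδ _).1
  have hval : S.val pδ ⟨Ψ / j (Λ V), hx⟩ =
      S.val pδ ⟨Ψ, hΨδ.1⟩ / algebraMap E Ω (Λ V) := by
    have e1 : (⟨Ψ / j (Λ V), hx⟩ : S.W pδ) = ⟨Ψ, hΨδ.1⟩ * ⟨(j (Λ V))⁻¹, hjΛ'⟩ :=
      Subtype.ext (div_eq_mul_inv _ _)
    rw [e1, map_mul, S.val_inv pδ (hj0 _ hΛV) hjΛ hjΛ', (hδ _).2, div_eq_mul_inv]
  rw [hval] at hu
  exact hu

end Vert

end Fermat.Agent.S26.C.X.H27
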