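/-
S26 (row 25), crux (C), PRIG cut KPL-PROD (helper13), in the valuative language of `X/Defs.lean`:
for two linearly disjoint intermediate fields `L₁`, `L₂` generating `E` and `K`-places `Q` of
`L₁`, `O'` of `L₂`, there is a `K`-place `V` of `E` with `V ∩ L₁ = Q` and `V ∩ L₂ = O'`.
-/
import Fermat.Agent.S26.C.X.Defs
import Fermat.Agent.S26.C.H13_KPlaceProd

set_option autoImplicit false
set_option linter.unusedSectionVars false

open IntermediateField

noncomputable section

namespace Fermat.Agent.S26.C.X.H13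

universe u

variable {K E : Type u} [Field K] [IsAlgClosed K] [Field E] [Algebra K E]

/-- A `K`-place in the sense of `X/Defs.lean`, as a `H30.KPl`. -/
def toKPl {E : Type u} [Field E] [Algebra K E] (V : ValuationSubring E) (hV : IsKPlace K V) :
    H30.KPl K E :=
  ⟨V, hV.1, hV.2⟩

theorem isKPlace_of_KPl {E : Type u} [Field E] [Algebra K E] (P : H30.KPl K E) :
    IsKPlace K P.O :=
  ⟨P.hK, P.hres⟩

/-- **KPL-PROD**: the `K`-place of `E = L₁ L₂` with centre `(Q, O')`. -/
theorem exists_isKPlace_prod (L₁ L₂ : IntermediateField K E) (hLD : L₁.LinearDisjoint L₂)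
    (hgen : L₁ ⊔ L₂ = ⊤) (Q : ValuationSubring L₁) (hQ : IsKPlace K Q)
    (O' : ValuationSubring L₂) (hO' : IsKPlace K O') :
    ∃ V : ValuationSubring E, IsKPlace K V ∧ V.comap (algebraMap L₁ E) = Q ∧
      V.comap (algebraMap L₂ E) = O' ∧
      V ≤ (toKPl O' hO').gaussV (H13K.isBC_of_linearDisjoint L₁ L₂ hLD hgen) := by
  obtain ⟨V, h1, h2, h3, h4, h5⟩ :=
    H13K.exists_kplace_prod_of_linearDisjoint L₁ L₂ hLD hgen (toKPl Q hQ) (toKPl O' hO')
  exact ⟨V, ⟨h1, h2⟩, h3, h4, h5⟩

/-- The same for a curve family: the curve `F i₀` and the block of the others. -/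
theorem exists_isKPlace_curveFam {ι : Type} (F : ι → IntermediateField K E)
    (hF : IsCurveFam F) (i₀ : ι) (Q : ValuationSubring (F i₀)) (hQ : IsKPlace K Q)
    (O' : ValuationSubring (blk F {i₀}ᶜ)) (hO' : IsKPlace K O') :
    ∃ V : ValuationSubring E, IsKPlace K V ∧ V.comap (algebraMap (F i₀) E) = Q ∧
      V.comap (algebraMap (blk F {i₀}ᶜ) E) = O' := by
  have hgen : F i₀ ⊔ blk F {i₀}ᶜ = ⊤ := by
    rw [eq_top_iff, ← hF.gen]
    unfold blk
    refine iSup_le fun i => iSup_le fun _ => ?_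
    by_cases hi : i = i₀
    · rw [hi]; exact le_sup_left
    · refine le_trans ?_ le_sup_right
      exact le_iSup_of_le i (le_iSup_of_le (by simpa using hi) le_rfl)
  obtain ⟨V, h1, h2, h3, -⟩ :=
    exists_isKPlace_prod (F i₀) (blk F {i₀}ᶜ) (hF.free i₀) hgen Q hQ O' hO'
  exact ⟨V, h1, h2, h3⟩

end Fermat.Agent.S26.C.X.H13
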