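import Fermat.Agent.S26.C.X.Defs
import Fermat.Agent.S26.C.H30_BCDefs
import Fermat.Agent.S26.C.H29_CCCCore

/-!
# S26 (C), PRIG: the leaves of SETUP

helper49 (sub-planner of the cube side).  PRIG data: `E ⊇ F i` a curve family, `o` a `K`-place of
`E`, `i₀`, `S₂`, `S₃`.  `Ω := AlgebraicClosure E`, `FΩ := H30.BCField K (F i₀) Ω`.

* `Stmt_SETUPBC` : `E` is a fraction field of `blk F {i₀}ᶜ ⊗[K] F i₀` (hypothesis `hE` of
  `H35.exists_diag`);
* `Stmt_SETUPQO` : the place `Qo = o ∩ F i₀` of the curve;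
* `Stmt_SETUPFACE` : the face data of `Ω` (`L_i` = the image of `blk F S_i`, `B_i` = the image of
  `o ∩ blk F S_i`, `φ_i` = the residue map); at a face place `O` of `Ω`, all points of
  `A(blk F S₂)` based at `o` are based at `O`, or all points of `A(blk F S₃)` are.
-/

set_option autoImplicit false

open CategoryTheory CategoryTheory.Limits AlgebraicGeometry NeronModelInfra GoodReductionJacobian
open scoped IntermediateField

universe u

namespace Fermat.Agent.S26.C.X

/-- **SETUP-BC**: `E = Frac (blk F {i₀}ᶜ ⊗[K] F i₀)`. -/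
def Stmt_SETUPBC : Prop :=
  ∀ (K : Type u) [Field K] (E : Type u) [Field E] [Algebra K E] (ι : Type) [Finite ι]
    (F : ι → IntermediateField K E), IsCurveFam F → ∀ i₀ : ι,
    H30.IsBC K (F i₀) (blk F {i₀}ᶜ) E

/-- **SETUP-QO**: the trace on a curve `F₀ ⊆ E` of a `K`-place of `E` is a place of `F₀ / K`. -/
def Stmt_SETUPQO : Prop :=
  ∀ (K : Type u) [Field K] (E : Type u) [Field E] [Algebra K E]
    (F₀ : IntermediateField K E), IsFF1 K F₀ → ∀ o : ValuationSubring E, IsKPlace K o →
    ∃ Qo : AlgebraicCurve.Place K F₀,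
      Qo.toValuationSubring = o.comap (algebraMap F₀ E)

/-- **SETUP-FACE**: the face data of `Ω = AlgebraicClosure E`. -/
def Stmt_SETUPFACE : Prop :=
  ∀ (K : Type u) [Field K] [IsAlgClosed K] {A : Scheme.{u}} (f : A ⟶ Spec (CommRingCat.of K))
    [IsProper f] (L : RelativeGroupLaw K f)
    (E : Type u) [Field E] [Algebra K E] (ι : Type) [Finite ι]
    (F : ι → IntermediateField K E), IsCurveFam F →
    ∀ o : ValuationSubring E, IsKPlace K o → ∀ (S₂ S₃ : Set ι), Disjoint S₂ S₃ →
    ∃ D : H29.FaceData K (AlgebraicClosure E),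
      ∀ O : ValuationSubring (AlgebraicClosure E), D.IsFace O →
        (∀ β : Pt f (blk F S₂), IsBased L (incPt β) o →
          IsBased L (mapPt (IsScalarTower.toAlgHom K E (AlgebraicClosure E)) (incPt β)) O) ∨
        (∀ γ : Pt f (blk F S₃), IsBased L (incPt γ) o →
          IsBased L (mapPt (IsScalarTower.toAlgHom K E (AlgebraicClosure E)) (incPt γ)) O)

end Fermat.Agent.S26.C.X
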