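/-
S26 (row 25), crux (C), PRIG, SETUP leaf SETUP-BC (helper13): `E` is a fraction field of
`blk F {i₀}ᶜ ⊗[K] F i₀`, a corollary of `H13K.isBC_of_linearDisjoint`.
-/
import Fermat.Agent.S26.C.X.SetupDefs
import Fermat.Agent.S26.C.H13_KPlaceProd

set_option autoImplicit false

open IntermediateField

noncomputable section

namespace Fermat.Agent.S26.C.X.H13S

universe u

variable {K E : Type u} [Field K] [Field E] [Algebra K E]

/-- A curve and the block of the others generate `E`. -/
theorem sup_blk_compl {ι : Type} (F : ι → IntermediateField K E) (hF : IsCurveFam F) (i₀ : ι) :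
    F i₀ ⊔ blk F {i₀}ᶜ = ⊤ := by
  rw [eq_top_iff, ← hF.gen]
  unfold blk
  refine iSup_le fun i => iSup_le fun _ => ?_
  by_cases hi : i = i₀
  · rw [hi]; exact le_sup_left
  · refine le_trans ?_ le_sup_right
    exact le_iSup_of_le i (le_iSup_of_le (by simpa using hi) le_rfl)

/-- **SETUP-BC**. -/
theorem stmt_SETUPBC : Stmt_SETUPBC.{u} := by
  intro K _ E _ _ ι _ F hF i₀
  exact H13K.isBC_of_linearDisjoint (F i₀) (blk F {i₀}ᶜ) (hF.free i₀) (sup_blk_compl F hF i₀)

end Fermat.Agent.S26.C.X.H13S
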