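import Fermat.Agent.S26.C.X.SetupDefs
import Fermat.Agent.S27.REDu.H12_Zero
import Fermat.Agent.S24.H72_FF1

/-!
# S26 (C), PRIG, leaf SETUP-QO (helper28)

`X.Stmt_SETUPQO`: for a function field of one variable `F₀ ⊆ E` over `K` and a `K`-place `o` of
`E`, the trace `o ∩ F₀` is a place of `F₀ / K`.

`K` is NOT assumed algebraically closed in the statement, so the discreteness of a nontrivial
valuation ring `B ⊇ K` of a function field (`S27.REDu.H12`, Stichtenoth 1.1.6) is redone here
without that hypothesis: the only use of it there is "nonzero nonunits of `B` are transcendental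
over `K`", true for every `K` (`B` is integrally closed).
-/

set_option autoImplicit false

open IntermediateField AlgebraicCurve

universe u

namespace Fermat.Agent.S26.C.X.H28q

section DVR

variable {K F : Type*} [Field K] [Field F] [Algebra K F] (B : ValuationSubring F)

/-- An element algebraic over `K` lies in every valuation ring containing `K`. -/
theorem mem_of_isAlgebraic (hK : ∀ a : K, algebraMap K F a ∈ B) {y : F}
    (hy : IsAlgebraic K y) : y ∈ B := by
  obtain ⟨p, hp, h0⟩ := hy.isIntegral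
  let ι : K →+* ↥B := (algebraMap K F).codRestrict B.toSubring hK
  have hint : IsIntegral ↥B y := by
    refine ⟨p.map ι, hp.map ι, ?_⟩
    rw [Polynomial.eval₂_map]
    exact h0
  obtain ⟨z, hz⟩ := IsIntegrallyClosedIn.isIntegral_iff.1 hint
  rw [← hz]
  exact z.2

/-- Nonzero nonunits of a valuation ring containing the field `K` are transcendental over
`K` (any field `K`). -/
theorem transcendental_of_val_lt_one (hK : ∀ a : K, algebraMap K F a ∈ B)
    {y : F} (hy0 : y ≠ 0) (hy : B.valuation y < 1) : Transcendental K y := by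
  intro halg
  have hinv : y⁻¹ ∈ B := mem_of_isAlgebraic B hK halg.inv
  have h1 : B.valuation y⁻¹ ≤ 1 := (B.valuation_le_one_iff _).mpr hinv
  rw [map_inv₀] at h1
  have h2 : 1 < (B.valuation y)⁻¹ :=
    (one_lt_inv₀ (zero_lt_iff.mpr ((Valuation.ne_zero_iff _).mpr hy0))).mpr hy
  exact absurd h1 (not_le.mpr h2)

open Fermat.Agent.S27.REDu.H12 in
theorem exists_generator (hK : ∀ a : K, algebraMap K F a ∈ B)
    (hfin : ∀ y : F, Transcendental K y → FiniteDimensional K⟮y⟯ F)
    {x : F} (hx0 : x ≠ 0) (hx : B.valuation x < 1) :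
    ∃ π : F, B.valuation π < 1 ∧ π ≠ 0 ∧
      (∀ y, B.valuation y < 1 → B.valuation y ≤ B.valuation π) ∧
      ∀ y, y ≠ 0 → B.valuation y ≤ 1 → ∃ n : ℕ, B.valuation y = B.valuation π ^ n := by
  have := hfin x (transcendental_of_val_lt_one B hK hx0 hx)
  have hV := valSet_finite B hK hx0 hx
  have hne : (valSet B x).Nonempty := ⟨B.valuation x, x, rfl, le_rfl, hx⟩
  obtain ⟨γ, hγmem, hγmax⟩ := Set.exists_max_image (valSet B x) id hV hne
  obtain ⟨π, hπv, hπ1, hπ2⟩ := hγmem
  have hvx0 : B.valuation x ≠ 0 := (Valuation.ne_zero_iff _).mpr hx0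
  have hγ0 : γ ≠ 0 := fun h => hvx0 (le_antisymm (h ▸ hπ1) zero_le)
  have hπ0 : π ≠ 0 := (Valuation.ne_zero_iff _).mp (hπv ▸ hγ0)
  have hγpos : 0 < γ := zero_lt_iff.mpr hγ0
  have E1 : ∀ y, B.valuation y < 1 → B.valuation y ≤ γ := by
    intro y hy
    by_contra h
    rw [not_le] at h
    have hm : B.valuation y ∈ valSet B x := ⟨y, rfl, le_trans hπ1 h.le, hy⟩
    exact absurd (hγmax _ hm) (not_le.mpr h)
  refine ⟨π, hπv ▸ hπ2, hπ0, fun y hy => hπv ▸ E1 y hy, ?_⟩
  intro y hy0 hy1
  rw [hπv]
  rcases eq_or_lt_of_le hy1 with h1 | hlt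
  · exact ⟨0, by rw [h1, pow_zero]⟩
  have := hfin y (transcendental_of_val_lt_one B hK hy0 hlt)
  have hVy := valSet_finite B hK hy0 hlt
  have hex : ∃ n : ℕ, γ ^ n ≤ B.valuation y := by
    by_contra hno
    push Not at hno
    have hinj : Function.Injective (fun n : ℕ => γ ^ (n + 1)) := by
      intro a b hab
      have := (pow_right_strictAnti₀ hγpos hπ2).injective hab
      omega
    have hmem : ∀ n : ℕ, (fun n : ℕ => γ ^ (n + 1)) n ∈ valSet B y := by
      intro n
      refine ⟨π ^ (n + 1), by rw [map_pow, hπv], (hno (n + 1)).le, ?_⟩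
      exact pow_lt_one₀ zero_le hπ2 (Nat.succ_ne_zero n)
    exact (Set.infinite_of_injective_forall_mem hinj hmem) hVy
  classical
  have hspec := Nat.find_spec hex
  have hmin := fun m (hm : m < Nat.find hex) => Nat.find_min hex hm
  rcases hn : Nat.find hex with _ | m
  · rw [hn, pow_zero] at hspec
    exact absurd hlt (not_lt.mpr hspec)
  · rw [hn] at hspec
    have hm : ¬ γ ^ m ≤ B.valuation y := hmin m (by rw [hn]; exact Nat.lt_succ_self m)
    rw [not_le] at hm
    have hγm : 0 < γ ^ m := pow_pos hγpos m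
    have hz : B.valuation (y / π ^ m) < 1 := by
      rw [map_div₀, map_pow, hπv]
      exact (div_lt_one₀ hγm).mpr hm
    have hz2 := E1 _ hz
    rw [map_div₀, map_pow, hπv, div_le_iff₀ hγm] at hz2
    refine ⟨m + 1, le_antisymm ?_ hspec⟩
    rw [pow_succ, mul_comm]
    exact hz2

theorem hasUnitMulPowIrreducibleFactorization
    (hK : ∀ a : K, algebraMap K F a ∈ B)
    (hfin : ∀ y : F, Transcendental K y → FiniteDimensional K⟮y⟯ F)
    {x : F} (hx0 : x ≠ 0) (hx : B.valuation x < 1) :
    IsDiscreteValuationRing.HasUnitMulPowIrreducibleFactorization B := by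
  obtain ⟨π, hπ1, hπ0, hmax, hpow⟩ := exists_generator B hK hfin hx0 hx
  have hπB : π ∈ B := (B.valuation_le_one_iff π).mp hπ1.le
  have hγpos : 0 < B.valuation π := zero_lt_iff.mpr ((Valuation.ne_zero_iff _).mpr hπ0)
  refine ⟨⟨π, hπB⟩, ?_, ?_⟩
  · rw [irreducible_iff]
    refine ⟨fun hu => ?_, fun a b hab => ?_⟩
    · have := (B.valuation_eq_one_iff ⟨π, hπB⟩).mp hu
      exact absurd this (ne_of_lt hπ1)
    · by_contra hno
      push Not at hno
      have ha : B.valuation (a : F) < 1 :=
        (B.valuation_lt_one_or_eq_one a).resolve_right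
          (fun h => hno.1 ((B.valuation_eq_one_iff a).mpr h))
      have hb : B.valuation (b : F) < 1 :=
        (B.valuation_lt_one_or_eq_one b).resolve_right
          (fun h => hno.2 ((B.valuation_eq_one_iff b).mpr h))
      have hπab : π = (a : F) * (b : F) := congrArg Subtype.val hab
      have h1 : B.valuation π ≤ B.valuation π * B.valuation π := by
        conv_lhs => rw [hπab, map_mul]
        exact mul_le_mul' (hmax _ ha) (hmax _ hb)
      have h2 : B.valuation π * B.valuation π < B.valuation π := by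
        calc B.valuation π * B.valuation π < B.valuation π * 1 :=
              mul_lt_mul_of_pos_left hπ1 hγpos
          _ = B.valuation π := mul_one _
      exact absurd h1 (not_le.mpr h2)
  · intro y hy
    have hyF : (y : F) ≠ 0 := fun h => hy (Subtype.ext h)
    obtain ⟨n, hn⟩ := hpow (y : F) hyF (B.valuation_le_one y)
    refine ⟨n, associated_of_dvd_dvd ?_ ?_⟩
    · have h1 : B.valuation (y : F) ≤ B.valuation (π ^ n) := by rw [map_pow, hn]
      obtain ⟨a, ha⟩ := (B.valuation_le_iff _ _).mp h1
      exact ⟨a, Subtype.ext (by rw [mul_comm]; exact ha.symm)⟩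
    · have h1 : B.valuation (π ^ n) ≤ B.valuation (y : F) := by rw [map_pow, hn]
      obtain ⟨a, ha⟩ := (B.valuation_le_iff _ _).mp h1
      exact ⟨a, Subtype.ext (by rw [mul_comm]; exact ha.symm)⟩

/-- In a function field of one variable over ANY field `K`, every nontrivial valuation subring
containing the constants is (the valuation ring of) a place. -/
theorem exists_place_eq (hFF : ∃ x : F, Transcendental K x ∧ Module.Finite K⟮x⟯ F)
    (A : ValuationSubring F)
    (hK : ∀ a : K, algebraMap K F a ∈ A) (hne : A ≠ ⊤) :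
    ∃ v : Place K F, v.toValuationSubring = A := by
  obtain ⟨x₀, hx₀, hfin₀⟩ := hFF
  have hfin : ∀ y : F, Transcendental K y → FiniteDimensional K⟮y⟯ F :=
    fun y hy => Fermat.Agent.S24.ff_finite_of_transcendental x₀ hx₀ y hy
  obtain ⟨z, hz⟩ : ∃ z, z ∉ A := by
    by_contra hno
    push Not at hno
    exact hne (eq_top_iff.2 fun z _ => hno z)
  have hz0 : z ≠ 0 := fun h => hz (h ▸ A.zero_mem)
  have hzi : A.valuation z⁻¹ < 1 := by
    have h1 : ¬ A.valuation z ≤ 1 := fun h => hz ((A.valuation_le_one_iff z).1 h)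
    rw [map_inv₀]
    exact inv_lt_one_of_one_lt₀ (not_le.1 h1)
  have hfact := hasUnitMulPowIrreducibleFactorization A hK hfin (inv_ne_zero hz0) hzi
  have hdvr : IsDiscreteValuationRing A :=
    IsDiscreteValuationRing.ofHasUnitMulPowIrreducibleFactorization hfact
  exact ⟨⟨A, hK, hne, inferInstance⟩, rfl⟩

end DVR

section Trace

variable {K : Type u} [Field K] {E : Type u} [Field E] [Algebra K E]

/-- The trace of a `K`-place of `E` on a subfield contains the constants. -/
theorem const_mem_comap (F₀ : IntermediateField K E) (o : ValuationSubring E)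
    (ho : IsKPlace K o) (a : K) :
    algebraMap K F₀ a ∈ o.comap (algebraMap F₀ E) := by
  rw [ValuationSubring.mem_comap]
  exact ho.1 a

/-- The trace of a `K`-place of `E` on a subfield with a transcendental element is not
trivial. -/
theorem comap_ne_top (F₀ : IntermediateField K E) (o : ValuationSubring E)
    (ho : IsKPlace K o) {x : F₀} (hx : Transcendental K x) :
    o.comap (algebraMap F₀ E) ≠ ⊤ := by
  intro htop
  have hall : ∀ z : F₀, algebraMap F₀ E z ∈ o := by
    intro z
    rw [← ValuationSubring.mem_comap, htop]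
    exact ValuationSubring.mem_top _
  obtain ⟨a, ha⟩ := ho.2 (algebraMap F₀ E x) (hall x)
  set y : F₀ := x - algebraMap K F₀ a with hy
  have hy0 : y ≠ 0 := by
    intro h0
    apply hx
    have : x = algebraMap K F₀ a := sub_eq_zero.mp h0
    rw [this]
    exact isAlgebraic_algebraMap a
  have hyE : algebraMap F₀ E y = algebraMap F₀ E x - algebraMap K E a := by
    rw [hy, map_sub, ← IsScalarTower.algebraMap_apply]
  have hyE0 : algebraMap F₀ E y ≠ 0 := by
    intro h
    exact hy0 ((map_eq_zero _).1 h)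
  have hlt : o.valuation (algebraMap F₀ E y) < 1 := by
    rw [hyE]
    exact (ValuationSubring.mem_nonunits_iff (A := o)).1 ha
  have hinv := hall y⁻¹
  rw [map_inv₀] at hinv
  have h1 : o.valuation (algebraMap F₀ E y)⁻¹ ≤ 1 := (o.valuation_le_one_iff _).mpr hinv
  rw [map_inv₀] at h1
  have h2 : 1 < (o.valuation (algebraMap F₀ E y))⁻¹ :=
    (one_lt_inv₀ (zero_lt_iff.mpr ((Valuation.ne_zero_iff _).mpr hyE0))).mpr hlt
  exact absurd h1 (not_le.mpr h2)

end Trace

/-- **SETUP-QO** (helper28): the trace on a curve `F₀ ⊆ E` of a `K`-place of `E` is a place of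
`F₀ / K`. -/
theorem stmt_SETUPQO : Stmt_SETUPQO.{u} := by
  intro K _ E _ _ F₀ hFF o ho
  obtain ⟨x, hx, -⟩ := id hFF
  exact exists_place_eq hFF (o.comap (algebraMap F₀ E)) (const_mem_comap F₀ o ho)
    (comap_ne_top F₀ o ho hx)

end Fermat.Agent.S26.C.X.H28q
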