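import Mathlib
import Fermat.Agent.S26.C.H35_Diag
import Fermat.Agent.S26.C.X.H13_SetupBC

/-!
# S26 (C), PRIG (helper6), cut (JA) J-ALG (helper35)

`H35d.exists_diag` with `j` as a `K`-algebra homomorphism `E →ₐ[K] FΩ`, in the abstract setting
(`exists_diag_alg`) and for a curve family (`exists_diag_fam`):
`F := F i₀`, `k' := blk F {i₀}ᶜ`, `Ω := AlgebraicClosure E`, `FΩ := H30.BCField K (F i₀) Ω`.
-/

set_option autoImplicit false
set_option linter.style.haveILetI false

universe u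

noncomputable section

open AlgebraicCurve IntermediateField TensorProduct

namespace Fermat.Agent.S26.C.X.H35j

open Fermat.Agent.S27.REDu Fermat.Agent.S27.REDu.H10

section Abs

variable {K F k' E Ω FΩ : Type u} [Field K] [Field F] [Algebra K F]
  [Field k'] [Algebra K k'] [Field E] [Algebra k' E] [Algebra F E] [Algebra K E]
  [IsScalarTower K F E] [IsScalarTower K k' E]
  [Field Ω] [Algebra K Ω] [Algebra k' Ω] [IsScalarTower K k' Ω]
  [Algebra E Ω] [IsScalarTower K E Ω] [IsScalarTower k' E Ω]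
  [Field FΩ] [Algebra Ω FΩ] [Algebra F FΩ] [Algebra K FΩ] [IsScalarTower K F FΩ]
  [IsScalarTower K Ω FΩ]

/-- **(JA)**: the embedding `j : E →ₐ[K] FΩ` and the diagonal place `P_δ`. -/
theorem exists_diag_alg [IsAlgClosed Ω] (hE : H30.IsBC K F k' E) (hBC : H30.IsBC K F Ω FΩ)
    (hFF : IsFF K F) :
    ∃ (j : E →ₐ[K] FΩ) (P : Place Ω FΩ),
      (∀ f : F, j (algebraMap F E f) = algebraMap F FΩ f) ∧
      (∀ c : k', j (algebraMap k' E c) = algebraMap Ω FΩ (algebraMap E Ω (algebraMap k' E c))) ∧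
      (∀ (hdeg : P.deg = 1) (y : E), ∃ h : j y ∈ P.toValuationSubring,
        valHom P hdeg ⟨j y, h⟩ = algebraMap E Ω y) ∧
      P.toValuationSubring.comap j.toRingHom = ⊤ := by
  obtain ⟨j, P, hdeg, hjF, hjk, _, _, hval, htop⟩ := H35d.exists_diag (k' := k') hE hBC hFF
  have hcomm : ∀ a : K, j (algebraMap K E a) = algebraMap K FΩ a := by
    intro a
    rw [IsScalarTower.algebraMap_apply K F E, hjF, ← IsScalarTower.algebraMap_apply K F FΩ]
  refine ⟨{ j with commutes' := hcomm }, P, hjF, ?_, ?_, htop⟩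
  · intro c
    have h1 := hjk c
    rw [IsScalarTower.algebraMap_apply k' E Ω] at h1
    exact h1
  · intro hdeg' y
    exact hval y

end Abs

section Fam

variable {K E : Type u} [Field K] [IsAlgClosed K] [Field E] [Algebra K E]

/-- **(JA), curve family form**: `F := F i₀`, `k' := blk F {i₀}ᶜ`, `Ω := AlgebraicClosure E`,
`FΩ := H30.BCField K (F i₀) Ω`. -/
theorem exists_diag_fam {ι : Type} [Finite ι] (F : ι → IntermediateField K E)
    (hF : IsCurveFam F) (i₀ : ι) :
    ∃ (j : E →ₐ[K] H30.BCField K (F i₀) (AlgebraicClosure E))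
      (P : Place (AlgebraicClosure E) (H30.BCField K (F i₀) (AlgebraicClosure E))),
      (∀ y : F i₀, j (y : E) = algebraMap (F i₀) (H30.BCField K (F i₀) (AlgebraicClosure E)) y) ∧
      (∀ y : blk F {i₀}ᶜ, j (y : E) =
        algebraMap (AlgebraicClosure E) (H30.BCField K (F i₀) (AlgebraicClosure E))
          (algebraMap E (AlgebraicClosure E) (y : E))) ∧
      (∀ (hdeg : P.deg = 1) (y : E), ∃ h : j y ∈ P.toValuationSubring,
        valHom P hdeg ⟨j y, h⟩ = algebraMap E (AlgebraicClosure E) y) ∧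
      P.toValuationSubring.comap j.toRingHom = ⊤ := by
  have hE : H30.IsBC K (F i₀) (blk F {i₀}ᶜ) E := H13S.stmt_SETUPBC K E ι F hF i₀
  have hBC : H30.IsBC K (F i₀) (AlgebraicClosure E)
      (H30.BCField K (F i₀) (AlgebraicClosure E)) := H30.isBC_BCField K (F i₀) (AlgebraicClosure E)
  have hFF : IsFF K (F i₀) := hF.ff i₀
  obtain ⟨j, P, hjF, hjk, hval, htop⟩ :=
    exists_diag_alg (k' := blk F {i₀}ᶜ) hE hBC hFF
  exact ⟨j, P, fun y => hjF y, fun y => hjk y, hval, htop⟩

end Fam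

end Fermat.Agent.S26.C.X.H35j
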