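import Fermat.Agent.S26.C.X.SetupDefs
import Fermat.Agent.S26.C.H6_CCCAbs
import Fermat.Agent.S26.C.H73_Nsex
import Fermat.Agent.S26.C.X.H69_PullAt
import Fermat.Agent.S27.REDu.H51_Final

/-!
# S26 (C), PRIG: small wiring lemmas for the TOP assembly

helper49.

* `isFF_of_isFF1` : `X.IsFF1 K F → REDu.IsFF K F`;
* `nsexHyp` : the hypothesis `H6.NsexHyp K F` of HORIZ (Riemann + NSEX), for a function field
  over an algebraically closed field;
* `isBased_comap` : a point of `A(M)`, `M ⊆ E`, based at `o` as a point of `A(E)`, is based at the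
  trace `o ∩ M`;  `isBased_place` : the same for a place `Qo` with valuation ring `o ∩ M`.
-/

set_option autoImplicit false

open CategoryTheory CategoryTheory.Limits AlgebraicGeometry NeronModelInfra GoodReductionJacobian
open AlgebraicCurve
open scoped IntermediateField

universe u

namespace Fermat.Agent.S26.C.X.H49w

open Fermat.Agent.S27.REDu

theorem isFF_of_isFF1 {K F : Type u} [Field K] [Field F] [Algebra K F] (h : IsFF1 K F) :
    IsFF K F := h

/-- **The hypothesis of HORIZ**: Riemann's theorem and a non-special divisor of degree `g`. -/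
theorem nsexHyp {K F : Type u} [Field K] [Field F] [Algebra K F] [IsAlgClosed K]
    (hFF : IsFF K F) : C.H6.NsexHyp K F := by
  obtain ⟨g, c, h⟩ := H51.stmt_FFR_riemann K F hFF
  have hg : ∀ D : Divisor K F, c ≤ Divisor.degree D →
      (Module.finrank K (riemannRochSpace D) : ℤ) = Divisor.degree D + 1 - g :=
    fun D hD => (h D).2 hD
  obtain ⟨E, hE0, hEd, hE1⟩ := C.H73N.stmt_NSEX K F hFF g c hg
  exact ⟨g, c, hg, E, fun v => hE0 v, hEd, hE1⟩

section Based

variable {K : Type u} [Field K] {A : Scheme.{u}} {f : A ⟶ Spec (CommRingCat.of K)}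
  [IsProper f] (L : RelativeGroupLaw K f)
  {E : Type u} [Field E] [Algebra K E] (M : IntermediateField K E)

/-- A point of `A(M)` based at `o` (as a point of `A(E)`) is based at the trace of `o` on `M`. -/
theorem isBased_comap (o : ValuationSubring E) (ho : OverK K o) (β : Pt f M)
    (hβ : IsBased L (incPt β) o) : IsBased L β (o.comap M.val.toRingHom) := by
  have h1 : centre (incPt β) o = orig L := H69.centre_eq (incPt β) o ho hβ
  have h2 : centre (incPt β) o = centre β (o.comap M.val.toRingHom) :=
    H69.centre_mapPt M.val β o ho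
  have := H69.isCentre_centre β (o.comap M.val.toRingHom) (H69.overK_comap M.val o ho)
  rwa [← h2, h1] at this

/-- The same for a place `Qo` of `M / K` with valuation ring `o ∩ M`. -/
theorem isBased_place (o : ValuationSubring E) (ho : OverK K o) (β : Pt f M)
    (hβ : IsBased L (incPt β) o) (Qo : Place K M)
    (hQo : Qo.toValuationSubring = o.comap (algebraMap M E)) :
    IsBased L β Qo.toValuationSubring := by
  rw [hQo]
  exact isBased_comap L M o ho β hβ

end Based

end Fermat.Agent.S26.C.X.H49w
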