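import Mathlib
import Fermat.Agent.S26.C.X.CurvesDefs
import Fermat.Agent.S26.C.X.H90_CvUp

/-!
# S26 (C), cube side, PRIG leaf BLK-LD (helper90)

* `linearDisjoint_of_div` (FRAC): linear disjointness passes from subalgebras `R₁`, `R₂` of a
  field to intermediate fields all of whose elements are quotients of elements of `R₁`, `R₂`.
* `sblk F S` : the SUBALGEBRA generated by the fields `F i`, `i ∈ S`;
  `sblk_linearDisjoint` : for a curve family and disjoint blocks, `sblk F S₂ ⊥ sblk F S₃`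
  (`sblk F S₂ ⊗ sblk F S₃ → E` is injective; by the universal property `H90cv.stmt_CVUP`).
* `blk_linearDisjoint` (**BLK-LD (a)**): `(blk F S₂).LinearDisjoint (blk F S₃)`.
* `sup_blk_compl_eq_top` : `F i₀ ⊔ blk F {i₀}ᶜ = ⊤`.
* `exists_algHom_of_linearDisjoint`, `exists_algHom_of_curveFam` (**BLK-LD (b)**):
  `E = Frac (F i₀ ⊗ blk F {i₀}ᶜ)`: a pair of embeddings into a field `L` with injective
  `F i₀ ⊗ blk → L` extends to `j : E →ₐ[K] L`.
* `lift_injective_of_productMap` : the injectivity hypothesis for `L = FΩ` (`H30.IsBC.inj`).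
-/

set_option autoImplicit false
set_option linter.style.haveILetI false

open scoped TensorProduct IntermediateField

universe u

namespace Fermat.Agent.S26.C.X.H90blk

section Frac

variable {K : Type u} [Field K] {E : Type u} [Field E] [Algebra K E]

/-- **FRAC**: linear disjointness passes from subalgebras to the fields of fractions. -/
theorem linearDisjoint_of_div (A₁ A₂ : IntermediateField K E) (R₁ R₂ : Subalgebra K E)
    (hle₁ : R₁ ≤ A₁.toSubalgebra) (hle₂ : R₂ ≤ A₂.toSubalgebra)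
    (hR : R₁.LinearDisjoint R₂)
    (h₁ : ∀ x ∈ A₁, ∃ r ∈ R₁, ∃ s ∈ R₁, s ≠ 0 ∧ s * x = r)
    (h₂ : ∀ x ∈ A₂, ∃ r ∈ R₂, ∃ s ∈ R₂, s ≠ 0 ∧ s * x = r) :
    A₁.LinearDisjoint A₂ := by
  rw [IntermediateField.linearDisjoint_iff', Subalgebra.linearDisjoint_iff_injective]
  set M := A₁.toSubalgebra.mulMap A₂.toSubalgebra with hM
  set ι : R₁ ⊗[K] R₂ →ₐ[K] A₁.toSubalgebra ⊗[K] A₂.toSubalgebra :=
    Algebra.TensorProduct.map (Subalgebra.inclusion hle₁) (Subalgebra.inclusion hle₂) with hι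
  have hMι : ∀ z' : R₁ ⊗[K] R₂, M (ι z') = R₁.mulMap R₂ z' := by
    intro z'
    induction z' using TensorProduct.induction_on with
    | zero => simp
    | tmul a b =>
      simp only [hM, hι, Algebra.TensorProduct.map_tmul]
      rfl
    | add a b ha hb => rw [map_add, map_add, map_add, ha, hb]
  have key : ∀ z : A₁.toSubalgebra ⊗[K] A₂.toSubalgebra,
      ∃ (s : R₁) (t : R₂), (s : E) ≠ 0 ∧ (t : E) ≠ 0 ∧ ∃ z' : R₁ ⊗[K] R₂,
        ι z' = ι (s ⊗ₜ[K] t) * z := by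
    intro z
    induction z using TensorProduct.induction_on with
    | zero => exact ⟨1, 1, one_ne_zero, one_ne_zero, 0, by simp⟩
    | tmul x y =>
      obtain ⟨r₁, hr₁, s₁, hs₁, hs₁0, e₁⟩ := h₁ x.1 x.2
      obtain ⟨r₂, hr₂, s₂, hs₂, hs₂0, e₂⟩ := h₂ y.1 y.2
      refine ⟨⟨s₁, hs₁⟩, ⟨s₂, hs₂⟩, hs₁0, hs₂0, ⟨r₁, hr₁⟩ ⊗ₜ[K] ⟨r₂, hr₂⟩, ?_⟩
      simp only [hι, Algebra.TensorProduct.map_tmul, Algebra.TensorProduct.tmul_mul_tmul]
      congr 1
      · exact Subtype.ext e₁.symm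
      · exact Subtype.ext e₂.symm
    | add z₁ z₂ ih₁ ih₂ =>
      obtain ⟨s₁, t₁, hs₁, ht₁, z₁', e₁⟩ := ih₁
      obtain ⟨s₂, t₂, hs₂, ht₂, z₂', e₂⟩ := ih₂
      refine ⟨s₁ * s₂, t₁ * t₂, mul_ne_zero hs₁ hs₂, mul_ne_zero ht₁ ht₂,
        (s₂ ⊗ₜ[K] t₂) * z₁' + (s₁ ⊗ₜ[K] t₁) * z₂', ?_⟩
      have e3 : (s₁ * s₂) ⊗ₜ[K] (t₁ * t₂) = (s₁ ⊗ₜ[K] t₁ : R₁ ⊗[K] R₂) * (s₂ ⊗ₜ[K] t₂) := by
        rw [Algebra.TensorProduct.tmul_mul_tmul]
      rw [map_add, map_mul, map_mul, e₁, e₂, e3, map_mul]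
      ring
  rw [injective_iff_map_eq_zero]
  intro z hz
  obtain ⟨s, t, hs, ht, z', e⟩ := key z
  have h0 : R₁.mulMap R₂ z' = 0 := by
    rw [← hMι, e, map_mul, hz, mul_zero]
  have hz' : z' = 0 := by
    have hinj := Subalgebra.linearDisjoint_iff_injective.1 hR
    exact (injective_iff_map_eq_zero _).1 hinj z' h0
  rw [hz', map_zero] at e
  -- `ι (s ⊗ t)` is a unit
  have hu : (⟨(s : E)⁻¹, A₁.inv_mem (hle₁ s.2)⟩ ⊗ₜ[K] ⟨(t : E)⁻¹, A₂.inv_mem (hle₂ t.2)⟩ :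
      A₁.toSubalgebra ⊗[K] A₂.toSubalgebra) * ι (s ⊗ₜ[K] t) = 1 := by
    simp only [hι, Algebra.TensorProduct.map_tmul, Algebra.TensorProduct.tmul_mul_tmul]
    rw [Algebra.TensorProduct.one_def]
    congr 1
    · exact Subtype.ext (inv_mul_cancel₀ hs)
    · exact Subtype.ext (inv_mul_cancel₀ ht)
  calc z = 1 * z := (one_mul z).symm
    _ = _ := by rw [← hu, mul_assoc, ← e, mul_zero]

end Frac

/-! ## Blocks of a free family -/

section Blocks

variable {K : Type u} [Field K] {E : Type u} [Field E] [Algebra K E]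
variable {ι : Type} (F : ι → IntermediateField K E)

/-- The subalgebra generated by the fields of a block. -/
def sblk (S : Set ι) : Subalgebra K E := ⨆ i ∈ S, (F i).toSubalgebra

theorem le_sblk {S : Set ι} {i : ι} (hi : i ∈ S) : (F i).toSubalgebra ≤ sblk F S :=
  le_biSup (fun i => (F i).toSubalgebra) hi

theorem sblk_le_blk (S : Set ι) : sblk F S ≤ (blk F S).toSubalgebra := by
  refine iSup₂_le fun i hi x hx => ?_
  have h : F i ≤ blk F S := le_biSup F hi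
  exact h hx

theorem blk_eq_adjoin (S : Set ι) :
    blk F S = IntermediateField.adjoin K (⋃ i ∈ S, (F i : Set E)) := by
  apply le_antisymm
  · refine iSup₂_le fun i hi x hx => ?_
    exact IntermediateField.subset_adjoin K _ (Set.mem_biUnion hi hx)
  · rw [IntermediateField.adjoin_le_iff]
    refine Set.iUnion₂_subset fun i hi => ?_
    have h : F i ≤ blk F S := le_biSup F hi
    exact h

theorem adjoin_le_sblk (S : Set ι) :
    Algebra.adjoin K (⋃ i ∈ S, (F i : Set E)) ≤ sblk F S := by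
  refine Algebra.adjoin_le ?_
  refine Set.iUnion₂_subset fun i hi x hx => ?_
  exact le_sblk F hi hx

/-- Every element of the block field is a quotient of elements of the block algebra. -/
theorem exists_div_of_mem_blk (S : Set ι) (x : E) (hx : x ∈ blk F S) :
    ∃ r ∈ sblk F S, ∃ s ∈ sblk F S, s ≠ 0 ∧ s * x = r := by
  rw [blk_eq_adjoin, IntermediateField.mem_adjoin_iff_div] at hx
  obtain ⟨r, hr, s, hs, rfl⟩ := hx
  by_cases h0 : s = 0
  · refine ⟨0, zero_mem _, 1, one_mem _, one_ne_zero, ?_⟩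
    rw [h0, div_zero, mul_zero]
  · refine ⟨r, adjoin_le_sblk F S hr, s, adjoin_le_sblk F S hs, h0, ?_⟩
    field_simp

open Classical in
/-- The family of the two blocks (`⊥` outside). -/
noncomputable def Wfam (S₂ S₃ : Set ι) (i : ι) : Subalgebra K E :=
  if i ∈ S₂ ∪ S₃ then (F i).toSubalgebra else ⊥

theorem Wfam_le (S₂ S₃ : Set ι) (i : ι) : Wfam F S₂ S₃ i ≤ (F i).toSubalgebra := by
  unfold Wfam
  split_ifs
  · exact le_rfl
  · exact bot_le

theorem Wfam_eq_of_mem {S₂ S₃ : Set ι} {i : ι} (hi : i ∈ S₂ ∪ S₃) :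
    Wfam F S₂ S₃ i = (F i).toSubalgebra := by
  unfold Wfam
  rw [if_pos hi]

theorem Wfam_eq_bot {S₂ S₃ : Set ι} {i : ι} (hi : i ∉ S₂ ∪ S₃) :
    Wfam F S₂ S₃ i = ⊥ := by
  unfold Wfam
  rw [if_neg hi]

theorem sblk_le_iSup_left (S₂ S₃ : Set ι) : sblk F S₂ ≤ ⨆ i, Wfam F S₂ S₃ i := by
  refine iSup₂_le fun i hi => ?_
  rw [← Wfam_eq_of_mem F (Or.inl hi : i ∈ S₂ ∪ S₃)]
  exact le_iSup (Wfam F S₂ S₃) i

theorem sblk_le_iSup_right (S₂ S₃ : Set ι) : sblk F S₃ ≤ ⨆ i, Wfam F S₂ S₃ i := by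
  refine iSup₂_le fun i hi => ?_
  rw [← Wfam_eq_of_mem F (Or.inr hi : i ∈ S₂ ∪ S₃)]
  exact le_iSup (Wfam F S₂ S₃) i

open Classical in
/-- The maps of the family to `R₂ ⊗ R₃`. -/
noncomputable def lamfam (S₂ S₃ : Set ι) (i : ι) :
    Wfam F S₂ S₃ i →ₐ[K] (sblk F S₂ ⊗[K] sblk F S₃) :=
  if h₂ : i ∈ S₂ then
    (Algebra.TensorProduct.includeLeft : sblk F S₂ →ₐ[K] sblk F S₂ ⊗[K] sblk F S₃).comp
      (Subalgebra.inclusion ((Wfam_le F S₂ S₃ i).trans (le_sblk F h₂)))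
  else if h₃ : i ∈ S₃ then
    (Algebra.TensorProduct.includeRight : sblk F S₃ →ₐ[K] sblk F S₂ ⊗[K] sblk F S₃).comp
      (Subalgebra.inclusion ((Wfam_le F S₂ S₃ i).trans (le_sblk F h₃)))
  else
    ((Algebra.ofId K (sblk F S₂ ⊗[K] sblk F S₃)).comp (Algebra.botEquiv K E).toAlgHom).comp
      (Subalgebra.inclusion (le_of_eq (Wfam_eq_bot F (fun h => h.elim h₂ h₃))))

theorem lamfam_left {S₂ S₃ : Set ι} {i : ι} (h₂ : i ∈ S₂) (w : Wfam F S₂ S₃ i) :
    lamfam F S₂ S₃ i w =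
      (⟨w.1, (Wfam_le F S₂ S₃ i).trans (le_sblk F h₂) w.2⟩ : sblk F S₂) ⊗ₜ[K] 1 := by
  unfold lamfam
  rw [dif_pos h₂]
  rfl

theorem lamfam_right {S₂ S₃ : Set ι} (hd : Disjoint S₂ S₃) {i : ι} (h₃ : i ∈ S₃)
    (w : Wfam F S₂ S₃ i) :
    lamfam F S₂ S₃ i w =
      1 ⊗ₜ[K] (⟨w.1, (Wfam_le F S₂ S₃ i).trans (le_sblk F h₃) w.2⟩ : sblk F S₃) := by
  have h₂ : i ∉ S₂ := fun h => Set.disjoint_left.1 hd h h₃
  unfold lamfam
  rw [dif_neg h₂, dif_pos h₃]
  rfl

theorem sblk_eq_adjoin (S : Set ι) :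
    sblk F S = Algebra.adjoin K (⋃ i ∈ S, (F i : Set E)) := by
  apply le_antisymm
  · refine iSup₂_le fun i hi x hx => ?_
    exact Algebra.subset_adjoin (Set.mem_biUnion hi hx)
  · exact adjoin_le_sblk F S

/-- The subalgebras of two disjoint blocks are linearly disjoint. -/
theorem sblk_linearDisjoint [Finite ι] (hF : IsCurveFam F) {S₂ S₃ : Set ι}
    (hd : Disjoint S₂ S₃) : (sblk F S₂).LinearDisjoint (sblk F S₃) := by
  obtain ⟨ρ, hρ⟩ := H90cv.stmt_CVUP K E ι F hF (Wfam F S₂ S₃) (Wfam_le F S₂ S₃)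
    (sblk F S₂ ⊗[K] sblk F S₃) (lamfam F S₂ S₃)
  have hl := sblk_le_iSup_left F S₂ S₃
  have hr := sblk_le_iSup_right F S₂ S₃
  -- `ρ` on the left block
  have hρl : ρ.comp (Subalgebra.inclusion hl) =
      (Algebra.TensorProduct.includeLeft : sblk F S₂ →ₐ[K] sblk F S₂ ⊗[K] sblk F S₃) := by
    refine AlgHom.ext_of_eq_adjoin (sblk_eq_adjoin F S₂) ?_
    intro x hx
    obtain ⟨i, hi, hxi⟩ := Set.mem_iUnion₂.1 hx
    have hxW : x ∈ Wfam F S₂ S₃ i := by
      rw [Wfam_eq_of_mem F (Or.inl hi : i ∈ S₂ ∪ S₃)]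
      exact hxi
    have := hρ i ⟨x, hxW⟩
    rw [lamfam_left F hi] at this
    exact this
  have hρr : ρ.comp (Subalgebra.inclusion hr) =
      (Algebra.TensorProduct.includeRight : sblk F S₃ →ₐ[K] sblk F S₂ ⊗[K] sblk F S₃) := by
    refine AlgHom.ext_of_eq_adjoin (sblk_eq_adjoin F S₃) ?_
    intro x hx
    obtain ⟨i, hi, hxi⟩ := Set.mem_iUnion₂.1 hx
    have hxW : x ∈ Wfam F S₂ S₃ i := by
      rw [Wfam_eq_of_mem F (Or.inr hi : i ∈ S₂ ∪ S₃)]
      exact hxi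
    have := hρ i ⟨x, hxW⟩
    rw [lamfam_right F hd hi] at this
    exact this
  -- `ρ ∘ mulMap = id`
  have hmem : ∀ z : sblk F S₂ ⊗[K] sblk F S₃,
      (sblk F S₂).mulMap (sblk F S₃) z ∈ ⨆ i, Wfam F S₂ S₃ i := by
    intro z
    have h1 : (sblk F S₂).mulMap (sblk F S₃) z ∈ ((sblk F S₂).mulMap (sblk F S₃)).range :=
      ⟨z, rfl⟩
    rw [Subalgebra.mulMap_range] at h1
    exact (sup_le hl hr) h1
  have hid : ∀ z : sblk F S₂ ⊗[K] sblk F S₃,
      ρ ⟨(sblk F S₂).mulMap (sblk F S₃) z, hmem z⟩ = z := by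
    intro z
    induction z using TensorProduct.induction_on with
    | zero =>
      have e : (⟨(sblk F S₂).mulMap (sblk F S₃) 0, hmem 0⟩ : ↥(⨆ i, Wfam F S₂ S₃ i)) = 0 :=
        Subtype.ext (map_zero _)
      rw [e, map_zero]
    | tmul a b =>
      have e : (⟨(sblk F S₂).mulMap (sblk F S₃) (a ⊗ₜ[K] b), hmem _⟩ :
          ↥(⨆ i, Wfam F S₂ S₃ i)) =
          Subalgebra.inclusion hl a * Subalgebra.inclusion hr b := Subtype.ext rfl
      rw [e, map_mul]
      have h1 := congrArg (fun φ => φ a) hρl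
      have h2 := congrArg (fun φ => φ b) hρr
      simp only [AlgHom.comp_apply] at h1 h2
      rw [h1, h2]
      simp
    | add z₁ z₂ h₁ h₂ =>
      have e : (⟨(sblk F S₂).mulMap (sblk F S₃) (z₁ + z₂), hmem _⟩ :
          ↥(⨆ i, Wfam F S₂ S₃ i)) =
          ⟨(sblk F S₂).mulMap (sblk F S₃) z₁, hmem z₁⟩ +
            ⟨(sblk F S₂).mulMap (sblk F S₃) z₂, hmem z₂⟩ := Subtype.ext (map_add _ _ _)
      rw [e, map_add, h₁, h₂]
  rw [Subalgebra.linearDisjoint_iff_injective, injective_iff_map_eq_zero]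
  intro z hz
  have e : (⟨(sblk F S₂).mulMap (sblk F S₃) z, hmem z⟩ : ↥(⨆ i, Wfam F S₂ S₃ i)) = 0 :=
    Subtype.ext hz
  rw [← hid z, e, map_zero]

/-- **BLK-LD (a)**: the fields of two disjoint blocks of a free family are linearly
disjoint. -/
theorem blk_linearDisjoint [Finite ι] (hF : IsCurveFam F) {S₂ S₃ : Set ι}
    (hd : Disjoint S₂ S₃) : (blk F S₂).LinearDisjoint (blk F S₃) :=
  linearDisjoint_of_div (blk F S₂) (blk F S₃) (sblk F S₂) (sblk F S₃) (sblk_le_blk F S₂)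
    (sblk_le_blk F S₃) (sblk_linearDisjoint F hF hd) (exists_div_of_mem_blk F S₂)
    (exists_div_of_mem_blk F S₃)

/-- `F i₀` and the block of the other curves generate `E`. -/
theorem sup_blk_compl_eq_top (hF : IsCurveFam F) (i₀ : ι) : F i₀ ⊔ blk F {i₀}ᶜ = ⊤ := by
  rw [eq_top_iff, ← hF.gen]
  refine iSup₂_le fun i _ => ?_
  by_cases h : i = i₀
  · rw [h]
    exact le_sup_left
  · have h1 : F i ≤ blk F {i₀}ᶜ :=
      le_biSup F (show i ∈ ({i₀}ᶜ : Set ι) from h)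
    exact h1.trans le_sup_right

end Blocks

/-! ## `E = Frac (F₁ ⊗ F₂)`: the universal property -/

section UP

variable {K : Type u} [Field K] {E : Type u} [Field E] [Algebra K E]

/-- **BLK-LD (b)**: if `F₁`, `F₂` are linearly disjoint and generate `E`, a pair of
`K`-embeddings `e₁ : F₁ → L`, `e₂ : F₂ → L` with `F₁ ⊗ F₂ → L` injective extends to `E → L`. -/
theorem exists_algHom_of_linearDisjoint (F₁ F₂ : IntermediateField K E)
    (hld : F₁.LinearDisjoint F₂) (hsup : F₁ ⊔ F₂ = ⊤) {L : Type*} [Field L] [Algebra K L]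
    (e₁ : F₁ →ₐ[K] L) (e₂ : F₂ →ₐ[K] L)
    (hinj : Function.Injective
      (Algebra.TensorProduct.lift e₁ e₂ (fun _ _ => Commute.all _ _))) :
    ∃ j : E →ₐ[K] L, (∀ x : F₁, j x = e₁ x) ∧ (∀ y : F₂, j y = e₂ y) := by
  have H : F₁.toSubalgebra.LinearDisjoint F₂.toSubalgebra :=
    IntermediateField.linearDisjoint_iff'.1 hld
  set R : Subalgebra K E := F₁.toSubalgebra ⊔ F₂.toSubalgebra with hR
  let ψ : R →ₐ[K] L :=
    (Algebra.TensorProduct.lift e₁ e₂ (fun _ _ => Commute.all _ _)).comp H.mulMap.symm.toAlgHom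
  have hψ : Function.Injective ψ := hinj.comp H.mulMap.symm.injective
  have hψ1 : ∀ x : F₁, ψ ⟨x.1, (le_sup_left : F₁.toSubalgebra ≤ R) x.2⟩ = e₁ x := by
    intro x
    have e : H.mulMap (x ⊗ₜ[K] 1) = ⟨x.1, (le_sup_left : F₁.toSubalgebra ≤ R) x.2⟩ :=
      Subtype.ext ((Subalgebra.LinearDisjoint.val_mulMap_tmul H x 1).trans (mul_one _))
    rw [← e]
    simp [ψ]
  have hψ2 : ∀ y : F₂, ψ ⟨y.1, (le_sup_right : F₂.toSubalgebra ≤ R) y.2⟩ = e₂ y := by
    intro y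
    have e : H.mulMap (1 ⊗ₜ[K] y) = ⟨y.1, (le_sup_right : F₂.toSubalgebra ≤ R) y.2⟩ :=
      Subtype.ext ((Subalgebra.LinearDisjoint.val_mulMap_tmul H 1 y).trans (one_mul _))
    rw [← e]
    simp [ψ]
  -- `E` is the fraction field of `R`
  have hadj : Algebra.adjoin K ((F₁ : Set E) ∪ (F₂ : Set E)) ≤ R := by
    refine Algebra.adjoin_le ?_
    rintro x (hx | hx)
    · exact (le_sup_left : F₁.toSubalgebra ≤ R) hx
    · exact (le_sup_right : F₂.toSubalgebra ≤ R) hx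
  have htop : IntermediateField.adjoin K ((F₁ : Set E) ∪ (F₂ : Set E)) = ⊤ := by
    rw [eq_top_iff, ← hsup]
    refine sup_le ?_ ?_
    · intro x hx
      exact IntermediateField.subset_adjoin K _ (Or.inl hx)
    · intro x hx
      exact IntermediateField.subset_adjoin K _ (Or.inr hx)
  haveI : IsFractionRing R E := by
    refine IsFractionRing.of_field R E ?_
    intro x
    have hx : x ∈ IntermediateField.adjoin K ((F₁ : Set E) ∪ (F₂ : Set E)) := by
      rw [htop]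
      trivial
    obtain ⟨r, hr, s, hs, rfl⟩ := IntermediateField.mem_adjoin_iff_div.1 hx
    exact ⟨⟨r, hadj hr⟩, ⟨s, hadj hs⟩, rfl⟩
  refine ⟨IsFractionRing.liftAlgHom (K := E) hψ, ?_, ?_⟩
  · intro x
    rw [← hψ1 x]
    exact IsFractionRing.lift_algebraMap hψ ⟨x.1, (le_sup_left : F₁.toSubalgebra ≤ R) x.2⟩
  · intro y
    rw [← hψ2 y]
    exact IsFractionRing.lift_algebraMap hψ ⟨y.1, (le_sup_right : F₂.toSubalgebra ≤ R) y.2⟩

/-- **BLK-LD (b)** for a curve family: `E = Frac (F i₀ ⊗ blk F {i₀}ᶜ)`. -/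
theorem exists_algHom_of_curveFam {ι : Type} (F : ι → IntermediateField K E)
    (hF : IsCurveFam F) (i₀ : ι) {L : Type*} [Field L] [Algebra K L]
    (e₁ : F i₀ →ₐ[K] L) (e₂ : blk F {i₀}ᶜ →ₐ[K] L)
    (hinj : Function.Injective
      (Algebra.TensorProduct.lift e₁ e₂ (fun _ _ => Commute.all _ _))) :
    ∃ j : E →ₐ[K] L, (∀ x : F i₀, j x = e₁ x) ∧ (∀ y : blk F {i₀}ᶜ, j y = e₂ y) :=
  exists_algHom_of_linearDisjoint (F i₀) (blk F {i₀}ᶜ) (hF.free i₀)
    (sup_blk_compl_eq_top F hF i₀) e₁ e₂ hinj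

/-- The injectivity hypothesis of (b) in the situation of a constant base change:
`FΩ ⊇ Ω ⊗ F` (injective product map, = `H30.IsBC.inj`) and `k' → Ω` any `K`-embedding. -/
theorem lift_injective_of_productMap {F k' Ω FΩ : Type*} [Field F] [Algebra K F] [Field k']
    [Algebra K k'] [Field Ω] [Algebra K Ω] [Field FΩ] [Algebra Ω FΩ] [Algebra F FΩ]
    [Algebra K FΩ] [IsScalarTower K F FΩ] [IsScalarTower K Ω FΩ]
    (hinj : Function.Injective (Algebra.TensorProduct.productMap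
      (IsScalarTower.toAlgHom K Ω FΩ) (IsScalarTower.toAlgHom K F FΩ)))
    (ι₂ : k' →ₐ[K] Ω) :
    Function.Injective (Algebra.TensorProduct.lift (IsScalarTower.toAlgHom K F FΩ)
      ((IsScalarTower.toAlgHom K Ω FΩ).comp ι₂) (fun _ _ => Commute.all _ _)) := by
  have e : Algebra.TensorProduct.lift (IsScalarTower.toAlgHom K F FΩ)
      ((IsScalarTower.toAlgHom K Ω FΩ).comp ι₂) (fun _ _ => Commute.all _ _) =
      (Algebra.TensorProduct.productMap
        (IsScalarTower.toAlgHom K Ω FΩ) (IsScalarTower.toAlgHom K F FΩ)).comp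
        ((Algebra.TensorProduct.comm K F Ω).toAlgHom.comp
          (Algebra.TensorProduct.map (AlgHom.id K F) ι₂)) := by
    apply Algebra.TensorProduct.ext'
    intro a b
    simp [mul_comm]
  rw [e]
  refine hinj.comp ((Algebra.TensorProduct.comm K F Ω).injective.comp ?_)
  have hι : Function.Injective ι₂.toLinearMap := ι₂.toRingHom.injective
  exact Module.Flat.lTensor_preserves_injective_linearMap (M := F) ι₂.toLinearMap hι

end UP

end Fermat.Agent.S26.C.X.H90blk
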