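import Fermat.Agent.S26.C.X.SetupDefs
import Fermat.Agent.S26.C.H30_BC
import Fermat.Agent.S26.C.X.H90_BlkLD
import Fermat.Agent.S26.C.X.H69_PullAt
import Fermat.Agent.S26.C.X.H8_Cube3

/-!
# S26 (C), PRIG, SETUP-FACE: the face data of `Ω = AlgebraicClosure E`

helper49.  `M` a subfield of `E`, `P` a `K`-place of `E`, `e : E →ₐ[K] Ω`:

* `trB M P e` : the image in `Ω` of `M ∩ O_P`; `trPhi M P e` : its residue map to `K`;
* `comap_eq_of_centredAt` : a `K`-place `O` of `Ω` centred at `(trB, trPhi)` has the same trace on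
  `M` as `P` (domination of valuation rings);
* `isBased_of_centredAt` : then every point of `A(M)` based at `P` is based at `O`;
* `stmt_SETUPFACE : Stmt_SETUPFACE`.
-/

set_option autoImplicit false

open CategoryTheory CategoryTheory.Limits AlgebraicGeometry NeronModelInfra GoodReductionJacobian
open scoped IntermediateField

universe u

noncomputable section

namespace Fermat.Agent.S26.C.X.H49f

section Alg

variable {K E Ω : Type u} [Field K] [Field E] [Algebra K E] [Field Ω] [Algebra K Ω]
  (M : IntermediateField K E) (P : H30.KPl K E) (e : E →ₐ[K] Ω)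

/-- the trace `M ∩ O_P`, as a `K`-subalgebra of `E` -/
def tr : Subalgebra K E := M.toSubalgebra ⊓ P.alg

/-- the residue map of the trace -/
def trRes : tr M P →ₐ[K] K := P.res.comp (Subalgebra.inclusion inf_le_right)

/-- the image of the trace in `Ω` -/
def trB : Subalgebra K Ω := (tr M P).map e

/-- the residue map on the image of the trace -/
def trPhi : trB M P e →ₐ[K] K :=
  (trRes M P).comp
    (Subalgebra.equivMapOfInjective (tr M P) e e.toRingHom.injective).symm.toAlgHom

theorem trB_le : trB M P e ≤ (M.map e).toSubalgebra :=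
  Subalgebra.map_mono inf_le_left

theorem mem_trB {y : E} (hM : y ∈ M) (hP : y ∈ P.O) : e y ∈ trB M P e :=
  ⟨y, ⟨hM, hP⟩, rfl⟩

theorem trPhi_apply {y : E} (hM : y ∈ M) (hP : y ∈ P.O) :
    trPhi M P e ⟨e y, mem_trB M P e hM hP⟩ = P.res ⟨y, hP⟩ := by
  have h1 : (Subalgebra.equivMapOfInjective (tr M P) e e.toRingHom.injective).symm
      ⟨e y, mem_trB M P e hM hP⟩ = (⟨y, ⟨hM, hP⟩⟩ : tr M P) := by
    rw [AlgEquiv.symm_apply_eq]
    rfl
  have h2 : trPhi M P e ⟨e y, mem_trB M P e hM hP⟩ =
      (trRes M P) ((Subalgebra.equivMapOfInjective (tr M P) e e.toRingHom.injective).symm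
        ⟨e y, mem_trB M P e hM hP⟩) := rfl
  rw [h2, h1]
  rfl

/-- **Domination**: a `K`-place of `Ω` centred at the image of `(M ∩ O_P, res)` has the same
trace on `M` as `P`. -/
theorem comap_eq_of_centredAt (O : ValuationSubring Ω) (hO : H29.IsKPlace K O)
    (hc : H29.CentredAt O (trB M P e) (trPhi M P e)) :
    O.comap (e.comp M.val).toRingHom = P.O.comap M.val.toRingHom := by
  have hle : P.O.comap M.val.toRingHom ≤ O.comap (e.comp M.val).toRingHom := by
    intro y hy
    have hy' : (y : E) ∈ P.O := hy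
    exact hO.mem_of_centredAt hc ⟨e y, mem_trB M P e y.2 hy'⟩
  refine le_antisymm ?_ hle
  rw [← ValuationSubring.nonunits_le_nonunits]
  intro y hy
  rw [ValuationSubring.mem_nonunits_iff_or] at hy ⊢
  rcases hy with h0 | hinv
  · exact Or.inl h0
  · by_cases hy0 : y = 0
    · exact Or.inl hy0
    right
    intro hmem
    -- `y⁻¹ ∈ O`, `y⁻¹ ∉ O_P`: so `y ∈ O_P` is a nonunit, of residue `0`
    have hyE : ((y : E))⁻¹ ∉ P.O := fun h => hinv (by
      show M.val.toRingHom y⁻¹ ∈ P.O
      rw [map_inv₀]
      exact h)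
    have hyP : (y : E) ∈ P.O := (P.O.mem_or_inv_mem (y : E)).resolve_right hyE
    have hnu : (y : E) ∈ P.O.nonunits :=
      (ValuationSubring.mem_nonunits_iff_or P.O).2 (Or.inr hyE)
    have hres : P.res ⟨(y : E), hyP⟩ = 0 := by
      apply P.resFun_eq
      rw [map_zero, sub_zero]
      exact hnu
    have h1 := hc ⟨e y, mem_trB M P e y.2 hyP⟩
    rw [trPhi_apply M P e y.2 hyP, hres, map_zero, sub_zero] at h1
    have h2 : (e (y : E))⁻¹ ∈ O := by
      have : (e.comp M.val).toRingHom y⁻¹ ∈ O := hmem
      rw [map_inv₀] at this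
      exact this
    rcases (ValuationSubring.mem_nonunits_iff_or O).1 h1 with h3 | h3
    · apply hy0
      have : (y : E) = 0 := (map_eq_zero e).1 h3
      exact Subtype.ext this
    · exact h3 h2

end Alg

section Based

variable {K : Type u} [Field K] {A : Scheme.{u}} {f : A ⟶ Spec (CommRingCat.of K)}
  [IsProper f] (L : RelativeGroupLaw K f)
  {E Ω : Type u} [Field E] [Algebra K E] [Field Ω] [Algebra K Ω]
  (M : IntermediateField K E) (P : H30.KPl K E) (e : E →ₐ[K] Ω)

/-- At a `K`-place of `Ω` centred at the image of `(M ∩ O_P, res)`, every point of `A(M)` based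
at `P` is based. -/
theorem isBased_of_centredAt (O : ValuationSubring Ω) (hO : H29.IsKPlace K O)
    (hc : H29.CentredAt O (trB M P e) (trPhi M P e)) (β : Pt f M)
    (hβ : IsBased L (incPt β) P.O) : IsBased L (mapPt e (incPt β)) O := by
  have hov : OverK K P.O := P.hK
  -- the centre of `β` at the trace of `P`
  have h1 : centre (incPt β) P.O = orig L := H69.centre_eq (incPt β) P.O hov hβ
  have h2 : centre (incPt β) P.O = centre β (P.O.comap M.val.toRingHom) :=
    H69.centre_mapPt M.val β P.O hov
  have h3 : IsCentre β (P.O.comap M.val.toRingHom) (orig L) := by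
    have := H69.isCentre_centre β (P.O.comap M.val.toRingHom) (H69.overK_comap M.val P.O hov)
    rwa [← h2, h1] at this
  rw [← comap_eq_of_centredAt M P e O hO hc] at h3
  have h4 := H69.isCentre_mapPt (e.comp M.val) β O h3
  have h5 : mapPt e (incPt β) = mapPt (e.comp M.val) β := H8.mapPt_mapPt M.val e β
  show IsCentre (mapPt e (incPt β)) O (orig L)
  rw [h5]
  exact h4

end Based

/-- **SETUP-FACE**. -/
theorem stmt_SETUPFACE : Stmt_SETUPFACE.{u} := by
  intro K _ _ A f _ L E _ _ ι _ F hF o ho S₂ S₃ hd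
  let P : H30.KPl K E := ⟨o, ho.1, ho.2⟩
  let e : E →ₐ[K] AlgebraicClosure E := IsScalarTower.toAlgHom K E (AlgebraicClosure E)
  refine ⟨{ L₁ := (blk F S₂).map e
            L₂ := (blk F S₃).map e
            ld := (H90blk.blk_linearDisjoint F hF hd).map e
            B₁ := trB (blk F S₂) P e
            B₂ := trB (blk F S₃) P e
            le₁ := trB_le (blk F S₂) P e
            le₂ := trB_le (blk F S₃) P e
            φ₁ := trPhi (blk F S₂) P e
            φ₂ := trPhi (blk F S₃) P e }, ?_⟩
  rintro O ⟨hO, h | h⟩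
  · exact Or.inl fun β hβ => isBased_of_centredAt L (blk F S₂) P e O hO h β hβ
  · exact Or.inr fun γ hγ => isBased_of_centredAt L (blk F S₃) P e O hO h γ hγ

end Fermat.Agent.S26.C.X.H49f
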