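import Mathlib

/-!
# S26 (C), TRIPLE field: the tower lemma for linear disjointness

helper52.  `tow` : if `A`, `B` are linearly disjoint over `K` and `A ⊔ B`, `C` are linearly
disjoint over `K`, then `A` and `B ⊔ C` are linearly disjoint over `K`.
-/

set_option autoImplicit false
set_option linter.style.haveILetI false

open scoped IntermediateField
open Module TensorProduct

noncomputable section

namespace Fermat.Agent.S26.C.X.H52

universe u v

variable {K : Type u} {P : Type v} [Field K] [Field P] [Algebra K P]

/-- Subalgebra form of the tower lemma. -/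
theorem tow_subalgebra (A B C : IntermediateField K P)
    (h1 : A.LinearDisjoint B) (h2 : (A ⊔ B).LinearDisjoint C) :
    A.toSubalgebra.LinearDisjoint (B.toSubalgebra ⊔ C.toSubalgebra) := by
  classical
  let a := Basis.ofVectorSpace K A
  let b := Basis.ofVectorSpace K B
  let c := Basis.ofVectorSpace K C
  have hab : LinearIndependent K
      (fun i : _ × _ => ((a i.1 : A) : P) * ((b i.2 : B) : P)) :=
    h1.linearIndependent_mul a.linearIndependent b.linearIndependent
  let m : (Basis.ofVectorSpaceIndex K A × Basis.ofVectorSpaceIndex K B) → ↥(A ⊔ B) :=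
    fun i => ⟨((a i.1 : A) : P) * ((b i.2 : B) : P),
      mul_mem ((le_sup_left : A ≤ A ⊔ B) (a i.1).2) ((le_sup_right : B ≤ A ⊔ B) (b i.2).2)⟩
  have hm : LinearIndependent K m := by
    refine LinearIndependent.of_comp (A ⊔ B).val.toLinearMap ?_
    exact hab
  have habc : LinearIndependent K
      (fun i : (_ × _) × _ => ((m i.1 : ↥(A ⊔ B)) : P) * ((c i.2 : C) : P)) :=
    h2.linearIndependent_mul hm c.linearIndependent
  have hBC : B.LinearDisjoint C := h2.of_le_left le_sup_right
  have hBC' : B.toSubalgebra.LinearDisjoint C.toSubalgebra :=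
    IntermediateField.linearDisjoint_iff'.1 hBC
  let b' : Basis _ K B.toSubalgebra := b
  let c' : Basis _ K C.toSubalgebra := c
  let bc : Basis (Basis.ofVectorSpaceIndex K B × Basis.ofVectorSpaceIndex K C) K
      ↥(B.toSubalgebra ⊔ C.toSubalgebra) :=
    (Basis.tensorProduct b' c').map hBC'.mulMap.toLinearEquiv
  have hbc : ∀ i, ((bc i : ↥(B.toSubalgebra ⊔ C.toSubalgebra)) : P) =
      ((b i.1 : B) : P) * ((c i.2 : C) : P) := by
    intro i
    have h1 : bc i = hBC'.mulMap ((b' i.1) ⊗ₜ[K] (c' i.2)) := by
      simp only [bc, Basis.map_apply]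
      rw [Basis.tensorProduct_apply]
      rfl
    rw [h1, Subalgebra.LinearDisjoint.val_mulMap_tmul]
  let a' : Basis _ K A.toSubalgebra := a
  refine Subalgebra.LinearDisjoint.of_basis_mul _ _ a' bc ?_
  have := habc.comp (fun i : _ × (_ × _) => ((i.1, i.2.1), i.2.2))
    (fun x y h => by
      simp only [Prod.mk.injEq] at h
      exact Prod.ext h.1.1 (Prod.ext h.1.2 h.2))
  convert this using 1
  funext i
  simp only [Function.comp_apply, hbc, m]
  rw [mul_assoc]
  rfl

open scoped IntermediateField.algebraAdjoinAdjoin in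
/-- **Tower lemma**: `A`, `B` linearly disjoint and `A ⊔ B`, `C` linearly disjoint imply that
`A`, `B ⊔ C` are linearly disjoint. -/
theorem tow (A B C : IntermediateField K P)
    (h1 : A.LinearDisjoint B) (h2 : (A ⊔ B).LinearDisjoint C) :
    A.LinearDisjoint ↥(B ⊔ C) := by
  classical
  have hsub := tow_subalgebra A B C h1 h2
  let a := Basis.ofVectorSpace K A
  refine IntermediateField.LinearDisjoint.of_basis_left a ?_
  have key : ∀ S : Subalgebra K P, S = B.toSubalgebra ⊔ C.toSubalgebra →
      LinearIndependent S (A.val ∘ a) := by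
    rintro S rfl
    exact Subalgebra.LinearDisjoint.linearIndependent_left_of_flat hsub
      (a := fun i => (a i : A.toSubalgebra)) a.linearIndependent
  have hadj : Algebra.adjoin K ((B : Set P) ∪ (C : Set P)) =
      B.toSubalgebra ⊔ C.toSubalgebra := by
    rw [Algebra.adjoin_union]
    congr 1
    · exact Algebra.adjoin_eq B.toSubalgebra
    · exact Algebra.adjoin_eq C.toSubalgebra
  have h3 := key _ hadj
  show LinearIndependent ↥(IntermediateField.adjoin K ((B : Set P) ∪ (C : Set P))) (A.val ∘ a)
  exact (LinearIndependent.iff_fractionRing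
    (Algebra.adjoin K ((B : Set P) ∪ (C : Set P)))
    (IntermediateField.adjoin K ((B : Set P) ∪ (C : Set P)))).mp h3

end Fermat.Agent.S26.C.X.H52
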