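import Mathlib
import Fermat.Agent.S26.C.X.Defs
import Fermat.Agent.S26.C.X.H52_Tow

/-!
# S26 (C), TRIPLE field: curve families on a field generated by two linearly disjoint fields

helper52.
* `isFF1_of_algEquiv` : `IsFF1` is invariant under `K`-isomorphisms;
* `blk_map`, `blk_sumElim`, `blk_comp_equiv` : blocks of mapped / summed / reindexed families;
* `isCurveFam_sum` : if `j₁ E₁` and `j₂ E₂` are linearly disjoint and generate `P`, the union
  of the images of two curve families is a curve family of `P`;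
* `isCurveFam_comp_equiv` : reindexing.
-/

set_option autoImplicit false
set_option linter.style.haveILetI false

open scoped IntermediateField

noncomputable section

namespace Fermat.Agent.S26.C.X.H52

universe u

variable {K : Type u} [Field K]

/-- `IsFF1` is invariant under isomorphisms. -/
theorem isFF1_of_algEquiv {F F' : Type u} [Field F] [Field F'] [Algebra K F] [Algebra K F']
    (e : F ≃ₐ[K] F') (h : IsFF1 K F) : IsFF1 K F' := by
  obtain ⟨x, hx, hfin⟩ := h
  refine ⟨e x, ?_, ?_⟩
  · intro halg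
    apply hx
    exact (isAlgebraic_algHom_iff (e : F →ₐ[K] F') e.injective).mp halg
  · let L : IntermediateField K F := K⟮x⟯
    let σ : ↥L →+* ↥(L.map (e : F →ₐ[K] F')) :=
      (L.equivMap (e : F →ₐ[K] F')).toRingEquiv.toRingHom
    haveI : RingHomSurjective σ := ⟨(L.equivMap (e : F →ₐ[K] F')).surjective⟩
    let f : F →ₛₗ[σ] F' :=
      { toFun := e
        map_add' := map_add e
        map_smul' := by
          intro c y
          rw [Algebra.smul_def, Algebra.smul_def, map_mul]
          rfl }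
    haveI : Module.Finite (↥L) F := hfin
    have h1 : Module.Finite ↥(L.map (e : F →ₐ[K] F')) F' :=
      Module.Finite.of_surjective f e.surjective
    have key : ∀ M : IntermediateField K F', M = L.map (e : F →ₐ[K] F') →
        Module.Finite ↥M F' := by
      rintro M rfl
      exact h1
    refine key _ ?_
    show K⟮e x⟯ = (K⟮x⟯).map (e : F →ₐ[K] F')
    rw [IntermediateField.adjoin_map]
    simp

variable {E : Type u} [Field E] [Algebra K E]

theorem blk_map {P : Type u} [Field P] [Algebra K P] {ι : Type}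
    (F : ι → IntermediateField K E) (j : E →ₐ[K] P) (S : Set ι) :
    blk (fun i => (F i).map j) S = (blk F S).map j := by
  unfold blk
  rw [IntermediateField.map_iSup]
  congr 1
  funext i
  rw [IntermediateField.map_iSup]

theorem blk_sumElim {ι₁ ι₂ : Type} (G₁ : ι₁ → IntermediateField K E)
    (G₂ : ι₂ → IntermediateField K E) (S : Set (ι₁ ⊕ ι₂)) :
    blk (Sum.elim G₁ G₂) S = blk G₁ (Sum.inl ⁻¹' S) ⊔ blk G₂ (Sum.inr ⁻¹' S) := by
  unfold blk
  rw [iSup_sum]
  rfl

theorem blk_comp_equiv {ι ι' : Type} (F : ι → IntermediateField K E) (e : ι' ≃ ι)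
    (S : Set ι') : blk (F ∘ e) S = blk F (e '' S) := by
  unfold blk
  apply le_antisymm
  · refine iSup₂_le fun i hi => ?_
    exact le_iSup₂_of_le (e i) ⟨i, hi, rfl⟩ le_rfl
  · refine iSup₂_le fun i hi => ?_
    obtain ⟨i', hi', rfl⟩ := hi
    exact le_iSup₂_of_le i' hi' le_rfl

theorem blk_mono {ι : Type} (F : ι → IntermediateField K E) {S T : Set ι} (h : S ⊆ T) :
    blk F S ≤ blk F T := by
  unfold blk
  exact iSup₂_le fun i hi => le_iSup₂_of_le i (h hi) le_rfl

theorem le_blk {ι : Type} (F : ι → IntermediateField K E) {S : Set ι} {i : ι} (h : i ∈ S) :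
    F i ≤ blk F S := by
  unfold blk
  exact le_iSup₂_of_le i h le_rfl

theorem blk_insert_compl {ι : Type} (F : ι → IntermediateField K E) (i : ι) :
    F i ⊔ blk F {i}ᶜ = blk F Set.univ := by
  apply le_antisymm
  · exact sup_le (le_blk F (Set.mem_univ i)) (blk_mono F (Set.subset_univ _))
  · unfold blk
    refine iSup₂_le fun k _ => ?_
    by_cases hk : k = i
    · subst hk
      exact le_sup_left
    · exact le_trans (le_iSup₂_of_le (f := fun k (_ : k ∈ ({i}ᶜ : Set ι)) => F k) k hk le_rfl)
        le_sup_right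

/-- Reindexing a curve family. -/
theorem isCurveFam_comp_equiv {ι ι' : Type} {F : ι → IntermediateField K E}
    (h : IsCurveFam F) (e : ι' ≃ ι) : IsCurveFam (F ∘ e) where
  ff i := h.ff (e i)
  gen := by
    rw [blk_comp_equiv, Set.image_univ, e.range_eq_univ]
    exact h.gen
  free i := by
    have h1 : blk (F ∘ e) {i}ᶜ = blk F {e i}ᶜ := by
      rw [blk_comp_equiv]
      congr 1
      rw [Set.image_compl_eq e.bijective, Set.image_singleton]
    show (F (e i)).LinearDisjoint ↥(blk (F ∘ e) {i}ᶜ)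
    rw [h1]
    exact h.free (e i)

/-- The union of the images of two curve families in a field generated by two linearly
disjoint subfields is a curve family. -/
theorem isCurveFam_sum {E₁ E₂ P : Type u} [Field E₁] [Field E₂] [Field P] [Algebra K E₁]
    [Algebra K E₂] [Algebra K P] (j₁ : E₁ →ₐ[K] P) (j₂ : E₂ →ₐ[K] P)
    (hld : j₁.fieldRange.LinearDisjoint j₂.fieldRange)
    (hgen : j₁.fieldRange ⊔ j₂.fieldRange = ⊤)
    {ι₁ ι₂ : Type} {F₁ : ι₁ → IntermediateField K E₁} {F₂ : ι₂ → IntermediateField K E₂}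
    (h₁ : IsCurveFam F₁) (h₂ : IsCurveFam F₂) :
    IsCurveFam (Sum.elim (fun i => (F₁ i).map j₁) (fun i => (F₂ i).map j₂)) where
  ff := by
    rintro (i | i)
    · exact isFF1_of_algEquiv ((F₁ i).equivMap j₁) (h₁.ff i)
    · exact isFF1_of_algEquiv ((F₂ i).equivMap j₂) (h₂.ff i)
  gen := by
    rw [blk_sumElim, Set.preimage_univ, Set.preimage_univ, blk_map, blk_map, h₁.gen, h₂.gen,
      ← AlgHom.fieldRange_eq_map, ← AlgHom.fieldRange_eq_map, hgen]
  free := by
    rintro (i | i)
    · have hB : blk (Sum.elim (fun i => (F₁ i).map j₁) (fun i => (F₂ i).map j₂))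
          {Sum.inl i}ᶜ = (blk F₁ {i}ᶜ).map j₁ ⊔ j₂.fieldRange := by
        rw [blk_sumElim, blk_map, blk_map]
        have e1 : (Sum.inl ⁻¹' ({Sum.inl i}ᶜ : Set (ι₁ ⊕ ι₂))) = {i}ᶜ := by
          ext k; simp
        have e2 : (Sum.inr ⁻¹' ({Sum.inl i}ᶜ : Set (ι₁ ⊕ ι₂))) = Set.univ := by
          ext k; simp
        rw [e1, e2, h₂.gen, ← AlgHom.fieldRange_eq_map]
      show ((F₁ i).map j₁).LinearDisjoint
        ↥(blk (Sum.elim (fun i => (F₁ i).map j₁) (fun i => (F₂ i).map j₂)) {Sum.inl i}ᶜ)
      rw [hB]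
      apply tow
      · exact (h₁.free i).map j₁
      · have : (F₁ i).map j₁ ⊔ (blk F₁ {i}ᶜ).map j₁ = j₁.fieldRange := by
          rw [← IntermediateField.map_sup, blk_insert_compl, h₁.gen, AlgHom.fieldRange_eq_map]
        rw [this]
        exact hld
    · have hB : blk (Sum.elim (fun i => (F₁ i).map j₁) (fun i => (F₂ i).map j₂))
          {Sum.inr i}ᶜ = (blk F₂ {i}ᶜ).map j₂ ⊔ j₁.fieldRange := by
        rw [blk_sumElim, blk_map, blk_map]
        have e1 : (Sum.inl ⁻¹' ({Sum.inr i}ᶜ : Set (ι₁ ⊕ ι₂))) = Set.univ := by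
          ext k; simp
        have e2 : (Sum.inr ⁻¹' ({Sum.inr i}ᶜ : Set (ι₁ ⊕ ι₂))) = {i}ᶜ := by
          ext k; simp
        rw [e1, e2, h₁.gen, ← AlgHom.fieldRange_eq_map, sup_comm]
      show ((F₂ i).map j₂).LinearDisjoint
        ↥(blk (Sum.elim (fun i => (F₁ i).map j₁) (fun i => (F₂ i).map j₂)) {Sum.inr i}ᶜ)
      rw [hB]
      apply tow
      · exact (h₂.free i).map j₂
      · have : (F₂ i).map j₂ ⊔ (blk F₂ {i}ᶜ).map j₂ = j₂.fieldRange := by
          rw [← IntermediateField.map_sup, blk_insert_compl, h₂.gen, AlgHom.fieldRange_eq_map]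
        rw [this]
        exact hld.symm

end Fermat.Agent.S26.C.X.H52
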