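import Mathlib
import Fermat.Agent.S26.C.X.H52_TripleSub

/-!
# S26 (C), TRIPLE field: the diagonal valuation ring (abstract form)

helper52.
* `productMap_injective` : if `j₁ E₁`, `j₂ E₂` are linearly disjoint then
  `E₁ ⊗[K] E₂ → P`, `x ⊗ y ↦ j₁ x * j₂ y` is injective;
* `exists_diag` (from `Stmt_VALG`): `g : T →+* P` injective, `μ : T →+* E` surjective onto a
  field; there is a valuation ring `G` of `P` containing `g T` with `g (ker μ) ⊆ 𝔪_G` and
  residue field algebraic over `E`.
-/

set_option autoImplicit false
set_option linter.style.haveILetI false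

open scoped IntermediateField TensorProduct

noncomputable section

namespace Fermat.Agent.S26.C.X.H52

universe u

section Prod

variable {K : Type u} [Field K] {E₁ E₂ P : Type u} [Field E₁] [Field E₂] [Field P]
  [Algebra K E₁] [Algebra K E₂] [Algebra K P]

theorem productMap_injective (j₁ : E₁ →ₐ[K] P) (j₂ : E₂ →ₐ[K] P)
    (hld : j₁.fieldRange.LinearDisjoint j₂.fieldRange) :
    Function.Injective (Algebra.TensorProduct.productMap j₁ j₂) := by
  have H := hld
  simp_rw [IntermediateField.linearDisjoint_iff', AlgHom.fieldRange_toSubalgebra,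
    Subalgebra.linearDisjoint_iff_injective] at H
  have hi : Algebra.TensorProduct.productMap j₁ j₂ =
      (j₁.range.mulMap j₂.range).comp (Algebra.TensorProduct.congr
        (AlgEquiv.ofInjective j₁ j₁.injective) (AlgEquiv.ofInjective j₂ j₂.injective)) := by
    ext <;> simp
  rw [hi]
  simpa only [AlgHom.coe_comp, AlgEquiv.coe_toAlgHom, EquivLike.injective_comp] using H

end Prod

section Diag

variable {P : Type u} [Field P] {T : Type u} [CommRing T] {E : Type u} [Field E]

theorem exists_diag (hV : Stmt_VALG.{u}) (g : T →+* P) (hg : Function.Injective g)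
    (μ : T →+* E) (hμ : Function.Surjective μ) :
    ∃ G : ValuationSubring P, (∀ t, g t ∈ G) ∧ (∀ t, μ t = 0 → g t ∈ G.nonunits) ∧
      ∀ y ∈ G, ∃ q : Polynomial T, q.map μ ≠ 0 ∧ q.eval₂ g y ∈ G.nonunits := by
  classical
  let A : Subring P := g.range
  let ε : T ≃+* A := RingEquiv.ofBijective g.rangeRestrict
    ⟨fun x y h => hg (congrArg Subtype.val h), g.rangeRestrict_surjective⟩
  let ν : A →+* E := μ.comp ε.symm.toRingHom
  have hν : Function.Surjective ν := hμ.comp ε.symm.surjective
  have hmax : (RingHom.ker ν).IsMaximal := RingHom.ker_isMaximal_of_surjective ν hν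
  obtain ⟨G, hAG, hIG, halg⟩ := hV P A (RingHom.ker ν) hmax
  have hεg : ∀ t, ((ε t : A) : P) = g t := fun t => rfl
  have hνε : ∀ t, ν (ε t) = μ t := by
    intro t
    show μ (ε.symm (ε t)) = μ t
    rw [RingEquiv.symm_apply_apply]
  refine ⟨G, fun t => hAG (ε t).2, ?_, ?_⟩
  · intro t ht
    have := hIG (ε t) (by rw [RingHom.mem_ker, hνε, ht])
    exact this
  · intro y hy
    obtain ⟨q, ⟨n, hn⟩, hq⟩ := halg y hy
    refine ⟨q.map ε.symm.toRingHom, ?_, ?_⟩
    · intro h0
      apply hn
      rw [RingHom.mem_ker]
      have := congrArg (fun p => p.coeff n) h0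
      simp only [Polynomial.coeff_map, Polynomial.coeff_zero] at this
      exact this
    · rw [Polynomial.eval₂_map]
      have : g.comp ε.symm.toRingHom = A.subtype := by
        ext a
        show g (ε.symm a) = (a : P)
        rw [← hεg, RingEquiv.apply_symm_apply]
      rw [this]
      exact hq

end Diag

end Fermat.Agent.S26.C.X.H52
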