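import Mathlib
import Fermat.Agent.S26.C.H13_TensorDomain
import Fermat.Agent.S26.C.X.H52_Bin

/-!
# S26 (C), TRIPLE field: the field of a product

helper52.  `exists_prodField` : for two fields `E₁`, `E₂` over an algebraically closed field
`K` there is a field `P` (in the same universe) with embeddings `j₁`, `j₂` whose images are
linearly disjoint over `K` and generate `P`.
-/

set_option autoImplicit false
set_option linter.style.haveILetI false

open scoped IntermediateField
open Module

noncomputable section

namespace Fermat.Agent.S26.C.X.H52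

universe u

variable (K : Type u) [Field K] [IsAlgClosed K]

theorem exists_prodField (E₁ E₂ : Type u) [Field E₁] [Field E₂] [Algebra K E₁]
    [Algebra K E₂] :
    ∃ (P : Type u) (_ : Field P) (_ : Algebra K P) (j₁ : E₁ →ₐ[K] P) (j₂ : E₂ →ₐ[K] P),
      j₁.fieldRange.LinearDisjoint j₂.fieldRange ∧ j₁.fieldRange ⊔ j₂.fieldRange = ⊤ := by
  classical
  haveI : IsDomain (TensorProduct K E₁ E₂) :=
    Fermat.Agent.S26.C.H13.isDomain_tensorProduct (K := K) E₁ E₂
  obtain ⟨P₀, _, _, fa, fb, hld⟩ :=
    IntermediateField.LinearDisjoint.exists_field_of_isDomain K E₁ E₂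
  let M : IntermediateField K P₀ := fa.fieldRange ⊔ fb.fieldRange
  have hfa : ∀ x, fa x ∈ M := fun x =>
    (le_sup_left : fa.fieldRange ≤ M) ⟨x, rfl⟩
  have hfb : ∀ x, fb x ∈ M := fun x =>
    (le_sup_right : fb.fieldRange ≤ M) ⟨x, rfl⟩
  let j₁ : E₁ →ₐ[K] ↥M := fa.codRestrict M.toSubalgebra hfa
  let j₂ : E₂ →ₐ[K] ↥M := fb.codRestrict M.toSubalgebra hfb
  have hc1 : M.val.comp j₁ = fa := by ext x; rfl
  have hc2 : M.val.comp j₂ = fb := by ext x; rfl
  refine ⟨↥M, inferInstance, inferInstance, j₁, j₂, ?_, ?_⟩
  · -- linear disjointness inside `M`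
    let e₁ := Basis.ofVectorSpace K E₁
    let e₂ := Basis.ofVectorSpace K E₂
    let a := e₁.map (AlgEquiv.ofInjectiveField j₁).toLinearEquiv
    let b := e₂.map (AlgEquiv.ofInjectiveField j₂).toLinearEquiv
    refine IntermediateField.LinearDisjoint.of_basis_mul a b ?_
    refine LinearIndependent.of_comp M.val.toLinearMap ?_
    let a₀ := e₁.map (AlgEquiv.ofInjectiveField fa).toLinearEquiv
    let b₀ := e₂.map (AlgEquiv.ofInjectiveField fb).toLinearEquiv
    have h0 := hld.linearIndependent_mul a₀.linearIndependent b₀.linearIndependent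
    convert h0 using 1
    funext i
    rfl
  · apply IntermediateField.map_injective M.val
    rw [IntermediateField.map_sup, AlgHom.map_fieldRange, AlgHom.map_fieldRange, hc1, hc2,
      ← AlgHom.fieldRange_eq_map, IntermediateField.fieldRange_val]

end Fermat.Agent.S26.C.X.H52
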