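import Mathlib
import Fermat.Agent.S26.C.X.H52_TripleDefs
import Fermat.Agent.S26.C.X.H52_TripleSub
import Fermat.Agent.S26.C.X.H52_ProdField
import Fermat.Agent.S26.C.X.H52_Diag

/-!
# S26 (C), TRIPLE field: `Stmt_TRIPLE` from `Stmt_VALG` and `Stmt_KPL2`

helper52.  `E' = P(E, P(E, E))`-type iterated product field (`exists_prodField` twice), the
family by `isCurveFam_sum` twice and reindexing, the place by `Stmt_KPL2` twice, the diagonal
valuation ring by `exists_diag` for `g : (E ⊗ E) ⊗ E → E'` and the multiplication `μ`.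
-/

set_option autoImplicit false
set_option linter.style.haveILetI false

open scoped IntermediateField TensorProduct

noncomputable section

namespace Fermat.Agent.S26.C.X.H52

universe u

/-- The index equivalence `Fin 3 × ι ≃ (ι ⊕ ι) ⊕ ι`. -/
def idx3 (ι : Type) : Fin 3 × ι ≃ (ι ⊕ ι) ⊕ ι where
  toFun p := if p.1 = 0 then Sum.inl (Sum.inl p.2) else
    if p.1 = 1 then Sum.inl (Sum.inr p.2) else Sum.inr p.2
  invFun s := Sum.elim (Sum.elim (fun i => ((0 : Fin 3), i)) (fun i => ((1 : Fin 3), i)))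
    (fun i => ((2 : Fin 3), i)) s
  left_inv := by
    rintro ⟨a, i⟩
    fin_cases a <;> simp
  right_inv := by
    rintro ((i | i) | i) <;> simp

section

variable {K : Type u} [Field K] {E P E' : Type u} [Field E] [Field P] [Field E']
  [Algebra K E] [Algebra K P] [Algebra K E']

/-- The three embeddings. -/
def emb3 (j₁ j₂ : E →ₐ[K] P) (J₁ : P →ₐ[K] E') (J₂ : E →ₐ[K] E') : Fin 3 → (E →ₐ[K] E') :=
  ![J₁.comp j₁, J₁.comp j₂, J₂]

theorem fam3_eq {ι : Type} (F : ι → IntermediateField K E) (j₁ j₂ : E →ₐ[K] P)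
    (J₁ : P →ₐ[K] E') (J₂ : E →ₐ[K] E') :
    fam3 F (emb3 j₁ j₂ J₁ J₂) =
      (Sum.elim (fun i => ((Sum.elim (fun i => (F i).map j₁) (fun i => (F i).map j₂)) i).map J₁)
        (fun i => (F i).map J₂)) ∘ idx3 ι := by
  funext ⟨a, i⟩
  fin_cases a
  · simp [fam3, idx3, emb3, IntermediateField.map_map]
  · simp [fam3, idx3, emb3, IntermediateField.map_map]
  · simp [fam3, idx3, emb3]

theorem mem_blk_fam3 {ι : Type} {F : ι → IntermediateField K E} (hgen : blk F Set.univ = ⊤)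
    (j : Fin 3 → (E →ₐ[K] E')) (a : Fin 3) (x : E) :
    j a x ∈ blk (fam3 F j) {p | p.1 = a} := by
  have h1 : (blk F Set.univ).map (j a) ≤ blk (fam3 F j) {p | p.1 = a} := by
    rw [← blk_map]
    unfold blk
    refine iSup₂_le fun i _ => ?_
    exact le_iSup₂_of_le (f := fun p (_ : p ∈ {p : Fin 3 × ι | p.1 = a}) => fam3 F j p)
      (a, i) rfl le_rfl
  apply h1
  rw [hgen]
  exact ⟨x, IntermediateField.mem_top, rfl⟩

end

section Main

variable {K : Type u} [Field K] {E P E' : Type u} [Field E] [Field P] [Field E']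
  [Algebra K E] [Algebra K P] [Algebra K E']

/-- The map `(E ⊗ E) ⊗ E → E'`. -/
def gmap (j₁ j₂ : E →ₐ[K] P) (J₁ : P →ₐ[K] E') (J₂ : E →ₐ[K] E') :
    (E ⊗[K] E) ⊗[K] E →ₐ[K] E' :=
  Algebra.TensorProduct.productMap (J₁.comp (Algebra.TensorProduct.productMap j₁ j₂)) J₂

theorem gmap_injective (j₁ j₂ : E →ₐ[K] P) (J₁ : P →ₐ[K] E') (J₂ : E →ₐ[K] E')
    (hld : j₁.fieldRange.LinearDisjoint j₂.fieldRange)
    (hLD : J₁.fieldRange.LinearDisjoint J₂.fieldRange) :
    Function.Injective (gmap j₁ j₂ J₁ J₂) := by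
  have h1 : Function.Injective (Algebra.TensorProduct.productMap j₁ j₂) :=
    productMap_injective j₁ j₂ hld
  have h2 : Function.Injective (Algebra.TensorProduct.productMap J₁ J₂) :=
    productMap_injective J₁ J₂ hLD
  have h3 : Function.Injective
      (LinearMap.rTensor E (Algebra.TensorProduct.productMap j₁ j₂).toLinearMap) :=
    Module.Flat.rTensor_preserves_injective_linearMap _ h1
  have hcomp : ∀ t, gmap j₁ j₂ J₁ J₂ t = Algebra.TensorProduct.productMap J₁ J₂
      (LinearMap.rTensor E (Algebra.TensorProduct.productMap j₁ j₂).toLinearMap t) := by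
    intro t
    induction t using TensorProduct.induction_on with
    | zero => simp
    | tmul x y => simp [gmap]
    | add x y hx hy => rw [map_add, map_add, map_add, hx, hy]
  intro s t hst
  rw [hcomp, hcomp] at hst
  exact h3 (h2 hst)

/-- The multiplication `(E ⊗ E) ⊗ E → E`. -/
def mu3 (K : Type u) [Field K] (E : Type u) [Field E] [Algebra K E] :
    (E ⊗[K] E) ⊗[K] E →ₐ[K] E :=
  Algebra.TensorProduct.productMap (Algebra.TensorProduct.lmul' K) (AlgHom.id K E)

/-- The three copies of `x` in `(E ⊗ E) ⊗ E`. -/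
def cop3 (K : Type u) [Field K] {E : Type u} [Field E] [Algebra K E] (a : Fin 3) (x : E) :
    (E ⊗[K] E) ⊗[K] E :=
  ![(x ⊗ₜ[K] (1 : E)) ⊗ₜ[K] (1 : E), ((1 : E) ⊗ₜ[K] x) ⊗ₜ[K] (1 : E),
    ((1 : E) ⊗ₜ[K] (1 : E)) ⊗ₜ[K] x] a

theorem mu3_cop3 (a : Fin 3) (x : E) : mu3 K E (cop3 K a x) = x := by
  fin_cases a <;> simp [mu3, cop3]

theorem gmap_cop3 (j₁ j₂ : E →ₐ[K] P) (J₁ : P →ₐ[K] E') (J₂ : E →ₐ[K] E') (a : Fin 3)
    (x : E) : gmap j₁ j₂ J₁ J₂ (cop3 K a x) = emb3 j₁ j₂ J₁ J₂ a x := by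
  fin_cases a <;> simp [gmap, cop3, emb3]

end Main

/-- **TRIPLE** from `VALG` and `KPL2`. -/
theorem stmt_TRIPLE_of (hV : Stmt_VALG.{u}) (hKP : Stmt_KPL2.{u}) : Stmt_TRIPLE.{u} := by
  classical
  intro K _ _ E _ _ ι _ F hF o ho
  obtain ⟨P, _, _, j₁, j₂, hld, hgen⟩ := exists_prodField K E E
  obtain ⟨E', _, _, J₁, J₂, hLD, hGEN⟩ := exists_prodField K P E
  -- the family
  have hfam : IsCurveFam (fam3 F (emb3 j₁ j₂ J₁ J₂)) := by
    rw [fam3_eq]
    exact isCurveFam_comp_equiv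
      (isCurveFam_sum J₁ J₂ hLD hGEN (isCurveFam_sum j₁ j₂ hld hgen hF hF) hF) (idx3 ι)
  -- the place
  obtain ⟨o₁₂, ho₁₂, hc1, hc2⟩ := hKP K E E P j₁ j₂ hld o o ho ho
  obtain ⟨o', ho', hC1, hC2⟩ := hKP K P E E' J₁ J₂ hLD o₁₂ o ho₁₂ ho
  have hcomap : ∀ a : Fin 3, o'.comap (emb3 j₁ j₂ J₁ J₂ a).toRingHom = o := by
    intro a
    fin_cases a
    · show o'.comap ((J₁.comp j₁).toRingHom) = o
      rw [← hc1, ← hC1]
      rfl
    · show o'.comap ((J₁.comp j₂).toRingHom) = o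
      rw [← hc2, ← hC1]
      rfl
    · exact hC2
  -- the diagonal valuation ring
  let g := gmap j₁ j₂ J₁ J₂
  have hg : Function.Injective g := gmap_injective j₁ j₂ J₁ J₂ hld hLD
  have hμ : Function.Surjective (mu3 K E) := fun x => ⟨cop3 K 0 x, mu3_cop3 0 x⟩
  obtain ⟨G, hG1, hG2, hG3⟩ := exists_diag hV g.toRingHom hg (mu3 K E).toRingHom hμ
  let j := emb3 j₁ j₂ J₁ J₂
  have hjG : ∀ (a : Fin 3) (x : E), j a x ∈ G := by
    intro a x
    rw [← gmap_cop3]
    exact hG1 _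
  let j0 : E →+* G := (j 0).toRingHom.codRestrict G.toSubring (hjG 0)
  let r : G →+* IsLocalRing.ResidueField G := IsLocalRing.residue G
  let e₀ : E →+* IsLocalRing.ResidueField G := r.comp j0
  letI algκ : Algebra K (IsLocalRing.ResidueField G) := (e₀.comp (algebraMap K E)).toAlgebra
  let e : E →ₐ[K] IsLocalRing.ResidueField G := { e₀ with commutes' := fun c => rfl }
  -- the key relation `r (g t) = e (μ t)`
  have key : ∀ t, r ⟨g t, hG1 t⟩ = e (mu3 K E t) := by
    intro t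
    have h1 : g (t - cop3 K 0 (mu3 K E t)) ∈ G.nonunits := by
      apply hG2
      show mu3 K E (t - cop3 K 0 (mu3 K E t)) = 0
      rw [map_sub, mu3_cop3, sub_self]
    rw [ValuationSubring.mem_nonunits_iff_exists_mem_maximalIdeal] at h1
    obtain ⟨h2, h3⟩ := h1
    rw [← IsLocalRing.residue_eq_zero_iff] at h3
    have h4 : (⟨g (t - cop3 K 0 (mu3 K E t)), h2⟩ : G) =
        ⟨g t, hG1 t⟩ - j0 (mu3 K E t) := by
      apply Subtype.ext
      show g (t - cop3 K 0 (mu3 K E t)) = g t - j 0 (mu3 K E t)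
      rw [map_sub, gmap_cop3]
    rw [h4, map_sub, sub_eq_zero] at h3
    exact h3
  refine ⟨E', inferInstance, inferInstance, j, o', G, IsLocalRing.ResidueField G,
    inferInstance, algκ, r, e, hfam, mem_blk_fam3 hF.gen j, ho', hcomap, ?_, ?_, ?_, ?_⟩
  · -- `OverK K G`
    intro c
    have := hjG 0 (algebraMap K E c)
    rwa [AlgHom.commutes] at this
  · exact IsLocalRing.residue_surjective
  · intro a x
    refine ⟨hjG a x, ?_⟩
    have h := key (cop3 K a x)
    rw [mu3_cop3] at h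
    rw [← h]
    congr 1
    apply Subtype.ext
    exact (gmap_cop3 j₁ j₂ J₁ J₂ a x).symm
  · letI : Algebra E (IsLocalRing.ResidueField G) := e.toRingHom.toAlgebra
    refine ⟨fun z => ?_⟩
    obtain ⟨y, rfl⟩ := IsLocalRing.residue_surjective z
    obtain ⟨q, hq0, hq⟩ := hG3 y y.2
    refine ⟨q.map (mu3 K E).toRingHom, hq0, ?_⟩
    let g' : (E ⊗[K] E) ⊗[K] E →+* G := g.toRingHom.codRestrict G.toSubring hG1
    have hrg : (algebraMap E (IsLocalRing.ResidueField G)).comp (mu3 K E).toRingHom =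
        r.comp g' := RingHom.ext fun t => (key t).symm
    rw [Polynomial.aeval_def, Polynomial.eval₂_map, hrg, ← Polynomial.hom_eval₂]
    rw [ValuationSubring.mem_nonunits_iff_exists_mem_maximalIdeal] at hq
    obtain ⟨h2, h3⟩ := hq
    rw [← IsLocalRing.residue_eq_zero_iff] at h3
    have h5 : Polynomial.eval₂ g' y q = ⟨Polynomial.eval₂ g.toRingHom (y : E') q, h2⟩ := by
      apply Subtype.ext
      have := Polynomial.hom_eval₂ q g' G.subtype y
      show G.subtype (Polynomial.eval₂ g' y q) = _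
      rw [this]
      rfl
    rw [h5]
    exact h3

end Fermat.Agent.S26.C.X.H52
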