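import Fermat.Agent.S26.C.H6_CCCAbs

/-!
# S26 (C), cube side, PRIG TOP, cut (CV) CONST-VALUE (helper69)

`constPlace_value` : at the constant place `P_o = ext.place Qo` of `FΩ / Ω` over the place `Qo`
of `F / K`, every `ι z`, `z ∈ O_{Qo}`, is regular with value `z(Qo) ∈ K ⊆ Ω`.
(The hypothesis on `Po` of `X.H6.Stmt_BASE`.)
-/

set_option autoImplicit false
set_option linter.unusedSectionVars false

universe u

noncomputable section

open AlgebraicCurve IntermediateField

namespace Fermat.Agent.S26.C.X.H69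

open Fermat.Agent.S27.REDu Fermat.Agent.S27.REDu.H34 Fermat.Agent.S27.REDu.H34.RedSetting
  Fermat.Agent.S27.REDu.H51 Fermat.Agent.S27.REDu.H10
open Fermat.Agent.S26.C

variable {K F Ω FΩ : Type u}
  [Field K] [Field F] [Algebra K F] [Field Ω] [Field FΩ] [Algebra Ω FΩ]
  [Algebra K Ω] [Algebra F FΩ] [Algebra K FΩ] [IsScalarTower K F FΩ] [IsScalarTower K Ω FΩ]
  [IsAlgClosed K]

/-- The general form: `w` a place of `FΩ / Ω` over the place `v` of `F / K`, both of degree
one. -/
theorem liesOver_value {w : Place Ω FΩ} {v : Place K F}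
    (hw : H86.LiesOver (H29.psi K F FΩ) w v) (hv : v.deg = 1) (hwd : w.deg = 1)
    (z : ↥v.toValuationSubring) :
    ∃ h : algebraMap F FΩ (z : F) ∈ w.toValuationSubring,
      valHom w hwd ⟨algebraMap F FΩ (z : F), h⟩ = algebraMap K Ω (valHom v hv z) := by
  have h1 : H17.VanAt v ((z : F) - algebraMap K F (valHom v hv z)) :=
    (ordGe_one_iff_vanAt v _).1 (ordGe_sub_valHom v hv z)
  have h2 : H17.VanAt w (H29.psi K F FΩ ((z : F) - algebraMap K F (valHom v hv z))) :=
    (hw _).2 h1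
  have e : H29.psi K F FΩ ((z : F) - algebraMap K F (valHom v hv z)) =
      algebraMap F FΩ (z : F) - algebraMap Ω FΩ (algebraMap K Ω (valHom v hv z)) := by
    rw [map_sub]
    congr 1
    show algebraMap F FΩ (algebraMap K F _) = _
    rw [← IsScalarTower.algebraMap_apply K F FΩ, ← IsScalarTower.algebraMap_apply K Ω FΩ]
  rw [e] at h2
  have h3 : OrdGe w 1
      (algebraMap F FΩ (z : F) - algebraMap Ω FΩ (algebraMap K Ω (valHom v hv z))) :=
    (ordGe_one_iff_vanAt w _).2 h2
  have hmem : algebraMap F FΩ (z : F) ∈ w.toValuationSubring := mem_of_ordGe_one_sub w h3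
  exact ⟨hmem, valHom_eq_of_ordGe w hwd ⟨_, hmem⟩ h3⟩

/-- **(CV) CONST-VALUE**. -/
theorem constPlace_value (ext : H86.ConstExt (Ω := Ω) (H29.psi K F FΩ)) (Qo : Place K F)
    (hQo : Qo.deg = 1) (hPo : (ext.place Qo).deg = 1) (z : ↥Qo.toValuationSubring) :
    ∃ h : algebraMap F FΩ (z : F) ∈ (ext.place Qo).toValuationSubring,
      valHom (ext.place Qo) hPo ⟨algebraMap F FΩ (z : F), h⟩ =
        algebraMap K Ω (valHom Qo hQo z) :=
  liesOver_value (ext.place_liesOver Qo) hQo hPo z

end Fermat.Agent.S26.C.X.H69
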