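import Mathlib
import Fermat.Agent.S26.C.X.Defs
import Fermat.Agent.S26.C.X.H69_CentreX
import Fermat.Agent.S26.C.X.H69_PullAt
import Fermat.Agent.S26.C.X.H63_RulesBased

/-!
# S26 (C), cube side, PRIG/BRIDGE (helper69): the reduction `A(E) → A(K)` at a `K`-place

`o` a `K`-place of `E` (`H63.resK o ho : o →+* K`, `H63.clK`, `H63.genO`, `H63.strO`), `f` proper.

* `liftO o ho σ` : THE `𝒪_o`-point of `A` extending `σ` (`liftO_gen`, `liftO_unique`);
* `redK o ho σ : SchemeHomOver (𝟙 (Spec K)) f` : the reduction of `σ`, a `K`-point of `A`;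
* `redK_mul`, `redK_one`, `redK_inv` : the reduction is a homomorphism of groups;
* `centre_eq_redK` : `centre σ o` is the image of `redK o ho σ`;
* **`centre_mul_kplace`** : `centre (σ · σ') o` = image of `redK σ · redK σ'` (product in `A(K)`);
* `isKPlace_comap`, `redK_mapPt` : `redK o' (mapPt j σ) = redK (o' ∩ E) σ`;
* `isBased_iff_redK` : `σ` is based at `o` iff `redK o ho σ = 0`.
-/

set_option autoImplicit false
set_option linter.style.haveILetI false
set_option linter.unusedSectionVars false

open CategoryTheory CategoryTheory.Limits AlgebraicGeometry IsLocalRing NeronModelInfra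
  GoodReductionJacobian

universe u

namespace Fermat.Agent.S26.C.X.H69

variable {K : Type u} [Field K] {A : Scheme.{u}} {f : A ⟶ Spec (CommRingCat.of K)}
variable {E : Type u} [Field E] [Algebra K E]

section Lift

variable [IsProper f] (o : ValuationSubring E) (ho : IsKPlace K o)

/-- The `𝒪_o`-point of `A` extending `σ`. -/
noncomputable def liftO (σ : Pt f E) : SchemeHomOver (H63.strO o ho) f :=
  ⟨(isCentre_centre σ o ho.1).choose,
    centre_over σ o ho.1 _ (isCentre_centre σ o ho.1).choose_spec.1⟩

theorem liftO_gen (σ : Pt f E) :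
    schemeHomOverComp (H63.genO o) (H63.genO_comp o ho) (liftO o ho σ) = σ :=
  Subtype.ext (isCentre_centre σ o ho.1).choose_spec.1

theorem liftO_closedPoint (σ : Pt f E) :
    (liftO o ho σ).1 (closedPoint (CommRingCat.of o)) = centre σ o :=
  (isCentre_centre σ o ho.1).choose_spec.2

/-- Uniqueness of the lift. -/
theorem liftO_unique (σ : Pt f E) (τ : SchemeHomOver (H63.strO o ho) f)
    (h : schemeHomOverComp (H63.genO o) (H63.genO_comp o ho) τ = σ) : τ = liftO o ho σ :=
  Subtype.ext (centreHom_unique σ o ho.1 τ.1 (liftO o ho σ).1 (congrArg Subtype.val h)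
    (congrArg Subtype.val (liftO_gen o ho σ)))

/-- The reduction of `σ` at the `K`-place `o`: a `K`-point of `A`. -/
noncomputable def redK (σ : Pt f E) : SchemeHomOver (𝟙 (Spec (CommRingCat.of K))) f :=
  schemeHomOverComp (H63.clK o ho) (H63.clK_comp o ho) (liftO o ho σ)

/-- The reduction of a point given by a lift. -/
theorem redK_eq_of_lift (σ : Pt f E) (τ : SchemeHomOver (H63.strO o ho) f)
    (h : schemeHomOverComp (H63.genO o) (H63.genO_comp o ho) τ = σ) :
    redK o ho σ = schemeHomOverComp (H63.clK o ho) (H63.clK_comp o ho) τ := by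
  rw [liftO_unique o ho σ τ h]
  rfl

variable (L : RelativeGroupLaw K f)

theorem liftO_mul (σ σ' : Pt f E) :
    liftO o ho (L.mul (str K E) σ σ') = L.mul (H63.strO o ho) (liftO o ho σ) (liftO o ho σ') := by
  symm
  apply liftO_unique
  rw [L.mul_natural, liftO_gen, liftO_gen]

theorem liftO_one : liftO o ho (L.one (str K E)) = L.one (H63.strO o ho) := by
  symm
  apply liftO_unique
  rw [L.one_natural]

theorem liftO_inv (σ : Pt f E) :
    liftO o ho (L.inv (str K E) σ) = L.inv (H63.strO o ho) (liftO o ho σ) := by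
  symm
  apply liftO_unique
  rw [Fermat.Agent.S26.H55.inv_natural, liftO_gen]

/-- The reduction is multiplicative. -/
theorem redK_mul (σ σ' : Pt f E) :
    redK o ho (L.mul (str K E) σ σ') = L.mul (𝟙 _) (redK o ho σ) (redK o ho σ') := by
  unfold redK
  rw [liftO_mul, L.mul_natural]

theorem redK_one : redK o ho (L.one (str K E)) = L.one (𝟙 _) := by
  unfold redK
  rw [liftO_one, L.one_natural]

theorem redK_inv (σ : Pt f E) :
    redK o ho (L.inv (str K E) σ) = L.inv (𝟙 _) (redK o ho σ) := by
  unfold redK
  rw [liftO_inv, Fermat.Agent.S26.H55.inv_natural]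

/-- The reduction, as a homomorphism of groups `A(E) → A(K)`. -/
noncomputable def redKHom :
    letI : Group (Pt f E) := L.pointGroup (str K E)
    letI : Group (SchemeHomOver (𝟙 (Spec (CommRingCat.of K))) f) := L.pointGroup (𝟙 _)
    Pt f E →* SchemeHomOver (𝟙 (Spec (CommRingCat.of K))) f :=
  letI : Group (Pt f E) := L.pointGroup (str K E)
  letI : Group (SchemeHomOver (𝟙 (Spec (CommRingCat.of K))) f) := L.pointGroup (𝟙 _)
  { toFun := redK o ho
    map_one' := redK_one o ho L
    map_mul' := redK_mul o ho L }

omit [IsProper f] in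
/-- The image of a `K`-point. -/
theorem clK_apply (x : Spec (CommRingCat.of K)) :
    (H63.clK o ho) x = closedPoint (CommRingCat.of o) :=
  H63.clK_closedPoint o ho x

/-- The centre is the image of the reduction. -/
theorem centre_eq_redK (σ : Pt f E) :
    centre σ o = (redK o ho σ).1 (closedPoint (CommRingCat.of K)) := by
  rw [← liftO_closedPoint o ho σ]
  show _ = (liftO o ho σ).1 ((H63.clK o ho) (closedPoint (CommRingCat.of K)))
  exact congrArg (fun x => (liftO o ho σ).1 x) (clK_apply o ho _).symm

/-- **The centre of a product at a `K`-place** is the product of the reductions. -/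
theorem centre_mul_kplace (σ σ' : Pt f E) :
    centre (L.mul (str K E) σ σ') o =
      (L.mul (𝟙 _) (redK o ho σ) (redK o ho σ')).1 (closedPoint (CommRingCat.of K)) := by
  rw [centre_eq_redK o ho, redK_mul]

/-- `pb` of a product at a `K`-place depends only on the product of the reductions. -/
theorem centre_congr_of_redK {σ σ' : Pt f E} (h : redK o ho σ = redK o ho σ') :
    centre σ o = centre σ' o := by
  rw [centre_eq_redK o ho, centre_eq_redK o ho, h]

/-- `σ` is based at `o` iff its reduction is `0`. -/
theorem isBased_iff_redK [IsAlgClosed K] (σ : Pt f E) :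
    IsBased L σ o ↔ redK o ho σ = L.one (𝟙 _) := by
  rw [H63.isBased_iff_lift L o ho]
  constructor
  · rintro ⟨τ, hτ, hc⟩
    rw [redK_eq_of_lift o ho σ τ hτ]
    exact hc
  · intro h
    exact ⟨liftO o ho σ, liftO_gen o ho σ, h⟩

end Lift

section MapPt

variable [IsProper f] {E' : Type u} [Field E'] [Algebra K E'] (j : E →ₐ[K] E')

omit [IsProper f] in
/-- The restriction of a `K`-place is a `K`-place. -/
theorem isKPlace_comap (o' : ValuationSubring E') (ho' : IsKPlace K o') :
    IsKPlace K (o'.comap j.toRingHom) := by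
  refine ⟨overK_comap j o' ho'.1, fun x hx => ?_⟩
  obtain ⟨a, ha⟩ := ho'.2 (j x) (ValuationSubring.mem_comap.1 hx)
  refine ⟨a, ?_⟩
  rw [ValuationSubring.mem_nonunits_iff_or] at ha ⊢
  have e : j x - algebraMap K E' a = j (x - algebraMap K E a) := by
    rw [map_sub, j.commutes]
  rw [e] at ha
  rcases ha with ha | ha
  · left
    exact (map_eq_zero j).1 ha
  · right
    intro hc
    apply ha
    have := ValuationSubring.mem_comap.1 hc
    have e2 : j.toRingHom (x - algebraMap K E a)⁻¹ = (j (x - algebraMap K E a))⁻¹ :=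
      map_inv₀ j _
    rwa [e2] at this

/-- The inclusion `o' ∩ E → o'`. -/
noncomputable def inclComap (o' : ValuationSubring E') : (o'.comap j.toRingHom) →+* o' :=
  (j.toRingHom.comp (algebraMap (o'.comap j.toRingHom) E)).codRestrict o'.toSubring
    (fun x => x.2)

omit [IsProper f] in
theorem inclComap_coe (o' : ValuationSubring E') (x : o'.comap j.toRingHom) :
    ((inclComap j o' x : o') : E') = j (x : E) := rfl

omit [IsProper f] in
/-- `o' ∩ E → o'` maps the maximal ideal into the maximal ideal. -/
theorem inclComap_mem_maximalIdeal (o' : ValuationSubring E') (x : o'.comap j.toRingHom)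
    (hx : x ∈ maximalIdeal (o'.comap j.toRingHom)) : inclComap j o' x ∈ maximalIdeal o' := by
  rw [mem_maximalIdeal, mem_nonunits_iff] at hx ⊢
  intro hu
  apply hx
  have h1 : (x : E) ≠ 0 := by
    intro h0
    have : inclComap j o' x = 0 := by
      apply Subtype.ext
      show j (x : E) = 0
      rw [h0, map_zero]
    rw [this] at hu
    exact not_isUnit_zero hu
  obtain ⟨b, hb⟩ := hu.exists_right_inv
  have hb' : j (x : E) * (b : E') = 1 := congrArg Subtype.val hb
  have hinv : (b : E') = j.toRingHom ((x : E)⁻¹) := by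
    rw [map_inv₀]
    exact eq_inv_of_mul_eq_one_right hb'
  have hmem : (x : E)⁻¹ ∈ o'.comap j.toRingHom := by
    rw [ValuationSubring.mem_comap, ← hinv]
    exact b.2
  refine isUnit_iff_exists_inv.2 ⟨⟨(x : E)⁻¹, hmem⟩, ?_⟩
  apply Subtype.ext
  show (x : E) * (x : E)⁻¹ = 1
  exact mul_inv_cancel₀ h1

omit [IsProper f] in
/-- Characterisation of the residue map of a `K`-place. -/
theorem resK_eq_iff (o : ValuationSubring E) (ho : IsKPlace K o) (x : o) (a : K) :
    H63.resK o ho x = a ↔ x - kap o ho.1 a ∈ maximalIdeal o := by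
  rw [← H63.resK_eq_zero_iff o ho, map_sub, H63.resK_kap, sub_eq_zero]

omit [IsProper f] in
/-- The residue maps of `o'` and of `o' ∩ E` agree. -/
theorem resK_inclComap (o' : ValuationSubring E') (ho' : IsKPlace K o')
    (x : o'.comap j.toRingHom) :
    H63.resK o' ho' (inclComap j o' x) =
      H63.resK (o'.comap j.toRingHom) (isKPlace_comap j o' ho') x := by
  rw [resK_eq_iff]
  have h := (resK_eq_iff (o'.comap j.toRingHom) (isKPlace_comap j o' ho') x _).1 rfl
  have h2 := inclComap_mem_maximalIdeal j o' _ h
  have e : inclComap j o' (x - kap (o'.comap j.toRingHom) (isKPlace_comap j o' ho').1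
      (H63.resK (o'.comap j.toRingHom) (isKPlace_comap j o' ho') x)) =
      inclComap j o' x - kap o' ho'.1
        (H63.resK (o'.comap j.toRingHom) (isKPlace_comap j o' ho') x) := by
    rw [map_sub]
    congr 1
    apply Subtype.ext
    exact j.commutes _
  rwa [e] at h2

/-- **Reduction and base change**: `redK o' (mapPt j σ) = redK (o' ∩ E) σ`. -/
theorem redK_mapPt (o' : ValuationSubring E') (ho' : IsKPlace K o') (σ : Pt f E) :
    redK o' ho' (mapPt j σ) = redK (o'.comap j.toRingHom) (isKPlace_comap j o' ho') σ := by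
  have hι : Spec.map (CommRingCat.ofHom (inclComap j o')) ≫
      H63.strO (o'.comap j.toRingHom) (isKPlace_comap j o' ho') = H63.strO o' ho' := by
    rw [← Spec.map_comp]
    congr 1
    ext a
    exact j.commutes a
  have hlift : schemeHomOverComp (H63.genO o') (H63.genO_comp o' ho')
      (schemeHomOverComp (Spec.map (CommRingCat.ofHom (inclComap j o'))) hι
        (liftO (o'.comap j.toRingHom) (isKPlace_comap j o' ho') σ)) = mapPt j σ := by
    apply Subtype.ext
    show H63.genO o' ≫ Spec.map (CommRingCat.ofHom (inclComap j o')) ≫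
      (liftO (o'.comap j.toRingHom) (isKPlace_comap j o' ho') σ).1 =
      Spec.map (CommRingCat.ofHom j.toRingHom) ≫ σ.1
    have h := congrArg Subtype.val (liftO_gen (o'.comap j.toRingHom) (isKPlace_comap j o' ho') σ)
    conv_rhs => rw [← h]
    show _ = Spec.map (CommRingCat.ofHom j.toRingHom) ≫ H63.genO (o'.comap j.toRingHom) ≫ _
    rw [← Category.assoc, ← Category.assoc, ← Spec.map_comp, ← Spec.map_comp]
    rfl
  rw [redK_eq_of_lift o' ho' (mapPt j σ) _ hlift]
  apply Subtype.ext
  show H63.clK o' ho' ≫ Spec.map (CommRingCat.ofHom (inclComap j o')) ≫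
      (liftO (o'.comap j.toRingHom) (isKPlace_comap j o' ho') σ).1 =
    H63.clK (o'.comap j.toRingHom) (isKPlace_comap j o' ho') ≫
      (liftO (o'.comap j.toRingHom) (isKPlace_comap j o' ho') σ).1
  rw [← Category.assoc]
  congr 1
  unfold H63.clK
  rw [← Spec.map_comp]
  congr 1
  ext x
  exact resK_inclComap j o' ho' x

/-- The centre of a base change at a `K`-place. -/
theorem centre_mapPt_kplace (o' : ValuationSubring E') (ho' : IsKPlace K o') (σ : Pt f E) :
    centre (mapPt j σ) o' =
      (redK (o'.comap j.toRingHom) (isKPlace_comap j o' ho') σ).1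
        (closedPoint (CommRingCat.of K)) := by
  rw [centre_eq_redK o' ho', redK_mapPt]

end MapPt

end Fermat.Agent.S26.C.X.H69
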