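import Mathlib
import Fermat.Agent.S26.C.X.Defs
import Fermat.Agent.S26.C.X.H69_RedK

/-!
# S26 (C), cube side, PRIG, CCC-INST: the scheme fact **LOC-E** (helper69)

`V`, `V'` two `K`-places of `E` with the same traces on two subfields `M₁`, `M₂` of `E`
(`M₁ = F i₀`, `M₂ = k' = blk F {i₀}ᶜ`).  Then every valuative divisor built from `pb σ D`, `σ` in
the subgroup of `A(E)` generated by the points of `A(M₁)` and `A(M₂)`, takes the same value at
`V` and at `V'`: the centre of such a point at a `K`-place is the product of the reductions of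
the factors, and the reduction of a point of `A(M)` at `V` is its reduction at `V ∩ M`.

* `SameRed V V' hV hV' σ` : `σ` has the same reduction in `A(K)` at `V` and at `V'`;
  `SameRed.mul/one/inv/div`, `sameRed_mapPt`, `sameRed_incPt`, `sameRed_incPt_of_le`;
* `SameAt V V' Λ` : `Λ V = Λ V'`; `SameAt.mul/div/inv/one/pow/zpow/prod`;
* `sameAt_pb`, `sameAt_thetaV`;
* **`loc_E`** : LOC-E for `Λ_E = thetaV L (x·a) β γ D / thetaV L a β γ D` of `Stmt_PRIG`
  (elementwise hypotheses), `loc_E_comap` (hypotheses as `comap` along `algebraMap`),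
  `loc_E_val` (hypotheses as `comap` along `IntermediateField.val`);
* **`loc_j`**, **`loc_j_of_factor`** : the same for `W ↦ j (Λ_E (W ∩ E))` on `FΩ`, `j : E → FΩ`
  (the field `loc` of `H6.CCCData`).
-/

set_option autoImplicit false
set_option linter.style.haveILetI false
set_option linter.unusedSectionVars false

open CategoryTheory CategoryTheory.Limits AlgebraicGeometry IsLocalRing NeronModelInfra
  GoodReductionJacobian

universe u

namespace Fermat.Agent.S26.C.X.H69

variable {K : Type u} [Field K] {A : Scheme.{u}} {f : A ⟶ Spec (CommRingCat.of K)}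
variable {E : Type u} [Field E] [Algebra K E]

/-! ## Valuative divisors with the same value at two valuation rings -/

section SameAt

/-- `Λ` takes the same value at `V` and at `V'`. -/
def SameAt (V V' : ValuationSubring E) (Λ : ValuationSubring E → E) : Prop :=
  Λ V = Λ V'

variable {V V' : ValuationSubring E} {Λ Λ' : ValuationSubring E → E}

theorem SameAt.one : SameAt V V' (1 : ValuationSubring E → E) := rfl

theorem SameAt.mul (h : SameAt V V' Λ) (h' : SameAt V V' Λ') : SameAt V V' (Λ * Λ') := by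
  unfold SameAt at *
  rw [Pi.mul_apply, Pi.mul_apply, h, h']

theorem SameAt.inv (h : SameAt V V' Λ) : SameAt V V' Λ⁻¹ := by
  unfold SameAt at *
  rw [Pi.inv_apply, Pi.inv_apply, h]

theorem SameAt.div (h : SameAt V V' Λ) (h' : SameAt V V' Λ') : SameAt V V' (Λ / Λ') := by
  unfold SameAt at *
  rw [Pi.div_apply, Pi.div_apply, h, h']

theorem SameAt.pow (h : SameAt V V' Λ) (n : ℕ) : SameAt V V' (Λ ^ n) := by
  unfold SameAt at *
  rw [Pi.pow_apply, Pi.pow_apply, h]

theorem SameAt.zpow (h : SameAt V V' Λ) (n : ℤ) : SameAt V V' (Λ ^ n) := by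
  unfold SameAt at *
  rw [Pi.pow_apply, Pi.pow_apply, h]

theorem SameAt.prod {ι : Type*} (s : Finset ι) (Λs : ι → ValuationSubring E → E)
    (h : ∀ i ∈ s, SameAt V V' (Λs i)) : SameAt V V' (∏ i ∈ s, Λs i) := by
  unfold SameAt at *
  rw [Finset.prod_apply, Finset.prod_apply]
  exact Finset.prod_congr rfl h

/-- transport along `j` -/
theorem SameAt.map {E' : Type u} [Field E'] (j : E →+* E') {W W' : ValuationSubring E'}
    (h : SameAt (W.comap j) (W'.comap j) Λ) :
    SameAt W W' (fun W => j (Λ (W.comap j))) := by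
  unfold SameAt at *
  show j _ = j _
  rw [h]

end SameAt

/-! ## Points with the same reduction at two `K`-places -/

section SameRed

variable [IsProper f]

/-- `redK` depends only on the valuation ring. -/
theorem redK_congr {o o' : ValuationSubring E} (ho : IsKPlace K o) (ho' : IsKPlace K o')
    (h : o = o') (σ : Pt f E) : redK o ho σ = redK o' ho' σ := by
  subst h
  rfl

/-- `σ` has the same reduction at the `K`-places `V` and `V'`. -/
def SameRed (V V' : ValuationSubring E) (hV : IsKPlace K V) (hV' : IsKPlace K V')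
    (σ : Pt f E) : Prop :=
  redK V hV σ = redK V' hV' σ

variable {V V' : ValuationSubring E} {hV : IsKPlace K V} {hV' : IsKPlace K V'}

theorem SameRed.mul (L : RelativeGroupLaw K f) {σ σ' : Pt f E}
    (h : SameRed V V' hV hV' σ) (h' : SameRed V V' hV hV' σ') :
    SameRed V V' hV hV' (L.mul (str K E) σ σ') := by
  unfold SameRed at *
  rw [redK_mul, redK_mul, h, h']

theorem SameRed.one (L : RelativeGroupLaw K f) :
    SameRed V V' hV hV' (L.one (str K E) : Pt f E) := by
  unfold SameRed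
  rw [redK_one, redK_one]

theorem SameRed.inv (L : RelativeGroupLaw K f) {σ : Pt f E}
    (h : SameRed V V' hV hV' σ) : SameRed V V' hV hV' (L.inv (str K E) σ) := by
  unfold SameRed at *
  rw [redK_inv, redK_inv, h]

/-- group notation -/
theorem SameRed.mul' (L : RelativeGroupLaw K f) {σ σ' : Pt f E}
    (h : SameRed V V' hV hV' σ) (h' : SameRed V V' hV hV' σ') :
    letI : Group (Pt f E) := L.pointGroup (str K E)
    SameRed V V' hV hV' (σ * σ') :=
  h.mul L h'

theorem SameRed.one' (L : RelativeGroupLaw K f) :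
    letI : Group (Pt f E) := L.pointGroup (str K E)
    SameRed V V' hV hV' (1 : Pt f E) :=
  SameRed.one L

theorem SameRed.inv' (L : RelativeGroupLaw K f) {σ : Pt f E}
    (h : SameRed V V' hV hV' σ) :
    letI : Group (Pt f E) := L.pointGroup (str K E)
    SameRed V V' hV hV' σ⁻¹ :=
  h.inv L

theorem SameRed.div' (L : RelativeGroupLaw K f) {σ σ' : Pt f E}
    (h : SameRed V V' hV hV' σ) (h' : SameRed V V' hV hV' σ') :
    letI : Group (Pt f E) := L.pointGroup (str K E)
    SameRed V V' hV hV' (σ / σ') := by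
  letI : Group (Pt f E) := L.pointGroup (str K E)
  rw [div_eq_mul_inv]
  exact h.mul L (h'.inv L)

theorem SameRed.list_prod (L : RelativeGroupLaw K f) (l : List (Pt f E))
    (h : ∀ σ ∈ l, SameRed V V' hV hV' σ) :
    letI : Group (Pt f E) := L.pointGroup (str K E)
    SameRed V V' hV hV' l.prod := by
  letI : Group (Pt f E) := L.pointGroup (str K E)
  induction l with
  | nil => exact SameRed.one L
  | cons a l ih =>
    rw [List.prod_cons]
    exact (h a (List.mem_cons_self)).mul L
      (ih fun σ hσ => h σ (List.mem_cons_of_mem _ hσ))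

/-- The centre of a point with the same reductions. -/
theorem SameRed.centre_eq {σ : Pt f E} (h : SameRed V V' hV hV' σ) :
    centre σ V = centre σ V' := by
  rw [centre_eq_redK V hV, centre_eq_redK V' hV']
  exact congrArg (fun τ : SchemeHomOver (𝟙 (Spec (CommRingCat.of K))) f =>
    τ.1 (closedPoint (CommRingCat.of K))) h

/-- A point coming from a subfield on which `V` and `V'` have the same trace. -/
theorem sameRed_mapPt {E₁ : Type u} [Field E₁] [Algebra K E₁] (j : E₁ →ₐ[K] E)
    (h : V.comap j.toRingHom = V'.comap j.toRingHom) (σ : Pt f E₁) :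
    SameRed V V' hV hV' (mapPt j σ) := by
  unfold SameRed
  rw [redK_mapPt, redK_mapPt]
  exact redK_congr _ _ h σ

/-- elementwise form -/
theorem sameRed_mapPt' {E₁ : Type u} [Field E₁] [Algebra K E₁] (j : E₁ →ₐ[K] E)
    (h : ∀ y : E₁, j y ∈ V ↔ j y ∈ V') (σ : Pt f E₁) :
    SameRed V V' hV hV' (mapPt j σ) :=
  sameRed_mapPt j (ValuationSubring.ext_iff.2 fun y => h y) σ

/-- A point of a subfield `M` on which `V` and `V'` have the same trace. -/
theorem sameRed_incPt {M : IntermediateField K E} (h : ∀ y ∈ M, y ∈ V ↔ y ∈ V')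
    (σ : Pt f M) : SameRed V V' hV hV' (incPt σ) :=
  sameRed_mapPt' M.val (fun y => h (y : E) y.2) σ

/-- A point of a subfield `M ≤ M'`, `V` and `V'` with the same trace on `M'`. -/
theorem sameRed_incPt_of_le {M M' : IntermediateField K E} (hle : M ≤ M')
    (h : ∀ y ∈ M', y ∈ V ↔ y ∈ V') (σ : Pt f M) : SameRed V V' hV hV' (incPt σ) :=
  sameRed_incPt (fun y hy => h y (hle hy)) σ

end SameRed

/-! ## `pb` and `thetaV` -/

section Theta

variable [IsProper f] [IsIntegral A]
variable {V V' : ValuationSubring E} {hV : IsKPlace K V} {hV' : IsKPlace K V'}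

/-- `pb σ D` takes the same value at two `K`-places where `σ` has the same reduction. -/
theorem sameAt_pb {σ : Pt f E} (h : SameRed V V' hV hV' σ) (D : A → A.functionField) :
    SameAt V V' (pb σ D) := by
  unfold SameAt pb
  rw [h.centre_eq]

/-- `thetaV` takes the same value at two `K`-places where the three points have the same
reductions. -/
theorem sameAt_thetaV (L : RelativeGroupLaw K f) {x₁ x₂ x₃ : Pt f E}
    (h₁ : SameRed V V' hV hV' x₁) (h₂ : SameRed V V' hV hV' x₂) (h₃ : SameRed V V' hV hV' x₃)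
    (D : A → A.functionField) : SameAt V V' (thetaV L x₁ x₂ x₃ D) := by
  unfold thetaV
  exact ((((sameAt_pb ((h₁.mul L h₂).mul L h₃) D).mul (sameAt_pb h₁ D)).mul
    (sameAt_pb h₂ D)).mul (sameAt_pb h₃ D)).div
    (((sameAt_pb (h₁.mul L h₂) D).mul (sameAt_pb (h₁.mul L h₃) D)).mul
      (sameAt_pb (h₂.mul L h₃) D))

/-- `∏ pb (σ i) D ^ ε i` -/
theorem sameAt_prod_pb {ι : Type*} [Fintype ι] (σ : ι → Pt f E) (ε : ι → ℤ)
    (h : ∀ i, SameRed V V' hV hV' (σ i)) (D : A → A.functionField) :
    SameAt V V' (∏ i, pb (σ i) D ^ ε i) :=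
  SameAt.prod _ _ fun i _ => (sameAt_pb (h i) D).zpow (ε i)

end Theta

/-! ## LOC-E -/

section LocE

variable [IsProper f] [IsIntegral A]

/-- **LOC-E**, general form: `M₁`, `M₂`, `M₃`, `M₄` subfields of `E`, `M₃ ≤ M₂`, `M₄ ≤ M₂`;
`V`, `V'` two `K`-places of `E` with the same traces on `M₁` and on `M₂`. -/
theorem loc_E_gen (L : RelativeGroupLaw K f) {M₁ M₂ M₃ M₄ : IntermediateField K E}
    (h₃ : M₃ ≤ M₂) (h₄ : M₄ ≤ M₂)
    (x : Pt f M₁) (a : Pt f M₂) (β : Pt f M₃) (γ : Pt f M₄) (D : A → A.functionField)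
    (V V' : ValuationSubring E) (hV : IsKPlace K V) (hV' : IsKPlace K V')
    (hF : ∀ y ∈ M₁, y ∈ V ↔ y ∈ V') (hk : ∀ y ∈ M₂, y ∈ V ↔ y ∈ V') :
    letI : Group (Pt f E) := L.pointGroup (str K E)
    (thetaV L (incPt x * incPt a) (incPt β) (incPt γ) D /
      thetaV L (incPt a) (incPt β) (incPt γ) D) V =
    (thetaV L (incPt x * incPt a) (incPt β) (incPt γ) D /
      thetaV L (incPt a) (incPt β) (incPt γ) D) V' := by
  letI : Group (Pt f E) := L.pointGroup (str K E)
  have hx : SameRed V V' hV hV' (incPt x) := sameRed_incPt hF x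
  have ha : SameRed V V' hV hV' (incPt a) := sameRed_incPt hk a
  have hβ : SameRed V V' hV hV' (incPt β) := sameRed_incPt_of_le h₃ hk β
  have hγ : SameRed V V' hV hV' (incPt γ) := sameRed_incPt_of_le h₄ hk γ
  exact (sameAt_thetaV L (hx.mul L ha) hβ hγ D).div (sameAt_thetaV L ha hβ hγ D)

omit [IsProper f] [IsIntegral A] in
/-- a block of a sub-family is contained in the block of the family -/
theorem blk_mono {ι : Type} (F : ι → IntermediateField K E) {S T : Set ι} (h : S ⊆ T) :
    blk F S ≤ blk F T := by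
  unfold blk
  exact iSup₂_le fun i hi => le_iSup₂_of_le i (h hi) le_rfl

/-- **LOC-E** for the theta ratio of `Stmt_PRIG` (elementwise hypotheses). -/
theorem loc_E (L : RelativeGroupLaw K f) {ι : Type} (F : ι → IntermediateField K E)
    (i₀ : ι) (S₂ S₃ : Set ι) (h₂ : i₀ ∉ S₂) (h₃ : i₀ ∉ S₃)
    (x : Pt f (F i₀)) (β : Pt f (blk F S₂)) (γ : Pt f (blk F S₃)) (a : Pt f (blk F {i₀}ᶜ))
    (D : A → A.functionField)
    (V V' : ValuationSubring E) (hV : IsKPlace K V) (hV' : IsKPlace K V')
    (hF : ∀ y ∈ F i₀, y ∈ V ↔ y ∈ V') (hk : ∀ y ∈ blk F {i₀}ᶜ, y ∈ V ↔ y ∈ V') :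
    letI : Group (Pt f E) := L.pointGroup (str K E)
    (thetaV L (incPt x * incPt a) (incPt β) (incPt γ) D /
      thetaV L (incPt a) (incPt β) (incPt γ) D) V =
    (thetaV L (incPt x * incPt a) (incPt β) (incPt γ) D /
      thetaV L (incPt a) (incPt β) (incPt γ) D) V' :=
  loc_E_gen L
    (blk_mono F fun i hi => by
      rw [Set.mem_compl_iff, Set.mem_singleton_iff]
      rintro rfl
      exact h₂ hi)
    (blk_mono F fun i hi => by
      rw [Set.mem_compl_iff, Set.mem_singleton_iff]
      rintro rfl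
      exact h₃ hi)
    x a β γ D V V' hV hV' hF hk

omit [IsProper f] [IsIntegral A] in
/-- from `comap` along `algebraMap` to the elementwise form -/
theorem mem_iff_of_comap_algebraMap {M : IntermediateField K E} {V V' : ValuationSubring E}
    (h : V.comap (algebraMap M E) = V'.comap (algebraMap M E)) :
    ∀ y ∈ M, y ∈ V ↔ y ∈ V' := by
  intro y hy
  have := ValuationSubring.ext_iff.1 h ⟨y, hy⟩
  simpa [ValuationSubring.mem_comap] using this

omit [IsProper f] [IsIntegral A] in
/-- from `comap` along `M.val` to the elementwise form -/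
theorem mem_iff_of_comap_val {M : IntermediateField K E} {V V' : ValuationSubring E}
    (h : V.comap M.val.toRingHom = V'.comap M.val.toRingHom) :
    ∀ y ∈ M, y ∈ V ↔ y ∈ V' := by
  intro y hy
  have := ValuationSubring.ext_iff.1 h ⟨y, hy⟩
  simpa [ValuationSubring.mem_comap] using this

/-- **LOC-E**, hypotheses as `comap` along `algebraMap`. -/
theorem loc_E_comap (L : RelativeGroupLaw K f) {ι : Type} (F : ι → IntermediateField K E)
    (i₀ : ι) (S₂ S₃ : Set ι) (h₂ : i₀ ∉ S₂) (h₃ : i₀ ∉ S₃)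
    (x : Pt f (F i₀)) (β : Pt f (blk F S₂)) (γ : Pt f (blk F S₃)) (a : Pt f (blk F {i₀}ᶜ))
    (D : A → A.functionField)
    (V V' : ValuationSubring E) (hV : IsKPlace K V) (hV' : IsKPlace K V')
    (hF : V.comap (algebraMap (F i₀) E) = V'.comap (algebraMap (F i₀) E))
    (hk : V.comap (algebraMap (blk F {i₀}ᶜ) E) = V'.comap (algebraMap (blk F {i₀}ᶜ) E)) :
    letI : Group (Pt f E) := L.pointGroup (str K E)
    (thetaV L (incPt x * incPt a) (incPt β) (incPt γ) D /
      thetaV L (incPt a) (incPt β) (incPt γ) D) V =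
    (thetaV L (incPt x * incPt a) (incPt β) (incPt γ) D /
      thetaV L (incPt a) (incPt β) (incPt γ) D) V' :=
  loc_E L F i₀ S₂ S₃ h₂ h₃ x β γ a D V V' hV hV' (mem_iff_of_comap_algebraMap hF)
    (mem_iff_of_comap_algebraMap hk)

/-- **LOC-E**, hypotheses as `comap` along `IntermediateField.val`. -/
theorem loc_E_val (L : RelativeGroupLaw K f) {ι : Type} (F : ι → IntermediateField K E)
    (i₀ : ι) (S₂ S₃ : Set ι) (h₂ : i₀ ∉ S₂) (h₃ : i₀ ∉ S₃)
    (x : Pt f (F i₀)) (β : Pt f (blk F S₂)) (γ : Pt f (blk F S₃)) (a : Pt f (blk F {i₀}ᶜ))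
    (D : A → A.functionField)
    (V V' : ValuationSubring E) (hV : IsKPlace K V) (hV' : IsKPlace K V')
    (hF : V.comap (F i₀).val.toRingHom = V'.comap (F i₀).val.toRingHom)
    (hk : V.comap (blk F {i₀}ᶜ).val.toRingHom = V'.comap (blk F {i₀}ᶜ).val.toRingHom) :
    letI : Group (Pt f E) := L.pointGroup (str K E)
    (thetaV L (incPt x * incPt a) (incPt β) (incPt γ) D /
      thetaV L (incPt a) (incPt β) (incPt γ) D) V =
    (thetaV L (incPt x * incPt a) (incPt β) (incPt γ) D /
      thetaV L (incPt a) (incPt β) (incPt γ) D) V' :=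
  loc_E L F i₀ S₂ S₃ h₂ h₃ x β γ a D V V' hV hV' (mem_iff_of_comap_val hF)
    (mem_iff_of_comap_val hk)

/-! ### Transport to `FΩ` along `j : E → FΩ` (the field `loc` of `H6.CCCData`) -/

variable {FΩ : Type u} [Field FΩ] [Algebra K FΩ]

omit [IsProper f] [IsIntegral A] in
/-- If `j` restricted to `M` factors through `g : R →+* FΩ` and `W`, `W'` have the same trace
on `R`, then `W ∩ E`, `W' ∩ E` have the same trace on `M`. -/
theorem mem_iff_of_comap_of_factor (j : E →ₐ[K] FΩ) {M : IntermediateField K E}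
    {R : Type*} [Field R] (g : R →+* FΩ) (φ : M → R) (hj : ∀ y : M, j (y : E) = g (φ y))
    {W W' : ValuationSubring FΩ} (h : W.comap g = W'.comap g) :
    ∀ y ∈ M, y ∈ W.comap j.toRingHom ↔ y ∈ W'.comap j.toRingHom := by
  intro y hy
  have h1 := ValuationSubring.ext_iff.1 h (φ ⟨y, hy⟩)
  rw [ValuationSubring.mem_comap, ValuationSubring.mem_comap] at h1 ⊢
  have e : j.toRingHom y = g (φ ⟨y, hy⟩) := hj ⟨y, hy⟩
  rw [e]
  exact h1

/-- **LOC-j**, elementwise: the valuative divisor `W ↦ j (Λ_E (W ∩ E))` on `FΩ` takes the same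
value at two `K`-places `W`, `W'` of `FΩ` with the same traces on `F i₀` and on `k'`. -/
theorem loc_j (L : RelativeGroupLaw K f) {ι : Type} (F : ι → IntermediateField K E)
    (i₀ : ι) (S₂ S₃ : Set ι) (h₂ : i₀ ∉ S₂) (h₃ : i₀ ∉ S₃)
    (x : Pt f (F i₀)) (β : Pt f (blk F S₂)) (γ : Pt f (blk F S₃)) (a : Pt f (blk F {i₀}ᶜ))
    (D : A → A.functionField) (j : E →ₐ[K] FΩ)
    (W W' : ValuationSubring FΩ) (hW : IsKPlace K W) (hW' : IsKPlace K W')
    (hF : ∀ y ∈ F i₀, y ∈ W.comap j.toRingHom ↔ y ∈ W'.comap j.toRingHom)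
    (hk : ∀ y ∈ blk F {i₀}ᶜ, y ∈ W.comap j.toRingHom ↔ y ∈ W'.comap j.toRingHom) :
    letI : Group (Pt f E) := L.pointGroup (str K E)
    j ((thetaV L (incPt x * incPt a) (incPt β) (incPt γ) D /
      thetaV L (incPt a) (incPt β) (incPt γ) D) (W.comap j.toRingHom)) =
    j ((thetaV L (incPt x * incPt a) (incPt β) (incPt γ) D /
      thetaV L (incPt a) (incPt β) (incPt γ) D) (W'.comap j.toRingHom)) := by
  letI : Group (Pt f E) := L.pointGroup (str K E)
  exact congrArg j (loc_E L F i₀ S₂ S₃ h₂ h₃ x β γ a D _ _ (isKPlace_comap j W hW)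
    (isKPlace_comap j W' hW') hF hk)

/-- **LOC-j** in the shape of the field `loc` of `H6.CCCData`: `j` restricted to `F i₀` factors
through `gF : RF →+* FΩ` (`RF = F i₀`, `gF = algebraMap F FΩ`), `j` restricted to `k'` factors
through `gΩ : RΩ →+* FΩ` (`RΩ = Ω`, `gΩ = algebraMap Ω FΩ`); `W`, `W'` have the same traces on
`RF` and `RΩ`. -/
theorem loc_j_of_factor (L : RelativeGroupLaw K f) {ι : Type} (F : ι → IntermediateField K E)
    (i₀ : ι) (S₂ S₃ : Set ι) (h₂ : i₀ ∉ S₂) (h₃ : i₀ ∉ S₃)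
    (x : Pt f (F i₀)) (β : Pt f (blk F S₂)) (γ : Pt f (blk F S₃)) (a : Pt f (blk F {i₀}ᶜ))
    (D : A → A.functionField) (j : E →ₐ[K] FΩ)
    {RF RΩ : Type*} [Field RF] [Field RΩ] (gF : RF →+* FΩ) (gΩ : RΩ →+* FΩ)
    (φF : F i₀ → RF) (φΩ : blk F {i₀}ᶜ → RΩ)
    (hjF : ∀ y : F i₀, j (y : E) = gF (φF y)) (hjk : ∀ c : blk F {i₀}ᶜ, j (c : E) = gΩ (φΩ c))
    (W W' : ValuationSubring FΩ) (hW : IsKPlace K W) (hW' : IsKPlace K W')
    (hF : W.comap gF = W'.comap gF) (hΩ : W.comap gΩ = W'.comap gΩ) :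
    letI : Group (Pt f E) := L.pointGroup (str K E)
    j ((thetaV L (incPt x * incPt a) (incPt β) (incPt γ) D /
      thetaV L (incPt a) (incPt β) (incPt γ) D) (W.comap j.toRingHom)) =
    j ((thetaV L (incPt x * incPt a) (incPt β) (incPt γ) D /
      thetaV L (incPt a) (incPt β) (incPt γ) D) (W'.comap j.toRingHom)) :=
  loc_j L F i₀ S₂ S₃ h₂ h₃ x β γ a D j W W' hW hW'
    (mem_iff_of_comap_of_factor j gF φF hjF hF)
    (mem_iff_of_comap_of_factor j gΩ φΩ hjk hΩ)

end LocE

end Fermat.Agent.S26.C.X.H69
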