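import Fermat.Agent.S26.C.X.H6_CCCInst
import Fermat.Agent.S26.C.X.H69_LocLam

/-!
# S26 (C), cube side, PRIG, CCC-INST: `X.H6.Stmt_LOC` (helper69)

`stmt_LOC : X.H6.Stmt_LOC` unconditional: the field `loc` of `H6.CCCData` for `Λ = lamΩ`.
`loc_lamΩ` is the same statement with `[IsProper f]` instead of `IsAVg`.
-/

set_option autoImplicit false
set_option linter.style.haveILetI false
set_option linter.unusedSectionVars false

open CategoryTheory CategoryTheory.Limits AlgebraicGeometry IsLocalRing NeronModelInfra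
  GoodReductionJacobian

universe u

namespace Fermat.Agent.S26.C.X.H69

variable {K : Type u} [Field K] {A : Scheme.{u}} {f : A ⟶ Spec (CommRingCat.of K)}

/-- **LOC** for `lamΩ`: at a `K`-place `W` of `FΩ` the divisor depends only on `W ∩ F` and
`W ∩ Ω`. -/
theorem loc_lamΩ [IsProper f] [IsIntegral A] (L : RelativeGroupLaw K f)
    {F Ω : Type u} (FΩ : Type u) [Field F] [Algebra K F] [Field Ω] [Field FΩ]
    [Algebra Ω FΩ] [Algebra K Ω] [Algebra F FΩ] [Algebra K FΩ] [IsScalarTower K F FΩ]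
    [IsScalarTower K Ω FΩ] (x : Pt f F) (a β γ : Pt f Ω) (D : A → A.functionField)
    (W W' : ValuationSubring FΩ) (hW : IsKPlace K W) (hW' : IsKPlace K W')
    (hF : W.comap (algebraMap F FΩ) = W'.comap (algebraMap F FΩ))
    (hΩ : W.comap (algebraMap Ω FΩ) = W'.comap (algebraMap Ω FΩ)) :
    H6.lamΩ FΩ L x a β γ D W = H6.lamΩ FΩ L x a β γ D W' := by
  have hx : SameRed W W' hW hW' (H6.ptF FΩ x) :=
    sameRed_mapPt (IsScalarTower.toAlgHom K F FΩ) hF x
  have hb : ∀ b : Pt f Ω, SameRed W W' hW hW' (H6.ptΩ FΩ b) := fun b =>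
    sameRed_mapPt (IsScalarTower.toAlgHom K Ω FΩ) hΩ b
  unfold H6.lamΩ
  exact (sameAt_thetaV L (hx.mul L (hb a)) (hb β) (hb γ) D).div
    (sameAt_thetaV L (hb a) (hb β) (hb γ) D)

/-- **`X.H6.Stmt_LOC`**, unconditional. -/
theorem stmt_LOC : H6.Stmt_LOC.{u} := by
  intro K _ _ A f L g hAV _ F Ω FΩ _ _ _ _ _ _ _ _ _ _ x a β γ D _ W W' hW hW' hF hΩ
  haveI : IsProper f := hAV.bundle.proper
  exact loc_lamΩ L FΩ x a β γ D W W' ⟨hW.1, hW.2⟩ ⟨hW'.1, hW'.2⟩ hF hΩ

end Fermat.Agent.S26.C.X.H69
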