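import Mathlib
import Fermat.Agent.S26.C.X.H6_CCCInst

/-!
# S26 (C), cube side, PRIG cut (GF) (helper86): `gd` and `fin` for `lamΩ`

* `isGenDiv_lamΩ` : `IsGenDiv K (H6.lamΩ FΩ L x a β γ D)`;
* `finSuppP_lamΩ` : `H69.FinSuppP Ω (H6.lamΩ FΩ L x a β γ D)`.
-/

set_option autoImplicit false
set_option linter.style.haveILetI false

open CategoryTheory CategoryTheory.Limits AlgebraicGeometry NeronModelInfra
  GoodReductionJacobian AlgebraicCurve

universe u

namespace Fermat.Agent.S26.C.X.H86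

open Fermat.Agent.S27.REDu Fermat.Agent.S27.REDu.H51

variable {K : Type u} [Field K] {A : Scheme.{u}} {f : A ⟶ Spec (CommRingCat.of K)}
variable {F Ω : Type u} (FΩ : Type u) [Field F] [Algebra K F] [Field Ω] [Field FΩ]
  [Algebra Ω FΩ] [Algebra K Ω] [Algebra F FΩ] [Algebra K FΩ] [IsScalarTower K F FΩ]
  [IsScalarTower K Ω FΩ]

/-- **(GF), gd**: generisation for `lamΩ`. -/
theorem isGenDiv_lamΩ [IsProper f] [IsIntegral A] (L : RelativeGroupLaw K f) (x : Pt f F)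
    (a β γ : Pt f Ω) {D : A → A.functionField} (hD : IsCartier D) :
    H95.IsGenDiv K (H6.lamΩ FΩ L x a β γ D) := by
  unfold H6.lamΩ
  exact (H95.isGenDiv_thetaV L _ _ _ hD).div (H95.isGenDiv_thetaV L _ _ _ hD)

/-- **(GF), fin**: finite support of `lamΩ` on the curve `X_Ω`. -/
theorem finSuppP_lamΩ [IsProper f] [IsIntegral A] [IsAlgClosed Ω] (hFFΩ : IsFF Ω FΩ)
    (L : RelativeGroupLaw K f) (x : Pt f F) (a β γ : Pt f Ω) {D : A → A.functionField}
    (hD : IsCartier D) :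
    H69.FinSuppP Ω (H6.lamΩ FΩ L x a β γ D) := by
  unfold H6.lamΩ
  exact (H69.finSuppP_thetaV (stmt_FFB_principal Ω FΩ hFFΩ) L _ _ _ hD).div
    (H69.finSuppP_thetaV (stmt_FFB_principal Ω FΩ hFFΩ) L _ _ _ hD)

end Fermat.Agent.S26.C.X.H86
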