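import Mathlib
import Fermat.Agent.S26.C.X.H86_MovLam
import Fermat.Agent.S26.C.H6_RedCons

/-!
# S26 (C), cube side, PRIG scheme fact MOV (helper86), concrete part

Setting of `H6.ConstRed` (all types in one universe): `K ⊆ Ω`, `F / K` the function field of the
curve, `FΩ` the function field of `X_Ω`, `R : ConstRed K F Ω FΩ` the Gauss valuation ring over
the `K`-place `O = R.S.O` of `Ω`.  Points `x ∈ A(F)`, `a, β, γ ∈ A(Ω)`;
`xΩ := mapPt (F → FΩ) x`, `bΩ := mapPt (Ω → FΩ) b`.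

* `isRed_gauss_F`, `isRed_gauss_Ω` : the reductions at the Gauss valuation ring;
* `tube P hdeg : TubeData K (compSub P hdeg R.S.O) (R.redSub P hdeg)`, `rel_F`, `rel_Ω`;
* `mov_theta` : **MOV** for `Λ = Θ(xΩ·aΩ, βΩ, γΩ) / Θ(aΩ, βΩ, γΩ)` at a face place
  (`β` or `γ` based at `O`).
-/

set_option autoImplicit false
set_option linter.style.haveILetI false
set_option linter.unusedSectionVars false

open CategoryTheory CategoryTheory.Limits AlgebraicGeometry IsLocalRing NeronModelInfra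
  GoodReductionJacobian AlgebraicCurve

universe u

namespace Fermat.Agent.S26.C.X.H86

open Fermat.Agent.S26.C.X.H69 (UIn)
open Fermat.Agent.S26.C.H6
open Fermat.Agent.S27.REDu Fermat.Agent.S27.REDu.H34 Fermat.Agent.S27.REDu.H34.RedSetting
  Fermat.Agent.S27.REDu.H51 Fermat.Agent.S27.REDu.H10

variable {K F Ω FΩ : Type u}
  [Field K] [Field F] [Algebra K F] [Field Ω] [Field FΩ] [Algebra Ω FΩ]
  [Algebra K Ω] [Algebra F FΩ] [Algebra K FΩ] [IsScalarTower K F FΩ] [IsScalarTower K Ω FΩ]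
variable {A : Scheme.{u}} {f : A ⟶ Spec (CommRingCat.of K)}

/-- `F → FΩ` over `K`. -/
noncomputable abbrev jF (K F FΩ : Type u) [Field K] [Field F] [Algebra K F] [Field FΩ]
    [Algebra F FΩ] [Algebra K FΩ] [IsScalarTower K F FΩ] : F →ₐ[K] FΩ :=
  IsScalarTower.toAlgHom K F FΩ

/-- `Ω → FΩ` over `K`. -/
noncomputable abbrev jΩ (K Ω FΩ : Type u) [Field K] [Field Ω] [Algebra K Ω] [Field FΩ]
    [Algebra Ω FΩ] [Algebra K FΩ] [IsScalarTower K Ω FΩ] : Ω →ₐ[K] FΩ :=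
  IsScalarTower.toAlgHom K Ω FΩ

section Gauss

variable (R : ConstRed K F Ω FΩ)

theorem overK_gauss : OverK K R.S.V := by
  intro a
  rw [IsScalarTower.algebraMap_apply K F FΩ]
  exact R.mem _

theorem red_const (a : K) :
    R.S.red ⟨algebraMap K FΩ a, overK_gauss R a⟩ = algebraMap K F a := by
  have h := R.red_alg (algebraMap K F a)
  have e : (⟨algebraMap K FΩ a, overK_gauss R a⟩ : R.S.V) =
      ⟨algebraMap F FΩ (algebraMap K F a), R.mem _⟩ :=
    Subtype.ext (IsScalarTower.algebraMap_apply K F FΩ a)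
  rw [e, h]

theorem overK_O : OverK K R.S.O := R.const_mem_O

/-- The reduction at the Gauss valuation ring of a point of the curve. -/
theorem isRed_gauss_F (x : Pt f F) : IsRed (mapPt (jF K F FΩ) x) R.S.V R.S.red x := by
  have h := isRed_of_mem (f := f) (jF K F FΩ) (AlgHom.id K F) R.S.V R.S.red R.mem R.red_alg x
  rwa [mapPt_id] at h

/-- The reduction at the Gauss valuation ring of a constant point. -/
theorem isRed_gauss_Ω {b : Pt f Ω} {b₀ : Pt f K} (hb : IsRed b R.S.O R.S.resO b₀) :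
    IsRed (mapPt (jΩ K Ω FΩ) b) R.S.V R.S.red (mapPt (Algebra.ofId K F) b₀) :=
  isRed_map (jΩ K Ω FΩ) (Algebra.ofId K F) R.S.O R.S.V R.S.resO R.S.red
    (fun _ hx => hx) (fun x => R.S.red_algebraMap x) hb

end Gauss

/-! ## The tube of a place `P` of `X_Ω` -/

section TubeP

variable (R : ConstRed K F Ω FΩ) (P : Place Ω FΩ) (hdeg : P.deg = 1)

theorem compSub_le : compSub P hdeg R.S.O ≤ P.toValuationSubring := fun _ hx =>
  ((mem_compSub_iff P hdeg R.S.O _).1 hx).1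

/-- The value at `P`, on the composite valuation ring. -/
noncomputable def valC : ↥(compSub P hdeg R.S.O) →+* ↥R.S.O :=
  ((valHom P hdeg).comp (Subring.inclusion (compSub_le R P hdeg))).codRestrict R.S.O.toSubring
    (fun t => ((mem_compSub_iff P hdeg R.S.O _).1 t.2).2)

theorem coe_valC (t : ↥(compSub P hdeg R.S.O)) :
    ((valC R P hdeg t : ↥R.S.O) : Ω) =
      valHom P hdeg ⟨(t : FΩ), compSub_le R P hdeg t.2⟩ := rfl

/-- The residue map of the composite valuation ring. -/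
noncomputable def resC : ↥(compSub P hdeg R.S.O) →+* K :=
  R.S.resO.comp (valC R P hdeg)

theorem algebraMap_Ω_mem_compSub {a : Ω} (ha : a ∈ R.S.O) :
    algebraMap Ω FΩ a ∈ compSub P hdeg R.S.O := by
  refine (mem_compSub_iff P hdeg R.S.O _).2 ⟨P.algebraMap_mem' a, ?_⟩
  have h := valHom_algebraMap P hdeg a
  have e : (⟨algebraMap Ω FΩ a, P.algebraMap_mem' a⟩ : ↥P.toValuationSubring) =
      algebraMap Ω ↥P.toValuationSubring a := rfl
  rw [e, h]
  exact ha

theorem valC_algebraMap_Ω (a : ↥R.S.O) :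
    valC R P hdeg ⟨algebraMap Ω FΩ (a : Ω), algebraMap_Ω_mem_compSub R P hdeg a.2⟩ = a := by
  apply Subtype.ext
  rw [coe_valC]
  exact valHom_algebraMap P hdeg (a : Ω)

theorem overK_compSub : OverK K (compSub P hdeg R.S.O) := by
  intro a
  rw [IsScalarTower.algebraMap_apply K Ω FΩ]
  exact algebraMap_Ω_mem_compSub R P hdeg (R.const_mem_O a)

theorem resC_const (a : K) :
    resC R P hdeg ⟨algebraMap K FΩ a, overK_compSub R P hdeg a⟩ = algebraMap K K a := by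
  have e : (⟨algebraMap K FΩ a, overK_compSub R P hdeg a⟩ : ↥(compSub P hdeg R.S.O)) =
      ⟨algebraMap Ω FΩ (algebraMap K Ω a),
        algebraMap_Ω_mem_compSub R P hdeg (R.const_mem_O a)⟩ :=
    Subtype.ext (IsScalarTower.algebraMap_apply K Ω FΩ a)
  show R.S.resO (valC R P hdeg _) = a
  rw [e, valC_algebraMap_Ω R P hdeg ⟨algebraMap K Ω a, R.const_mem_O a⟩]
  exact R.resO_const a

/-- The tube datum of the place `P`: the composite `K`-place of `FΩ` and the reduction of `P`. -/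
noncomputable def tube : TubeData K (compSub P hdeg R.S.O) (R.redSub P hdeg) where
  hV := overK_compSub R P hdeg
  hV₀ := R.const_mem_redSub P hdeg
  ρ := resC R P hdeg
  ρ₀ := R.redValHom P hdeg
  hρ := resC_const R P hdeg
  hρ₀ := R.redValHom_const P hdeg

/-- A point of the curve and its base change have the same reduction. -/
theorem rel_F [UniversallyClosed f] (x : Pt f F) :
    (tube R P hdeg).Rel (mapPt (jF K F FΩ) x) x := by
  obtain ⟨s, hs⟩ := exists_isRed x (R.redSub P hdeg) (R.const_mem_redSub P hdeg)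
    (R.redValHom P hdeg) (R.redValHom_const P hdeg)
  refine ⟨s, ?_, hs⟩
  have h := isRed_map (f := f) (jF K F FΩ) (AlgHom.id K K) (R.redSub P hdeg)
    (compSub P hdeg R.S.O) (R.redValHom P hdeg) (resC R P hdeg) (fun _ hx => hx)
    (fun _ => rfl) hs
  rwa [mapPt_id] at h

/-- A constant point: its base change to `FΩ` and the constant point of the curve defined by
its reduction have the same reduction. -/
theorem rel_Ω {b : Pt f Ω} {b₀ : Pt f K} (hb : IsRed b R.S.O R.S.resO b₀) :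
    (tube R P hdeg).Rel (mapPt (jΩ K Ω FΩ) b) (mapPt (Algebra.ofId K F) b₀) := by
  refine ⟨b₀, ?_, ?_⟩
  · have h := isRed_map (f := f) (jΩ K Ω FΩ) (AlgHom.id K K) R.S.O (compSub P hdeg R.S.O)
      R.S.resO (resC R P hdeg) (fun _ hx => algebraMap_Ω_mem_compSub R P hdeg hx)
      (fun a => congrArg R.S.resO (valC_algebraMap_Ω R P hdeg a)) hb
    rwa [mapPt_id] at h
  · have h := isRed_of_mem (f := f) (Algebra.ofId K F) (AlgHom.id K K) (R.redSub P hdeg)
      (R.redValHom P hdeg) (R.const_mem_redSub P hdeg) (R.redValHom_const P hdeg) b₀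
    rwa [mapPt_id] at h

end TubeP

/-! ## MOV -/

section Main

variable [IsIntegral A] (L : RelativeGroupLaw K f) (R : ConstRed K F Ω FΩ)

/-- **MOV** (scheme fact of PRIG): at a face place `O = R.S.O` (`β` or `γ` is based at `O`),
`Λ = Θ(xΩ·aΩ, βΩ, γΩ) / Θ(aΩ, βΩ, γΩ)` is, on the tube of every place `Q` of the curve, the
product of ONE function `M` and a Gauss unit `T` with reduction `1`. -/
theorem mov_theta [IsAlgClosed K] [IsProper f]
    (x : Pt f F) (a β γ : Pt f Ω) (hface : IsBased L β R.S.O ∨ IsBased L γ R.S.O)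
    {D : A → A.functionField} (hD : IsCartier D) :
    ∃ M : FΩ, M ≠ 0 ∧ ∀ V₀ : ValuationSubring F, OverK K V₀ →
      ∃ T : ↥R.S.V, IsUnit T ∧ R.S.red T = 1 ∧
        ∀ (P : Place Ω FΩ) (hdeg : P.deg = 1), R.redSub P hdeg = V₀ →
          UIn (compSub P hdeg R.S.O)
            ((thetaV L (L.mul (str K FΩ) (mapPt (jF K F FΩ) x) (mapPt (jΩ K Ω FΩ) a))
                (mapPt (jΩ K Ω FΩ) β) (mapPt (jΩ K Ω FΩ) γ) D /
              thetaV L (mapPt (jΩ K Ω FΩ) a) (mapPt (jΩ K Ω FΩ) β) (mapPt (jΩ K Ω FΩ) γ) D)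
                (compSub P hdeg R.S.O) / ((T : FΩ) * M)) := by
  haveI : IsLocalHom R.S.resO := IsLocalHom.of_surjective _ R.S.resO_surj
  have hG := overK_gauss R
  have hrK := red_const R
  obtain ⟨a₀, ha⟩ := exists_isRed a R.S.O (overK_O R) R.S.resO R.resO_const
  obtain ⟨β₀, hβ⟩ := exists_isRed β R.S.O (overK_O R) R.S.resO R.resO_const
  obtain ⟨γ₀, hγ⟩ := exists_isRed γ R.S.O (overK_O R) R.S.resO R.resO_const
  have hx' := isRed_gauss_F (f := f) R x
  have ha' := isRed_gauss_Ω R ha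
  have hβ' := isRed_gauss_Ω R hβ
  have hγ' := isRed_gauss_Ω R hγ
  have hxa' := isRed_mul R.S.V hG R.S.red hrK L hx' ha'
  set Λ : ValuationSubring FΩ → FΩ :=
    thetaV L (L.mul (str K FΩ) (mapPt (jF K F FΩ) x) (mapPt (jΩ K Ω FΩ) a))
        (mapPt (jΩ K Ω FΩ) β) (mapPt (jΩ K Ω FΩ) γ) D /
      thetaV L (mapPt (jΩ K Ω FΩ) a) (mapPt (jΩ K Ω FΩ) β) (mapPt (jΩ K Ω FΩ) γ) D with hΛ
  have hM : Λ R.S.V ≠ 0 := by
    have h1 := (mov_thetaV L hG R.S.red_surj hrK hxa' hβ' hγ' hD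
      (V₀ := ⊤) (fun _ => ValuationSubring.mem_top _)).1
    have h2 := (mov_thetaV L hG R.S.red_surj hrK ha' hβ' hγ' hD
      (V₀ := ⊤) (fun _ => ValuationSubring.mem_top _)).1
    rw [hΛ, Pi.div_apply]
    exact div_ne_zero h1 h2
  refine ⟨Λ R.S.V, hM, fun V₀ hV₀ => ?_⟩
  have m1 := mov_thetaV L hG R.S.red_surj hrK hxa' hβ' hγ' hD hV₀
  have m2 := mov_thetaV L hG R.S.red_surj hrK ha' hβ' hγ' hD hV₀
  obtain ⟨-, y, hy, hyV⟩ := (m1.mono Set.inter_subset_left).div (m2.mono Set.inter_subset_right)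
  -- the reduction is `1`
  have hone : (thetaV L (L.mul (str K F) x (mapPt (Algebra.ofId K F) a₀))
      (mapPt (Algebra.ofId K F) β₀) (mapPt (Algebra.ofId K F) γ₀) D /
      thetaV L (mapPt (Algebra.ofId K F) a₀) (mapPt (Algebra.ofId K F) β₀)
        (mapPt (Algebra.ofId K F) γ₀) D) V₀ = 1 := by
    rw [Pi.div_apply]
    rcases hface with hb | hb
    · have e : β₀ = L.one (str K K) := eq_one_of_isBased L (overK_O R) hβ hb
      rw [e, H8.mapPt_one, thetaV_one₂ L _ _ hD V₀ hV₀, thetaV_one₂ L _ _ hD V₀ hV₀, div_one]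
    · have e : γ₀ = L.one (str K K) := eq_one_of_isBased L (overK_O R) hγ hb
      rw [e, H8.mapPt_one, thetaV_one₃ L _ _ hD V₀ hV₀, thetaV_one₃ L _ _ hD V₀ hV₀, div_one]
  refine ⟨(y : ↥R.S.V), y.isUnit, hy.trans hone, fun P hdeg hP => ?_⟩
  subst hP
  refine hyV _ ⟨⟨tube R P hdeg, ?_, ?_, ?_⟩, ⟨tube R P hdeg, ?_, ?_, ?_⟩⟩
  · exact (rel_F R P hdeg x).mul L (rel_Ω R P hdeg ha)
  · exact rel_Ω R P hdeg hβ
  · exact rel_Ω R P hdeg hγ
  · exact rel_Ω R P hdeg ha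
  · exact rel_Ω R P hdeg hβ
  · exact rel_Ω R P hdeg hγ

/-- `thetaV` commutes with the base change of points. -/
theorem thetaV_mapPt [IsProper f] {E E' : Type u} [Field E] [Algebra K E] [Field E']
    [Algebra K E'] (j : E →ₐ[K] E') (x₁ x₂ x₃ : Pt f E) (D : A → A.functionField)
    (W : ValuationSubring E') (hW : OverK K W) :
    thetaV L (mapPt j x₁) (mapPt j x₂) (mapPt j x₃) D W =
      j (thetaV L x₁ x₂ x₃ D (W.comap j.toRingHom)) := by
  rw [H8.thetaV_apply, H8.thetaV_apply, ← H8.mapPt_mul, ← H8.mapPt_mul, ← H8.mapPt_mul,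
    ← H8.mapPt_mul, H69.pb_mapPt j _ D W hW, H69.pb_mapPt j _ D W hW, H69.pb_mapPt j _ D W hW,
    H69.pb_mapPt j _ D W hW, H69.pb_mapPt j _ D W hW, H69.pb_mapPt j _ D W hW,
    H69.pb_mapPt j _ D W hW, map_div₀, map_mul, map_mul, map_mul, map_mul, map_mul]

/-- **MOV**, with the places of the curve: the field `mov` of `H6.CCCData` for
`Λ = Θ(xΩ·aΩ, βΩ, γΩ) / Θ(aΩ, βΩ, γΩ)`. -/
theorem mov_theta_rp [IsAlgClosed K] [IsAlgClosed Ω] [IsProper f] (hFF : IsFF K F)
    (hFFΩ : IsFF Ω FΩ) (O : ValuationSubring Ω) (hRO : R.S.O = O)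
    (x : Pt f F) (a β γ : Pt f Ω) (hface : IsBased L β O ∨ IsBased L γ O)
    {D : A → A.functionField} (hD : IsCartier D) :
    ∃ M : FΩ, M ≠ 0 ∧ ∀ Q : Place K F,
      ∃ T : ↥R.S.V, IsUnit T ∧ R.S.red T = 1 ∧
        ∀ P : Place Ω FΩ, R.rp hFF hFFΩ P = Q →
          UIn (compSub P (stmt_FFB_deg Ω FΩ hFFΩ P) O)
            ((thetaV L (L.mul (str K FΩ) (mapPt (jF K F FΩ) x) (mapPt (jΩ K Ω FΩ) a))
                (mapPt (jΩ K Ω FΩ) β) (mapPt (jΩ K Ω FΩ) γ) D /
              thetaV L (mapPt (jΩ K Ω FΩ) a) (mapPt (jΩ K Ω FΩ) β) (mapPt (jΩ K Ω FΩ) γ) D)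
                (compSub P (stmt_FFB_deg Ω FΩ hFFΩ P) O) / ((T : FΩ) * M)) := by
  subst hRO
  obtain ⟨M, hM, h⟩ := mov_theta L R x a β γ hface hD
  refine ⟨M, hM, fun Q => ?_⟩
  obtain ⟨T, hT1, hT2, hT3⟩ := h Q.toValuationSubring Q.algebraMap_mem'
  refine ⟨T, hT1, hT2, fun P hP => hT3 P _ ?_⟩
  rw [← hP]
  rfl

/-- **MOV-j**: the same for a valuative divisor `Λ_E = Θ(x·a, β, γ) / Θ(a, β, γ)` of a field
`E` with `j : E → FΩ`, the points of `A(E)` being given together with their images in `A(FΩ)`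
(`mapPt j x_E = xΩ`, `mapPt j b_E = bΩ`). -/
theorem mov_theta_j [IsAlgClosed K] [IsAlgClosed Ω] [IsProper f] (hFF : IsFF K F)
    (hFFΩ : IsFF Ω FΩ) (O : ValuationSubring Ω) (hRO : R.S.O = O)
    {E : Type u} [Field E] [Algebra K E] (j : E →ₐ[K] FΩ)
    (xE aE βE γE : Pt f E) (x : Pt f F) (a β γ : Pt f Ω)
    (hx : mapPt j xE = mapPt (jF K F FΩ) x) (ha : mapPt j aE = mapPt (jΩ K Ω FΩ) a)
    (hβ : mapPt j βE = mapPt (jΩ K Ω FΩ) β) (hγ : mapPt j γE = mapPt (jΩ K Ω FΩ) γ)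
    (hface : IsBased L β O ∨ IsBased L γ O)
    {D : A → A.functionField} (hD : IsCartier D) :
    ∃ M : FΩ, M ≠ 0 ∧ ∀ Q : Place K F,
      ∃ T : ↥R.S.V, IsUnit T ∧ R.S.red T = 1 ∧
        ∀ P : Place Ω FΩ, R.rp hFF hFFΩ P = Q →
          UIn (compSub P (stmt_FFB_deg Ω FΩ hFFΩ P) O)
            (j ((thetaV L (L.mul (str K E) xE aE) βE γE D / thetaV L aE βE γE D)
                ((compSub P (stmt_FFB_deg Ω FΩ hFFΩ P) O).comap j.toRingHom)) /
              ((T : FΩ) * M)) := by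
  obtain ⟨M, hM, h⟩ := mov_theta_rp L R hFF hFFΩ O hRO x a β γ hface hD
  refine ⟨M, hM, fun Q => ?_⟩
  obtain ⟨T, hT1, hT2, hT3⟩ := h Q
  refine ⟨T, hT1, hT2, fun P hP => ?_⟩
  have hW : OverK K (compSub P (stmt_FFB_deg Ω FΩ hFFΩ P) O) := by
    subst hRO
    exact overK_compSub R P _
  have key := hT3 P hP
  rw [← hx, ← ha, ← hβ, ← hγ, ← H8.mapPt_mul, Pi.div_apply,
    thetaV_mapPt L j _ _ _ D _ hW, thetaV_mapPt L j _ _ _ D _ hW, ← map_div₀] at key
  exact key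

end Main

end Fermat.Agent.S26.C.X.H86
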