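import Mathlib
import Fermat.Agent.S26.C.X.H86_MovLamC
import Fermat.Agent.S26.C.X.H6_CCCInst

/-!
# S26 (C), cube side, PRIG: the scheme fact `X.H6.Stmt_MOV` (helper86)

`stmt_MOV : X.H6.Stmt_MOV` (unconditional), from `H86.mov_theta_rp`.
-/

set_option autoImplicit false
set_option linter.style.haveILetI false

open CategoryTheory CategoryTheory.Limits AlgebraicGeometry NeronModelInfra
  GoodReductionJacobian AlgebraicCurve

universe u

namespace Fermat.Agent.S26.C.X.H86

/-- **MOV**. -/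
theorem stmt_MOV : Fermat.Agent.S26.C.X.H6.Stmt_MOV.{u} := by
  intro K _ _ A f L g hAV _ F Ω FΩ _ _ _ _ _ _ _ _ _ _ _ hFF hFFΩ x a β γ D hD R _ hface
  haveI : IsProper f := hAV.bundle.proper
  exact mov_theta_rp L R hFF hFFΩ R.S.O rfl x a β γ hface hD

end Fermat.Agent.S26.C.X.H86
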