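import Mathlib
import Fermat.Agent.S26.C.X.Defs
import Fermat.Agent.S26.C.X.H69_PullAt
import Fermat.Agent.S26.C.X.H55_Rules
import Fermat.Agent.S26.C.X.H63_Theta7
import Fermat.Agent.S26.C.X.H6_CCCInst

/-!
# S26 (C), cube side, PRIG: LINK between the divisor on `E` and the divisor on `FΩ` (helper95)

`j : E →ₐ[K] E'` a homomorphism of fields over `K`.  Base change of the theta combination:

  `thetaV L (mapPt j x₁) (mapPt j x₂) (mapPt j x₃) D W = j (thetaV L x₁ x₂ x₃ D (W ∩ E))`

for every valuation ring `W ⊇ K` of `E'` (`thetaV_mapPt`), and the same for the quotient of two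
theta combinations (`thetaRatio_mapPt`).

For PRIG (`H6.lamΩ`, the divisor of `H6.CCCData` on `FΩ`, and `Λ_E`, the divisor of `Stmt_PRIG`
on `E`): if the points `x_E, a_E, β_E, γ_E ∈ A(E)` go to `ptF x`, `ptΩ a`, `ptΩ β`, `ptΩ γ` under
`j : E → FΩ`, then `lamΩ W = j (Λ_E (W ∩ E))` (`lamΩ_eq`): so `d.Horiz` for `Λ = lamΩ` is
literally the hypothesis `hHOR` of `H27.vert`.
-/

set_option autoImplicit false
set_option linter.style.haveILetI false
set_option linter.unusedSectionVars false

open CategoryTheory CategoryTheory.Limits AlgebraicGeometry IsLocalRing NeronModelInfra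
  GoodReductionJacobian

universe u

namespace Fermat.Agent.S26.C.X.H95

section Link

variable {K : Type u} [Field K] {A : Scheme.{u}} {f : A ⟶ Spec (CommRingCat.of K)}
variable [IsIntegral A] [IsProper f]
variable {E E' : Type u} [Field E] [Algebra K E] [Field E'] [Algebra K E']

/-- **Base change of the theta combination.** -/
theorem thetaV_mapPt (L : RelativeGroupLaw K f) (j : E →ₐ[K] E') (x₁ x₂ x₃ : Pt f E)
    (D : A → A.functionField) (W : ValuationSubring E') (hW : OverK K W) :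
    thetaV L (mapPt j x₁) (mapPt j x₂) (mapPt j x₃) D W =
      j (thetaV L x₁ x₂ x₃ D (W.comap j.toRingHom)) := by
  rw [H63.thetaV_eq_prod, H63.thetaV_eq_prod, Finset.prod_apply, Finset.prod_apply, map_prod]
  refine Finset.prod_congr rfl fun i _ => ?_
  rw [Pi.pow_apply, Pi.pow_apply, H63.thetaPts_mapPt, H69.pb_mapPt j _ D W hW, map_zpow₀]

/-- **Base change of the quotient of two theta combinations.** -/
theorem thetaRatio_mapPt (L : RelativeGroupLaw K f) (j : E →ₐ[K] E')
    (x₁ x₂ x₃ y₁ y₂ y₃ : Pt f E) (D : A → A.functionField) (W : ValuationSubring E')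
    (hW : OverK K W) :
    (thetaV L (mapPt j x₁) (mapPt j x₂) (mapPt j x₃) D /
        thetaV L (mapPt j y₁) (mapPt j y₂) (mapPt j y₃) D) W =
      j ((thetaV L x₁ x₂ x₃ D / thetaV L y₁ y₂ y₃ D) (W.comap j.toRingHom)) := by
  rw [Pi.div_apply, Pi.div_apply, map_div₀, thetaV_mapPt L j x₁ x₂ x₃ D W hW,
    thetaV_mapPt L j y₁ y₂ y₃ D W hW]

end Link

section LamΩ

variable {K : Type u} [Field K] {A : Scheme.{u}} {f : A ⟶ Spec (CommRingCat.of K)}
variable [IsIntegral A] [IsProper f]
variable {E : Type u} [Field E] [Algebra K E]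
variable {F Ω : Type u} (FΩ : Type u) [Field F] [Algebra K F] [Field Ω] [Field FΩ]
  [Algebra Ω FΩ] [Algebra K Ω] [Algebra F FΩ] [Algebra K FΩ] [IsScalarTower K F FΩ]
  [IsScalarTower K Ω FΩ]

/-- **LINK**: the divisor `lamΩ` of `H6.CCCData` on `FΩ` is the base change along `j : E → FΩ` of
the divisor of `Stmt_PRIG` on `E`, if the points correspond. -/
theorem lamΩ_eq (L : RelativeGroupLaw K f) (j : E →ₐ[K] FΩ) (x : Pt f F) (a β γ : Pt f Ω)
    (xE aE βE γE : Pt f E) (hx : mapPt j xE = H6.ptF FΩ x) (ha : mapPt j aE = H6.ptΩ FΩ a)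
    (hβ : mapPt j βE = H6.ptΩ FΩ β) (hγ : mapPt j γE = H6.ptΩ FΩ γ)
    (D : A → A.functionField) (W : ValuationSubring FΩ) (hW : OverK K W) :
    H6.lamΩ FΩ L x a β γ D W =
      j ((letI : Group (Pt f E) := L.pointGroup (str K E)
          thetaV L (xE * aE) βE γE D / thetaV L aE βE γE D) (W.comap j.toRingHom)) := by
  letI : Group (Pt f E) := L.pointGroup (str K E)
  letI : Group (Pt f FΩ) := L.pointGroup (str K FΩ)
  have hxa : mapPt j (xE * aE) = H6.ptF FΩ x * H6.ptΩ FΩ a := by
    rw [H55.mapPt_mul L j xE aE, hx, ha]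
  have h := thetaRatio_mapPt L j (xE * aE) βE γE aE βE γE D W hW
  rw [hxa, ha, hβ, hγ] at h
  exact h

end LamΩ

end Fermat.Agent.S26.C.X.H95
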