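import Fermat.Agent.S26.C.X.H6_CCCInst
import Fermat.Agent.S26.C.X.H69_LocInst
import Fermat.Agent.S26.C.X.H86_MovStmt
import Fermat.Agent.S26.C.H30_BCFinal
import Fermat.Agent.S26.C.H30_BCExt
import Fermat.Agent.S26.C.X.H86_GF
import Fermat.Agent.S26.C.X.H49_PrigWire
import Fermat.Agent.S26.C.X.H49_SetupFace
import Fermat.Agent.S26.C.X.H13_SetupBC
import Fermat.Agent.S26.C.X.H95_Link
import Fermat.Agent.S26.C.H29_Horiz
import Fermat.Agent.S26.C.H27_VertCCC
import Fermat.Agent.S26.C.H35_Diag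
import Fermat.Agent.S26.C.H6_PrigTop

/-!
# S26, crux (C), PRIG: the FINAL wiring

helper6 (PRIG owner).

* `constPlace_value` (CONST-VALUE): at the constant place over `Qo`, `ι z` has the value `z(Qo)`;
* `cccData` (CCC-INST): the abstract data `H6.CCCData` for the valuative divisor `lamΩ`
  (`gd`, `fin` : helper86; `loc` : helper69; `mov` : helper86; `base` : the leaf `Stmt_BASE`);
* `mapPt_incPt_ptF`, `mapPt_incPt_ptΩ` (POINT-ID);
* `exists_place_comap` (SETUP-QO for `K` algebraically closed);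
* `stmt_PRIG_of_base : Stmt_BASE → Stmt_PRIG` : `Ω := AlgebraicClosure E`,
  `FΩ := BCField K (F i₀) Ω`, HORIZ (helper29), VERT (helper27), the diagonal place (helper35),
  `H6.prig_top`.
-/

set_option autoImplicit false
set_option linter.style.haveILetI false
set_option linter.unusedSectionVars false

universe u

noncomputable section

open CategoryTheory CategoryTheory.Limits AlgebraicGeometry NeronModelInfra GoodReductionJacobian
open AlgebraicCurve

namespace Fermat.Agent.S26.C.X.H6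

open Fermat.Agent.S27.REDu Fermat.Agent.S27.REDu.H34 Fermat.Agent.S27.REDu.H34.RedSetting
  Fermat.Agent.S27.REDu.H51 Fermat.Agent.S27.REDu.H10
open Fermat.Agent.S26.C.X.H69 (UIn FinSuppP)
open Fermat.Agent.S26.C.X.H95 (IsGenDiv)
open Fermat.Agent.S26.C.H6 (ConstRed ConstDeg compSub CCCData)
open Fermat.Agent.S27.REDu.H17 (RegAt VanAt regAt_iff_mem)

section CV

variable {K F Ω FΩ : Type u}
  [Field K] [Field F] [Algebra K F] [Field Ω] [Field FΩ] [Algebra Ω FΩ]
  [Algebra K Ω] [Algebra F FΩ] [Algebra K FΩ] [IsScalarTower K F FΩ] [IsScalarTower K Ω FΩ]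
  [IsAlgClosed K]

/-- **CONST-VALUE**: at the constant place over `Qo`, `ι z` has the value `z(Qo)`. -/
theorem constPlace_value (ext : C.H86.ConstExt (Ω := Ω) (C.H29.psi K F FΩ)) (Qo : Place K F)
    (hQo : Qo.deg = 1) (hPo : (ext.place Qo).deg = 1) (z : ↥Qo.toValuationSubring) :
    ∃ h : algebraMap F FΩ (z : F) ∈ (ext.place Qo).toValuationSubring,
      valHom (ext.place Qo) hPo ⟨algebraMap F FΩ (z : F), h⟩ =
        algebraMap K Ω (valHom Qo hQo z) := by
  have hlo := ext.place_liesOver Qo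
  have hreg : RegAt Qo (z : F) := (regAt_iff_mem Qo _).mpr z.2
  have hreg' : RegAt (ext.place Qo) (C.H29.psi K F FΩ (z : F)) := (hlo _).1 hreg
  have hmem : algebraMap F FΩ (z : F) ∈ (ext.place Qo).toValuationSubring :=
    (regAt_iff_mem _ _).mp hreg'
  refine ⟨hmem, ?_⟩
  have h1 : OrdGe Qo 1 ((z : F) - algebraMap K F (valHom Qo hQo z)) := ordGe_sub_valHom Qo hQo z
  rw [ordGe_one_iff_vanAt] at h1
  have h2 := (hlo _).2 h1
  apply valHom_eq_of_ordGe
  rw [ordGe_one_iff_vanAt]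
  have e : C.H29.psi K F FΩ ((z : F) - algebraMap K F (valHom Qo hQo z)) =
      algebraMap F FΩ (z : F) - algebraMap Ω FΩ (algebraMap K Ω (valHom Qo hQo z)) := by
    rw [map_sub, AlgHom.commutes, IsScalarTower.algebraMap_apply K Ω FΩ]
    rfl
  rw [e] at h2
  exact h2

end CV

section Inst

variable {K : Type u} [Field K] {A : Scheme.{u}} {f : A ⟶ Spec (CommRingCat.of K)}
variable {F Ω : Type u} (FΩ : Type u) [Field F] [Algebra K F] [Field Ω] [Field FΩ]
  [Algebra Ω FΩ] [Algebra K Ω] [Algebra F FΩ] [Algebra K FΩ] [IsScalarTower K F FΩ]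
  [IsScalarTower K Ω FΩ] [IsAlgClosed K] [IsAlgClosed Ω] [IsIntegral A]

/-- **CCC-INST**: the abstract data of PRIG for `Λ = lamΩ`. -/
def cccData (L : RelativeGroupLaw K f) (g : ℕ) (hav : IsAVg K f L g)
    (hBASE : Stmt_BASE.{u})
    (hFF : IsFF K F) (hBC : C.H30.IsBC K F Ω FΩ) (face : C.H29.FaceData K Ω)
    (x : Pt f F) (a β γ : Pt f Ω) (D : A → A.functionField) (hD : IsCartier D)
    (hface : ∀ O : ValuationSubring Ω, face.IsFace O → IsBased L β O ∨ IsBased L γ O)
    (Qo : Place K F) (hx : IsBased L x Qo.toValuationSubring) : CCCData K F Ω FΩ :=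
  haveI : IsProper f := hav.bundle.proper
  { hFF := hFF
    hFFΩ := hBC.isFF hFF
    hCD := (C.H13D.stmt_BC_Deg K F Ω FΩ hBC hFF).2
    ext := hBC.constExt hFF
    RO := fun O hO => (⟨O, hO.1, hO.2⟩ : C.H30.KPl K Ω).constRed hBC
    hRO := fun O hO => C.H30.KPl.constRed_O _ hBC
    face := face
    Λ := lamΩ FΩ L x a β γ D
    gd := H86.isGenDiv_lamΩ FΩ L x a β γ hD
    fin := H86.finSuppP_lamΩ FΩ (hBC.isFF hFF) L x a β γ hD
    loc := fun W W' hW hW' hF hΩ =>
      H69.stmt_LOC K f L g hav F Ω FΩ x a β γ D hD W W' hW hW' hF hΩ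
    mov := fun O hO => by
      have hRO : ((⟨O, hO.1.1, hO.1.2⟩ : C.H30.KPl K Ω).constRed hBC).S.O = O :=
        C.H30.KPl.constRed_O _ hBC
      have h := H86.stmt_MOV K f L g hav F Ω FΩ hFF (hBC.isFF hFF) x a β γ D hD
        ((⟨O, hO.1.1, hO.1.2⟩ : C.H30.KPl K Ω).constRed hBC)
        (by rw [hRO]; exact hO.1) (by rw [hRO]; exact hface O hO)
      rw [hRO] at h
      exact h
    Qo := Qo
    base := fun O hO =>
      hBASE K f L g hav F Ω FΩ x a β γ D hD Qo (stmt_FFB_deg K F hFF Qo) hx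
        ((hBC.constExt hFF).place Qo) (stmt_FFB_deg Ω FΩ (hBC.isFF hFF) _)
        (fun z => constPlace_value (hBC.constExt hFF) Qo _ _ z) O hO }

end Inst

section PointId

variable {K : Type u} [Field K] {A : Scheme.{u}} {f : A ⟶ Spec (CommRingCat.of K)}
variable {E Ω FΩ : Type u} [Field E] [Algebra K E] [Field Ω] [Field FΩ]
  [Algebra Ω FΩ] [Algebra K Ω] [Algebra K FΩ] [IsScalarTower K Ω FΩ]
  [Algebra E Ω] [IsScalarTower K E Ω]

/-- a point of the curve `F₀ ⊆ E`, transported along `j` -/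
theorem mapPt_incPt_ptF (F₀ : IntermediateField K E) [Algebra F₀ FΩ] [IsScalarTower K F₀ FΩ]
    (j : E →ₐ[K] FΩ) (hjF : ∀ y : F₀, j (y : E) = algebraMap F₀ FΩ y) (x : Pt f F₀) :
    mapPt j (incPt x) = ptF FΩ x := by
  unfold incPt ptF
  rw [H8.mapPt_mapPt]
  congr 1
  ext y
  exact hjF y

/-- a point of a subfield `M ⊆ E` of constants, transported along `j` -/
theorem mapPt_incPt_ptΩ (M : IntermediateField K E)
    (j : E →ₐ[K] FΩ) (hjM : ∀ y : M, j (y : E) = algebraMap Ω FΩ (algebraMap E Ω (y : E)))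
    (b : Pt f M) :
    mapPt j (incPt b) = ptΩ FΩ (mapPt (IsScalarTower.toAlgHom K E Ω) (incPt b)) := by
  unfold incPt ptΩ
  rw [H8.mapPt_mapPt, H8.mapPt_mapPt, H8.mapPt_mapPt]
  congr 1
  ext y
  exact hjM y

end PointId

/-- **SETUP-QO** (for `K` algebraically closed): the trace on a curve `F₀ ⊆ E` of a `K`-place of
`E` is a place of `F₀ / K`. -/
theorem exists_place_comap {K : Type u} [Field K] [IsAlgClosed K] {E : Type u} [Field E]
    [Algebra K E] (F₀ : IntermediateField K E) (hFF : IsFF1 K F₀) (o : ValuationSubring E)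
    (ho : IsKPlace K o) :
    ∃ Qo : Place K F₀, Qo.toValuationSubring = o.comap (algebraMap F₀ E) := by
  refine Fermat.Agent.S27.REDu.H42.exists_place_eq hFF (o.comap (algebraMap F₀ E)) ?_ ?_
  · intro a
    rw [ValuationSubring.mem_comap]
    have : algebraMap F₀ E (algebraMap K F₀ a) = algebraMap K E a :=
      (IsScalarTower.algebraMap_apply K F₀ E a).symm
    rw [this]
    exact ho.1 a
  · intro htop
    obtain ⟨x, hx, -⟩ := hFF
    have hall : ∀ y : F₀, (y : E) ∈ o := by
      intro y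
      have : y ∈ o.comap (algebraMap F₀ E) := by rw [htop]; exact ValuationSubring.mem_top _
      exact this
    obtain ⟨c, hc⟩ := ho.2 (x : E) (hall x)
    have hne : x - algebraMap K F₀ c ≠ 0 := by
      intro h0
      apply hx
      rw [sub_eq_zero] at h0
      rw [h0]
      exact isAlgebraic_algebraMap c
    have h1 := hall (x - algebraMap K F₀ c)
    have h2 := hall (x - algebraMap K F₀ c)⁻¹
    have hcoe : ((x - algebraMap K F₀ c : F₀) : E) = (x : E) - algebraMap K E c := rfl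
    have hne' : (x : E) - algebraMap K E c ≠ 0 := by
      rw [← hcoe]
      exact fun h => hne (Subtype.ext h)
    have hinv : (((x - algebraMap K F₀ c)⁻¹ : F₀) : E) = ((x : E) - algebraMap K E c)⁻¹ := by
      rw [← hcoe]; rfl
    rw [hinv] at h2
    -- a nonunit whose inverse lies in `o`
    have hv1 : o.valuation ((x : E) - algebraMap K E c) < 1 :=
      (ValuationSubring.mem_nonunits_iff o).mp hc
    have hv2 : o.valuation ((x : E) - algebraMap K E c)⁻¹ ≤ 1 :=
      (o.valuation_le_one_iff _).mpr h2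
    rw [map_inv₀] at hv2
    have hv0 : o.valuation ((x : E) - algebraMap K E c) ≠ 0 :=
      (o.valuation.ne_zero_iff).mpr hne'
    have hv3 : 1 ≤ o.valuation ((x : E) - algebraMap K E c) := by
      rwa [inv_le_one₀ (zero_lt_iff.mpr hv0)] at hv2
    exact absurd hv1 (not_lt.mpr hv3)

/-- **PRIG**, from the leaf `BASE`. -/
theorem stmt_PRIG_of_base (hBASE : Stmt_BASE.{u}) : Stmt_PRIG.{u} := by
  intro K _ A f L g hav _ E _ _ ι _ F hF o ho i₀ S₂ S₃ h₂ h₃ hd x β γ a hx hβ hγ D hD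
  haveI : IsAlgClosed K := hav.algClosed
  haveI : IsProper f := hav.bundle.proper
  letI : Group (Pt f E) := L.pointGroup (str K E)
  -- the base change
  have hFF : IsFF K (F i₀) := hF.ff i₀
  have hBC : C.H30.IsBC K (F i₀) (AlgebraicClosure E) (C.H30.BCField K (F i₀) (AlgebraicClosure E)) :=
    C.H30.isBC_BCField K (F i₀) (AlgebraicClosure E)
  have hE : C.H30.IsBC K (F i₀) (blk F {i₀}ᶜ) E := H13S.stmt_SETUPBC K E ι F hF i₀
  -- the base point of the curve
  obtain ⟨Qo, hQo⟩ := exists_place_comap (F i₀) (hF.ff i₀) o ho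
  have hxQ : IsBased L x Qo.toValuationSubring :=
    H49w.isBased_place L (F i₀) o ho.1 x hx Qo hQo
  -- the faces
  obtain ⟨face, hfp⟩ := H49f.stmt_SETUPFACE K f L E ι F hF o ho S₂ S₃ hd
  have hface : ∀ O : ValuationSubring (AlgebraicClosure E), face.IsFace O →
      IsBased L (mapPt (IsScalarTower.toAlgHom K E (AlgebraicClosure E)) (incPt β)) O ∨
      IsBased L (mapPt (IsScalarTower.toAlgHom K E (AlgebraicClosure E)) (incPt γ)) O :=
    fun O hO => (hfp O hO).imp (fun h => h β hβ) (fun h => h γ hγ)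
  -- the abstract core
  let d : CCCData K (F i₀) (AlgebraicClosure E) (C.H30.BCField K (F i₀) (AlgebraicClosure E)) :=
    cccData (C.H30.BCField K (F i₀) (AlgebraicClosure E)) L g hav hBASE hFF hBC face x
      (mapPt (IsScalarTower.toAlgHom K E (AlgebraicClosure E)) (incPt a))
      (mapPt (IsScalarTower.toAlgHom K E (AlgebraicClosure E)) (incPt β))
      (mapPt (IsScalarTower.toAlgHom K E (AlgebraicClosure E)) (incPt γ)) D hD hface Qo hxQ
  have hHor : d.Horiz := C.H29.stmt_HORIZ K (F i₀) (AlgebraicClosure E) _ d (H49w.nsexHyp hFF)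
  have hC : d.Concl := C.H27v.stmt_VERT K (F i₀) (AlgebraicClosure E) _ d hHor
  -- the diagonal place
  obtain ⟨j, Pδ, hdeg, hjF, hjk, -, -, hδ, -⟩ := C.H35d.exists_diag hE hBC hFF
  -- `j` as a homomorphism of `K`-algebras
  let jA : E →ₐ[K] C.H30.BCField K (F i₀) (AlgebraicClosure E) :=
    { j with
      commutes' := fun c => by
        have h1 : algebraMap K E c = algebraMap (F i₀) E (algebraMap K (F i₀) c) :=
          IsScalarTower.algebraMap_apply K (F i₀) E c
        have h2 : j (algebraMap K E c) = algebraMap (F i₀) _ (algebraMap K (F i₀) c) := by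
          rw [h1]; exact hjF _
        exact h2.trans (IsScalarTower.algebraMap_apply K (F i₀)
          (C.H30.BCField K (F i₀) (AlgebraicClosure E)) c).symm }
  have hjA : ∀ y : E, jA y = j y := fun _ => rfl
  have hjk' : ∀ y : E, y ∈ blk F {i₀}ᶜ →
      jA y = algebraMap (AlgebraicClosure E) _ (algebraMap E (AlgebraicClosure E) y) :=
    fun y hy => hjk ⟨y, hy⟩
  have hS₂ : blk F S₂ ≤ blk F {i₀}ᶜ :=
    H69.blk_mono F (fun i hi => fun h => h₂ (h ▸ hi))
  have hS₃ : blk F S₃ ≤ blk F {i₀}ᶜ :=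
    H69.blk_mono F (fun i hi => fun h => h₃ (h ▸ hi))
  -- the points
  have hpx : mapPt jA (incPt x) = ptF _ x :=
    mapPt_incPt_ptF (F i₀) jA (fun y => hjF y) x
  have hpa := mapPt_incPt_ptΩ (f := f) (blk F {i₀}ᶜ) jA (fun y => hjk' y y.2) a
  have hpβ := mapPt_incPt_ptΩ (f := f) (blk F S₂) jA (fun y => hjk' y (hS₂ y.2)) β
  have hpγ := mapPt_incPt_ptΩ (f := f) (blk F S₃) jA (fun y => hjk' y (hS₃ y.2)) γ
  -- the top wiring
  refine C.H6.prig_top d hC jA _
    ((H95.isGenDiv_thetaV L _ _ _ hD).div (H95.isGenDiv_thetaV L _ _ _ hD))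
    (fun W hW => H95.lamΩ_eq _ L jA x _ _ _ (incPt x) (incPt a) (incPt β) (incPt γ)
      hpx hpa hpβ hpγ D W hW) Pδ (fun y => hδ y)

/-- **PRIG**, from the leaves `SETUP-QO` and `BASE` (`SETUP-QO` is not used). -/
theorem stmt_PRIG_of (_hQO : Stmt_SETUPQO.{u}) (hBASE : Stmt_BASE.{u}) : Stmt_PRIG.{u} :=
  stmt_PRIG_of_base hBASE

end Fermat.Agent.S26.C.X.H6
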