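/-
S26 (row 25), crux (C), cube side, PRIG-ASM cut KPL-CENTRE (helper72).  Mathlib + `H29_Rig` only.

`K` algebraically closed, `E` a field over `K`.

* `exists_kplace_of_linearDisjoint` : two `K`-points `φ₁`, `φ₂` of linearly disjoint
  `K`-subalgebras `A₁`, `A₂` of `E` are the centres of ONE `K`-place of `E`
  (CHEV-K of helper29 on the image of `A₁ ⊗[K] A₂`).
* `kplSub`, `kplRes` : a `K`-place as a `K`-subalgebra, with its residue map to `K`.
* `exists_kplace_comap` (KPL-CENTRE) : `F`, `k'` linearly disjoint intermediate fields of `E / K`,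
  `Q` a `K`-place of `F`, `O'` a `K`-place of `k'`: there is a `K`-place `V` of `E` with
  `V ∩ F = Q` and `V ∩ k' = O'`.
-/
import Mathlib
import Fermat.Agent.S26.C.H29_Rig

set_option autoImplicit false

open scoped TensorProduct

namespace Fermat.Agent.S26.C.X.H72

open Fermat.Agent.S26.C.H29

section Core

variable {K : Type*} {E : Type*} [Field K] [Field E] [Algebra K E]

/-- **Two centres at once.**  Two `K`-points of linearly disjoint subalgebras of `E` are the
centres of one `K`-place of `E`. -/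
theorem exists_kplace_of_linearDisjoint [IsAlgClosed K] (A₁ A₂ : Subalgebra K E)
    (H : A₁.LinearDisjoint A₂) (φ₁ : A₁ →ₐ[K] K) (φ₂ : A₂ →ₐ[K] K) :
    ∃ V : ValuationSubring E, IsKPlace K V ∧ CentredAt V A₁ φ₁ ∧ CentredAt V A₂ φ₂ := by
  classical
  have hinj : Function.Injective (A₁.mulMap A₂) := Subalgebra.linearDisjoint_iff_injective.mp H
  let e : (A₁ ⊗[K] A₂) ≃ₐ[K] (A₁.mulMap A₂).range := AlgEquiv.ofInjective _ hinj
  let ψ : A₁ ⊗[K] A₂ →ₐ[K] K := Algebra.TensorProduct.lift φ₁ φ₂ (fun _ _ => Commute.all _ _)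
  let φ : (A₁.mulMap A₂).range →ₐ[K] K := ψ.comp (e.symm : (A₁.mulMap A₂).range →ₐ[K] _)
  obtain ⟨V, hV, hc⟩ := exists_kplace (A₁.mulMap A₂).range φ
  refine ⟨V, hV, ?_, ?_⟩
  · intro a
    have hmem : (a : E) ∈ (A₁.mulMap A₂).range := ⟨a ⊗ₜ[K] 1, by simp [Subalgebra.mulMap_tmul]⟩
    have he : e (a ⊗ₜ[K] (1 : A₂)) = ⟨(a : E), hmem⟩ := by
      apply Subtype.ext
      simp [e, Subalgebra.mulMap_tmul]
    have hφ : φ ⟨(a : E), hmem⟩ = φ₁ a := by
      show ψ (e.symm ⟨(a : E), hmem⟩) = φ₁ a
      rw [← he, AlgEquiv.symm_apply_apply]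
      simp [ψ]
    have := hc ⟨(a : E), hmem⟩
    rwa [hφ] at this
  · intro b
    have hmem : (b : E) ∈ (A₁.mulMap A₂).range := ⟨1 ⊗ₜ[K] b, by simp [Subalgebra.mulMap_tmul]⟩
    have he : e ((1 : A₁) ⊗ₜ[K] b) = ⟨(b : E), hmem⟩ := by
      apply Subtype.ext
      simp [e, Subalgebra.mulMap_tmul]
    have hφ : φ ⟨(b : E), hmem⟩ = φ₂ b := by
      show ψ (e.symm ⟨(b : E), hmem⟩) = φ₂ b
      rw [← he, AlgEquiv.symm_apply_apply]
      simp [ψ]
    have := hc ⟨(b : E), hmem⟩
    rwa [hφ] at this

end Core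

section Res

variable {K : Type*} {L : Type*} [Field K] [Field L] [Algebra K L]

/-- A valuation subring containing `K`, as a `K`-subalgebra. -/
def kplSub (V : ValuationSubring L) (hK : ∀ a : K, algebraMap K L a ∈ V) : Subalgebra K L :=
  { V.toSubring with algebraMap_mem' := hK }

theorem mem_kplSub {V : ValuationSubring L} {hK : ∀ a : K, algebraMap K L a ∈ V} {x : L} :
    x ∈ kplSub V hK ↔ x ∈ V := Iff.rfl

theorem kpl_val_const {V : ValuationSubring L} (hK : ∀ a : K, algebraMap K L a ∈ V) {c : K}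
    (hc : c ≠ 0) : V.valuation (algebraMap K L c) = 1 := by
  have h1 : V.valuation (algebraMap K L c) ≤ 1 := (V.valuation_le_one_iff _).2 (hK c)
  have h2 : V.valuation (algebraMap K L c⁻¹) ≤ 1 := (V.valuation_le_one_iff _).2 (hK c⁻¹)
  rw [map_inv₀, map_inv₀] at h2
  have h0 : V.valuation (algebraMap K L c) ≠ 0 := by
    rw [Valuation.ne_zero_iff]
    exact (map_ne_zero (algebraMap K L)).2 hc
  have h3 : 1 ≤ V.valuation (algebraMap K L c) := by
    rwa [inv_le_one₀ (zero_lt_iff.2 h0)] at h2
  exact le_antisymm h1 h3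

theorem kpl_res_unique {V : ValuationSubring L} (hK : ∀ a : K, algebraMap K L a ∈ V) {a : L}
    {c c' : K} (h : a - algebraMap K L c ∈ V.nonunits)
    (h' : a - algebraMap K L c' ∈ V.nonunits) : c = c' := by
  by_contra hne
  rw [ValuationSubring.mem_nonunits_iff] at h h'
  have hd : c' - c ≠ 0 := sub_ne_zero.2 (Ne.symm hne)
  have h1 := kpl_val_const hK hd
  have h2 : algebraMap K L (c' - c) = (a - algebraMap K L c) - (a - algebraMap K L c') := by
    rw [map_sub]; ring
  rw [h2] at h1
  have h3 := Valuation.map_sub V.valuation (a - algebraMap K L c) (a - algebraMap K L c')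
  rw [h1] at h3
  exact absurd h3 (not_le.2 (max_lt h h'))

/-- The residue map of a `K`-place, as a function. -/
noncomputable def kplResFun (V : ValuationSubring L) (hV : IsKPlace K V)
    (a : kplSub V hV.1) : K := (hV.2 a a.2).choose

theorem kplResFun_spec (V : ValuationSubring L) (hV : IsKPlace K V) (a : kplSub V hV.1) :
    (a : L) - algebraMap K L (kplResFun V hV a) ∈ V.nonunits :=
  (hV.2 a a.2).choose_spec

theorem kplResFun_eq {V : ValuationSubring L} (hV : IsKPlace K V) {a : kplSub V hV.1} {c : K}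
    (h : (a : L) - algebraMap K L c ∈ V.nonunits) : kplResFun V hV a = c :=
  kpl_res_unique hV.1 (kplResFun_spec V hV a) h

/-- The residue map `V → K` of a `K`-place. -/
noncomputable def kplRes (V : ValuationSubring L) (hV : IsKPlace K V) :
    kplSub V hV.1 →ₐ[K] K where
  toFun := kplResFun V hV
  map_one' := by
    apply kplResFun_eq hV
    rw [ValuationSubring.mem_nonunits_iff]
    simp
  map_zero' := by
    apply kplResFun_eq hV
    rw [ValuationSubring.mem_nonunits_iff]
    simp
  map_mul' a b := by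
    apply kplResFun_eq hV
    have ha := kplResFun_spec V hV a
    have hb := kplResFun_spec V hV b
    rw [ValuationSubring.mem_nonunits_iff] at ha hb ⊢
    have h : ((a * b : kplSub V hV.1) : L) - algebraMap K L (kplResFun V hV a * kplResFun V hV b) =
        ((a : L) - algebraMap K L (kplResFun V hV a)) * (b : L) +
          algebraMap K L (kplResFun V hV a) * ((b : L) - algebraMap K L (kplResFun V hV b)) := by
      rw [map_mul]
      push_cast
      ring
    rw [h]
    refine lt_of_le_of_lt (Valuation.map_add _ _ _) (max_lt ?_ ?_)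
    · rw [map_mul]
      calc V.valuation ((a : L) - algebraMap K L (kplResFun V hV a)) * V.valuation (b : L)
          ≤ V.valuation ((a : L) - algebraMap K L (kplResFun V hV a)) * 1 :=
            mul_le_mul' le_rfl ((V.valuation_le_one_iff _).2 b.2)
        _ < 1 := by rw [mul_one]; exact ha
    · rw [map_mul]
      calc V.valuation (algebraMap K L (kplResFun V hV a)) *
            V.valuation ((b : L) - algebraMap K L (kplResFun V hV b))
          ≤ 1 * V.valuation ((b : L) - algebraMap K L (kplResFun V hV b)) :=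
            mul_le_mul' ((V.valuation_le_one_iff _).2 (hV.1 _)) le_rfl
        _ < 1 := by rw [one_mul]; exact hb
  map_add' a b := by
    apply kplResFun_eq hV
    have ha := kplResFun_spec V hV a
    have hb := kplResFun_spec V hV b
    rw [ValuationSubring.mem_nonunits_iff] at ha hb ⊢
    have h : ((a + b : kplSub V hV.1) : L) - algebraMap K L (kplResFun V hV a + kplResFun V hV b) =
        ((a : L) - algebraMap K L (kplResFun V hV a)) +
          ((b : L) - algebraMap K L (kplResFun V hV b)) := by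
      rw [map_add]
      push_cast
      ring
    rw [h]
    exact lt_of_le_of_lt (Valuation.map_add _ _ _) (max_lt ha hb)
  commutes' c := by
    apply kplResFun_eq hV
    rw [ValuationSubring.mem_nonunits_iff]
    simp

theorem kplRes_spec (V : ValuationSubring L) (hV : IsKPlace K V) (a : kplSub V hV.1) :
    (a : L) - algebraMap K L (kplRes V hV a) ∈ V.nonunits :=
  kplResFun_spec V hV a

theorem kplRes_eq_zero {V : ValuationSubring L} (hV : IsKPlace K V) {a : kplSub V hV.1}
    (h : (a : L) ∈ V.nonunits) : kplRes V hV a = 0 :=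
  kplResFun_eq hV (by simpa using h)

end Res

section Comap

variable {K : Type*} {E : Type*} [Field K] [Field E] [Algebra K E]

/-- A `K`-place `V` of `E` centred at the residue point of a `K`-place `Q` of an intermediate
field `F` restricts to `Q`. -/
theorem comap_eq_of_centredAt (F : IntermediateField K E) (Q : ValuationSubring F)
    (hQ : IsKPlace K Q) (V : ValuationSubring E) (hV : IsKPlace K V)
    (hc : CentredAt V ((kplSub Q hQ.1).map F.val)
      ((kplRes Q hQ).comp
        (((kplSub Q hQ.1).equivMapOfInjective F.val F.val.injective).symm :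
          ((kplSub Q hQ.1).map F.val) →ₐ[K] kplSub Q hQ.1))) :
    V.comap (algebraMap F E) = Q := by
  classical
  set A₁ : Subalgebra K E := (kplSub Q hQ.1).map F.val with hA₁
  set e₁ := (kplSub Q hQ.1).equivMapOfInjective F.val F.val.injective with he₁
  have hmem : ∀ x : F, x ∈ Q → algebraMap F E x ∈ A₁ := fun x hx => ⟨x, hx, rfl⟩
  have hsymm : ∀ (x : F) (hx : x ∈ Q), e₁.symm ⟨algebraMap F E x, hmem x hx⟩ = ⟨x, hx⟩ := by
    intro x hx
    rw [AlgEquiv.symm_apply_eq]
    apply Subtype.ext
    rfl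
  ext x
  rw [ValuationSubring.mem_comap]
  constructor
  · intro hxV
    by_contra hxQ
    have hx0 : x ≠ 0 := fun h0 => hxQ (h0 ▸ Q.zero_mem)
    have hinvQ : x⁻¹ ∈ Q := (Q.mem_or_inv_mem x).resolve_left hxQ
    have hinvnu : x⁻¹ ∈ Q.nonunits := by
      rw [ValuationSubring.inv_mem_nonunits_iff]
      exact Or.inr hxQ
    have hres : kplRes Q hQ ⟨x⁻¹, hinvQ⟩ = 0 := kplRes_eq_zero hQ hinvnu
    have h1 := hc ⟨algebraMap F E x⁻¹, hmem _ hinvQ⟩
    have h2 : ((kplRes Q hQ).comp (e₁.symm : A₁ →ₐ[K] kplSub Q hQ.1))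
        ⟨algebraMap F E x⁻¹, hmem _ hinvQ⟩ = 0 := by
      show kplRes Q hQ (e₁.symm ⟨algebraMap F E x⁻¹, hmem _ hinvQ⟩) = 0
      rw [hsymm _ hinvQ, hres]
    rw [h2, map_zero, sub_zero] at h1
    have h3 : (algebraMap F E x)⁻¹ ∈ V.nonunits := by
      rw [← map_inv₀]
      exact h1
    rw [ValuationSubring.inv_mem_nonunits_iff] at h3
    rcases h3 with h3 | h3
    · exact hx0 ((map_eq_zero (algebraMap F E)).mp h3)
    · exact h3 hxV
  · intro hxQ
    exact hV.mem_of_centredAt hc ⟨algebraMap F E x, hmem x hxQ⟩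

/-- **KPL-CENTRE.**  `F`, `k'` linearly disjoint intermediate fields of `E / K`, `Q` a `K`-place
of `F`, `O'` a `K`-place of `k'`: there is a `K`-place `V` of `E` with `V ∩ F = Q` and
`V ∩ k' = O'`. -/
theorem exists_kplace_comap [IsAlgClosed K] (F k' : IntermediateField K E)
    (h : F.LinearDisjoint k') (Q : ValuationSubring F) (hQ : IsKPlace K Q)
    (O' : ValuationSubring k') (hO : IsKPlace K O') :
    ∃ V : ValuationSubring E, IsKPlace K V ∧
      V.comap (algebraMap F E) = Q ∧ V.comap (algebraMap k' E) = O' := by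
  classical
  have hle₁ : (kplSub Q hQ.1).map F.val ≤ F.toSubalgebra := by
    rintro _ ⟨y, _, rfl⟩
    exact y.2
  have hle₂ : (kplSub O' hO.1).map k'.val ≤ k'.toSubalgebra := by
    rintro _ ⟨y, _, rfl⟩
    exact y.2
  have H : ((kplSub Q hQ.1).map F.val).LinearDisjoint ((kplSub O' hO.1).map k'.val) :=
    (IntermediateField.linearDisjoint_iff'.mp h).of_le_of_flat_right hle₁ hle₂
  obtain ⟨V, hV, hc₁, hc₂⟩ := exists_kplace_of_linearDisjoint _ _ H
    ((kplRes Q hQ).comp
      (((kplSub Q hQ.1).equivMapOfInjective F.val F.val.injective).symm :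
        ((kplSub Q hQ.1).map F.val) →ₐ[K] kplSub Q hQ.1))
    ((kplRes O' hO).comp
      (((kplSub O' hO.1).equivMapOfInjective k'.val k'.val.injective).symm :
        ((kplSub O' hO.1).map k'.val) →ₐ[K] kplSub O' hO.1))
  exact ⟨V, hV, comap_eq_of_centredAt F Q hQ V hV hc₁, comap_eq_of_centredAt k' O' hO V hV hc₂⟩

end Comap

end Fermat.Agent.S26.C.X.H72
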