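import Mathlib
import Fermat.Agent.S26.C.X.CurvesDefs

/-!
# S26 (C), cube side, leaf CURVES, sub-leaf CV-FIN (helper8)

`stmt_CVFIN : Stmt_CVFIN`: the function field `E` of a product of `g` curves (a free family
`F : Fin g → IntermediateField K E` of function fields of one variable generating `E`) is finite
over every subfield `L₀` of transcendence degree `g` over `K`.

Route: choose parameters `x i ∈ F i`; `E` is algebraic over `K(x_1, …, x_g)`, hence
`trdeg K E ≤ g`; additivity of the transcendence degree gives `trdeg L₀ E = 0`, i.e. `E / L₀` is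
algebraic; `E / K` is finitely generated as a field (`IntermediateField.fg_iSup`), hence so is
`E / L₀`; finitely generated + algebraic ⟹ finite.

Only `IsCurveFam.ff` and `IsCurveFam.gen` are used (not `free`).
-/

set_option autoImplicit false
set_option linter.style.haveILetI false

open scoped IntermediateField

universe u

namespace Fermat.Agent.S26.C.X.H8cv

open Fermat.Agent.S26.C.X

variable {K : Type u} [Field K] {E : Type u} [Field E] [Algebra K E]

/-- An element of a subfield `F ⊆ E` finite over `K(x)`, `x ∈ F`, is algebraic over every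
intermediate field `M` of `E / K` containing `x`. -/
theorem isAlgebraic_of_mem_ff (F : IntermediateField K E) (x : F) [Module.Finite K⟮x⟯ F]
    (M : IntermediateField K E) (hx : (x : E) ∈ M) (y : E) (hy : y ∈ F) : IsAlgebraic M y := by
  have h1 : IsAlgebraic K⟮x⟯ (⟨y, hy⟩ : F) := (IsIntegral.of_finite K⟮x⟯ _).isAlgebraic
  have hle : K⟮x⟯ ≤ M.comap F.val := by
    rw [IntermediateField.adjoin_le_iff]
    rintro _ rfl
    exact hx
  let f : K⟮x⟯ →+* M :=
    ((algebraMap F E).comp (algebraMap K⟮x⟯ F)).codRestrict M (fun c => hle c.2)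
  exact h1.ringHom_of_comp_eq (S := M) (B := E) f (algebraMap F E) (RingHom.injective f)
    (by ext; rfl)

/-- The ambient field of a family of function fields of one variable generating it is algebraic
over the field generated by parameters of the members. -/
theorem isAlgebraic_adjoin_params {ι : Type} (F : ι → IntermediateField K E)
    (hgen : blk F Set.univ = ⊤) (x : ∀ i, F i) (hx : ∀ i, Module.Finite K⟮x i⟯ (F i)) :
    Algebra.IsAlgebraic (IntermediateField.adjoin K (Set.range fun i => ((x i : F i) : E))) E := by
  set M := IntermediateField.adjoin K (Set.range fun i => ((x i : F i) : E)) with hM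
  have hle : ∀ i, F i ≤ (algebraicClosure M E).restrictScalars K := by
    intro i y hy
    haveI := hx i
    have hxi : ((x i : F i) : E) ∈ M :=
      IntermediateField.subset_adjoin K _ ⟨i, rfl⟩
    exact mem_algebraicClosure_iff.2 (isAlgebraic_of_mem_ff (F i) (x i) M hxi y hy)
  have htop : (⊤ : IntermediateField K E) ≤ (algebraicClosure M E).restrictScalars K := by
    rw [← hgen]
    unfold blk
    exact iSup_le fun i => iSup_le fun _ => hle i
  exact ⟨fun y => mem_algebraicClosure_iff.1 (htop (IntermediateField.mem_top))⟩

/-- `trdeg K E ≤ g` for the function field of a product of `g` curves. -/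
theorem trdeg_le_of_ff {g : ℕ} (F : Fin g → IntermediateField K E)
    (hff : ∀ i, IsFF1 K (F i)) (hgen : blk F Set.univ = ⊤) : Algebra.trdeg K E ≤ g := by
  choose x hx using hff
  set s : Set E := Set.range fun i => ((x i : F i) : E) with hs
  haveI h1 : Algebra.IsAlgebraic (IntermediateField.adjoin K s) E :=
    isAlgebraic_adjoin_params F hgen x (fun i => (hx i).2)
  haveI h2 : Algebra.IsAlgebraic (Algebra.adjoin K s) E := by
    open scoped IntermediateField.algebraAdjoinAdjoin in
    exact (IsFractionRing.comap_isAlgebraic_iff (A := Algebra.adjoin K s)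
      (K := IntermediateField.adjoin K s) (C := E)).2 h1
  refine (Algebra.IsAlgebraic.trdeg_le_cardinalMk K s).trans ?_
  have := Cardinal.mk_range_le_lift (f := fun i : Fin g => ((x i : F i) : E))
  simpa using this

/-- The function field of a product of finitely many curves is a finitely generated field. -/
theorem essFiniteType_of_ff {ι : Type} [Finite ι] (F : ι → IntermediateField K E)
    (hff : ∀ i, IsFF1 K (F i)) (hgen : blk F Set.univ = ⊤) : Algebra.EssFiniteType K E := by
  have hfg : ∀ i, (F i).FG := by
    intro i
    obtain ⟨x, -, hx⟩ := hff i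
    haveI : Algebra.EssFiniteType K K⟮x⟯ :=
      IntermediateField.essFiniteType_iff.2 (IntermediateField.fg_adjoin_of_finite
        (Set.finite_singleton x))
    haveI : Algebra.EssFiniteType K (F i) := Algebra.EssFiniteType.comp K K⟮x⟯ (F i)
    exact IntermediateField.essFiniteType_iff.1 this
  have h := IntermediateField.fg_iSup hfg
  have e : (⨆ i, F i) = ⊤ := by
    rw [← hgen]
    unfold blk
    simp
  rw [e] at h
  exact IntermediateField.fg_top_iff.1 h

/-- **CV-FIN**. -/
theorem stmt_CVFIN : Stmt_CVFIN.{u} := by
  intro K _ L₀ E _ _ _ _ g F hF htr ψ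
  letI : Algebra L₀ E := ψ.toRingHom.toAlgebra
  haveI : IsScalarTower K L₀ E := IsScalarTower.of_algebraMap_eq (fun a => (ψ.commutes a).symm)
  have h1 : Algebra.trdeg K E ≤ g := trdeg_le_of_ff F hF.ff hF.gen
  have h2 := trdeg_add_eq K L₀ (A := E)
  rw [htr] at h2
  have h3 : Algebra.trdeg L₀ E = 0 := by
    have h4 : Algebra.trdeg L₀ E + (g : Cardinal) ≤ 0 + g := by
      rw [add_comm, h2, zero_add]
      exact h1
    have h5 := (Cardinal.add_le_add_iff_of_lt_aleph0 (Cardinal.natCast_lt_aleph0 (n := g))).1 h4
    exact le_antisymm h5 zero_le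
  haveI : Algebra.IsAlgebraic L₀ E := trdeg_eq_zero_iff.1 h3
  haveI : Algebra.EssFiniteType K E := essFiniteType_of_ff F hF.ff hF.gen
  haveI : Algebra.EssFiniteType L₀ E := Algebra.EssFiniteType.of_comp K L₀ E
  exact Algebra.finite_of_essFiniteType_of_isAlgebraic

end Fermat.Agent.S26.C.X.H8cv
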