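import Mathlib
import Fermat.Agent.S26.C.X.Defs
import Fermat.Agent.S26.C.X.H69_PullAt
import Fermat.Agent.S26.C.X.H69_Desc
import Fermat.Agent.S26.C.X.H95_KplDesc

/-!
# S26 (C), cube side: DESC for ALGEBRAIC extensions (helper95)

`Stmt_DESC` (helper69) descends `IsVP` along a FINITE extension `E' / E`.  The residue field `κ` of
the diagonal place of `CUBEPC_of` (TRIPLE) is only ALGEBRAIC over `E`.  With `KPL-DESC`
(`H95.isVPt_of_kplaces`) the same descent holds for algebraic extensions (`K` algebraically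
closed): if `∏ (σ i)_{E'}^* D ^ ε i = div Ψ'` on `E'`, then `Ψ'` is algebraic over `E` and
`(∏ (σ i)^* D ^ ε i) ^ k = div (N_{E(Ψ')/E} Ψ')`, `k = [E(Ψ') : E]`.

* `desc_algebraic` : the statement in the shape of `Stmt_DESC` (`j : E →ₐ[K] E'`, `E'` algebraic);
* `desc_algebraic_of_isAlgebraic` : only the witness `Ψ'` is assumed algebraic (any `E'`).
-/

set_option autoImplicit false
set_option linter.style.haveILetI false
set_option linter.unusedSectionVars false

open CategoryTheory CategoryTheory.Limits AlgebraicGeometry IsLocalRing NeronModelInfra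
  GoodReductionJacobian

universe u

namespace Fermat.Agent.S26.C.X.H95

open Fermat.Agent.S26.C.X.H69 (UIn)

section DescAlg

variable {K : Type u} [Field K] {A : Scheme.{u}} {f : A ⟶ Spec (CommRingCat.of K)}
variable {E E' : Type u} [Field E] [Algebra K E] [Field E'] [Algebra K E']

/-- the product of the `pb (σ i) D ^ ε i` satisfies (ne) and (gen) -/
theorem isGenDiv_prod_pb [IsProper f] [IsIntegral A] {ι : Type} [Fintype ι] (σ : ι → Pt f E)
    (ε : ι → ℤ) {D : A → A.functionField} (hD : IsCartier D) :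
    IsGenDiv K (∏ i, pb (σ i) D ^ ε i) :=
  IsGenDiv.prod _ _ fun i _ => (isGenDiv_pb (σ i) hD).zpow (ε i)

/-- **DESC, algebraic form**: only the witness of `IsVP` on `E'` has to be algebraic over `E`. -/
theorem desc_algebraic_of_isAlgebraic [IsAlgClosed K] [IsProper f] [IsIntegral A]
    (j : E →ₐ[K] E') {ι : Type} [Fintype ι] (σ : ι → Pt f E) (ε : ι → ℤ)
    {D : A → A.functionField} (hD : IsCartier D) (Ψ' : E') (hΨ'0 : Ψ' ≠ 0)
    (halg : letI : Algebra E E' := j.toRingHom.toAlgebra; IsAlgebraic E Ψ')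
    (hΨ' : ∀ V' : ValuationSubring E', IsKPlace K V' →
      Ψ' * ((∏ i, pb (mapPt j (σ i)) D ^ ε i) V')⁻¹ ∈ V' ∧
        (∏ i, pb (mapPt j (σ i)) D ^ ε i) V' * Ψ'⁻¹ ∈ V') :
    IsVPt K (∏ i, pb (σ i) D ^ ε i) := by
  letI algEE' : Algebra E E' := j.toRingHom.toAlgebra
  haveI : IsScalarTower K E E' := IsScalarTower.of_algebraMap_eq fun a => (j.commutes a).symm
  refine isVPt_of_kplaces (Ω := E') (isGenDiv_prod_pb σ ε hD) Ψ' hΨ'0 halg fun O hO => ?_
  have h := hΨ' O hO
  have e : (∏ i, pb (mapPt j (σ i)) D ^ ε i) O =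
      algebraMap E E' ((∏ i, pb (σ i) D ^ ε i) (O.comap (algebraMap E E'))) := by
    rw [Finset.prod_apply, Finset.prod_apply, map_prod]
    refine Finset.prod_congr rfl fun i _ => ?_
    rw [Pi.pow_apply, Pi.pow_apply, H69.pb_mapPt j (σ i) D O hO.1, map_zpow₀]
    rfl
  rw [e] at h
  exact uIn_iff_mul.2 h

/-- **DESC, algebraic form** (shape of `Stmt_DESC`, with `E' / E` algebraic instead of
finite). -/
theorem desc_algebraic [IsAlgClosed K] [IsProper f] [IsIntegral A] (j : E →ₐ[K] E')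
    (halg : letI : Algebra E E' := j.toRingHom.toAlgebra; Algebra.IsAlgebraic E E')
    {ι : Type} [Fintype ι] (σ : ι → Pt f E) (ε : ι → ℤ)
    {D : A → A.functionField} (hD : IsCartier D)
    (h : IsVP K (∏ i, pb (mapPt j (σ i)) D ^ ε i)) :
    IsVPt K (∏ i, pb (σ i) D ^ ε i) := by
  obtain ⟨Ψ', hΨ'0, hΨ'⟩ := h
  letI algEE' : Algebra E E' := j.toRingHom.toAlgebra
  haveI : Algebra.IsAlgebraic E E' := halg
  exact desc_algebraic_of_isAlgebraic j σ ε hD Ψ' hΨ'0 (Algebra.IsAlgebraic.isAlgebraic Ψ')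
    fun V' hV' => hΨ' V' hV'.1

end DescAlg

end Fermat.Agent.S26.C.X.H95
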