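import Mathlib
import Fermat.Agent.S26.C.X.Defs
import Fermat.Agent.S26.C.X.H69_PullAt
import Fermat.Agent.S26.C.X.H69_Desc
import Fermat.Agent.S26.C.X.H69_FinSuppPlace
import Fermat.Agent.S26.C.X.H95_KplDesc

/-!
# S26 (C), cube side, PRIG scheme fact FIN-j (helper95)

`E / K` a field, `FΩ / Ω` a function field with principal divisors, `K → Ω → FΩ`,
`j : E → FΩ` a `K`-homomorphism.  For a valuative divisor `Λ` on `E` which is built from `pb σ D`
(`σ ∈ A(E)`, `D` Cartier) by products, quotients and powers, the valuative divisor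
`W ↦ j (Λ (W ∩ E))` on `FΩ` is a unit at almost all places of `FΩ / Ω`:

  `FinSuppP Ω (fun W => j (Λ (W.comap j)))`.

(`pb (mapPt j σ) D W = j (pb σ D (W.comap j))`, `H69.pb_mapPt`, and `H69.finSuppP_pb` on `FΩ`.)

* `cm j Λ` : the valuative divisor `W ↦ j (Λ (W.comap j))`, with `cm_mul`, `cm_inv`, `cm_div`,
  `cm_pow`, `cm_zpow`, `cm_one`;
* `finSuppP_cm_pb`, `finSuppP_cm_thetaV`, `finSuppP_cm_thetaRatio` : **FIN-j** for
  `Λ_E = thetaV L x₁ x₂ x₃ D / thetaV L y₁ y₂ y₃ D` (the divisor of `Stmt_PRIG`);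
* `finSuppP_thetaRatio_ringHom` : the same for a ring homomorphism `j : E →+* FΩ` with
  `j ∘ (K → E) = (K → FΩ)`, in the literal shape `fun W => j (Λ_E (W.comap j))`;
* `isGenDiv_cm`, `isGenDiv_thetaRatio_ringHom` : (ne) + (gen) pass from `Λ` to
  `W ↦ j (Λ (W.comap j))` (the field `gd` of `H6.CCCData`).
-/

set_option autoImplicit false
set_option linter.style.haveILetI false
set_option linter.unusedSectionVars false

open CategoryTheory CategoryTheory.Limits AlgebraicGeometry IsLocalRing NeronModelInfra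
  GoodReductionJacobian AlgebraicCurve

universe u

namespace Fermat.Agent.S26.C.X.H95

open Fermat.Agent.S26.C.X.H69 (UIn FinSuppP)

section Cm

variable {E FΩ : Type*} [Field E] [Field FΩ]

/-- The valuative divisor `W ↦ j (Λ (W ∩ E))` on `FΩ`. -/
def cm (j : E →+* FΩ) (Λ : ValuationSubring E → E) : ValuationSubring FΩ → FΩ :=
  fun W => j (Λ (W.comap j))

theorem cm_apply (j : E →+* FΩ) (Λ : ValuationSubring E → E) (W : ValuationSubring FΩ) :
    cm j Λ W = j (Λ (W.comap j)) := rfl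

theorem cm_one (j : E →+* FΩ) : cm j (1 : ValuationSubring E → E) = 1 := by
  funext W
  simp only [cm, Pi.one_apply, map_one]

theorem cm_mul (j : E →+* FΩ) (Λ₁ Λ₂ : ValuationSubring E → E) :
    cm j (Λ₁ * Λ₂) = cm j Λ₁ * cm j Λ₂ := by
  funext W
  simp only [cm, Pi.mul_apply, map_mul]

theorem cm_inv (j : E →+* FΩ) (Λ : ValuationSubring E → E) : cm j Λ⁻¹ = (cm j Λ)⁻¹ := by
  funext W
  simp only [cm, Pi.inv_apply, map_inv₀]

theorem cm_div (j : E →+* FΩ) (Λ₁ Λ₂ : ValuationSubring E → E) :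
    cm j (Λ₁ / Λ₂) = cm j Λ₁ / cm j Λ₂ := by
  funext W
  simp only [cm, Pi.div_apply, map_div₀]

theorem cm_pow (j : E →+* FΩ) (Λ : ValuationSubring E → E) (n : ℕ) :
    cm j (Λ ^ n) = cm j Λ ^ n := by
  funext W
  simp only [cm, Pi.pow_apply, map_pow]

theorem cm_zpow (j : E →+* FΩ) (Λ : ValuationSubring E → E) (n : ℤ) :
    cm j (Λ ^ n) = cm j Λ ^ n := by
  funext W
  simp only [cm, Pi.pow_apply, map_zpow₀]

theorem cm_prod (j : E →+* FΩ) {ι : Type*} (s : Finset ι)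
    (Λ : ι → ValuationSubring E → E) : cm j (∏ i ∈ s, Λ i) = ∏ i ∈ s, cm j (Λ i) := by
  funext W
  simp only [cm, Finset.prod_apply, map_prod]

end Cm

section FinJ

variable {K : Type u} [Field K] {A : Scheme.{u}} {f : A ⟶ Spec (CommRingCat.of K)}
variable [IsIntegral A] [IsProper f]
variable {E : Type u} [Field E] [Algebra K E]
variable {Ω : Type*} [Field Ω] [Algebra K Ω] {FΩ : Type u} [Field FΩ] [Algebra K FΩ]
  [Algebra Ω FΩ] [IsScalarTower K Ω FΩ]

/-- **FIN-j** for one point: `W ↦ j (pb σ D (W ∩ E))` is a unit at almost all places of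
`FΩ / Ω`. -/
theorem finSuppP_cm_pb (hP : HasPrincipalDivisors Ω FΩ) (j : E →ₐ[K] FΩ) (σ : Pt f E)
    {D : A → A.functionField} (hD : IsCartier D) :
    FinSuppP Ω (cm j.toRingHom (pb σ D)) := by
  refine (H69.finSuppP_pb hP (mapPt j σ) hD).subset fun v hv => ?_
  intro hc
  apply hv
  have e := H69.pb_mapPt j σ D v.toValuationSubring (H69.overK_place v)
  rw [e] at hc
  exact hc

/-- **FIN-j** for `∏ pb (σ i) D ^ ε i`. -/
theorem finSuppP_cm_prod_pb (hP : HasPrincipalDivisors Ω FΩ) (j : E →ₐ[K] FΩ) {ι : Type*}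
    [Fintype ι] (σ : ι → Pt f E) (ε : ι → ℤ) {D : A → A.functionField} (hD : IsCartier D) :
    FinSuppP Ω (cm j.toRingHom (∏ i, pb (σ i) D ^ ε i)) := by
  rw [cm_prod]
  refine H69.FinSuppP.prod _ _ fun i _ => ?_
  rw [cm_zpow]
  exact (finSuppP_cm_pb hP j (σ i) hD).zpow (ε i)

/-- **FIN-j** for the theta combination. -/
theorem finSuppP_cm_thetaV (hP : HasPrincipalDivisors Ω FΩ) (j : E →ₐ[K] FΩ)
    (L : RelativeGroupLaw K f) (x₁ x₂ x₃ : Pt f E) {D : A → A.functionField}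
    (hD : IsCartier D) : FinSuppP Ω (cm j.toRingHom (thetaV L x₁ x₂ x₃ D)) := by
  unfold thetaV
  rw [cm_div, cm_mul, cm_mul, cm_mul, cm_mul, cm_mul]
  exact ((((finSuppP_cm_pb hP j _ hD).mul (finSuppP_cm_pb hP j _ hD)).mul
    (finSuppP_cm_pb hP j _ hD)).mul (finSuppP_cm_pb hP j _ hD)).div
      (((finSuppP_cm_pb hP j _ hD).mul (finSuppP_cm_pb hP j _ hD)).mul
        (finSuppP_cm_pb hP j _ hD))

/-- **FIN-j** for the divisor `Λ_E = thetaV … / thetaV …` of `Stmt_PRIG`. -/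
theorem finSuppP_cm_thetaRatio (hP : HasPrincipalDivisors Ω FΩ) (j : E →ₐ[K] FΩ)
    (L : RelativeGroupLaw K f) (x₁ x₂ x₃ y₁ y₂ y₃ : Pt f E) {D : A → A.functionField}
    (hD : IsCartier D) :
    FinSuppP Ω (cm j.toRingHom (thetaV L x₁ x₂ x₃ D / thetaV L y₁ y₂ y₃ D)) := by
  rw [cm_div]
  exact (finSuppP_cm_thetaV hP j L x₁ x₂ x₃ hD).div (finSuppP_cm_thetaV hP j L y₁ y₂ y₃ hD)

/-- **FIN-j**, literal shape, `j` a `K`-algebra homomorphism. -/
theorem finSuppP_thetaRatio_algHom (hP : HasPrincipalDivisors Ω FΩ) (j : E →ₐ[K] FΩ)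
    (L : RelativeGroupLaw K f) (x₁ x₂ x₃ y₁ y₂ y₃ : Pt f E) {D : A → A.functionField}
    (hD : IsCartier D) :
    FinSuppP Ω (fun W : ValuationSubring FΩ =>
      j ((thetaV L x₁ x₂ x₃ D / thetaV L y₁ y₂ y₃ D) (W.comap (j : E →+* FΩ)))) :=
  finSuppP_cm_thetaRatio hP j L x₁ x₂ x₃ y₁ y₂ y₃ hD

/-- **FIN-j**, literal shape, `j` a ring homomorphism compatible with the constants `K`. -/
theorem finSuppP_thetaRatio_ringHom (hP : HasPrincipalDivisors Ω FΩ) (j : E →+* FΩ)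
    (hj : ∀ a : K, j (algebraMap K E a) = algebraMap K FΩ a)
    (L : RelativeGroupLaw K f) (x₁ x₂ x₃ y₁ y₂ y₃ : Pt f E) {D : A → A.functionField}
    (hD : IsCartier D) :
    FinSuppP Ω (fun W : ValuationSubring FΩ =>
      j ((thetaV L x₁ x₂ x₃ D / thetaV L y₁ y₂ y₃ D) (W.comap j))) :=
  finSuppP_cm_thetaRatio hP ({ j with commutes' := hj } : E →ₐ[K] FΩ) L x₁ x₂ x₃ y₁ y₂ y₃ hD

/-- **FIN-j** for a general valuative divisor `∏ pb (σ i) D ^ ε i`, `j` a ring homomorphism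
compatible with `K`. -/
theorem finSuppP_prod_pb_ringHom (hP : HasPrincipalDivisors Ω FΩ) (j : E →+* FΩ)
    (hj : ∀ a : K, j (algebraMap K E a) = algebraMap K FΩ a) {ι : Type*}
    [Fintype ι] (σ : ι → Pt f E) (ε : ι → ℤ) {D : A → A.functionField} (hD : IsCartier D) :
    FinSuppP Ω (fun W : ValuationSubring FΩ => j ((∏ i, pb (σ i) D ^ ε i) (W.comap j))) :=
  finSuppP_cm_prod_pb hP ({ j with commutes' := hj } : E →ₐ[K] FΩ) σ ε hD

end FinJ

section GenJ

variable {K : Type u} [Field K] {E : Type u} [Field E] [Algebra K E]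
variable {FΩ : Type u} [Field FΩ] [Algebra K FΩ]

/-- the trace on `E` of a valuation ring of `FΩ` containing `K` contains `K` -/
theorem overK_comap_ringHom (j : E →+* FΩ)
    (hj : ∀ a : K, j (algebraMap K E a) = algebraMap K FΩ a) (W : ValuationSubring FΩ)
    (hW : OverK K W) : OverK K (W.comap j) := by
  intro a
  rw [ValuationSubring.mem_comap, hj]
  exact hW a

/-- (ne) + (gen) pass from `Λ` to `W ↦ j (Λ (W ∩ E))`. -/
theorem isGenDiv_cm (j : E →+* FΩ) (hj : ∀ a : K, j (algebraMap K E a) = algebraMap K FΩ a)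
    {Λ : ValuationSubring E → E} (hΛ : IsGenDiv K Λ) : IsGenDiv K (cm j Λ) := by
  refine ⟨fun W hW => ?_, fun V W hV hVW => ?_⟩
  · rw [cm_apply]
    exact (map_ne_zero j).2 (hΛ.1 _ (overK_comap_ringHom j hj W hW))
  · have hle : V.comap j ≤ W.comap j := fun x hx =>
      ValuationSubring.mem_comap.2 (hVW (ValuationSubring.mem_comap.1 hx))
    have h := H69.UIn.map j W (hΛ.2 (V.comap j) (W.comap j) (overK_comap_ringHom j hj V hV) hle)
    rw [map_div₀] at h
    exact h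

end GenJ

section GenTheta

variable {K : Type u} [Field K] {A : Scheme.{u}} {f : A ⟶ Spec (CommRingCat.of K)}
variable [IsIntegral A] [IsProper f]
variable {E : Type u} [Field E] [Algebra K E] {FΩ : Type u} [Field FΩ] [Algebra K FΩ]

/-- the field `gd` of `H6.CCCData` for `Λ = fun W => j (Λ_E (W.comap j))`. -/
theorem isGenDiv_thetaRatio_ringHom (j : E →+* FΩ)
    (hj : ∀ a : K, j (algebraMap K E a) = algebraMap K FΩ a)
    (L : RelativeGroupLaw K f) (x₁ x₂ x₃ y₁ y₂ y₃ : Pt f E) {D : A → A.functionField}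
    (hD : IsCartier D) :
    IsGenDiv K (fun W : ValuationSubring FΩ =>
      j ((thetaV L x₁ x₂ x₃ D / thetaV L y₁ y₂ y₃ D) (W.comap j))) :=
  isGenDiv_cm j hj ((isGenDiv_thetaV L x₁ x₂ x₃ hD).div (isGenDiv_thetaV L y₁ y₂ y₃ hD))

end GenTheta

end Fermat.Agent.S26.C.X.H95
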