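import Mathlib
import Fermat.Agent.S26.C.X.Defs
import Fermat.Agent.S26.C.X.H8_Cube3
import Fermat.Agent.S26.C.X.H6_CCCInst

/-!
# S26 (C), cube side, PRIG TOP: the POINT IDENTITIES (cut PI, helper95)

`j : E →ₐ[K] FΩ` the diagonal homomorphism of PRIG (`Ω = AlgebraicClosure E`, `FΩ` the base change
of the function field `F₀ ⊆ E` of the curve to `Ω`).

* `mapPt_incPt_eq_ptF` (a): if `j` restricted to `F₀` is the structure map `F₀ → FΩ`, then a point
  `x ∈ A(F₀)`, seen in `A(E)` and pushed along `j`, is `H6.ptF FΩ x`.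
* `mapPt_incPt_eq_ptΩ` (b): if `j` restricted to `M ⊆ E` is `M ⊆ E → Ω → FΩ`, then a point
  `b ∈ A(M)`, seen in `A(E)` and pushed along `j`, is `H6.ptΩ FΩ` of its image in `A(Ω)`.
* ring-homomorphism forms (`_of_ringHom`) for a `j` given as `E →+* FΩ` commuting with `K`.
-/

set_option autoImplicit false
set_option linter.style.haveILetI false
set_option linter.unusedSectionVars false

open CategoryTheory CategoryTheory.Limits AlgebraicGeometry IsLocalRing NeronModelInfra
  GoodReductionJacobian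

universe u

namespace Fermat.Agent.S26.C.X.H95

section PointId

variable {K : Type u} [Field K] {A : Scheme.{u}} {f : A ⟶ Spec (CommRingCat.of K)}
variable {E : Type u} [Field E] [Algebra K E]

/-- two homomorphisms that agree on a subfield give the same point -/
theorem mapPt_congr {E' : Type u} [Field E'] [Algebra K E'] {j j' : E →ₐ[K] E'} (h : j = j')
    (σ : Pt f E) : mapPt j σ = mapPt j' σ := by
  rw [h]

/-- **(PI) (a)**: the point of the curve. -/
theorem mapPt_incPt_eq_ptF {FΩ : Type u} [Field FΩ] [Algebra K FΩ]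
    (F₀ : IntermediateField K E) [Algebra F₀ FΩ] [IsScalarTower K F₀ FΩ]
    (j : E →ₐ[K] FΩ) (hjF : ∀ y : F₀, j (y : E) = algebraMap F₀ FΩ y) (x : Pt f F₀) :
    mapPt j (incPt x) = H6.ptF FΩ x := by
  unfold incPt H6.ptF
  rw [H8.mapPt_mapPt]
  refine mapPt_congr (AlgHom.ext fun y => ?_) x
  exact hjF y

/-- **(PI) (b)**: a point of the parameter space. -/
theorem mapPt_incPt_eq_ptΩ {Ω FΩ : Type u} [Field Ω] [Field FΩ] [Algebra K Ω] [Algebra E Ω]
    [IsScalarTower K E Ω] [Algebra Ω FΩ] [Algebra K FΩ] [IsScalarTower K Ω FΩ]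
    (M : IntermediateField K E) (j : E →ₐ[K] FΩ)
    (hjM : ∀ y : M, j (y : E) = algebraMap Ω FΩ (algebraMap E Ω y)) (b : Pt f M) :
    mapPt j (incPt b) = H6.ptΩ FΩ (mapPt (IsScalarTower.toAlgHom K E Ω) (incPt b)) := by
  unfold incPt H6.ptΩ
  rw [H8.mapPt_mapPt, H8.mapPt_mapPt, H8.mapPt_mapPt]
  refine mapPt_congr (AlgHom.ext fun y => ?_) b
  exact hjM y

/-- (b), for a point of `A(E)` that comes from `A(M)`. -/
theorem mapPt_eq_ptΩ_of_incPt {Ω FΩ : Type u} [Field Ω] [Field FΩ] [Algebra K Ω] [Algebra E Ω]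
    [IsScalarTower K E Ω] [Algebra Ω FΩ] [Algebra K FΩ] [IsScalarTower K Ω FΩ]
    (M : IntermediateField K E) (j : E →ₐ[K] FΩ)
    (hjM : ∀ y : M, j (y : E) = algebraMap Ω FΩ (algebraMap E Ω y)) (b : Pt f M)
    (bE : Pt f E) (hb : bE = incPt b) :
    mapPt j bE = H6.ptΩ FΩ (mapPt (IsScalarTower.toAlgHom K E Ω) bE) := by
  subst hb
  exact mapPt_incPt_eq_ptΩ M j hjM b

/-- (b), when `j` is `E → Ω → FΩ` on the whole of a subfield containing the point: product form
for the group law (the point `ptΩ` of a product is the product). -/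
theorem ptΩ_mul {Ω FΩ : Type u} [Field Ω] [Field FΩ] [Algebra K Ω] [Algebra Ω FΩ] [Algebra K FΩ]
    [IsScalarTower K Ω FΩ] (L : RelativeGroupLaw K f) (b c : Pt f Ω) :
    H6.ptΩ FΩ (L.mul (str K Ω) b c) = L.mul (str K FΩ) (H6.ptΩ FΩ b) (H6.ptΩ FΩ c) := by
  unfold H6.ptΩ
  exact H8.mapPt_mul L _ b c

/-- the point `ptF` of a product is the product -/
theorem ptF_mul {F FΩ : Type u} [Field F] [Field FΩ] [Algebra K F] [Algebra F FΩ] [Algebra K FΩ]
    [IsScalarTower K F FΩ] (L : RelativeGroupLaw K f) (x y : Pt f F) :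
    H6.ptF FΩ (L.mul (str K F) x y) = L.mul (str K FΩ) (H6.ptF FΩ x) (H6.ptF FΩ y) := by
  unfold H6.ptF
  exact H8.mapPt_mul L _ x y

/-- the `K`-algebra homomorphism of a ring homomorphism that commutes with `K` -/
def algHomOfRingHom {E' : Type u} [Field E'] [Algebra K E'] (j : E →+* E')
    (hK : ∀ a : K, j (algebraMap K E a) = algebraMap K E' a) : E →ₐ[K] E' :=
  { j with commutes' := hK }

@[simp]
theorem algHomOfRingHom_apply {E' : Type u} [Field E'] [Algebra K E'] (j : E →+* E')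
    (hK : ∀ a : K, j (algebraMap K E a) = algebraMap K E' a) (y : E) :
    algHomOfRingHom j hK y = j y := rfl

@[simp]
theorem algHomOfRingHom_toRingHom {E' : Type u} [Field E'] [Algebra K E'] (j : E →+* E')
    (hK : ∀ a : K, j (algebraMap K E a) = algebraMap K E' a) :
    (algHomOfRingHom j hK).toRingHom = j := rfl

/-- a ring homomorphism `E → FΩ` that is the structure map on a subfield `F₀ ⊇ K` commutes
with `K` -/
theorem commutes_of_restrict {FΩ : Type u} [Field FΩ] [Algebra K FΩ]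
    (F₀ : IntermediateField K E) [Algebra F₀ FΩ] [IsScalarTower K F₀ FΩ]
    (j : E →+* FΩ) (hjF : ∀ y : F₀, j (y : E) = algebraMap F₀ FΩ y) (a : K) :
    j (algebraMap K E a) = algebraMap K FΩ a := by
  have h := hjF (algebraMap K F₀ a)
  rw [← IsScalarTower.algebraMap_apply K F₀ FΩ] at h
  rw [← h]
  rfl

/-- **(JA)-form**: from a ring homomorphism `j : E →+* FΩ` which is the structure map on `F₀`,
the `K`-algebra homomorphism with the same underlying map. -/
def algHomOfRestrict {FΩ : Type u} [Field FΩ] [Algebra K FΩ]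
    (F₀ : IntermediateField K E) [Algebra F₀ FΩ] [IsScalarTower K F₀ FΩ]
    (j : E →+* FΩ) (hjF : ∀ y : F₀, j (y : E) = algebraMap F₀ FΩ y) : E →ₐ[K] FΩ :=
  algHomOfRingHom j (commutes_of_restrict F₀ j hjF)

@[simp]
theorem algHomOfRestrict_apply {FΩ : Type u} [Field FΩ] [Algebra K FΩ]
    (F₀ : IntermediateField K E) [Algebra F₀ FΩ] [IsScalarTower K F₀ FΩ]
    (j : E →+* FΩ) (hjF : ∀ y : F₀, j (y : E) = algebraMap F₀ FΩ y) (y : E) :
    algHomOfRestrict F₀ j hjF y = j y := rfl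

@[simp]
theorem algHomOfRestrict_toRingHom {FΩ : Type u} [Field FΩ] [Algebra K FΩ]
    (F₀ : IntermediateField K E) [Algebra F₀ FΩ] [IsScalarTower K F₀ FΩ]
    (j : E →+* FΩ) (hjF : ∀ y : F₀, j (y : E) = algebraMap F₀ FΩ y) :
    (algHomOfRestrict F₀ j hjF).toRingHom = j := rfl

end PointId

end Fermat.Agent.S26.C.X.H95
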